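import Fermat.Agent.S16.ThetaQexp

/-!
# S16 (Θ1): holomorphy of `θ_q` on the upper half plane
-/

set_option autoImplicit false
set_option linter.unusedSectionVars false
set_option linter.unusedVariables false

namespace Fermat.Agent.S16.Theta

open Complex Real

variable {q : ℕ}

lemma norm_thetaQ_term (z : ℂ) (n : ℤ) :
    ‖cexp (2 * π * I * z * (n : ℂ))‖ = Real.exp (-2 * π * z.im * n) := by
  rw [Complex.norm_exp]
  congr 1
  have : (2 * (π : ℂ) * I * z * (n : ℂ)) = ((2 * π * n : ℝ) : ℂ) * (I * z) := by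
    push_cast; ring
  rw [this, Complex.re_ofReal_mul]
  simp only [Complex.mul_re, Complex.I_re, Complex.I_im, zero_mul, one_mul, zero_sub]
  ring

lemma thetaQ_differentiableOn_aux (hq : q % 4 = 3) {δ : ℝ} (hδ : 0 < δ) :
    DifferentiableOn ℂ (thetaQ q) {z | δ < z.im} := by
  have hδ' : 0 < ((δ : ℂ) * I).im := by simpa using hδ
  have hs : Summable fun v : ℤ × ℤ => ‖cexp (2 * π * I * ((δ : ℂ) * I) * (Qf q v : ℂ))‖ :=
    (thetaQ_hasSum' hq hδ').summable.norm
  have hopen : IsOpen {z : ℂ | δ < z.im} := isOpen_lt continuous_const Complex.continuous_im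
  refine differentiableOn_tsum_of_summable_norm hs (fun v => ?_) hopen ?_
  · intro z _
    apply DifferentiableAt.differentiableWithinAt
    fun_prop
  · intro v w hw
    rw [norm_thetaQ_term, norm_thetaQ_term]
    apply Real.exp_le_exp.2
    have h1 : (0 : ℝ) ≤ (Qf q v : ℤ) := by exact_mod_cast Qf_nonneg hq v
    have h2 : ((δ : ℂ) * I).im = δ := by simp
    rw [h2]
    have h3 : δ ≤ w.im := le_of_lt hw
    have hπ := Real.pi_pos
    have : 0 ≤ 2 * π * (w.im - δ) * ((Qf q v : ℤ) : ℝ) :=
      mul_nonneg (mul_nonneg (by positivity) (by linarith)) h1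
    linarith

/-- **(T1a)** `θ_q` is holomorphic on the upper half plane -/
theorem thetaQ_differentiableOn (hq : q % 4 = 3) :
    DifferentiableOn ℂ (thetaQ q) {z | 0 < z.im} := by
  intro z hz
  have hz' : 0 < z.im := hz
  have h := thetaQ_differentiableOn_aux hq (half_pos hz')
  have hopen : IsOpen {w : ℂ | z.im / 2 < w.im} := isOpen_lt continuous_const Complex.continuous_im
  have hmem : z ∈ {w : ℂ | z.im / 2 < w.im} := by
    show z.im / 2 < z.im
    linarith
  exact (h.differentiableAt (hopen.mem_nhds hmem)).differentiableWithinAt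

end Fermat.Agent.S16.Theta
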