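import Mathlib

/-!
# S16 (Θ1): quadratic Gauss sums over `ZMod d`, `d` an odd prime
-/

set_option autoImplicit false
set_option linter.unusedSectionVars false
set_option linter.unusedVariables false

namespace Fermat.Agent.S16.Theta

open Complex

section Gauss

variable {d : ℕ} [Fact d.Prime]

/-- the quadratic character of `ZMod d` with complex values -/
noncomputable def chiC (d : ℕ) [Fact d.Prime] : MulChar (ZMod d) ℂ :=
  (quadraticChar (ZMod d)).ringHomComp (Int.castRingHom ℂ)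

/-- the standard additive character of `ZMod d` -/
noncomputable def psiC (d : ℕ) [Fact d.Prime] : AddChar (ZMod d) ℂ := ZMod.stdAddChar (N := d)

/-- the quadratic Gauss sum -/
noncomputable def gS (d : ℕ) [Fact d.Prime] : ℂ := gaussSum (chiC d) (psiC d)

lemma chiC_apply (a : ZMod d) : chiC d a = ((quadraticChar (ZMod d) a : ℤ) : ℂ) := rfl

lemma ringChar_ne_two (hd : d ≠ 2) : ringChar (ZMod d) ≠ 2 := by
  rw [ZMod.ringChar_zmod_n]; exact hd

lemma chiC_sq (hd : d ≠ 2) {a : ZMod d} (ha : a ≠ 0) : chiC d a * chiC d a = 1 := by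
  rw [chiC_apply, ← Int.cast_mul, ← sq, quadraticChar_sq_one ha, Int.cast_one]

lemma chiC_of_sq {a : ZMod d} (ha : a ≠ 0) : chiC d (a ^ 2) = 1 := by
  rw [chiC_apply, quadraticChar_sq_one' ha, Int.cast_one]

lemma chiC_mul (a b : ZMod d) : chiC d (a * b) = chiC d a * chiC d b := map_mul _ _ _

lemma psiC_isPrimitive : (psiC d).IsPrimitive := ZMod.isPrimitive_stdAddChar d

lemma gS_sq (hd : d ≠ 2) : gS d ^ 2 = chiC d (-1) * d := by
  have h1 : chiC d ≠ 1 :=
    (MulChar.ringHomComp_ne_one_iff (Int.cast_injective (α := ℂ))).2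
      (quadraticChar_ne_one (ringChar_ne_two hd))
  have h2 : (chiC d).IsQuadratic := (quadraticChar_isQuadratic (ZMod d)).comp _
  have := gaussSum_sq h1 h2 (psiC_isPrimitive (d := d))
  rw [ZMod.card] at this
  exact this

/-- sums of a function of `x²` -/
lemma sum_sq (hd : d ≠ 2) (f : ZMod d → ℂ) :
    ∑ x : ZMod d, f (x ^ 2) = ∑ t : ZMod d, (chiC d t + 1) * f t := by
  rw [← Finset.sum_fiberwise (Finset.univ) (fun x : ZMod d => x ^ 2) (fun x => f (x ^ 2))]
  refine Finset.sum_congr rfl fun t _ => ?_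
  have h1 : ∀ x ∈ Finset.univ.filter (fun x : ZMod d => x ^ 2 = t), f (x ^ 2) = f t := by
    intro x hx
    rw [(Finset.mem_filter.1 hx).2]
  rw [Finset.sum_congr rfl h1, Finset.sum_const, nsmul_eq_mul]
  congr 1
  have h2 := quadraticChar_card_sqrts (ringChar_ne_two hd) t
  have h3 : ({x : ZMod d | x ^ 2 = t} : Set (ZMod d)).toFinset =
      Finset.univ.filter (fun x : ZMod d => x ^ 2 = t) := by
    ext x; simp
  rw [h3] at h2
  rw [chiC_apply]
  have := congrArg (Int.cast (R := ℂ)) h2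
  push_cast at this
  exact this

/-- the pure quadratic sum -/
lemma sum_psi_sq (hd : d ≠ 2) {α : ZMod d} (hα : α ≠ 0) :
    ∑ x : ZMod d, psiC d (α * x ^ 2) = chiC d α * gS d := by
  rw [sum_sq hd (fun t => psiC d (α * t))]
  have h0 : ∑ t : ZMod d, psiC d (α * t) = 0 := by
    have := AddChar.sum_mulShift (ψ := psiC d) α psiC_isPrimitive
    rw [if_neg hα] at this
    simp only [Nat.cast_zero] at this
    rw [← this]
    exact Finset.sum_congr rfl fun t _ => by rw [mul_comm]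
  have h1 : ∑ t : ZMod d, chiC d t * psiC d (α * t) = chiC d α * gS d := by
    have hu : IsUnit α := isUnit_iff_ne_zero.2 hα
    obtain ⟨u, rfl⟩ := hu
    have := gaussSum_mulShift (chiC d) (psiC d) u
    have hs : chiC d (u : ZMod d) * chiC d (u : ZMod d) = 1 := chiC_sq hd hα
    unfold gS
    rw [← this, ← mul_assoc, hs, one_mul]
    rfl
  calc ∑ t : ZMod d, (chiC d t + 1) * psiC d (α * t)
      = ∑ t : ZMod d, chiC d t * psiC d (α * t) + ∑ t : ZMod d, psiC d (α * t) := by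
        rw [← Finset.sum_add_distrib]
        exact Finset.sum_congr rfl fun t _ => by ring
    _ = chiC d α * gS d := by rw [h0, h1, add_zero]

/-- the quadratic sum with a linear term -/
lemma sum_psi_quad (hd : d ≠ 2) {α : ZMod d} (hα : α ≠ 0) (β γ : ZMod d) :
    ∑ x : ZMod d, psiC d (α * x ^ 2 + β * x + γ) =
      psiC d (γ - β ^ 2 / (4 * α)) * (chiC d α * gS d) := by
  have h2 : (2 : ZMod d) ≠ 0 := by
    intro h
    have : ((2 : ℕ) : ZMod d) = 0 := by exact_mod_cast h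
    rw [ZMod.natCast_eq_zero_iff] at this
    have hp := (Fact.out : d.Prime)
    have := (Nat.prime_dvd_prime_iff_eq hp Nat.prime_two).1 this
    exact hd this
  have h4 : (4 : ZMod d) ≠ 0 := by
    have : (4 : ZMod d) = 2 * 2 := by norm_num
    rw [this]; exact mul_ne_zero h2 h2
  rw [← sum_psi_sq hd hα, Finset.mul_sum]
  refine Fintype.sum_equiv (Equiv.addRight (β / (2 * α))) _ _ fun x => ?_
  rw [← AddChar.map_add_eq_mul]
  congr 1
  simp only [Equiv.coe_addRight]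
  field_simp
  ring

/-- **the two-dimensional Gauss sum** -/
theorem gauss2 (hd : d ≠ 2) (κ b : ZMod d) (hb : b ≠ 0) (hq : 4 * κ - 1 ≠ 0) (m₁ m₂ : ZMod d) :
    ∑ g : ZMod d × ZMod d,
        psiC d (b * (g.1 ^ 2 + g.1 * g.2 + κ * g.2 ^ 2) + (m₁ * g.1 + m₂ * g.2)) =
      chiC d (-(4 * κ - 1)) * d *
        psiC d (-(b⁻¹ * (4 * κ - 1)⁻¹ * (κ * m₁ ^ 2 - m₁ * m₂ + m₂ ^ 2))) := by
  have h2 : (2 : ZMod d) ≠ 0 := by
    intro h
    have : ((2 : ℕ) : ZMod d) = 0 := by exact_mod_cast h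
    rw [ZMod.natCast_eq_zero_iff] at this
    have hp := (Fact.out : d.Prime)
    have := (Nat.prime_dvd_prime_iff_eq hp Nat.prime_two).1 this
    exact hd this
  have h4 : (4 : ZMod d) ≠ 0 := by
    have : (4 : ZMod d) = 2 * 2 := by norm_num
    rw [this]; exact mul_ne_zero h2 h2
  have hα' : b * (4 * κ - 1) / 4 ≠ 0 := div_ne_zero (mul_ne_zero hb hq) h4
  rw [Fintype.sum_prod_type_right]
  -- inner sum over `g.1`
  have inner : ∀ y : ZMod d,
      ∑ x : ZMod d, psiC d (b * (x ^ 2 + x * y + κ * y ^ 2) + (m₁ * x + m₂ * y)) =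
        psiC d ((b * (4 * κ - 1) / 4) * y ^ 2 + (m₂ - m₁ / 2) * y + (-(m₁ ^ 2 / (4 * b)))) *
          (chiC d b * gS d) := by
    intro y
    have e : ∀ x : ZMod d, b * (x ^ 2 + x * y + κ * y ^ 2) + (m₁ * x + m₂ * y) =
        b * x ^ 2 + (b * y + m₁) * x + (b * κ * y ^ 2 + m₂ * y) := fun x => by ring
    rw [Finset.sum_congr rfl fun x _ => by rw [e x], sum_psi_quad hd hb]
    congr 2
    field_simp
    ring
  rw [Finset.sum_congr rfl fun y _ => inner y, ← Finset.sum_mul, sum_psi_quad hd hα']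
  have hχ : chiC d (b * (4 * κ - 1) / 4) * chiC d b = chiC d (4 * κ - 1) := by
    have e4 : (4 : ZMod d) = 2 ^ 2 := by norm_num
    have : b * (4 * κ - 1) / 4 = (b * (4 * κ - 1)) * ((2 : ZMod d)⁻¹) ^ 2 := by
      rw [e4]; field_simp
    rw [this, chiC_mul, chiC_mul, chiC_of_sq (inv_ne_zero h2), mul_one]
    calc chiC d b * chiC d (4 * κ - 1) * chiC d b
        = (chiC d b * chiC d b) * chiC d (4 * κ - 1) := by ring
      _ = _ := by rw [chiC_sq hd hb, one_mul]
  have hneg : chiC d (-(4 * κ - 1)) = chiC d (-1) * chiC d (4 * κ - 1) := by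
    rw [← chiC_mul]; congr 1; ring
  have hg := gS_sq (d := d) hd
  have hexp : -(m₁ ^ 2 / (4 * b)) - (m₂ - m₁ / 2) ^ 2 / (4 * (b * (4 * κ - 1) / 4)) =
      -(b⁻¹ * (4 * κ - 1)⁻¹ * (κ * m₁ ^ 2 - m₁ * m₂ + m₂ ^ 2)) := by
    field_simp
    ring
  rw [hexp, hneg]
  calc psiC d (-(b⁻¹ * (4 * κ - 1)⁻¹ * (κ * m₁ ^ 2 - m₁ * m₂ + m₂ ^ 2))) *
        (chiC d (b * (4 * κ - 1) / 4) * gS d) * (chiC d b * gS d)
      = (chiC d (b * (4 * κ - 1) / 4) * chiC d b) * (gS d ^ 2) *
          psiC d (-(b⁻¹ * (4 * κ - 1)⁻¹ * (κ * m₁ ^ 2 - m₁ * m₂ + m₂ ^ 2))) := by ring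
    _ = _ := by rw [hχ, hg]; ring

end Gauss

end Fermat.Agent.S16.Theta
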