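import Fermat.Agent.S16.ThetaDefs
import Fermat.Agent.S16.ThetaGauss

/-!
# S16 (Θ1): modularity of `θ_q` on `Γ₀(q)` with character `(·/q)`
-/

set_option autoImplicit false
set_option linter.unusedSectionVars false
set_option linter.unusedVariables false

namespace Fermat.Agent.S16.Theta

open Complex Real

variable {q : ℕ}

/-- the integral dual form `κ x² - xy + y²` -/
def QDf (q : ℕ) (m : ℤ × ℤ) : ℤ := ((q + 1) / 4 : ℕ) * m.1 ^ 2 - m.1 * m.2 + m.2 ^ 2

lemma QDf_cast (hq : q % 4 = 3) (m : ℤ × ℤ) : (QDf q m : ℂ) = QD q (m.1 : ℂ) (m.2 : ℂ) := by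
  unfold QDf QD
  simp only [Int.cast_add, Int.cast_sub, Int.cast_mul, Int.cast_pow, Int.cast_natCast]
  rw [kappa_cast hq]

/-- the form over `ZMod d` -/
def Qz (q d : ℕ) (g : ZMod d × ZMod d) : ZMod d :=
  g.1 ^ 2 + g.1 * g.2 + (((q + 1) / 4 : ℕ) : ZMod d) * g.2 ^ 2

/-- the dual form over `ZMod d` -/
def QDz (q d : ℕ) (g : ZMod d × ZMod d) : ZMod d :=
  (((q + 1) / 4 : ℕ) : ZMod d) * g.1 ^ 2 - g.1 * g.2 + g.2 ^ 2

lemma Qf_zmod (d : ℕ) (v : ℤ × ℤ) :
    ((Qf q v : ℤ) : ZMod d) = Qz q d ((v.1 : ZMod d), (v.2 : ZMod d)) := by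
  unfold Qf Qz
  simp only [Int.cast_add, Int.cast_mul, Int.cast_pow, Int.cast_natCast]

lemma QDf_zmod (d : ℕ) (v : ℤ × ℤ) :
    ((QDf q v : ℤ) : ZMod d) = QDz q d ((v.1 : ZMod d), (v.2 : ZMod d)) := by
  unfold QDf QDz
  simp only [Int.cast_add, Int.cast_sub, Int.cast_mul, Int.cast_pow, Int.cast_natCast]

lemma ee_div (d : ℕ) [Fact d.Prime] (j : ℤ) : ee ((j : ℂ) / d) = psiC d (j : ZMod d) := by
  unfold ee psiC
  rw [ZMod.stdAddChar_coe]
  congr 1
  ring

lemma four_kappa (hq : q % 4 = 3) (d : ℕ) :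
    4 * (((q + 1) / 4 : ℕ) : ZMod d) - 1 = (q : ZMod d) := by
  have h : 4 * ((q + 1) / 4) = q + 1 := by omega
  have h' : (4 : ZMod d) * (((q + 1) / 4 : ℕ) : ZMod d) = (q : ZMod d) + 1 := by
    have := congrArg (Nat.cast (R := ZMod d)) h
    push_cast at this
    exact this
  rw [h']; ring

section prime

variable (d : ℕ) [Fact d.Prime]

lemma d_ne_zero : (d : ℂ) ≠ 0 := by
  have := (Fact.out : d.Prime).pos
  exact_mod_cast this.ne'

lemma residue_term (hq : q % 4 = 3) (b : ℤ) (W : ℂ) (g : ZMod d × ZMod d) (h : ℤ × ℤ) :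
    cexp (2 * π * I * ((b : ℂ) / d + W / (d : ℂ) ^ 2) *
        (Qf q ((d : ℤ) * h.1 + (g.1.val : ℤ), (d : ℤ) * h.2 + (g.2.val : ℤ)) : ℂ)) =
      psiC d ((b : ZMod d) * Qz q d g) *
        F2 q W ((g.1.val : ℂ) / d) ((g.2.val : ℂ) / d) h := by
  have hd := d_ne_zero d
  set v : ℤ × ℤ := ((d : ℤ) * h.1 + (g.1.val : ℤ), (d : ℤ) * h.2 + (g.2.val : ℤ)) with hv
  have e1 : psiC d ((b : ZMod d) * Qz q d g) = ee (((b * Qf q v : ℤ) : ℂ) / d) := by
    have hv1 : ((v.1 : ℤ) : ZMod d) = g.1 := int_residue_class g.1 h.1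
    have hv2 : ((v.2 : ℤ) : ZMod d) = g.2 := int_residue_class g.2 h.2
    rw [ee_div, Int.cast_mul, Qf_zmod, hv1, hv2]
  have e2 : F2 q W ((g.1.val : ℂ) / d) ((g.2.val : ℂ) / d) h =
      ee (W / (d : ℂ) ^ 2 * (Qf q v : ℂ)) := by
    unfold F2
    congr 1
    rw [Qf_cast hq]
    unfold QC
    simp only [hv]
    push_cast
    field_simp
  rw [e1, e2, ← ee_add]
  unfold ee
  congr 1
  push_cast
  ring

lemma dual_term (hq : q % 4 = 3) (c' : ℤ) (z : ℂ) (g : ZMod d × ZMod d) (m : ℤ × ℤ) :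
    D2 q (-((c' : ℂ) / d) - 1 / (q * z)) ((g.1.val : ℂ) / d) ((g.2.val : ℂ) / d) m =
      D2 q (-1 / (q * z)) 0 0 m *
        psiC d (-((c' : ZMod d) * QDz q d ((m.1 : ZMod d), (m.2 : ZMod d))) +
          ((m.1 : ZMod d) * g.1 + (m.2 : ZMod d) * g.2)) := by
  have hd := d_ne_zero d
  have e1 : psiC d (-((c' : ZMod d) * QDz q d ((m.1 : ZMod d), (m.2 : ZMod d))) +
        ((m.1 : ZMod d) * g.1 + (m.2 : ZMod d) * g.2)) =
      ee (((-(c' * QDf q m) + (m.1 * (g.1.val : ℤ) + m.2 * (g.2.val : ℤ)) : ℤ) : ℂ) / d) := by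
    rw [ee_div]
    congr 1
    push_cast
    rw [QDf_zmod, ZMod.natCast_zmod_val, ZMod.natCast_zmod_val]
  rw [e1]
  unfold D2
  rw [← ee_add, ← QDf_cast hq]
  congr 1
  push_cast
  field_simp
  ring

/-- the two-dimensional Gauss sum in the form needed below -/
lemma gauss_step (hq : q % 4 = 3) (hd2 : d ≠ 2) (b c' : ℤ)
    (hbc : (b : ZMod d) * (q : ZMod d) * (c' : ZMod d) = -1) (m : ℤ × ℤ) :
    ∑ g : ZMod d × ZMod d, psiC d ((b : ZMod d) * Qz q d g) *
        psiC d (-((c' : ZMod d) * QDz q d ((m.1 : ZMod d), (m.2 : ZMod d))) +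
          ((m.1 : ZMod d) * g.1 + (m.2 : ZMod d) * g.2)) =
      chiC d (-(q : ZMod d)) * d := by
  have hb : (b : ZMod d) ≠ 0 := by
    intro h0; rw [h0, zero_mul, zero_mul] at hbc
    exact absurd hbc.symm (neg_ne_zero.2 one_ne_zero)
  have hq0 : (q : ZMod d) ≠ 0 := by
    intro h0; rw [h0, mul_zero, zero_mul] at hbc
    exact absurd hbc.symm (neg_ne_zero.2 one_ne_zero)
  have hκ := four_kappa hq d
  have hc : (c' : ZMod d) = -((b : ZMod d)⁻¹ * (q : ZMod d)⁻¹) := by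
    field_simp
    linear_combination hbc
  have G := gauss2 hd2 (((q + 1) / 4 : ℕ) : ZMod d) (b : ZMod d) hb (by rw [hκ]; exact hq0)
    (m.1 : ZMod d) (m.2 : ZMod d)
  rw [hκ] at G
  have e : ∀ g : ZMod d × ZMod d, psiC d ((b : ZMod d) * Qz q d g) *
        psiC d (-((c' : ZMod d) * QDz q d ((m.1 : ZMod d), (m.2 : ZMod d))) +
          ((m.1 : ZMod d) * g.1 + (m.2 : ZMod d) * g.2)) =
      psiC d (-((c' : ZMod d) * QDz q d ((m.1 : ZMod d), (m.2 : ZMod d)))) *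
        psiC d ((b : ZMod d) * (g.1 ^ 2 + g.1 * g.2 + (((q + 1) / 4 : ℕ) : ZMod d) * g.2 ^ 2) +
          ((m.1 : ZMod d) * g.1 + (m.2 : ZMod d) * g.2)) := by
    intro g
    rw [← AddChar.map_add_eq_mul, ← AddChar.map_add_eq_mul]
    congr 1
    unfold Qz
    ring
  rw [Finset.sum_congr rfl fun g _ => e g, ← Finset.mul_sum, G]
  have e2 : psiC d (-((c' : ZMod d) * QDz q d ((m.1 : ZMod d), (m.2 : ZMod d)))) *
      psiC d (-((b : ZMod d)⁻¹ * (q : ZMod d)⁻¹ *
        ((((q + 1) / 4 : ℕ) : ZMod d) * (m.1 : ZMod d) ^ 2 - (m.1 : ZMod d) * (m.2 : ZMod d) +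
          (m.2 : ZMod d) ^ 2))) = 1 := by
    rw [← AddChar.map_add_eq_mul, hc]
    unfold QDz
    simp only
    rw [show -(-((b : ZMod d)⁻¹ * (q : ZMod d)⁻¹) *
          ((((q + 1) / 4 : ℕ) : ZMod d) * (m.1 : ZMod d) ^ 2 - (m.1 : ZMod d) * (m.2 : ZMod d) +
            (m.2 : ZMod d) ^ 2)) +
        -((b : ZMod d)⁻¹ * (q : ZMod d)⁻¹ *
          ((((q + 1) / 4 : ℕ) : ZMod d) * (m.1 : ZMod d) ^ 2 - (m.1 : ZMod d) * (m.2 : ZMod d) +
            (m.2 : ZMod d) ^ 2)) = 0 by ring]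
    exact AddChar.map_zero_eq_one _
  calc _ = chiC d (-(q : ZMod d)) * d * (psiC d (-((c' : ZMod d) *
        QDz q d ((m.1 : ZMod d), (m.2 : ZMod d)))) *
      psiC d (-((b : ZMod d)⁻¹ * (q : ZMod d)⁻¹ *
        ((((q + 1) / 4 : ℕ) : ZMod d) * (m.1 : ZMod d) ^ 2 - (m.1 : ZMod d) * (m.2 : ZMod d) +
          (m.2 : ZMod d) ^ 2)))) := by ring
    _ = _ := by rw [e2, mul_one]

/-- the twisted transformation formula -/
theorem theta_twist (hq : q % 4 = 3) (hd2 : d ≠ 2) (b c' : ℤ)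
    (hbc : (b : ZMod d) * (q : ZMod d) * (c' : ZMod d) = -1) {z W : ℂ} (hz : 0 < z.im)
    (hW : 0 < W.im) (hWz : -1 / (q * W) = -((c' : ℂ) / d) - 1 / (q * z)) :
    thetaQ q ((b : ℂ) / d + W / (d : ℂ) ^ 2) =
      chiC d (-(q : ZMod d)) * d * (I / ((√(q : ℝ) : ℂ) * W)) * thetaQ q (-1 / (q * z)) := by
  have hq0 := q_pos hq
  -- residue splitting
  have key1 : HasSum (fun v : ℤ × ℤ =>
      cexp (2 * π * I * ((b : ℂ) / d + W / (d : ℂ) ^ 2) * (Qf q v : ℂ)))
      (∑ g : ZMod d × ZMod d, psiC d ((b : ZMod d) * Qz q d g) *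
        ∑' h, F2 q W ((g.1.val : ℂ) / d) ((g.2.val : ℂ) / d) h) := by
    refine hasSum_int2_residue d fun g => ?_
    have e : (fun a : ℤ × ℤ => cexp (2 * π * I * ((b : ℂ) / d + W / (d : ℂ) ^ 2) *
        (Qf q ((d : ℤ) * a.1 + (g.1.val : ℤ), (d : ℤ) * a.2 + (g.2.val : ℤ)) : ℂ))) =
        fun a => psiC d ((b : ZMod d) * Qz q d g) *
          F2 q W ((g.1.val : ℂ) / d) ((g.2.val : ℂ) / d) a :=
      funext fun a => residue_term d hq b W g a
    rw [e]
    exact (F2_summable hq0 hW _ _).hasSum.mul_left _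
  have h1 : thetaQ q ((b : ℂ) / d + W / (d : ℂ) ^ 2) =
      ∑ g : ZMod d × ZMod d, psiC d ((b : ZMod d) * Qz q d g) *
        ∑' h, F2 q W ((g.1.val : ℂ) / d) ((g.2.val : ℂ) / d) h := key1.tsum_eq
  rw [h1]
  -- inversion in each class
  have h2 : ∀ g : ZMod d × ZMod d,
      psiC d ((b : ZMod d) * Qz q d g) * ∑' h, F2 q W ((g.1.val : ℂ) / d) ((g.2.val : ℂ) / d) h =
      I / ((√(q : ℝ) : ℂ) * W) * ∑' m : ℤ × ℤ, D2 q (-1 / (q * z)) 0 0 m *
        (psiC d ((b : ZMod d) * Qz q d g) *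
          psiC d (-((c' : ZMod d) * QDz q d ((m.1 : ZMod d), (m.2 : ZMod d))) +
            ((m.1 : ZMod d) * g.1 + (m.2 : ZMod d) * g.2))) := by
    intro g
    rw [tsum_F2 hq0 hW, hWz]
    rw [tsum_congr fun m => dual_term d hq c' z g m, mul_left_comm, ← tsum_mul_left]
    congr 1
    refine tsum_congr fun m => ?_
    ring
  rw [Finset.sum_congr rfl fun g _ => h2 g, ← Finset.mul_sum]
  -- swap the finite sum and the series
  have hsum : ∀ g ∈ (Finset.univ : Finset (ZMod d × ZMod d)),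
      Summable fun m : ℤ × ℤ => D2 q (-1 / (q * z)) 0 0 m *
        (psiC d ((b : ZMod d) * Qz q d g) *
          psiC d (-((c' : ZMod d) * QDz q d ((m.1 : ZMod d), (m.2 : ZMod d))) +
            ((m.1 : ZMod d) * g.1 + (m.2 : ZMod d) * g.2))) := by
    intro g _
    have hs : Summable fun m : ℤ × ℤ =>
        D2 q (-((c' : ℂ) / d) - 1 / (q * z)) ((g.1.val : ℂ) / d) ((g.2.val : ℂ) / d) m := by
      rw [← hWz]; exact D2_summable hq0 hW _ _
    have := hs.mul_left (psiC d ((b : ZMod d) * Qz q d g))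
    refine this.congr fun m => ?_
    rw [dual_term d hq c' z g m]
    ring
  rw [← Summable.tsum_finsetSum hsum]
  have h3 : ∀ m : ℤ × ℤ, ∑ g : ZMod d × ZMod d, D2 q (-1 / (q * z)) 0 0 m *
        (psiC d ((b : ZMod d) * Qz q d g) *
          psiC d (-((c' : ZMod d) * QDz q d ((m.1 : ZMod d), (m.2 : ZMod d))) +
            ((m.1 : ZMod d) * g.1 + (m.2 : ZMod d) * g.2))) =
      chiC d (-(q : ZMod d)) * d * D2 q (-1 / (q * z)) 0 0 m := by
    intro m
    rw [← Finset.mul_sum, gauss_step d hq hd2 b c' hbc m]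
    ring
  rw [tsum_congr h3, tsum_mul_left, tsum_D2_zero hq]
  ring

/-- the character value as a Jacobi symbol -/
lemma chiC_neg_q (hq : q % 4 = 3) (hd2 : d ≠ 2) :
    chiC d (-(q : ZMod d)) = (jacobiSym (d : ℤ) q : ℂ) := by
  have hdp := (Fact.out : d.Prime)
  have hdodd : Odd d := hdp.odd_of_ne_two hd2
  have hqodd : Odd q := by
    rw [Nat.odd_iff]; omega
  have e1 : chiC d (-(q : ZMod d)) = ((legendreSym d (-(q : ℤ)) : ℤ) : ℂ) := by
    rw [chiC_apply]
    unfold legendreSym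
    push_cast
    rfl
  rw [e1, jacobiSym.legendreSym.to_jacobiSym, jacobiSym.neg _ hdodd]
  congr 1
  have hd4 : d % 4 = 1 ∨ d % 4 = 3 := by
    have := Nat.odd_iff.1 hdodd
    omega
  rcases hd4 with h1 | h3
  · rw [ZMod.χ₄_nat_one_mod_four h1, one_mul,
      jacobiSym.quadratic_reciprocity_one_mod_four' hqodd h1]
  · rw [ZMod.χ₄_nat_three_mod_four h3, jacobiSym.quadratic_reciprocity_three_mod_four hq h3]
    ring

/-- modularity for a matrix whose lower right entry is an odd prime -/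
theorem thetaQ_modular_prime (hq : q % 4 = 3) (hd2 : d ≠ 2) {a b c : ℤ}
    (hdet : a * (d : ℤ) - b * c = 1) (hc : (q : ℤ) ∣ c) {z : ℂ} (hz : 0 < z.im) :
    thetaQ q (((a : ℂ) * z + b) / ((c : ℂ) * z + d)) =
      (jacobiSym (d : ℤ) q : ℂ) * ((c : ℂ) * z + d) * thetaQ q z := by
  obtain ⟨c', rfl⟩ := hc
  have hcast : (((q : ℤ) * c' : ℤ) : ℂ) = (q : ℂ) * (c' : ℂ) := by push_cast; ring
  rw [hcast]
  have hd := d_ne_zero d
  have hz0 : z ≠ 0 := fun h => by rw [h] at hz; simp at hz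
  have hq0 : (0 : ℝ) < q := by exact_mod_cast q_pos hq
  have hqC : (q : ℂ) ≠ 0 := by exact_mod_cast (q_pos hq).ne'
  have hsq0 : (√(q : ℝ) : ℂ) ≠ 0 := by
    have : √(q : ℝ) ≠ 0 := (Real.sqrt_pos.2 hq0).ne'
    exact_mod_cast this
  have hcz : (q : ℂ) * (c' : ℂ) * z + d ≠ 0 := by
    intro h0
    have him := congrArg Complex.im h0
    have hre := congrArg Complex.re h0
    have e1 : ((q : ℂ) * (c' : ℂ) * z + d).im = ((q : ℝ) * (c' : ℝ)) * z.im := by
      simp [Complex.add_im, Complex.mul_im]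
    have e2 : ((q : ℂ) * (c' : ℂ) * z + d).re = ((q : ℝ) * (c' : ℝ)) * z.re + d := by
      simp [Complex.add_re, Complex.mul_re]
    rw [e1, Complex.zero_im] at him
    rw [e2, Complex.zero_re] at hre
    have hc0 : (q : ℝ) * (c' : ℝ) = 0 := by
      rcases mul_eq_zero.1 him with h | h
      · exact h
      · exact absurd h hz.ne'
    rw [hc0, zero_mul, zero_add] at hre
    have : (d : ℝ) ≠ 0 := by exact_mod_cast (Fact.out : d.Prime).pos.ne'
    exact this hre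
  set D : ℂ := (q : ℂ) * (c' : ℂ) * z + d with hDdef
  set W : ℂ := (d : ℂ) * z / D with hWdef
  have hW0 : W ≠ 0 := div_ne_zero (mul_ne_zero hd hz0) hcz
  have hWinv' : W⁻¹ = D / ((d : ℂ) * z) := by rw [hWdef, inv_div]
  have hWinv : -1 / ((1 : ℝ) * (-1 / ((1 : ℝ) * W))) = W := by
    push_cast
    field_simp
  have hW : 0 < W.im := by
    have h1 : 0 < (-1 / ((1 : ℝ) * z)).im := im_neg_inv hz 1 one_pos
    have h2 : -1 / ((1 : ℝ) * W) = -1 / ((1 : ℝ) * z) - (((q : ℝ) * (c' : ℝ) / (d : ℝ) : ℝ) : ℂ) := by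
      rw [Complex.ofReal_one, one_mul, one_mul, div_eq_mul_inv, hWinv', hDdef]
      push_cast
      field_simp
      ring
    have h3 : 0 < (-1 / ((1 : ℝ) * W)).im := by
      rw [h2, Complex.sub_im, Complex.ofReal_im, sub_zero]
      exact h1
    have := im_neg_inv h3 1 one_pos
    rwa [hWinv] at this
  have hbc : (a * (d : ℤ) - b * ((q : ℤ) * c') : ℤ) = 1 := hdet
  have hbc' : (b : ZMod d) * (q : ZMod d) * (c' : ZMod d) = -1 := by
    have := congrArg (Int.cast (R := ZMod d)) hbc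
    push_cast at this
    rw [ZMod.natCast_self, mul_zero, zero_sub] at this
    linear_combination -this
  have hWz : -1 / (q * W) = -((c' : ℂ) / d) - 1 / (q * z) := by
    rw [div_eq_mul_inv, mul_inv, hWinv', hDdef]
    field_simp
    ring
  have hdetC : (a : ℂ) * d - b * (q * c') = 1 := by exact_mod_cast hbc
  have hγ : ((a : ℂ) * z + b) / D = (b : ℂ) / d + W / (d : ℂ) ^ 2 := by
    rw [hWdef, div_div, div_add_div _ _ hd (mul_ne_zero hcz (pow_ne_zero 2 hd)),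
      div_eq_div_iff hcz (mul_ne_zero hd (mul_ne_zero hcz (pow_ne_zero 2 hd))), hDdef]
    linear_combination ((d : ℂ) ^ 2 * z * ((q : ℂ) * c' * z + d)) * hdetC
  rw [hγ, theta_twist d hq hd2 b c' hbc' hz hW hWz, thetaQ_fricke hq hz, chiC_neg_q d hq hd2]
  have hI : I * I = -1 := Complex.I_mul_I
  have e : I / ((√(q : ℝ) : ℂ) * W) * (-I * (√(q : ℝ) : ℂ) * z) = z / W := by
    field_simp
    linear_combination (-1 : ℂ) * hI
  have e2 : (d : ℂ) * (z / W) = D := by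
    rw [div_eq_mul_inv z W, hWinv']
    field_simp
  calc (jacobiSym (d : ℤ) q : ℂ) * d * (I / ((√(q : ℝ) : ℂ) * W)) *
        (-I * (√(q : ℝ) : ℂ) * z * thetaQ q z)
      = (jacobiSym (d : ℤ) q : ℂ) * ((d : ℂ) * (I / ((√(q : ℝ) : ℂ) * W) *
          (-I * (√(q : ℝ) : ℂ) * z))) * thetaQ q z := by ring
    _ = _ := by rw [e, e2]

end prime

/-- **(T1c)** `θ_q` is modular on `Γ₀(q)` with character `(·/q)`. -/
theorem thetaQ_modular (hq : q.Prime) (hq4 : q % 4 = 3) {a b c d : ℤ}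
    (hdet : a * d - b * c = 1) (hc : (q : ℤ) ∣ c) {z : ℂ} (hz : 0 < z.im) :
    thetaQ q (((a : ℂ) * z + b) / ((c : ℂ) * z + d)) =
      (jacobiSym d q : ℂ) * ((c : ℂ) * z + d) * thetaQ q z := by
  have hqodd : Odd q := by rw [Nat.odd_iff]; omega
  by_cases hc0 : c = 0
  · subst hc0
    rw [mul_zero, sub_zero] at hdet
    rcases Int.eq_one_or_neg_one_of_mul_eq_one' hdet with ⟨rfl, rfl⟩ | ⟨rfl, rfl⟩
    · rw [jacobiSym.one_left]
      simp only [Int.cast_one, Int.cast_zero, one_mul, zero_mul, zero_add, div_one]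
      exact thetaQ_add_int z b
    · rw [jacobiSym.at_neg_one hqodd, ZMod.χ₄_nat_three_mod_four hq4]
      have e : ((((-1 : ℤ) : ℂ)) * z + b) / (((0 : ℤ) : ℂ) * z + ((-1 : ℤ) : ℂ)) = z + ((-b : ℤ) : ℂ) := by
        push_cast
        rw [zero_mul, zero_add, div_neg, div_one]
        ring
      rw [e, thetaQ_add_int]
      push_cast
      ring
  · -- Dirichlet: a prime in the class of `d` modulo `c`
    have hcop : IsCoprime d (c.natAbs : ℤ) := by
      have h1 : IsCoprime d c := ⟨a, -b, by linear_combination hdet⟩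
      rcases Int.natAbs_eq c with h | h
      · rw [← h]; exact h1
      · have : (c.natAbs : ℤ) = -c := by omega
        rw [this]; exact h1.neg_right
    obtain ⟨p, hp2, hpp, hpd⟩ := Nat.forall_exists_prime_gt_and_zmodEq 2
      (Int.natAbs_ne_zero.2 hc0) hcop
    have hdvd : c ∣ (p : ℤ) - d := by
      have h1 : (c.natAbs : ℤ) ∣ d - p := Int.ModEq.dvd hpd
      have h2 : c ∣ d - p := Int.natAbs_dvd.1 h1
      have : (p : ℤ) - d = -(d - p) := by ring
      rw [this]; exact (dvd_neg).2 h2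
    obtain ⟨n, hn⟩ := hdvd
    have hfact : Fact p.Prime := ⟨hpp⟩
    have hdet' : a * (p : ℤ) - (b + a * n) * c = 1 := by
      have : (p : ℤ) = d + c * n := by linarith
      rw [this]; linear_combination hdet
    have hz' : 0 < (z - (n : ℂ)).im := by
      rw [Complex.sub_im, Complex.intCast_im, sub_zero]; exact hz
    have key := thetaQ_modular_prime p hq4 (by omega) hdet' hc hz'
    have hpC : (p : ℂ) = d + c * n := by
      have : (p : ℤ) = d + c * n := by linarith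
      have := congrArg (Int.cast (R := ℂ)) this
      push_cast at this
      exact this
    have e1 : ((a : ℂ) * (z - n) + ((b + a * n : ℤ) : ℂ)) / ((c : ℂ) * (z - n) + p) =
        ((a : ℂ) * z + b) / ((c : ℂ) * z + d) := by
      rw [hpC]
      congr 1
      · push_cast; ring
      · ring
    have e2 : (c : ℂ) * (z - n) + p = (c : ℂ) * z + d := by
      rw [hpC]; ring
    have e3 : thetaQ q (z - n) = thetaQ q z := by
      have := thetaQ_add_int (q := q) z (-n)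
      rw [← this]
      congr 1
      push_cast; ring
    have e4 : jacobiSym (p : ℤ) q = jacobiSym d q := by
      rw [jacobiSym.mod_left (p : ℤ) q, jacobiSym.mod_left d q]
      congr 1
      have hqd : (q : ℤ) ∣ (p : ℤ) - d := by
        rw [hn]; exact Dvd.dvd.mul_right hc n
      exact Int.emod_eq_emod_iff_emod_sub_eq_zero.2 (Int.emod_eq_zero_of_dvd hqd)
    rw [e1, e2, e3, e4] at key
    exact key

end Fermat.Agent.S16.Theta
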