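import Fermat.Agent.S16.ThetaQexp

/-!
# S16 (Θ1, T1d): parity of the representation numbers of `x² + xy + κ y²`

With `u = 2x + y` one has `4 Q(x, y) = u² + q y²`, and the sign changes of `(u, y)` act on the
solutions of `Q = n`.  Counting orbits gives `r(n) ≡ 2 [n = □] + 2 [n = q □] (mod 4)` for `n > 0`.
-/

set_option autoImplicit false

namespace Fermat.Agent.S16.Theta.Parity

open Fermat.Agent.S16.Theta

variable {q : ℕ}

lemma Qf_eq_iff (hq : q % 4 = 3) (v : ℤ × ℤ) (n : ℕ) :
    Qf q v = n ↔ (2 * v.1 + v.2) ^ 2 + q * v.2 ^ 2 = 4 * n := by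
  rw [← four_Qf hq]
  constructor <;> intro h <;> linarith

/-- `Q(-v) = Q(v)` -/
lemma Qf_neg (v : ℤ × ℤ) : Qf q (-v.1, -v.2) = Qf q v := by
  unfold Qf; ring

/-- `Q(-x-y, y) = Q(x, y)` -/
lemma Qf_refl (v : ℤ × ℤ) : Qf q (-v.1 - v.2, v.2) = Qf q v := by
  unfold Qf; ring

/-- The solution set of `Q = n` as a finset. -/
noncomputable def sol (q n : ℕ) : Finset (ℤ × ℤ) :=
  (Finset.Icc (-(2 * n : ℤ)) (2 * n) ×ˢ Finset.Icc (-(2 * n : ℤ)) (2 * n)).filter
    (fun v => Qf q v = n)

lemma sq_le_bound {a : ℤ} {n : ℕ} (h : a ^ 2 ≤ 4 * n) : -(2 * n : ℤ) ≤ a ∧ a ≤ 2 * n := by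
  refine abs_le_of_sq_le_sq' ?_ (by positivity)
  rcases Nat.eq_zero_or_pos n with h0 | h0
  · subst h0; simpa using h
  · have : (1 : ℤ) ≤ n := by exact_mod_cast h0
    nlinarith

lemma mem_sol (hq : q % 4 = 3) {n : ℕ} (v : ℤ × ℤ) : v ∈ sol q n ↔ Qf q v = n := by
  unfold sol
  rw [Finset.mem_filter, Finset.mem_product, Finset.mem_Icc, Finset.mem_Icc]
  refine ⟨fun h => h.2, fun h => ⟨?_, h⟩⟩
  have h4 := (Qf_eq_iff hq v n).1 h
  have hq0 : (0 : ℤ) ≤ q := by positivity
  have hq1 : (1 : ℤ) ≤ q := by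
    have : 1 ≤ q := by omega
    exact_mod_cast this
  have hu : (2 * v.1 + v.2) ^ 2 ≤ 4 * n := by nlinarith [sq_nonneg v.2]
  have hy : v.2 ^ 2 ≤ 4 * n := by nlinarith [sq_nonneg v.2, sq_nonneg (2 * v.1 + v.2)]
  obtain ⟨hu1, hu2⟩ := sq_le_bound hu
  obtain ⟨hy1, hy2⟩ := sq_le_bound hy
  refine ⟨⟨?_, ?_⟩, hy1, hy2⟩ <;> omega

lemma card_eq_card_sol (hq : q % 4 = 3) (n : ℕ) :
    Nat.card {v : ℤ × ℤ // Qf q v = (n : ℤ)} = (sol q n).card :=
  Nat.subtype_card (sol q n) (fun v => mem_sol hq v)

/-- Halving: an involution swapping `P` and `¬ P` on a finset. -/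
lemma card_eq_two_mul_filter {α : Type*} [DecidableEq α] (S : Finset α) (P : α → Prop)
    [DecidablePred P] (f : α → α) (hf : ∀ v ∈ S, f v ∈ S) (hff : ∀ v, f (f v) = v)
    (hP : ∀ v ∈ S, P (f v) ↔ ¬ P v) :
    S.card = 2 * (S.filter P).card := by
  have h1 : (S.filter (fun v => ¬ P v)).card = (S.filter P).card := by
    refine Finset.card_nbij' f f ?_ ?_ ?_ ?_
    · intro v hv
      simp only [Finset.coe_filter, Set.mem_ofPred_eq] at hv ⊢
      exact ⟨hf v hv.1, (hP v hv.1).2 hv.2⟩
    · intro v hv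
      simp only [Finset.coe_filter, Set.mem_ofPred_eq] at hv ⊢
      refine ⟨hf v hv.1, fun h => ?_⟩
      have := (hP v hv.1).1 h
      exact this hv.2
    · intro v _; exact hff v
    · intro v _; exact hff v
  have h2 := Finset.card_filter_add_card_filter_not (s := S) P
  omega

/-- The solutions with `u ≠ 0` and `y ≠ 0`. -/
noncomputable def solC (q n : ℕ) : Finset (ℤ × ℤ) :=
  (sol q n).filter (fun v => v.2 ≠ 0 ∧ 2 * v.1 + v.2 ≠ 0)

lemma four_dvd_card_solC (hq : q % 4 = 3) (n : ℕ) : 4 ∣ (solC q n).card := by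
  classical
  -- first halving: `v ↦ -v`, `P = (0 < y)`
  have h1 := card_eq_two_mul_filter (solC q n) (fun v => 0 < v.2) (fun v => (-v.1, -v.2))
    (by
      intro v hv
      simp only [solC, Finset.mem_filter, mem_sol hq] at hv ⊢
      refine ⟨by rw [Qf_neg]; exact hv.1, ?_, ?_⟩
      · simpa using hv.2.1
      · intro h; apply hv.2.2; linarith)
    (by intro v; simp)
    (by
      intro v hv
      simp only [solC, Finset.mem_filter, mem_sol hq] at hv
      have := hv.2.1
      constructor
      · intro h; simp only at h; omega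
      · intro h; simp only; omega)
  -- second halving: `(x, y) ↦ (-x-y, y)`, `P = (0 < u)`
  have h2 := card_eq_two_mul_filter ((solC q n).filter (fun v => 0 < v.2))
    (fun v => 0 < 2 * v.1 + v.2) (fun v => (-v.1 - v.2, v.2))
    (by
      intro v hv
      simp only [solC, Finset.mem_filter, mem_sol hq] at hv ⊢
      refine ⟨⟨by rw [Qf_refl]; exact hv.1.1, hv.1.2.1, ?_⟩, hv.2⟩
      intro h; apply hv.1.2.2; linarith)
    (by intro v; ext <;> simp)
    (by
      intro v hv
      simp only [solC, Finset.mem_filter, mem_sol hq] at hv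
      have := hv.1.2.2
      constructor
      · intro h; simp only at h; omega
      · intro h; simp only; omega)
  rw [h1, h2]
  exact ⟨_, by ring⟩

/-- The solutions with `y = 0`. -/
noncomputable def solA (q n : ℕ) : Finset (ℤ × ℤ) :=
  (sol q n).filter (fun v => v.2 = 0)

/-- The solutions with `u = 0`. -/
noncomputable def solB (q n : ℕ) : Finset (ℤ × ℤ) :=
  (sol q n).filter (fun v => v.2 ≠ 0 ∧ 2 * v.1 + v.2 = 0)

lemma card_sol_eq (n : ℕ) :
    (sol q n).card = (solA q n).card + (solB q n).card + (solC q n).card := by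
  classical
  have h1 := Finset.card_filter_add_card_filter_not (s := sol q n) (fun v : ℤ × ℤ => v.2 = 0)
  have h2 := Finset.card_filter_add_card_filter_not
    (s := (sol q n).filter (fun v : ℤ × ℤ => ¬ v.2 = 0)) (fun v : ℤ × ℤ => 2 * v.1 + v.2 = 0)
  rw [Finset.filter_filter, Finset.filter_filter] at h2
  unfold solA solB solC
  simp only [ne_eq]
  omega

open Classical in
lemma card_solA (hq : q % 4 = 3) {n : ℕ} (hn : 0 < n) :
    (solA q n).card = if IsSquare n then 2 else 0 := by
  classical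
  split_ifs with h
  · obtain ⟨m, rfl⟩ := h
    have hm : 0 < m := by
      rcases Nat.eq_zero_or_pos m with h0 | h0
      · subst h0; simp at hn
      · exact h0
    have : solA q (m * m) = {((m : ℤ), 0), (-(m : ℤ), 0)} := by
      ext v
      simp only [solA, Finset.mem_filter, mem_sol hq, Finset.mem_insert, Finset.mem_singleton]
      constructor
      · rintro ⟨h1, h2⟩
        obtain ⟨x, y⟩ := v
        simp only at h2
        subst h2
        unfold Qf at h1
        simp only [mul_zero, add_zero, ne_eq, OfNat.ofNat_ne_zero, not_false_eq_true, zero_pow,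
          Nat.cast_mul] at h1
        have h3 : (x - m) * (x + m) = 0 := by linear_combination h1
        rcases mul_eq_zero.1 h3 with h4 | h4
        · left; rw [Prod.mk.injEq]; exact ⟨by linarith, rfl⟩
        · right; rw [Prod.mk.injEq]; exact ⟨by linarith, rfl⟩
      · rintro (rfl | rfl)
        · refine ⟨?_, rfl⟩
          unfold Qf; push_cast; ring
        · refine ⟨?_, rfl⟩
          unfold Qf; push_cast; ring
    rw [this, Finset.card_pair]
    intro h
    rw [Prod.mk.injEq] at h
    have := h.1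
    omega
  · rw [Finset.card_eq_zero, Finset.eq_empty_iff_forall_notMem]
    intro v hv
    simp only [solA, Finset.mem_filter, mem_sol hq] at hv
    obtain ⟨h1, h2⟩ := hv
    apply h
    refine ⟨v.1.natAbs, ?_⟩
    unfold Qf at h1
    rw [h2] at h1
    simp only [mul_zero, add_zero, ne_eq, OfNat.ofNat_ne_zero, not_false_eq_true, zero_pow] at h1
    have : ((v.1.natAbs * v.1.natAbs : ℕ) : ℤ) = n := by
      push_cast
      rw [← h1, ← sq, sq_abs]
    exact_mod_cast this.symm

open Classical in
lemma card_solB (hq : q % 4 = 3) {n : ℕ} (hn : 0 < n) :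
    (solB q n).card = if ∃ m : ℕ, n = q * m ^ 2 then 2 else 0 := by
  classical
  have key : ∀ v : ℤ × ℤ, 2 * v.1 + v.2 = 0 → (Qf q v = n ↔ (q : ℤ) * v.1 ^ 2 = n) := by
    intro v hv
    rw [Qf_eq_iff hq, hv]
    have : v.2 = -2 * v.1 := by linarith
    rw [this]
    constructor <;> intro h <;> nlinarith
  split_ifs with h
  · obtain ⟨m, rfl⟩ := h
    have hm : 0 < m := by
      rcases Nat.eq_zero_or_pos m with h0 | h0
      · subst h0; simp at hn
      · exact h0
    have hq0 : (q : ℤ) ≠ 0 := by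
      have : q ≠ 0 := by omega
      exact_mod_cast this
    have : solB q (q * m ^ 2) = {((m : ℤ), -2 * (m : ℤ)), (-(m : ℤ), 2 * (m : ℤ))} := by
      ext v
      simp only [solB, Finset.mem_filter, mem_sol hq, Finset.mem_insert, Finset.mem_singleton]
      constructor
      · rintro ⟨h1, h2, h3⟩
        rw [key v h3] at h1
        push_cast at h1
        have h4 : (v.1 - m) * (v.1 + m) = 0 := by
          have : (q : ℤ) * ((v.1 - m) * (v.1 + m)) = 0 := by linear_combination h1
          exact (mul_eq_zero.1 this).resolve_left hq0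
        obtain ⟨x, y⟩ := v
        simp only at h3 h4 h2
        rcases mul_eq_zero.1 h4 with h5 | h5
        · left; rw [Prod.mk.injEq]; exact ⟨by linarith, by linarith⟩
        · right; rw [Prod.mk.injEq]; exact ⟨by linarith, by linarith⟩
      · rintro (rfl | rfl)
        · refine ⟨?_, ?_, by ring⟩
          · rw [key _ (by ring)]; push_cast; ring
          · simp only [ne_eq, mul_eq_zero, neg_eq_zero, OfNat.ofNat_ne_zero, false_or]
            exact_mod_cast hm.ne'
        · refine ⟨?_, ?_, by ring⟩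
          · rw [key _ (by ring)]; push_cast; ring
          · simp only [ne_eq, mul_eq_zero, OfNat.ofNat_ne_zero, false_or]
            exact_mod_cast hm.ne'
    rw [this, Finset.card_pair]
    intro h
    rw [Prod.mk.injEq] at h
    have := h.1
    omega
  · rw [Finset.card_eq_zero, Finset.eq_empty_iff_forall_notMem]
    intro v hv
    simp only [solB, Finset.mem_filter, mem_sol hq] at hv
    obtain ⟨h1, _, h3⟩ := hv
    rw [key v h3] at h1
    apply h
    refine ⟨v.1.natAbs, ?_⟩
    have : ((q * v.1.natAbs ^ 2 : ℕ) : ℤ) = n := by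
      push_cast
      rw [← h1, sq_abs]
    exact_mod_cast this.symm

open Classical in
/-- **(T1d)** parity of the representation numbers, stated for the raw cardinality. -/
theorem card_Qf_mod_four (hq4 : q % 4 = 3) {n : ℕ} (hn : 0 < n) :
    ((Nat.card {v : ℤ × ℤ // Qf q v = (n : ℤ)} : ℕ) : ZMod 4) =
      2 * (if IsSquare n then 1 else 0) + 2 * (if ∃ m : ℕ, n = q * m ^ 2 then 1 else 0) := by
  rw [card_eq_card_sol hq4, card_sol_eq, card_solA hq4 hn, card_solB hq4 hn]
  obtain ⟨k, hk⟩ := four_dvd_card_solC hq4 n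
  rw [hk]
  have h4 : ((4 : ℕ) : ZMod 4) = 0 := by decide
  push_cast
  rw [show ((4 : ZMod 4)) = 0 from by decide, zero_mul, add_zero]
  split_ifs <;> simp

end Fermat.Agent.S16.Theta.Parity

namespace Fermat.Agent.S16.Theta

open Classical in
/-- **(T1d)** parity of the representation numbers of `x² + xy + κ y²`, `q = 4κ - 1`. -/
theorem rQ_mod_four {q : ℕ} (_hq : q.Prime) (hq4 : q % 4 = 3) {n : ℕ} (hn : 0 < n) :
    (rQ q n : ZMod 4) =
      2 * (if IsSquare n then 1 else 0) + 2 * (if ∃ m : ℕ, n = q * m ^ 2 then 1 else 0) :=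
  Parity.card_Qf_mod_four hq4 hn

end Fermat.Agent.S16.Theta
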