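import Fermat.Agent.S16.ThetaDefs

/-!
# S16 (Θ1): the `q`-expansion of `θ_q` and holomorphy
-/

set_option autoImplicit false
set_option linter.unusedSectionVars false
set_option linter.unusedVariables false

namespace Fermat.Agent.S16.Theta

open Complex Real

variable {q : ℕ}

/-- the number of representations of `n` by the form `Qf q` -/
noncomputable def rQ (q n : ℕ) : ℕ := Nat.card {v : ℤ × ℤ // Qf q v = (n : ℤ)}

lemma four_Qf (hq : q % 4 = 3) (v : ℤ × ℤ) :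
    4 * Qf q v = (2 * v.1 + v.2) ^ 2 + (q : ℤ) * v.2 ^ 2 := by
  unfold Qf
  have h : (4 : ℤ) * (((q + 1) / 4 : ℕ) : ℤ) = q + 1 := by
    have : 4 * ((q + 1) / 4) = q + 1 := by omega
    exact_mod_cast this
  linear_combination (v.2 ^ 2) * h

lemma Qf_nonneg (hq : q % 4 = 3) (v : ℤ × ℤ) : 0 ≤ Qf q v := by
  have h := four_Qf hq v
  have h1 : 0 ≤ (2 * v.1 + v.2) ^ 2 := sq_nonneg _
  have h2 : 0 ≤ (q : ℤ) * v.2 ^ 2 := mul_nonneg (Int.natCast_nonneg q) (sq_nonneg _)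
  linarith

lemma Qf_bound (hq : q % 4 = 3) (v : ℤ × ℤ) :
    |v.1| ≤ 4 * Qf q v ∧ |v.2| ≤ 4 * Qf q v := by
  have h := four_Qf hq v
  have hq1 : (1 : ℤ) ≤ q := by
    have : 1 ≤ q := by omega
    exact_mod_cast this
  have hy2 : v.2 ^ 2 ≤ (q : ℤ) * v.2 ^ 2 := by
    have := sq_nonneg v.2
    nlinarith
  have hX : 0 ≤ (2 * v.1 + v.2) ^ 2 := sq_nonneg _
  have hy : |v.2| ≤ v.2 ^ 2 := by
    have := Int.le_self_sq |v.2|
    rwa [sq_abs] at this
  have hXa : |2 * v.1 + v.2| ≤ (2 * v.1 + v.2) ^ 2 := by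
    have := Int.le_self_sq |2 * v.1 + v.2|
    rwa [sq_abs] at this
  have hy' : |v.2| ≤ 4 * Qf q v := by linarith
  refine ⟨?_, hy'⟩
  have h2 : |2 * v.1| ≤ |2 * v.1 + v.2| + |v.2| := by
    have := abs_sub (2 * v.1 + v.2) v.2
    simpa using this
  have h3 : |2 * v.1| = 2 * |v.1| := by rw [abs_mul]; simp
  have h4 : 0 ≤ (q : ℤ) * v.2 ^ 2 := by positivity
  have h5 : |2 * v.1 + v.2| ≤ 4 * Qf q v := by linarith
  have h6 : 0 ≤ |v.1| := abs_nonneg _
  linarith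

lemma finite_Qf_eq (hq : q % 4 = 3) (n : ℕ) : {v : ℤ × ℤ | Qf q v = n}.Finite := by
  refine Set.Finite.subset ((Set.finite_Icc (-(4 * n : ℤ)) (4 * n)).prod
    (Set.finite_Icc (-(4 * n : ℤ)) (4 * n))) ?_
  intro v hv
  have hv' : Qf q v = n := hv
  obtain ⟨h1, h2⟩ := Qf_bound hq v
  rw [hv'] at h1 h2
  exact ⟨⟨by have := neg_abs_le v.1; linarith, le_trans (le_abs_self _) h1⟩,
    ⟨by have := neg_abs_le v.2; linarith, le_trans (le_abs_self _) h2⟩⟩

lemma Qf_eq_zero (hq : q % 4 = 3) {v : ℤ × ℤ} (h : Qf q v = 0) : v = 0 := by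
  obtain ⟨h1, h2⟩ := Qf_bound hq v
  rw [h, mul_zero] at h1 h2
  have e1 : v.1 = 0 := abs_eq_zero.1 (le_antisymm h1 (abs_nonneg _))
  have e2 : v.2 = 0 := abs_eq_zero.1 (le_antisymm h2 (abs_nonneg _))
  exact Prod.ext e1 e2

lemma Qf_zero : Qf q 0 = 0 := by
  unfold Qf; simp

lemma rQ_zero (hq : q % 4 = 3) : rQ q 0 = 1 := by
  unfold rQ
  rw [Nat.card_eq_one_iff_unique]
  refine ⟨⟨fun a b => Subtype.ext ?_⟩, ⟨⟨0, by simpa using Qf_zero⟩⟩⟩
  have ha := a.2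
  have hb := b.2
  simp only [Nat.cast_zero] at ha hb
  rw [Qf_eq_zero hq ha, Qf_eq_zero hq hb]

/-- **(T1a)** the `q`-expansion of `θ_q` -/
theorem thetaQ_hasSum (hq : q % 4 = 3) {z : ℂ} (hz : 0 < z.im) :
    HasSum (fun n : ℕ => (rQ q n : ℂ) * cexp (2 * π * I * z * n)) (thetaQ q z) := by
  have h0 := thetaQ_hasSum' hq hz
  let N : ℤ × ℤ → ℕ := fun v => (Qf q v).toNat
  have hN : ∀ v, ((N v : ℕ) : ℤ) = Qf q v := fun v => Int.toNat_of_nonneg (Qf_nonneg hq v)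
  have h1 := (Equiv.sigmaFiberEquiv N).hasSum_iff.2 h0
  refine h1.sigma fun n => ?_
  have hiff : ∀ v : ℤ × ℤ, N v = n ↔ Qf q v = (n : ℤ) := by
    intro v
    constructor
    · intro h; rw [← hN v, h]
    · intro h
      have := hN v
      rw [h] at this
      exact_mod_cast this
  have hfin : Finite {v : ℤ × ℤ // N v = n} := by
    have h' : Finite {v : ℤ × ℤ // Qf q v = (n : ℤ)} := (finite_Qf_eq hq n).to_subtype
    exact Finite.of_equiv _ (Equiv.subtypeEquivRight hiff).symm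
  letI := Fintype.ofFinite {v : ℤ × ℤ // N v = n}
  have hcard : (rQ q n : ℂ) = (Fintype.card {v : ℤ × ℤ // N v = n} : ℂ) := by
    unfold rQ
    rw [← Nat.card_eq_fintype_card, Nat.card_congr (Equiv.subtypeEquivRight hiff)]
  have hs := hasSum_fintype
    (fun c : {v : ℤ × ℤ // N v = n} => cexp (2 * π * I * z * (Qf q c.1 : ℂ)))
  have e : ∑ c : {v : ℤ × ℤ // N v = n}, cexp (2 * π * I * z * (Qf q c.1 : ℂ)) =
      (rQ q n : ℂ) * cexp (2 * π * I * z * n) := by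
    rw [hcard, Finset.sum_congr rfl (g := fun _ => cexp (2 * π * I * z * n))]
    · rw [Finset.sum_const, Finset.card_univ, nsmul_eq_mul]
    · intro c _
      rw [(hiff c.1).1 c.2]
      push_cast
      rfl
  rw [e] at hs
  exact hs

end Fermat.Agent.S16.Theta
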