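import Fermat.Agent.S16.ThetaTrAsm
import Fermat.Agent.S16.ThetaQexp
import Fermat.Agent.S16.ThetaHol
import Fermat.Agent.S16.ThetaMod
import Fermat.Agent.S16.ThetaParity

/-!
# S16 (Θ2): the form `Θ ∈ M₂(Γ₀(p)) ∩ (1 + 2 q ℤ[[q]])`, unconditionally
-/

set_option autoImplicit false

open Complex UpperHalfPlane CongruenceSubgroup
open scoped Real MatrixGroups ModularForm

namespace Fermat.Agent.S16.ThetaTr

open Fermat.Agent.S16.Theta

/-- the binary theta series of discriminant `-q` satisfies the interface -/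
theorem isThetaData_thetaQ {q : ℕ} (hq : q.Prime) (hq4 : q % 4 = 3) :
    IsThetaData q (thetaQ q) (rQ q) where
  r_zero := rQ_zero hq4
  hasSum := fun hz => thetaQ_hasSum hq4 hz
  diff := thetaQ_differentiableOn hq4
  fricke := fun hz => thetaQ_fricke hq4 hz
  modular := fun hdet hc _ hz => thetaQ_modular hq hq4 hdet hc hz
  r_mod_four := fun hn => by
    have := rQ_mod_four hq hq4 hn
    convert this using 3

/-- **Θ2.** For every odd prime `p` there is `Θ ∈ M₂(Γ₀(p))` with `q`-expansion in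
`1 + 2 q ℤ[[q]]`. -/
theorem exists_theta (p : ℕ) (hp : p.Prime) (hp2 : p ≠ 2) :
    ∃ Θ : ModularForm (Gamma0 p) 2,
      (qExpansion 1 Θ).coeff 0 = 1 ∧
      ∀ n, 1 ≤ n → ∃ b : ℤ, (qExpansion 1 Θ).coeff n = 2 * (b : ℂ) :=
  exists_theta_of_data (fun q hq hq4 => ⟨thetaQ q, rQ q, isThetaData_thetaQ hq hq4⟩) p hp hp2

end Fermat.Agent.S16.ThetaTr
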