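import Fermat.Agent.S16.AForm
import Fermat.Agent.S16.ThetaTrFinal

/-!
# S16 (A): some cusp form of level `p` is congruent to the Eisenstein series modulo
`eisensteinNumerator p`
-/

set_option autoImplicit false

open CongruenceSubgroup ModularCurve

namespace Fermat.Agent.S16.A

/-- **(A)** -/
theorem pieceA (p : ℕ) [Fact p.Prime] :
    ∃ f : CuspForm (Gamma0 p) 2, D.CongE p (eisensteinNumerator p) f :=
  A_of_exists_theta Fermat.Agent.S16.ThetaTr.exists_theta p

end Fermat.Agent.S16.A
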