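import Mathlib

/-!
# S16: coset representatives of `Γ₀(P)` in `SL₂(ℤ)` for `P` prime

Every `g ∈ SL₂(ℤ)` lies in `Γ₀(P)` or in `Γ₀(P) · S · T^j` for some `0 ≤ j < P`.
-/

open CongruenceSubgroup Matrix.SpecialLinearGroup ModularGroup
open scoped MatrixGroups

namespace Fermat.Agent.S16

theorem coe_S_mul_T_zpow (j : ℤ) :
    ((S * T ^ j : SL(2, ℤ)) : Matrix (Fin 2) (Fin 2) ℤ) = !![0, -1; 1, j] := by
  rw [Matrix.SpecialLinearGroup.coe_mul, coe_T_zpow, coe_S]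
  ext i k
  fin_cases i <;> fin_cases k <;> simp [Matrix.mul_apply, Fin.sum_univ_two]

/-- the inverse of `S T^j` -/
def invST (j : ℤ) : SL(2, ℤ) := ⟨!![j, 1; -1, 0], by simp [Matrix.det_fin_two_of]⟩

theorem inv_S_mul_T_zpow (j : ℤ) : (S * T ^ j)⁻¹ = invST j := by
  rw [inv_eq_iff_mul_eq_one]
  apply Subtype.ext
  rw [Matrix.SpecialLinearGroup.coe_mul, coe_S_mul_T_zpow]
  ext i k
  fin_cases i <;> fin_cases k <;> simp [invST, Matrix.mul_apply, Fin.sum_univ_two]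

/-- `g = γ₀ · S · T^j` with `γ₀ ∈ Γ₀(P)` as soon as `P ∣ d − c j`. -/
theorem exists_mem_Gamma0_mul_S_T (P : ℕ) (g : SL(2, ℤ)) (j : ℤ)
    (h : (P : ℤ) ∣ g 1 1 - g 1 0 * j) :
    ∃ γ₀ ∈ Gamma0 P, g = γ₀ * (S * T ^ j) := by
  refine ⟨g * (S * T ^ j)⁻¹, ?_, by group⟩
  rw [Gamma0_mem]
  have h10 : (g * (S * T ^ j)⁻¹) 1 0 = g 1 0 * j - g 1 1 := by
    rw [inv_S_mul_T_zpow, Matrix.SpecialLinearGroup.coe_mul]
    simp [invST, Matrix.mul_apply, Fin.sum_univ_two]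
    ring
  rw [h10, ZMod.intCast_zmod_eq_zero_iff_dvd]
  have : g 1 0 * j - g 1 1 = -(g 1 1 - g 1 0 * j) := by ring
  rw [this]
  exact (dvd_neg).mpr h

/-- coset decomposition for a prime level -/
theorem mem_Gamma0_or_exists (P : ℕ) (hP : P.Prime) (g : SL(2, ℤ)) :
    g ∈ Gamma0 P ∨ ∃ j : ℕ, j < P ∧ ∃ γ₀ ∈ Gamma0 P, g = γ₀ * (S * T ^ (j : ℤ)) := by
  by_cases hc : (P : ℤ) ∣ g 1 0
  · left
    rw [Gamma0_mem, ZMod.intCast_zmod_eq_zero_iff_dvd]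
    exact hc
  · right
    have : Fact P.Prime := ⟨hP⟩
    have hc' : ((g 1 0 : ℤ) : ZMod P) ≠ 0 := by
      rwa [Ne, ZMod.intCast_zmod_eq_zero_iff_dvd]
    set j : ZMod P := (g 1 1 : ZMod P) * ((g 1 0 : ℤ) : ZMod P)⁻¹ with hj
    refine ⟨j.val, ZMod.val_lt j, exists_mem_Gamma0_mul_S_T P g _ ?_⟩
    rw [← ZMod.intCast_zmod_eq_zero_iff_dvd]
    push_cast
    rw [ZMod.natCast_zmod_val, hj]
    field_simp
    ring

end Fermat.Agent.S16
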