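import Mathlib
import Fermat.Prelude.Def_ModularForm_HeckeOperator

/-!
# S16, piece E (part 1): the weight-2 Eisenstein series of level `Γ₀(P)`

`eisFun P = P · E₂(P z) − E₂(z) = E₂ ∣[2] diag(P,1) − E₂`.
We prove: holomorphy, invariance under `Γ₀(P)`, its `q`-expansion.
-/

open UpperHalfPlane ModularForm EisensteinSeries CongruenceSubgroup Matrix.SpecialLinearGroup
open scoped MatrixGroups ModularForm Manifold

noncomputable section

namespace Fermat.Agent.S16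

/-- The Eisenstein function `P · E₂(P z) − E₂(z)`. -/
def eisFun (P : ℕ) : ℍ → ℂ := E2 ∣[(2 : ℤ)] heckeDiagMatrix P - E2

theorem eisFun_apply {P : ℕ} (hP : P ≠ 0) (z : ℍ) :
    eisFun P z = (P : ℂ) * E2 (heckeDiagMatrix P • z) - E2 z := by
  rw [eisFun, Pi.sub_apply, slash_heckeDiagMatrix_apply 2 hP]
  norm_num

theorem mdifferentiable_eisFun (P : ℕ) : MDiff (eisFun P) :=
  (E2_mdifferentiable.slash 2 _).sub E2_mdifferentiable

/-- conjugate of `γ ∈ Γ₀(P)` by `diag(P,1)`: the matrix `[[a, P b],[c / P, d]]`. -/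
def conjDiag (P : ℕ) (γ : SL(2, ℤ)) (h : γ ∈ Gamma0 P) : SL(2, ℤ) :=
  ⟨!![γ 0 0, P * γ 0 1; γ 1 0 / P, γ 1 1], by
    have hdvd : (P : ℤ) ∣ γ 1 0 := by
      rw [Gamma0_mem] at h
      exact (ZMod.intCast_zmod_eq_zero_iff_dvd _ _).mp h
    obtain ⟨c, hc⟩ := hdvd
    have hdet := γ.det_coe
    rw [Matrix.det_fin_two] at hdet
    rw [Matrix.det_fin_two_of]
    rcases eq_or_ne P 0 with rfl | hP
    · simp only [Nat.cast_zero, zero_mul] at hc ⊢
      rw [hc] at hdet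
      simpa using hdet
    · have hP' : (P : ℤ) ≠ 0 := by exact_mod_cast hP
      rw [hc, Int.mul_ediv_cancel_left _ hP']
      rw [hc] at hdet
      linarith⟩

theorem conjDiag_mul_div {P : ℕ} (γ : SL(2, ℤ)) (h : γ ∈ Gamma0 P) :
    (P : ℤ) * (γ 1 0 / P) = γ 1 0 := by
  have hdvd : (P : ℤ) ∣ γ 1 0 := by
    rw [Gamma0_mem] at h
    exact (ZMod.intCast_zmod_eq_zero_iff_dvd _ _).mp h
  exact Int.mul_ediv_cancel' hdvd

theorem heckeDiag_mul_eq {P : ℕ} (hP : P ≠ 0) (γ : SL(2, ℤ)) (h : γ ∈ Gamma0 P) :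
    heckeDiagMatrix P * mapGL ℝ γ = mapGL ℝ (conjDiag P γ h) * heckeDiagMatrix P := by
  apply Matrix.GeneralLinearGroup.ext
  intro i j
  have key := conjDiag_mul_div γ h
  have key' : (P : ℝ) * ((γ 1 0 / P : ℤ) : ℝ) = ((γ 1 0 : ℤ) : ℝ) := by exact_mod_cast key
  simp only [Matrix.GeneralLinearGroup.coe_mul, val_heckeDiagMatrix hP, Matrix.mul_apply,
    Fin.sum_univ_two, mapGL_coe_matrix, Matrix.SpecialLinearGroup.map_apply_coe,
    RingHom.mapMatrix_apply, Matrix.map_apply]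
  fin_cases i <;> fin_cases j <;>
    simp [conjDiag] <;> linarith

theorem D2_conjDiag_slash {P : ℕ} (hP : P ≠ 0) (γ : SL(2, ℤ)) (h : γ ∈ Gamma0 P) :
    (D2 (conjDiag P γ h)) ∣[(2 : ℤ)] heckeDiagMatrix P = D2 γ := by
  ext z
  rw [slash_heckeDiagMatrix_apply 2 hP]
  simp only [D2]
  have hP' : (P : ℂ) ≠ 0 := by exact_mod_cast hP
  have key := conjDiag_mul_div γ h
  have key' : (P : ℂ) * ((γ 1 0 / P : ℤ) : ℂ) = ((γ 1 0 : ℤ) : ℂ) := by exact_mod_cast key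
  have h10 : ((conjDiag P γ h) 1 0 : ℤ) = γ 1 0 / P := by
    simp [conjDiag]
  have h11 : ((conjDiag P γ h) 1 1 : ℤ) = γ 1 1 := by
    simp [conjDiag]
  have hden : denom (conjDiag P γ h) ((heckeDiagMatrix P • z : ℍ) : ℂ) = denom γ (z : ℂ) := by
    rw [ModularGroup.denom_apply, ModularGroup.denom_apply, coe_heckeDiagMatrix_smul hP, h10, h11,
      ← key']
    ring
  rw [hden, h10, ← key']
  norm_num
  ring

theorem eisFun_slash {P : ℕ} (hP : P ≠ 0) (γ : SL(2, ℤ)) (h : γ ∈ Gamma0 P) :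
    eisFun P ∣[(2 : ℤ)] γ = eisFun P := by
  rw [eisFun, sub_eq_add_neg, SlashAction.add_slash, SlashAction.neg_slash]
  have h1 : (E2 ∣[(2 : ℤ)] heckeDiagMatrix P) ∣[(2 : ℤ)] γ =
      E2 ∣[(2 : ℤ)] heckeDiagMatrix P -
        (1 / (2 * riemannZeta 2)) • D2 γ := by
    have hmul : heckeDiagMatrix P * (γ : GL (Fin 2) ℝ) =
        ((conjDiag P γ h : SL(2, ℤ)) : GL (Fin 2) ℝ) * heckeDiagMatrix P :=
      heckeDiag_mul_eq hP γ h
    rw [ModularForm.SL_slash, ← SlashAction.slash_mul, hmul,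
      SlashAction.slash_mul, ← ModularForm.SL_slash, E2_slash_action, sub_eq_add_neg,
      SlashAction.add_slash, SlashAction.neg_slash,
      ModularForm.smul_slash, σ_heckeDiagMatrix, D2_conjDiag_slash hP γ h]
    rfl
  rw [h1, E2_slash_action]
  abel

end Fermat.Agent.S16
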