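import Mathlib
import Fermat.Agent.S16.Eis

/-!
# S16, piece E (part 2): the `q`-expansion of `eisFun P`

`eisFun P z = (P − 1) + 24 ∑_{n ≥ 1} σ*(n) qⁿ`, `σ*(n) = ∑_{d ∣ n, P ∤ d} d`.
-/

open UpperHalfPlane ModularForm EisensteinSeries CongruenceSubgroup Matrix.SpecialLinearGroup
open scoped MatrixGroups ModularForm Manifold ArithmeticFunction.sigma

noncomputable section

namespace Fermat.Agent.S16

/-- `σ*(n) = ∑_{d ∣ n, P ∤ d} d`. -/
def sigmaStar (P n : ℕ) : ℕ := ∑ d ∈ n.divisors with ¬ P ∣ d, d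

theorem sum_divisors_dvd (P n : ℕ) (hP : P ≠ 0) (hn : n ≠ 0) :
    ∑ d ∈ n.divisors with P ∣ d, d = if P ∣ n then P * σ 1 (n / P) else 0 := by
  split_ifs with h
  · obtain ⟨m, rfl⟩ := h
    have hm : m ≠ 0 := by rintro rfl; simp at hn
    rw [Nat.mul_div_cancel_left _ (Nat.pos_of_ne_zero hP), ArithmeticFunction.sigma_apply,
      Finset.mul_sum]
    simp only [pow_one]
    symm
    refine Finset.sum_bij (fun d _ ↦ P * d) ?_ ?_ ?_ ?_
    · intro d hd
      simp only [Finset.mem_filter, Nat.mem_divisors]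
      exact ⟨⟨Nat.mul_dvd_mul_left P (Nat.dvd_of_mem_divisors hd), hn⟩, dvd_mul_right _ _⟩
    · intro a _ b _ hab
      exact Nat.eq_of_mul_eq_mul_left (Nat.pos_of_ne_zero hP) hab
    · intro d hd
      simp only [Finset.mem_filter, Nat.mem_divisors] at hd
      obtain ⟨⟨hd1, _⟩, e, rfl⟩ := hd
      exact ⟨e, Nat.mem_divisors.mpr ⟨(Nat.mul_dvd_mul_iff_left (Nat.pos_of_ne_zero hP)).mp hd1,
        hm⟩, rfl⟩
    · intro _ _
      rfl
  · apply Finset.sum_eq_zero
    intro d hd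
    simp only [Finset.mem_filter, Nat.mem_divisors] at hd
    exact absurd (hd.2.trans hd.1.1) h

theorem sigmaStar_add (P n : ℕ) (hP : P ≠ 0) (hn : n ≠ 0) :
    sigmaStar P n + (if P ∣ n then P * σ 1 (n / P) else 0) = σ 1 n := by
  rw [← sum_divisors_dvd P n hP hn, sigmaStar, ArithmeticFunction.sigma_apply, add_comm]
  simp only [pow_one]
  exact Finset.sum_filter_add_sum_filter_not _ _ _

/-- the `q`-coefficients of `eisFun P` -/
def eisCoeff (P n : ℕ) : ℂ := if n = 0 then (P : ℂ) - 1 else 24 * (sigmaStar P n : ℂ)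

theorem eisCoeff_zero (P : ℕ) : eisCoeff P 0 = (P : ℂ) - 1 := by simp [eisCoeff]

theorem eisCoeff_of_ne_zero (P : ℕ) {n : ℕ} (hn : n ≠ 0) :
    eisCoeff P n = 24 * (sigmaStar P n : ℂ) := by simp [eisCoeff, hn]

/-- coefficients of `E₂` -/
def e2Coeff (m : ℕ) : ℂ := if m = 0 then 1 else -24 * (σ 1 m : ℂ)

theorem eisCoeff_eq (P n : ℕ) (hP : P ≠ 0) :
    eisCoeff P n = (P : ℂ) * (if P ∣ n then e2Coeff (n / P) else 0) - e2Coeff n := by
  rcases eq_or_ne n 0 with rfl | hn
  · simp [eisCoeff, e2Coeff]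
  · rw [eisCoeff_of_ne_zero P hn]
    have h := sigmaStar_add P n hP hn
    have h' : (sigmaStar P n : ℂ) + (if P ∣ n then (P : ℂ) * (σ 1 (n / P) : ℂ) else 0) =
        (σ 1 n : ℂ) := by
      rw [← h]
      split_ifs <;> push_cast <;> ring
    simp only [e2Coeff, hn, if_false]
    split_ifs with h1 h2
    · exfalso
      obtain ⟨m, rfl⟩ := h1
      rw [Nat.mul_div_cancel_left _ (Nat.pos_of_ne_zero hP)] at h2
      subst h2
      simp at hn
    · rw [if_pos h1] at h'
      linear_combination 24 * h'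
    · rw [if_neg h1] at h'
      linear_combination 24 * h'

theorem hasSum_E2_diag {P : ℕ} (hP : P ≠ 0) (z : ℍ) :
    HasSum (fun n : ℕ ↦ (if P ∣ n then e2Coeff (n / P) else 0) •
      Complex.exp (2 * Real.pi * Complex.I * z) ^ n) (E2 (heckeDiagMatrix P • z)) := by
  have h := hasSum_qExpansion_E2 (z := heckeDiagMatrix P • z)
  rw [coe_heckeDiagMatrix_smul hP] at h
  have hinj : Function.Injective (fun m : ℕ ↦ P * m) :=
    fun a b hab ↦ Nat.eq_of_mul_eq_mul_left (Nat.pos_of_ne_zero hP) hab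
  rw [← hinj.hasSum_iff]
  · convert h using 2 with m
    simp only [Function.comp_apply, dvd_mul_right, if_true,
      Nat.mul_div_cancel_left _ (Nat.pos_of_ne_zero hP), e2Coeff]
    congr 1
    rw [← Complex.exp_nat_mul, ← Complex.exp_nat_mul]
    congr 1
    push_cast
    ring
  · intro n hn
    have : ¬ P ∣ n := by
      rintro ⟨m, rfl⟩
      exact hn ⟨m, rfl⟩
    simp [this]

theorem hasSum_eisFun {P : ℕ} (hP : P ≠ 0) (z : ℍ) :
    HasSum (fun n : ℕ ↦ eisCoeff P n • Complex.exp (2 * Real.pi * Complex.I * z) ^ n)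
      (eisFun P z) := by
  rw [eisFun_apply hP]
  have h1 := (hasSum_E2_diag hP z).mul_left (P : ℂ)
  have h2 : HasSum (fun m : ℕ ↦ e2Coeff m • Complex.exp (2 * Real.pi * Complex.I * z) ^ m)
      (E2 z) := hasSum_qExpansion_E2 (z := z)
  have h3 := h1.sub h2
  have hfun : (fun n : ℕ ↦ eisCoeff P n • Complex.exp (2 * Real.pi * Complex.I * z) ^ n) =
      fun i ↦ (P : ℂ) * (if P ∣ i then e2Coeff (i / P) else 0) •
        Complex.exp (2 * Real.pi * Complex.I * z) ^ i -
        e2Coeff i • Complex.exp (2 * Real.pi * Complex.I * z) ^ i := by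
    funext n
    rw [eisCoeff_eq P n hP]
    simp only [smul_eq_mul]
    ring
  rw [hfun]
  exact h3

end Fermat.Agent.S16
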