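import Mathlib
import Fermat.Agent.S16.EisQ
import Fermat.Agent.S16.Coset

/-!
# S16, piece E (part 3): `eisFun P` as a modular form of weight 2 on `Γ₀(P)`, `P` prime
-/

open UpperHalfPlane ModularForm EisensteinSeries CongruenceSubgroup Matrix.SpecialLinearGroup
open scoped MatrixGroups ModularForm Manifold

noncomputable section

namespace Fermat.Agent.S16

theorem heckeDiag_mul_S {P : ℕ} (hP : P ≠ 0) :
    heckeDiagMatrix P * ((ModularGroup.S : SL(2, ℤ)) : GL (Fin 2) ℝ) =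
      ((ModularGroup.S : SL(2, ℤ)) : GL (Fin 2) ℝ) * heckeMatrix P 0 := by
  apply Matrix.GeneralLinearGroup.ext
  intro i j
  simp only [Matrix.GeneralLinearGroup.coe_mul, val_heckeDiagMatrix hP, val_heckeMatrix hP,
    Matrix.mul_apply, Fin.sum_univ_two]
  fin_cases i <;> fin_cases j <;> simp [ModularGroup.coe_S]

theorem D2_S_slash {P : ℕ} (hP : P ≠ 0) :
    (D2 ModularGroup.S) ∣[(2 : ℤ)] heckeMatrix P 0 = D2 ModularGroup.S := by
  ext z
  have hP' : (P : ℂ) ≠ 0 := by exact_mod_cast hP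
  rw [slash_heckeMatrix_apply 2 hP, D2_S, D2_S, coe_heckeMatrix_smul hP]
  have hz : (z : ℂ) ≠ 0 := ne_zero z
  simp only [Nat.cast_zero, add_zero]
  field_simp

theorem eisFun_slash_S {P : ℕ} (hP : P ≠ 0) :
    eisFun P ∣[(2 : ℤ)] ModularGroup.S = E2 ∣[(2 : ℤ)] heckeMatrix P 0 - E2 := by
  rw [eisFun, sub_eq_add_neg, SlashAction.add_slash, SlashAction.neg_slash]
  have h1 : (E2 ∣[(2 : ℤ)] heckeDiagMatrix P) ∣[(2 : ℤ)] ModularGroup.S =
      E2 ∣[(2 : ℤ)] heckeMatrix P 0 - (1 / (2 * riemannZeta 2)) • D2 ModularGroup.S := by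
    rw [ModularForm.SL_slash, ← SlashAction.slash_mul, heckeDiag_mul_S hP,
      SlashAction.slash_mul, ← ModularForm.SL_slash, E2_slash_action, sub_eq_add_neg,
      SlashAction.add_slash, SlashAction.neg_slash,
      ModularForm.smul_slash, σ_heckeMatrix, D2_S_slash hP]
    rfl
  rw [h1, E2_slash_action]
  abel

theorem isBoundedAtImInfty_eisFun (P : ℕ) : IsBoundedAtImInfty (eisFun P) := by
  rcases eq_or_ne P 0 with rfl | hP
  · simp only [eisFun, heckeDiagMatrix_zero, SlashAction.slash_one, sub_self]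
    exact zero_form_isBoundedAtImInfty
  · refine (IsBoundedAtImInfty.slash 2 ?_ isBoundedAtImInfty_E2).sub isBoundedAtImInfty_E2
    simp [val_heckeDiagMatrix hP]

theorem isBoundedAtImInfty_eisFun_slash_S {P : ℕ} (hP : P ≠ 0) :
    IsBoundedAtImInfty (eisFun P ∣[(2 : ℤ)] ModularGroup.S) := by
  rw [eisFun_slash_S hP]
  refine (IsBoundedAtImInfty.slash 2 ?_ isBoundedAtImInfty_E2).sub isBoundedAtImInfty_E2
  simp [val_heckeMatrix hP]

theorem isBoundedAtImInfty_slash_T_zpow {f : ℍ → ℂ} (hf : IsBoundedAtImInfty f) (k : ℤ) (j : ℤ) :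
    IsBoundedAtImInfty (f ∣[k] (ModularGroup.T ^ j : SL(2, ℤ))) := by
  rw [ModularForm.SL_slash]
  refine IsBoundedAtImInfty.slash k ?_ hf
  have h1 : (((ModularGroup.T ^ j : SL(2, ℤ)) : GL (Fin 2) ℝ) :
      Matrix (Fin 2) (Fin 2) ℝ) 1 0 = (((ModularGroup.T ^ j : SL(2, ℤ)) 1 0 : ℤ) : ℝ) := rfl
  rw [h1, ModularGroup.coe_T_zpow]
  simp

theorem isBoundedAtImInfty_eisFun_slash {P : ℕ} (hP : P.Prime) (g : SL(2, ℤ)) :
    IsBoundedAtImInfty (eisFun P ∣[(2 : ℤ)] g) := by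
  rcases mem_Gamma0_or_exists P hP g with h | ⟨j, -, γ₀, hγ₀, rfl⟩
  · rw [eisFun_slash hP.ne_zero g h]
    exact isBoundedAtImInfty_eisFun P
  · rw [SlashAction.slash_mul, eisFun_slash hP.ne_zero γ₀ hγ₀, SlashAction.slash_mul]
    exact isBoundedAtImInfty_slash_T_zpow (isBoundedAtImInfty_eisFun_slash_S hP.ne_zero) 2 j

/-- The Eisenstein series `P E₂(P z) − E₂(z)` as a modular form of weight `2` on `Γ₀(P)`. -/
def eisMF (P : ℕ) [hP : Fact P.Prime] : ModularForm (Gamma0 P) 2 where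
  toFun := eisFun P
  slash_action_eq' := by
    rintro A ⟨g, hg, rfl⟩
    exact eisFun_slash hP.out.ne_zero g hg
  holo' := mdifferentiable_eisFun P
  bdd_at_cusps' := by
    intro c hc
    rw [Subgroup.IsArithmetic.isCusp_iff_isCusp_SL2Z] at hc
    rw [OnePoint.isBoundedAt_iff_forall_SL2Z hc]
    intro γ _
    exact isBoundedAtImInfty_eisFun_slash hP.out γ

@[simp] theorem coe_eisMF (P : ℕ) [Fact P.Prime] : ⇑(eisMF P) = eisFun P := rfl

theorem one_mem_strictPeriods_Gamma0' (N : ℕ) :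
    (1 : ℝ) ∈ (Subgroup.map (mapGL ℝ) (Gamma0 N)).strictPeriods := by
  rw [strictPeriods_Gamma0]
  exact AddSubgroup.mem_zmultiples 1

theorem qExpansion_eisMF_coeff (P : ℕ) [hP : Fact P.Prime] (n : ℕ) :
    (qExpansion 1 (eisMF P)).coeff n = eisCoeff P n := by
  symm
  refine ModularFormClass.qExpansion_coeff_unique (f := eisMF P) one_pos
    (one_mem_strictPeriods_Gamma0' P) (fun τ ↦ ?_) n
  have := hasSum_eisFun hP.out.ne_zero τ
  simpa [Function.Periodic.qParam] using this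

end Fermat.Agent.S16
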