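import Fermat.Agent.S16.FSqCoeff
import Fermat.Agent.S16.EisMF

/-!
# S16, tool F2: the `f²`-trick

For a prime `P`, let `s_i = σ*(iP)` (`i ≥ 1`), `s_0 = 0`, and `C = ∑_{i+j=P} s_i s_j`.
* `twelve_convS`: `12 C = (P² − 1)(5P − 6)` (T2 for the Eisenstein series).
* `f2_dvd`: if a weight-2 cusp form on `Γ₀(P)` with integral coefficients is congruent to
  `∑ σ*(n) qⁿ` modulo `M`, then `M ∣ C`, and `2M ∣ C` if `M` is even (T2 for the cusp form).
-/

set_option autoImplicit false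
set_option linter.unusedSectionVars false

open UpperHalfPlane ModularForm CongruenceSubgroup ModularFormClass
open scoped MatrixGroups ModularForm Manifold

noncomputable section

namespace Fermat.Agent.S16.B

variable {P : ℕ} [hP : Fact P.Prime]

theorem sigmaStar_one_eq : sigmaStar P 1 = 1 := by
  have h : ¬ P ∣ 1 := fun h => hP.out.one_lt.ne' (Nat.dvd_one.1 h)
  simp [sigmaStar, Finset.filter_singleton, h]

theorem sigmaStar_sq : sigmaStar P (P * P) = 1 := by
  have hp := hP.out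
  rw [sigmaStar, ← sq, Nat.divisors_prime_pow hp 2, Finset.sum_filter, Finset.sum_map]
  simp only [Function.Embedding.coeFn_mk]
  rw [Finset.sum_range_succ, Finset.sum_range_succ, Finset.sum_range_one]
  have h1 : ¬ P ∣ P ^ 0 := by
    rw [pow_zero]; exact fun h => hp.one_lt.ne' (Nat.dvd_one.1 h)
  have h2 : P ∣ P ^ 1 := by rw [pow_one]
  have h3 : P ∣ P ^ 2 := dvd_pow_self P (by norm_num)
  have h4 : P ≠ 1 := hp.one_lt.ne'
  simp [h3, h4]

/-- The sequence `s_i = σ*(iP)` for `i ≥ 1`, `s_0 = 0`. -/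
def sSeq (P : ℕ) (i : ℕ) : ℤ := if i = 0 then 0 else (sigmaStar P (i * P) : ℤ)

/-- The convolution `C = ∑_{i+j=P} s_i s_j`. -/
def convS (P : ℕ) : ℤ := ∑ ij ∈ Finset.HasAntidiagonal.antidiagonal P, sSeq P ij.1 * sSeq P ij.2

theorem qCoeff_eisMF (n : ℕ) : qCoeff (⇑(eisMF P)) n = eisCoeff P n :=
  qExpansion_eisMF_coeff P n

theorem qCoeff_eisMF_mul (i : ℕ) :
    qCoeff (⇑(eisMF P)) (i * P) = 24 * (sSeq P i : ℂ) + (if i = 0 then (P : ℂ) - 1 else 0) := by
  rw [qCoeff_eisMF]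
  by_cases hi : i = 0
  · subst hi
    simp [eisCoeff, sSeq]
  · have : i * P ≠ 0 := Nat.mul_ne_zero hi hP.out.ne_zero
    simp [eisCoeff, sSeq, hi, this]

/-- **The convolution identity** `12 C = (P² − 1)(5P − 6)`. -/
theorem twelve_convS : 12 * convS P = ((P : ℤ) ^ 2 - 1) * (5 * P - 6) := by
  classical
  have hp := hP.out
  have hP0 : (P : ℂ) ≠ 0 := by exact_mod_cast hp.ne_zero
  have h := T2_coeff (eisMF P) (eisMF P) 1
  rw [E₄_qExpansion_coeff_one] at h
  have hanti : Finset.HasAntidiagonal.antidiagonal 1 = {((0 : ℕ), (1 : ℕ)), (1, 0)} := by decide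
  rw [hanti, Finset.sum_pair (by decide), one_mul] at h
  -- the sum over the antidiagonal of `P`
  have hsum : ∑ ij ∈ Finset.HasAntidiagonal.antidiagonal P,
      qCoeff (⇑(eisMF P)) (ij.1 * P) * qCoeff (⇑(eisMF P)) (ij.2 * P) =
      576 * (convS P : ℂ) + 48 * ((P : ℂ) - 1) := by
    have e1 : ∀ ij ∈ Finset.HasAntidiagonal.antidiagonal P,
        qCoeff (⇑(eisMF P)) (ij.1 * P) * qCoeff (⇑(eisMF P)) (ij.2 * P) =
        576 * ((sSeq P ij.1 * sSeq P ij.2 : ℤ) : ℂ) +
          ((if ij.1 = 0 then 24 * ((P : ℂ) - 1) * (sSeq P ij.2 : ℂ) else 0) +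
           (if ij.2 = 0 then 24 * ((P : ℂ) - 1) * (sSeq P ij.1 : ℂ) else 0)) := by
      intro ij hij
      rw [Finset.HasAntidiagonal.mem_antidiagonal] at hij
      rw [qCoeff_eisMF_mul, qCoeff_eisMF_mul]
      have hp2 := hp.two_le
      by_cases h1 : ij.1 = 0
      · have h2 : ij.2 ≠ 0 := by omega
        have hs : sSeq P ij.1 = 0 := by simp [sSeq, h1]
        rw [if_pos h1, if_neg h2, if_pos h1, if_neg h2, hs]
        push_cast
        ring
      · by_cases h2 : ij.2 = 0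
        · have hs : sSeq P ij.2 = 0 := by simp [sSeq, h2]
          rw [if_neg h1, if_pos h2, if_neg h1, if_pos h2, hs]
          push_cast
          ring
        · rw [if_neg h1, if_neg h2, if_neg h1, if_neg h2]
          push_cast
          ring
    rw [Finset.sum_congr rfl e1, Finset.sum_add_distrib, Finset.sum_add_distrib, ← Finset.mul_sum,
      convS]
    push_cast
    have e2 : ∑ ij ∈ Finset.HasAntidiagonal.antidiagonal P,
        (if ij.1 = 0 then 24 * ((P : ℂ) - 1) * (sSeq P ij.2 : ℂ) else 0) =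
        24 * ((P : ℂ) - 1) := by
      rw [Finset.sum_eq_single (0, P)]
      · simp [sSeq, hp.ne_zero, sigmaStar_sq]
      · intro b hb hne
        rw [Finset.HasAntidiagonal.mem_antidiagonal] at hb
        have : b.1 ≠ 0 := by
          intro h0
          apply hne
          exact Prod.ext h0 (by simp only; omega)
        simp [this]
      · intro h
        exact absurd (Finset.HasAntidiagonal.mem_antidiagonal.2 (by simp)) h
    have e3 : ∑ ij ∈ Finset.HasAntidiagonal.antidiagonal P,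
        (if ij.2 = 0 then 24 * ((P : ℂ) - 1) * (sSeq P ij.1 : ℂ) else 0) =
        24 * ((P : ℂ) - 1) := by
      rw [Finset.sum_eq_single (P, 0)]
      · simp [sSeq, hp.ne_zero, sigmaStar_sq]
      · intro b hb hne
        rw [Finset.HasAntidiagonal.mem_antidiagonal] at hb
        have : b.2 ≠ 0 := by
          intro h0
          apply hne
          exact Prod.ext (by simp only; omega) h0
        simp [this]
      · intro h
        exact absurd (Finset.HasAntidiagonal.mem_antidiagonal.2 (by simp)) h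
    rw [e2, e3]
    ring
  rw [hsum] at h
  have e0 : qCoeff (⇑(eisMF P)) 0 = (P : ℂ) - 1 := by rw [qCoeff_eisMF, eisCoeff_zero]
  have e1 : qCoeff (⇑(eisMF P)) 1 = 24 := by
    rw [qCoeff_eisMF, eisCoeff_of_ne_zero P one_ne_zero, sigmaStar_one_eq]
    simp
  simp only at h
  rw [e0, e1] at h
  have key : (12 : ℂ) * (convS P : ℂ) = ((P : ℂ) ^ 2 - 1) * (5 * P - 6) := by
    field_simp at h
    linear_combination h / 48
  exact_mod_cast key

/-- **T2 for a cusp form, `q¹`-coefficient**: `∑_{i+j=P} a_{iP} a_{jP} = 0`. -/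
theorem cusp_conv_eq_zero (f : CuspForm (Gamma0 P) 2) :
    ∑ ij ∈ Finset.HasAntidiagonal.antidiagonal P,
      qCoeff (⇑f) (ij.1 * P) * qCoeff (⇑f) (ij.2 * P) = 0 := by
  have hP0 : (P : ℂ) ≠ 0 := by exact_mod_cast hP.out.ne_zero
  have h := T2_coeff (CuspForm.toModularFormₗ f) (CuspForm.toModularFormₗ f) 1
  have hcoe : (⇑(CuspForm.toModularFormₗ f) : ℍ → ℂ) = ⇑f := rfl
  rw [hcoe] at h
  have hanti : Finset.HasAntidiagonal.antidiagonal 1 = {((0 : ℕ), (1 : ℕ)), (1, 0)} := by decide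
  rw [hanti, Finset.sum_pair (by decide), one_mul, qCoeff_zero_eq] at h
  simp only [zero_mul, mul_zero, add_zero, zero_add] at h
  rcases mul_eq_zero.1 h with h1 | h1
  · exact absurd (inv_eq_zero.1 h1) hP0
  · exact h1

/-- **F2, the `f²`-trick.** -/
theorem f2_dvd (f : CuspForm (Gamma0 P) 2) (M : ℕ)
    (hcong : ∀ n, 1 ≤ n → ∃ z : ℤ, qCoeff (⇑f) n = (sigmaStar P n : ℂ) + (M : ℂ) * z) :
    ((if 2 ∣ M then 2 * M else M : ℕ) : ℤ) ∣ convS P := by
  classical
  have hex : ∀ i : ℕ, ∃ z : ℤ, qCoeff (⇑f) (i * P) = (sSeq P i : ℂ) + (M : ℂ) * z := by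
    intro i
    by_cases hi : i = 0
    · subst hi
      exact ⟨0, by rw [zero_mul, qCoeff_zero_eq]; simp [sSeq]⟩
    · obtain ⟨z, hz⟩ := hcong (i * P) (Nat.mul_pos (Nat.pos_of_ne_zero hi) hP.out.pos)
      exact ⟨z, by rw [hz]; simp [sSeq, hi]⟩
  choose d hd using hex
  have h0 := cusp_conv_eq_zero f
  have h1 : ∑ ij ∈ Finset.HasAntidiagonal.antidiagonal P,
      qCoeff (⇑f) (ij.1 * P) * qCoeff (⇑f) (ij.2 * P) =
      ((∑ ij ∈ Finset.HasAntidiagonal.antidiagonal P,
        (sSeq P ij.1 + M * d ij.1) * (sSeq P ij.2 + M * d ij.2) : ℤ) : ℂ) := by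
    push_cast
    exact Finset.sum_congr rfl fun ij _ => by rw [hd, hd]
  rw [h1] at h0
  have h2 : ∑ ij ∈ Finset.HasAntidiagonal.antidiagonal P,
      (sSeq P ij.1 + M * d ij.1) * (sSeq P ij.2 + M * d ij.2) = 0 := by exact_mod_cast h0
  set A : ℤ := ∑ ij ∈ Finset.HasAntidiagonal.antidiagonal P, sSeq P ij.1 * d ij.2 with hA
  set B : ℤ := ∑ ij ∈ Finset.HasAntidiagonal.antidiagonal P, d ij.1 * d ij.2 with hB
  have hswap : ∑ ij ∈ Finset.HasAntidiagonal.antidiagonal P, d ij.1 * sSeq P ij.2 = A := by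
    rw [hA, ← Finset.Nat.sum_antidiagonal_swap]
    exact Finset.sum_congr rfl fun ij _ => by simp [mul_comm]
  have h3 : convS P + 2 * M * A + M ^ 2 * B = 0 := by
    rw [← h2, convS, hA, hB]
    have : ∀ ij : ℕ × ℕ, (sSeq P ij.1 + M * d ij.1) * (sSeq P ij.2 + M * d ij.2) =
        sSeq P ij.1 * sSeq P ij.2 + M * (sSeq P ij.1 * d ij.2) + M * (d ij.1 * sSeq P ij.2) +
          M ^ 2 * (d ij.1 * d ij.2) := fun ij => by ring
    simp only [this]
    rw [Finset.sum_add_distrib, Finset.sum_add_distrib, Finset.sum_add_distrib,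
      ← Finset.mul_sum, ← Finset.mul_sum, ← Finset.mul_sum, hswap]
    ring
  have h4 : convS P = -(2 * M * A + M ^ 2 * B) := by linarith
  rw [h4, dvd_neg]
  split_ifs with h2M
  · obtain ⟨m, hm⟩ := h2M
    refine ⟨A + m * B, ?_⟩
    have : (M : ℤ) = 2 * m := by exact_mod_cast hm
    push_cast
    rw [sq]
    nth_rewrite 2 [this]
    ring
  · exact ⟨2 * A + M * B, by ring⟩

end Fermat.Agent.S16.B
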