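import Mathlib

/-!
# S16, piece D: the Eisenstein eigen-sequence `σ*(k) = ∑_{d ∣ k, p ∤ d} d`

We prove the Hecke identities
* `σ*(k p) = σ*(k)`,
* `σ*(k ℓ) + [ℓ ∣ k] ℓ σ*(k / ℓ) = (1 + ℓ) σ*(k)` for primes `ℓ ≠ p`.
-/

set_option autoImplicit false

namespace Fermat.Agent.S16.D

open ArithmeticFunction

/-- `σ*(k) = ∑_{d ∣ k, p ∤ d} d`: the `k`-th `q`-coefficient of the weight-2 Eisenstein series of
level `p`. -/
def sigmaStar (p k : ℕ) : ℕ := ∑ d ∈ k.divisors with ¬ p ∣ d, d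

theorem sigmaStar_one {p : ℕ} (hp : p.Prime) : sigmaStar p 1 = 1 := by
  have h : ¬ p ∣ 1 := fun h => hp.one_lt.ne' (Nat.dvd_one.1 h)
  simp [sigmaStar, Finset.filter_singleton, h]

/-- The Hecke identity for `sigma 1`. -/
theorem sigma_hecke {ℓ : ℕ} (hℓ : ℓ.Prime) {m : ℕ} (hm : m ≠ 0) :
    sigma 1 (m * ℓ) + (if ℓ ∣ m then ℓ * sigma 1 (m / ℓ) else 0) = (1 + ℓ) * sigma 1 m := by
  obtain ⟨j, u, hu, rfl⟩ := Nat.exists_eq_pow_mul_and_not_dvd hm ℓ hℓ.one_lt.ne'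
  have hcop : ∀ i : ℕ, Nat.Coprime (ℓ ^ i) u := fun i =>
    Nat.Coprime.pow_left i ((Nat.Prime.coprime_iff_not_dvd hℓ).2 hu)
  have hσ : ∀ i : ℕ, sigma 1 (ℓ ^ i * u) = (∑ t ∈ Finset.range (i + 1), ℓ ^ t) * sigma 1 u := fun i => by
    rw [isMultiplicative_sigma.map_mul_of_coprime (hcop i), sigma_one_apply_prime_pow hℓ]
  have h1 : ℓ ^ j * u * ℓ = ℓ ^ (j + 1) * u := by ring
  rw [h1, hσ, hσ]
  rcases Nat.eq_zero_or_pos j with hj | hj
  · subst hj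
    have hnd : ¬ ℓ ∣ ℓ ^ 0 * u := by simpa using hu
    rw [if_neg hnd]
    simp [Finset.sum_range_succ]
  · obtain ⟨i, rfl⟩ : ∃ i, j = i + 1 := ⟨j - 1, by omega⟩
    have hd : ℓ ∣ ℓ ^ (i + 1) * u := Dvd.dvd.mul_right (dvd_pow_self ℓ (by omega)) u
    rw [if_pos hd]
    have h2 : ℓ ^ (i + 1) * u / ℓ = ℓ ^ i * u := by
      rw [pow_succ, mul_assoc, mul_comm ℓ u, ← mul_assoc]
      exact Nat.mul_div_cancel _ hℓ.pos
    rw [h2, hσ]
    have g1 : ∑ t ∈ Finset.range (i + 1 + 1 + 1), ℓ ^ t =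
        ℓ * ∑ t ∈ Finset.range (i + 1 + 1), ℓ ^ t + 1 := geom_sum_succ
    have g2 : ∑ t ∈ Finset.range (i + 1 + 1), ℓ ^ t =
        ℓ * ∑ t ∈ Finset.range (i + 1), ℓ ^ t + 1 := geom_sum_succ
    generalize ∑ t ∈ Finset.range (i + 1), ℓ ^ t = G0 at g2 ⊢
    generalize ∑ t ∈ Finset.range (i + 1 + 1), ℓ ^ t = G1 at g1 g2 ⊢
    generalize ∑ t ∈ Finset.range (i + 1 + 1 + 1), ℓ ^ t = G2 at g1 ⊢
    subst g1
    subst g2
    ring

/-- `σ*` is `sigma 1` of the prime-to-`p` part. -/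
theorem sigmaStar_eq_sigma {p : ℕ} (hp : p.Prime) {k : ℕ} (hk : k ≠ 0) :
    sigmaStar p k = sigma 1 (k / p ^ k.factorization p) := by
  rw [sigmaStar, sigma_one_apply]
  congr 1
  have hk' : k / p ^ k.factorization p ≠ 0 := by
    intro h
    have := Nat.ordProj_mul_ordCompl_eq_self k p
    rw [h, mul_zero] at this
    exact hk this.symm
  ext d
  simp only [Finset.mem_filter, Nat.mem_divisors]
  constructor
  · rintro ⟨⟨hd, -⟩, hpd⟩
    refine ⟨?_, hk'⟩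
    have h1 : d ∣ p ^ k.factorization p * (k / p ^ k.factorization p) := by
      rw [Nat.ordProj_mul_ordCompl_eq_self]
      exact hd
    have hcop : Nat.Coprime d (p ^ k.factorization p) :=
      Nat.Coprime.pow_right _ ((Nat.Prime.coprime_iff_not_dvd hp).2 hpd).symm
    exact hcop.dvd_of_dvd_mul_left h1
  · rintro ⟨hd, -⟩
    refine ⟨⟨hd.trans (Nat.ordCompl_dvd k p), hk⟩, fun hpd => ?_⟩
    exact Nat.not_dvd_ordCompl hp hk (hpd.trans hd)

theorem sigmaStar_mul_self {p : ℕ} (hp : p.Prime) {k : ℕ} (hk : k ≠ 0) :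
    sigmaStar p (k * p) = sigmaStar p k := by
  rw [sigmaStar_eq_sigma hp (Nat.mul_ne_zero hk hp.ne_zero), sigmaStar_eq_sigma hp hk,
    Nat.ordCompl_mul]
  have h : p / p ^ p.factorization p = 1 := by
    rw [Nat.Prime.factorization_self hp, pow_one, Nat.div_self hp.pos]
  rw [h, mul_one]

theorem sigmaStar_hecke {p ℓ : ℕ} (hp : p.Prime) (hℓ : ℓ.Prime) (hℓp : ℓ ≠ p) {k : ℕ}
    (hk : k ≠ 0) :
    sigmaStar p (k * ℓ) + (if ℓ ∣ k then ℓ * sigmaStar p (k / ℓ) else 0) =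
      (1 + ℓ) * sigmaStar p k := by
  have hk' : k / p ^ k.factorization p ≠ 0 := by
    intro h
    have := Nat.ordProj_mul_ordCompl_eq_self k p
    rw [h, mul_zero] at this
    exact hk this.symm
  have hℓ' : ℓ / p ^ ℓ.factorization p = ℓ := by
    have : ℓ.factorization p = 0 := by
      apply Nat.factorization_eq_zero_of_not_dvd
      intro h
      exact hℓp ((Nat.prime_dvd_prime_iff_eq hp hℓ).1 h).symm
    rw [this, pow_zero, Nat.div_one]
  have hcopℓ : Nat.Coprime ℓ (p ^ k.factorization p) :=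
    Nat.Coprime.pow_right _ ((Nat.coprime_primes hℓ hp).2 hℓp)
  have hdvd_iff : ℓ ∣ k ↔ ℓ ∣ k / p ^ k.factorization p := by
    constructor
    · intro h
      have h1 : ℓ ∣ p ^ k.factorization p * (k / p ^ k.factorization p) := by
        rw [Nat.ordProj_mul_ordCompl_eq_self]
        exact h
      exact hcopℓ.dvd_of_dvd_mul_left h1
    · intro h
      exact h.trans (Nat.ordCompl_dvd k p)
  rw [sigmaStar_eq_sigma hp (Nat.mul_ne_zero hk hℓ.ne_zero), sigmaStar_eq_sigma hp hk,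
    Nat.ordCompl_mul, hℓ', ← sigma_hecke hℓ hk']
  congr 1
  by_cases hd : ℓ ∣ k
  · rw [if_pos hd, if_pos (hdvd_iff.1 hd)]
    have hkℓ : k / ℓ ≠ 0 := by
      intro h
      obtain ⟨c, rfl⟩ := hd
      rw [Nat.mul_div_cancel_left _ hℓ.pos] at h
      subst h
      simp at hk
    rw [sigmaStar_eq_sigma hp hkℓ]
    congr 2
    obtain ⟨c, rfl⟩ := hd
    rw [Nat.mul_div_cancel_left _ hℓ.pos, Nat.ordCompl_mul, hℓ', Nat.mul_div_cancel_left _ hℓ.pos]
  · rw [if_neg hd, if_neg (fun h => hd (hdvd_iff.2 h))]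

end Fermat.Agent.S16.D
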