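import Fermat.Agent.S16.DualityAbstract
import Fermat.Agent.S16.DualitySigma
import Fermat.Agent.S49.QCoeff
import Fermat.Prelude.Def_CuspForm_HeckeLocal
import Fermat.Prelude.Def_CuspForm_HeckeEvalForms
import Fermat.Prelude.Def_HeckeGalois_EichlerShimura
import Fermat.Prelude.Def_ModularCurve_ModularUnit

/-!
# S16, piece D: the concrete reduction `S16 ⇐ (A) ∧ (B)`

We instantiate the abstract duality theorem with the lattice `S₂(Γ₀(p), ℤ)` and the Hecke algebra
acting on it.  The outcome is `s16_of_AB`: the index of the Eisenstein ideal is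
`eisensteinNumerator p` as soon as

* (A) some cusp form `f ∈ S₂(Γ₀(p))` has `a_k(f) ≡ σ*(k) mod eisensteinNumerator p` for all
  `k ≥ 1` (with `a_k(f) ∈ ℤ`), and
* (B) every modulus `M ≥ 1` for which such a cusp form exists divides `eisensteinNumerator p`.
-/

set_option autoImplicit false

namespace Fermat.Agent.S16.D

open CuspForm ModularCurve CongruenceSubgroup ModularFormClass MvPolynomial

/-- `f ≡ E mod M` where `E = ∑ σ*(k) q^k` (coefficients of positive index only; the coefficients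
of `f` are then automatically integers). -/
def CongE (p M : ℕ) (f : CuspForm (Gamma0 p) 2) : Prop :=
  ∀ k : ℕ, 1 ≤ k → ∃ c : ℤ, qCoeff (⇑f) k = (sigmaStar p k : ℂ) + (M : ℂ) * (c : ℂ)

section concrete

variable (p : ℕ)

/-- The lattice `S₂(Γ₀(p), ℤ)`. -/
abbrev Lat : Type := ↥(CuspForm.intLattice p 2)

variable {p}

theorem exists_coeffZ (f : Lat p) (k : ℕ) :
    ∃ m : ℤ, qCoeff (⇑(f : CuspForm (Gamma0 p) 2)) k = (m : ℂ) :=
  (Fermat.Agent.S49.mem_intLattice_iff f.1).mp f.2 k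

/-- The `k`-th coefficient of an element of the lattice, as an integer. -/
noncomputable def coeffZ (f : Lat p) (k : ℕ) : ℤ := (exists_coeffZ f k).choose

theorem coeffZ_spec (f : Lat p) (k : ℕ) :
    ((coeffZ f k : ℤ) : ℂ) = qCoeff (⇑(f : CuspForm (Gamma0 p) 2)) k :=
  ((exists_coeffZ f k).choose_spec).symm

theorem coeffZ_eq_iff (f : Lat p) (k : ℕ) (m : ℤ) :
    coeffZ f k = m ↔ qCoeff (⇑(f : CuspForm (Gamma0 p) 2)) k = (m : ℂ) := by
  rw [← coeffZ_spec]
  exact ⟨fun h => by rw [h], fun h => Int.cast_injective h⟩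

variable (p)

/-- The `k`-th coefficient functional on the lattice. -/
noncomputable def cLin (k : ℕ) : Lat p →ₗ[ℤ] ℤ where
  toFun f := coeffZ f k
  map_add' f g := by
    rw [coeffZ_eq_iff]
    push_cast
    rw [coeffZ_spec, coeffZ_spec]
    exact Fermat.Agent.S49.qCoeff_add f.1 g.1 k
  map_smul' z f := by
    rw [coeffZ_eq_iff]
    simp only [RingHom.id_apply, smul_eq_mul]
    rw [Int.cast_mul, coeffZ_spec]
    have := map_zsmul (Fermat.Agent.S49.qLin p k) z (f : CuspForm (Gamma0 p) 2)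
    rw [Fermat.Agent.S49.qLin_apply, Fermat.Agent.S49.qLin_apply, zsmul_eq_mul] at this
    exact this

variable {p}

theorem cLin_apply (k : ℕ) (f : Lat p) : cLin p k f = coeffZ f k := rfl

theorem cast_cLin (k : ℕ) (f : Lat p) :
    ((cLin p k f : ℤ) : ℂ) = qCoeff (⇑(f : CuspForm (Gamma0 p) 2)) k := coeffZ_spec f k

theorem cLin_eq_zero (f : Lat p) (hf : ∀ k, 1 ≤ k → cLin p k f = 0) : f = 0 := by
  apply Subtype.ext
  apply Fermat.Agent.S49.eq_zero_of_qCoeff
  intro n
  rcases Nat.eq_zero_or_pos n with rfl | hn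
  · exact Fermat.Agent.S49.qCoeff_zero_eq _
  · rw [← cast_cLin, hf n hn, Int.cast_zero]

theorem cLin_sat (f : Lat p) (M : ℕ) (hM : 1 ≤ M) (hf : ∀ k, 1 ≤ k → (M : ℤ) ∣ cLin p k f) :
    ∃ g : Lat p, f = (M : ℤ) • g := by
  have hM0 : (M : ℂ) ≠ 0 := Nat.cast_ne_zero.mpr (by omega)
  have hmem : ((M : ℂ)⁻¹ • (f : CuspForm (Gamma0 p) 2)) ∈ CuspForm.intLattice p 2 := by
    rw [Fermat.Agent.S49.mem_intLattice_iff]
    intro n
    rcases Nat.eq_zero_or_pos n with rfl | hn
    · exact ⟨0, by rw [Fermat.Agent.S49.qCoeff_zero_eq]; simp⟩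
    · obtain ⟨m, hm⟩ := hf n hn
      refine ⟨m, ?_⟩
      rw [Fermat.Agent.S49.qCoeff_smul, ← cast_cLin, hm]
      push_cast
      field_simp
  refine ⟨⟨_, hmem⟩, Subtype.ext ?_⟩
  change (f : CuspForm (Gamma0 p) 2) = (M : ℤ) • ((M : ℂ)⁻¹ • (f : CuspForm (Gamma0 p) 2))
  rw [← Int.cast_smul_eq_zsmul ℂ, smul_smul]
  push_cast
  rw [mul_inv_cancel₀ hM0, one_smul]

end concrete

section hecke

variable (p : ℕ) [NeZero p]

/-- The Hecke algebra acts on the lattice. -/
noncomputable def actHom : ↥(heckeLatticeAlgebra p ∅) →+* Module.End ℤ (Lat p) :=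
  (heckeLatticeAlgebra p ∅).val.toRingHom

theorem actHom_injective : Function.Injective (actHom p) := Subtype.val_injective

/-- The surjection from the abstract Hecke algebra. -/
noncomputable def piHom : MvPolynomial Nat.Primes ℤ →+* ↥(heckeLatticeAlgebra p ∅) :=
  (latticeRestrictHom p ∅).toRingHom.comp (heckeEvalForms p 2)

theorem actHom_latticeRestrictHom (t : heckeAlgebra p 2 ∅) (f : Lat p) :
    ((actHom p (latticeRestrictHom p ∅ t) f : Lat p) : CuspForm (Gamma0 p) 2) = t.1 f.1 := rfl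

theorem heckeEvalForms_surjective (N : ℕ) [NeZero N] (k : ℤ) :
    Function.Surjective (heckeEvalForms N k) := by
  have h1 : (MvPolynomial.aeval (R := ℤ) (heckeFormsGen N k)).range = ⊤ := by
    rw [← Algebra.adjoin_range_eq_range_aeval]
    apply Subalgebra.map_injective (f := (heckeAlgebra N k ∅).val) Subtype.val_injective
    rw [Algebra.map_top, Subalgebra.range_val, AlgHom.map_adjoin, ← Set.range_comp]
    have hr : Set.range (⇑(heckeAlgebra N k ∅).val ∘ heckeFormsGen N k) =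
        heckeGenerators N k ∅ := by
      ext T
      constructor
      · rintro ⟨ℓ, rfl⟩
        by_cases h : (ℓ : ℕ) ∣ N
        · change ((heckeFormsGen N k ℓ : heckeAlgebra N k ∅) :
            Module.End ℂ (CuspForm (Gamma0 N) k)) ∈ _
          rw [heckeFormsGen_of_dvd h]
          exact heckeULin_mem_heckeGenerators ℓ.2 h (Set.notMem_empty _)
        · change ((heckeFormsGen N k ℓ : heckeAlgebra N k ∅) :
            Module.End ℂ (CuspForm (Gamma0 N) k)) ∈ _
          rw [heckeFormsGen_of_not_dvd h]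
          exact heckeTLin_mem_heckeGenerators ℓ.2 h (Set.notMem_empty _)
      · rintro (⟨ℓ, hℓ, hℓN, -, rfl⟩ | ⟨q, hqN, hq, -, rfl⟩)
        · refine ⟨⟨ℓ, hℓ⟩, ?_⟩
          change ((heckeFormsGen N k ⟨ℓ, hℓ⟩ : heckeAlgebra N k ∅) :
            Module.End ℂ (CuspForm (Gamma0 N) k)) = _
          rw [heckeFormsGen_of_not_dvd (ℓ := ⟨ℓ, hℓ⟩) hℓN]
          rfl
        · refine ⟨⟨q, hq⟩, ?_⟩
          change ((heckeFormsGen N k ⟨q, hq⟩ : heckeAlgebra N k ∅) :
            Module.End ℂ (CuspForm (Gamma0 N) k)) = _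
          rw [heckeFormsGen_of_dvd (q := ⟨q, hq⟩) hqN]
          rfl
    rw [hr]
    rfl
  intro t
  have ht : t ∈ (MvPolynomial.aeval (R := ℤ) (heckeFormsGen N k)).range := by
    rw [h1]; exact Algebra.mem_top
  obtain ⟨P, hP⟩ := ht
  exact ⟨P, hP⟩

theorem piHom_surjective : Function.Surjective (piHom p) :=
  (latticeRestrictHom_surjective p ∅).comp (heckeEvalForms_surjective p 2)

end hecke

section main

variable (p : ℕ) [Fact p.Prime]

/-- The coefficient `ε(ℓ)` in the Hecke recursion at level `p`: `ℓ` for `ℓ ≠ p` and `0` for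
`ℓ = p`. -/
def epsFun (p : ℕ) (ℓ : Nat.Primes) : ℤ := if (ℓ : ℕ) = p then 0 else ((ℓ : ℕ) : ℤ)

theorem piHom_X (ℓ : Nat.Primes) :
    piHom p (X ℓ) = latticeRestrictHom p ∅ (heckeEvalForms p 2 (heckeGen ℓ)) := rfl

theorem cLin_hecke (ℓ : Nat.Primes) (k : ℕ) (f : Lat p) :
    cLin p k (actHom p (piHom p (X ℓ)) f) =
      cLin p (k * ℓ) f + (if (ℓ : ℕ) ∣ k then epsFun p ℓ * cLin p (k / ℓ) f else 0) := by
  have hp : p.Prime := Fact.out
  apply Int.cast_injective (α := ℂ)
  rw [cast_cLin, piHom_X, actHom_latticeRestrictHom]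
  by_cases h : (ℓ : ℕ) ∣ p
  · have hℓp : (ℓ : ℕ) = p := (Nat.prime_dvd_prime_iff_eq ℓ.2 hp).mp h
    rw [heckeEvalForms_heckeGen_of_dvd h, heckeAlgebra.coe_U,
      Fermat.Agent.S49.qCoeff_heckeULin ℓ.2 h]
    simp only [epsFun, hℓp, if_true, zero_mul, ite_self, add_zero]
    rw [cast_cLin]
  · have hℓp : (ℓ : ℕ) ≠ p := fun h' => h (h' ▸ dvd_rfl)
    rw [heckeEvalForms_heckeGen_of_not_dvd h, heckeAlgebra.coe_T,
      Fermat.Agent.S49.qCoeff_heckeTLin ℓ.2 h]
    simp only [epsFun, hℓp, if_false]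
    push_cast
    rw [cast_cLin]
    split_ifs
    · rw [cast_cLin]
    · rfl

theorem sigmaStar_eis (ℓ : Nat.Primes) (k : ℕ) (hk : 1 ≤ k) :
    ((sigmaStar p (k * ℓ) : ℕ) : ℤ) +
        (if (ℓ : ℕ) ∣ k then epsFun p ℓ * ((sigmaStar p (k / ℓ) : ℕ) : ℤ) else 0) =
      eisensteinSystem p ℓ * ((sigmaStar p k : ℕ) : ℤ) := by
  have hp : p.Prime := Fact.out
  have hk0 : k ≠ 0 := by omega
  by_cases h : (ℓ : ℕ) ∣ p
  · have hℓp : (ℓ : ℕ) = p := (Nat.prime_dvd_prime_iff_eq ℓ.2 hp).mp h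
    rw [eisensteinSystem_of_dvd h]
    simp only [epsFun, hℓp, if_true, zero_mul, ite_self, add_zero, one_mul]
    rw [sigmaStar_mul_self hp hk0]
  · have hℓp : (ℓ : ℕ) ≠ p := fun h' => h (h' ▸ dvd_rfl)
    rw [eisensteinSystem_of_not_dvd h]
    simp only [epsFun, hℓp, if_false]
    have := sigmaStar_hecke hp ℓ.2 hℓp hk0
    have h2 : ((sigmaStar p (k * ℓ) + (if (ℓ : ℕ) ∣ k then (ℓ : ℕ) * sigmaStar p (k / ℓ) else 0) :
        ℕ) : ℤ) = (((1 + (ℓ : ℕ)) * sigmaStar p k : ℕ) : ℤ) := by rw [this]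
    push_cast at h2
    rw [← h2]

theorem hyp_concrete :
    Hyp (actHom p) (cLin p) (piHom p) (epsFun p) (eisensteinSystem p)
      (fun k => ((sigmaStar p k : ℕ) : ℤ)) where
  act_inj := actHom_injective p
  c_inj := cLin_eq_zero
  c_sat := cLin_sat
  π_surj := piHom_surjective p
  hecke ℓ k f _ := cLin_hecke p ℓ k f
  e_one := by
    have hp : p.Prime := Fact.out
    simp [sigmaStar_one hp]
  e_hecke ℓ k hk := sigmaStar_eis p ℓ k hk

theorem one_le_eisensteinNumerator : 1 ≤ eisensteinNumerator p := by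
  have hp : p.Prime := Fact.out
  have h1 : 0 < p - 1 := Nat.sub_pos_of_lt hp.one_lt
  unfold eisensteinNumerator
  exact Nat.div_pos (Nat.le_of_dvd h1 (Nat.gcd_dvd_left _ _)) (Nat.gcd_pos_of_pos_left _ h1)

omit [Fact p.Prime] in
theorem CongE.intCoeff {M : ℕ} {f : CuspForm (Gamma0 p) 2} (hf : CongE p M f) :
    f ∈ CuspForm.intLattice p 2 := by
  rw [Fermat.Agent.S49.mem_intLattice_iff]
  intro n
  rcases Nat.eq_zero_or_pos n with rfl | hn
  · exact ⟨0, by rw [Fermat.Agent.S49.qCoeff_zero_eq]; simp⟩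
  · obtain ⟨c, hc⟩ := hf n hn
    exact ⟨sigmaStar p n + M * c, by rw [hc]; push_cast; ring⟩

omit [Fact p.Prime] in
theorem congE_iff_cLin {M : ℕ} (f : Lat p) :
    CongE p M (f : CuspForm (Gamma0 p) 2) ↔
      ∀ k, 1 ≤ k → (M : ℤ) ∣ cLin p k f - ((sigmaStar p k : ℕ) : ℤ) := by
  constructor
  · intro hf k hk
    obtain ⟨c, hc⟩ := hf k hk
    refine ⟨c, ?_⟩
    apply Int.cast_injective (α := ℂ)
    push_cast
    rw [cast_cLin, hc]
    ring
  · intro hf k hk
    obtain ⟨c, hc⟩ := hf k hk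
    refine ⟨c, ?_⟩
    rw [← cast_cLin]
    have : cLin p k f = ((sigmaStar p k : ℕ) : ℤ) + (M : ℤ) * c := by rw [← hc]; ring
    rw [this]
    push_cast
    ring

/-- **S16 from (A) and (B).**  The index of the Eisenstein ideal in the Hecke algebra of level `p`
is `eisensteinNumerator p`, provided that (A) some cusp form is congruent to the Eisenstein series
modulo `eisensteinNumerator p` and (B) every modulus of such a congruence divides
`eisensteinNumerator p`. -/
theorem s16_of_AB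
    (hA : ∃ f : CuspForm (Gamma0 p) 2, CongE p (eisensteinNumerator p) f)
    (hB : ∀ M : ℕ, 1 ≤ M → ∀ f : CuspForm (Gamma0 p) 2, CongE p M f →
      M ∣ eisensteinNumerator p) :
    Nat.card (↥(heckeLatticeAlgebra p ∅) ⧸
        Ideal.map ((latticeRestrictHom p ∅).toRingHom.comp (heckeEvalForms p 2))
          (eisensteinIdeal p)) =
      eisensteinNumerator p := by
  have := intLattice.moduleFinite p
  have := intLattice.moduleFree p
  refine card_quotient_eq (hyp_concrete p) (eisensteinNumerator p)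
    (one_le_eisensteinNumerator p) ?_ ?_
  · obtain ⟨f, hf⟩ := hA
    exact ⟨⟨f, hf.intCoeff p⟩, (congE_iff_cLin p ⟨f, hf.intCoeff p⟩).mp hf⟩
  · intro M hM f hf
    exact hB M hM f ((congE_iff_cLin p f).mpr hf)

end main

end Fermat.Agent.S16.D
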