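import Mathlib

/-!
# S16, Lemma O (part 1): 2-integral algebraic numbers and leading terms mod 2

`O2 = {α ∈ ℂ : m α is an algebraic integer for some odd m}` is a subring of `ℂ` in which `2` is
not a unit.  For power series with coefficients in `O2` we track the first coefficient that is
a unit mod `2`.
-/

noncomputable section

namespace Fermat.Agent.S16

/-- the ring of 2-integral algebraic numbers -/
def O2 : Subring ℂ where
  carrier := {α | ∃ m : ℕ, Odd m ∧ IsIntegral ℤ ((m : ℂ) * α)}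
  mul_mem' := by
    rintro a b ⟨m, hm, ha⟩ ⟨n, hn, hb⟩
    refine ⟨m * n, hm.mul hn, ?_⟩
    have : ((m * n : ℕ) : ℂ) * (a * b) = ((m : ℂ) * a) * ((n : ℂ) * b) := by push_cast; ring
    rw [this]
    exact ha.mul hb
  one_mem' := ⟨1, odd_one, by simpa using isIntegral_one⟩
  add_mem' := by
    rintro a b ⟨m, hm, ha⟩ ⟨n, hn, hb⟩
    refine ⟨m * n, hm.mul hn, ?_⟩
    have : ((m * n : ℕ) : ℂ) * (a + b) = (n : ℂ) * ((m : ℂ) * a) + (m : ℂ) * ((n : ℂ) * b) := by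
      push_cast; ring
    rw [this]
    have hn' : IsIntegral ℤ ((n : ℕ) : ℂ) := by
      have := isIntegral_algebraMap (R := ℤ) (A := ℂ) (x := (n : ℤ))
      simpa using this
    have hm' : IsIntegral ℤ ((m : ℕ) : ℂ) := by
      have := isIntegral_algebraMap (R := ℤ) (A := ℂ) (x := (m : ℤ))
      simpa using this
    exact (hn'.mul ha).add (hm'.mul hb)
  zero_mem' := ⟨1, odd_one, by simpa using isIntegral_zero⟩
  neg_mem' := by
    rintro a ⟨m, hm, ha⟩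
    refine ⟨m, hm, ?_⟩
    rw [mul_neg]
    exact ha.neg

theorem mem_O2_iff {α : ℂ} : α ∈ O2 ↔ ∃ m : ℕ, Odd m ∧ IsIntegral ℤ ((m : ℂ) * α) := Iff.rfl

theorem mem_O2_of_isIntegral {α : ℂ} (h : IsIntegral ℤ α) : α ∈ O2 :=
  ⟨1, odd_one, by simpa using h⟩

theorem intCast_mem_O2 (n : ℤ) : (n : ℂ) ∈ O2 := intCast_mem O2 n

theorem natCast_mem_O2 (n : ℕ) : (n : ℂ) ∈ O2 := natCast_mem O2 n

theorem inv_natCast_mem_O2 {m : ℕ} (hm : Odd m) : ((m : ℂ))⁻¹ ∈ O2 := by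
  refine ⟨m, hm, ?_⟩
  have hm0 : (m : ℂ) ≠ 0 := by
    have : m ≠ 0 := by rintro rfl; simp at hm
    exact_mod_cast this
  rw [mul_inv_cancel₀ hm0]
  exact isIntegral_one

theorem half_not_mem_O2 : ((2 : ℂ))⁻¹ ∉ O2 := by
  rintro ⟨m, hm, h⟩
  have h1 : ((m : ℂ) * (2 : ℂ)⁻¹) = algebraMap ℚ ℂ ((m : ℚ) / 2) := by
    simp [div_eq_mul_inv]
  rw [h1, isIntegral_algebraMap_iff (algebraMap ℚ ℂ).injective] at h
  obtain ⟨k, hk⟩ := IsIntegrallyClosed.isIntegral_iff.mp h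
  have h2 : (m : ℚ) = 2 * (k : ℚ) := by
    have : (algebraMap ℤ ℚ k) = (k : ℚ) := rfl
    rw [this] at hk
    linarith
  have h3 : (m : ℤ) = 2 * k := by exact_mod_cast h2
  have h4 : Even (m : ℤ) := ⟨k, by rw [h3]; ring⟩
  have h5 : Odd (m : ℤ) := by exact_mod_cast hm
  exact (Int.not_even_iff_odd.mpr h5) h4

/-- `x ∈ 2 · O2` -/
def Even2 (x : ℂ) : Prop := ∃ y ∈ O2, x = 2 * y

theorem Even2.mem {x : ℂ} (h : Even2 x) : x ∈ O2 := by
  obtain ⟨y, hy, rfl⟩ := h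
  exact O2.mul_mem (by simpa using natCast_mem_O2 2) hy

theorem even2_zero : Even2 0 := ⟨0, O2.zero_mem, by simp⟩

theorem Even2.add {x y : ℂ} (hx : Even2 x) (hy : Even2 y) : Even2 (x + y) := by
  obtain ⟨a, ha, rfl⟩ := hx
  obtain ⟨b, hb, rfl⟩ := hy
  exact ⟨a + b, O2.add_mem ha hb, by ring⟩

theorem Even2.neg {x : ℂ} (hx : Even2 x) : Even2 (-x) := by
  obtain ⟨a, ha, rfl⟩ := hx
  exact ⟨-a, O2.neg_mem ha, by ring⟩

theorem Even2.sub {x y : ℂ} (hx : Even2 x) (hy : Even2 y) : Even2 (x - y) := by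
  rw [sub_eq_add_neg]
  exact hx.add hy.neg

theorem Even2.mul_left {x : ℂ} (hx : Even2 x) {y : ℂ} (hy : y ∈ O2) : Even2 (y * x) := by
  obtain ⟨a, ha, rfl⟩ := hx
  exact ⟨y * a, O2.mul_mem hy ha, by ring⟩

theorem Even2.mul_right {x : ℂ} (hx : Even2 x) {y : ℂ} (hy : y ∈ O2) : Even2 (x * y) := by
  rw [mul_comm]
  exact hx.mul_left hy

theorem even2_two_mul {y : ℂ} (hy : y ∈ O2) : Even2 (2 * y) := ⟨y, hy, rfl⟩

theorem Even2.sum {ι : Type*} (s : Finset ι) (f : ι → ℂ) (h : ∀ i ∈ s, Even2 (f i)) :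
    Even2 (∑ i ∈ s, f i) := by
  classical
  induction s using Finset.induction_on with
  | empty => simpa using even2_zero
  | insert a s ha ih =>
    rw [Finset.sum_insert ha]
    exact (h a (Finset.mem_insert_self a s)).add
      (ih fun i hi ↦ h i (Finset.mem_insert_of_mem hi))

theorem not_even2_one : ¬ Even2 1 := by
  rintro ⟨y, hy, h⟩
  apply half_not_mem_O2
  have : (2 : ℂ)⁻¹ = y := by
    field_simp
    linear_combination h
  rw [this]
  exact hy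

/-- `x` is a unit modulo `2` in `O2` -/
def Unit2 (x : ℂ) : Prop := x ∈ O2 ∧ ∃ v ∈ O2, Even2 (v * x - 1)

theorem Unit2.not_even2 {x : ℂ} (h : Unit2 x) : ¬ Even2 x := by
  rintro hx
  obtain ⟨-, v, hv, hvx⟩ := h
  apply not_even2_one
  have := (hx.mul_left hv).sub hvx
  simpa using this

theorem Unit2.mul {x y : ℂ} (hx : Unit2 x) (hy : Unit2 y) : Unit2 (x * y) := by
  obtain ⟨hx0, v, hv, hvx⟩ := hx
  obtain ⟨hy0, w, hw, hwy⟩ := hy
  refine ⟨O2.mul_mem hx0 hy0, v * w, O2.mul_mem hv hw, ?_⟩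
  have : v * w * (x * y) - 1 = (v * x - 1) * (w * y) + (w * y - 1) := by ring
  rw [this]
  exact (hvx.mul_right (O2.mul_mem hw hy0)).add hwy

theorem Unit2.add_even2 {x y : ℂ} (hx : Unit2 x) (hy : Even2 y) : Unit2 (x + y) := by
  obtain ⟨hx0, v, hv, hvx⟩ := hx
  refine ⟨O2.add_mem hx0 hy.mem, v, hv, ?_⟩
  have : v * (x + y) - 1 = (v * x - 1) + v * y := by ring
  rw [this]
  exact hvx.add (hy.mul_left hv)

theorem unit2_one : Unit2 1 := ⟨O2.one_mem, 1, O2.one_mem, by simpa using even2_zero⟩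

theorem unit2_of_mul_eq_one {x y : ℂ} (hx : x ∈ O2) (hy : y ∈ O2) (h : y * x = 1) : Unit2 x :=
  ⟨hx, y, hy, by rw [h, sub_self]; exact even2_zero⟩

end Fermat.Agent.S16
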