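import Mathlib
import Fermat.Agent.S16.TwoInt

/-!
# S16, Lemma O (part 2): leading terms mod 2 of power series with 2-integral coefficients
-/

open PowerSeries

noncomputable section

namespace Fermat.Agent.S16

/-- `F` has coefficients in `O2`, its coefficients below `m` are even and the coefficient at `m`
is a unit mod `2`. -/
def LeadsAt (F : PowerSeries ℂ) (m : ℕ) : Prop :=
  (∀ n, coeff n F ∈ O2) ∧ (∀ n < m, Even2 (coeff n F)) ∧ Unit2 (coeff m F)

theorem leadsAt_one : LeadsAt 1 0 := by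
  refine ⟨fun n ↦ ?_, fun n hn ↦ absurd hn (Nat.not_lt_zero n), ?_⟩
  · rw [coeff_one]
    split_ifs
    · exact O2.one_mem
    · exact O2.zero_mem
  · simpa using unit2_one

theorem LeadsAt.mul {F G : PowerSeries ℂ} {m m' : ℕ} (hF : LeadsAt F m) (hG : LeadsAt G m') :
    LeadsAt (F * G) (m + m') := by
  obtain ⟨hF0, hF1, hF2⟩ := hF
  obtain ⟨hG0, hG1, hG2⟩ := hG
  have hterm : ∀ i j : ℕ, (i < m ∨ j < m') → Even2 (coeff i F * coeff j G) := by
    rintro i j (h | h)
    · exact (hF1 i h).mul_right (hG0 j)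
    · exact (hG1 j h).mul_left (hF0 i)
  refine ⟨fun n ↦ ?_, fun n hn ↦ ?_, ?_⟩
  · rw [coeff_mul]
    exact O2.sum_mem fun x _ ↦ O2.mul_mem (hF0 _) (hG0 _)
  · rw [coeff_mul]
    refine Even2.sum _ _ fun x hx ↦ hterm _ _ ?_
    have := Finset.HasAntidiagonal.mem_antidiagonal.mp hx
    omega
  · rw [coeff_mul]
    have hmem : (m, m') ∈ Finset.HasAntidiagonal.antidiagonal (m + m') := Finset.HasAntidiagonal.mem_antidiagonal.mpr rfl
    rw [← Finset.add_sum_erase _ _ hmem]
    refine (hF2.mul hG2).add_even2 (Even2.sum _ _ fun x hx ↦ hterm _ _ ?_)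
    have hx1 := Finset.HasAntidiagonal.mem_antidiagonal.mp (Finset.mem_of_mem_erase hx)
    have hx2 := Finset.ne_of_mem_erase hx
    by_contra hcon
    rw [not_or, not_lt, not_lt] at hcon
    apply hx2
    have h1 : x.1 = m := by omega
    have h2 : x.2 = m' := by omega
    exact Prod.ext h1 h2

theorem LeadsAt.prod {ι : Type*} (s : Finset ι) (F : ι → PowerSeries ℂ) (m : ι → ℕ)
    (h : ∀ i ∈ s, LeadsAt (F i) (m i)) : LeadsAt (∏ i ∈ s, F i) (∑ i ∈ s, m i) := by
  classical
  induction s using Finset.induction_on with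
  | empty => simpa using leadsAt_one
  | insert a s ha ih =>
    rw [Finset.prod_insert ha, Finset.sum_insert ha]
    exact (h a (Finset.mem_insert_self a s)).mul
      (ih fun i hi ↦ h i (Finset.mem_insert_of_mem hi))

theorem LeadsAt.not_even2 {F : PowerSeries ℂ} {m : ℕ} (hF : LeadsAt F m) :
    ¬ Even2 (coeff m F) := hF.2.2.not_even2

/-- leading position is unique -/
theorem LeadsAt.unique {F : PowerSeries ℂ} {m m' : ℕ} (hF : LeadsAt F m) (hF' : LeadsAt F m') :
    m = m' := by
  rcases lt_trichotomy m m' with h | h | h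
  · exact absurd (hF'.2.1 m h) hF.not_even2
  · exact h
  · exact absurd (hF.2.1 m' h) hF'.not_even2

end Fermat.Agent.S16
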