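import Mathlib
import Fermat.Prelude.Def_ModularForm_HeckeOperator
import Fermat.Agent.S16.Coset

/-!
# S16, tool T1 (part 1): the trace of a weight-2 form of prime level `P` to level one vanishes

For `f` holomorphic, `Γ₀(P)`-invariant of weight 2 and bounded at all cusps,
`f + ∑_{j mod P} f ∣ S T^j = 0`.
-/

open UpperHalfPlane ModularForm CongruenceSubgroup Matrix.SpecialLinearGroup ModularGroup
open scoped MatrixGroups ModularForm Manifold

noncomputable section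

namespace Fermat.Agent.S16

/-- `f` is (the function of) a modular form of weight `2` on `Γ₀(P)`. -/
structure IsMF2 (P : ℕ) (f : ℍ → ℂ) : Prop where
  holo : MDiff f
  inv : ∀ γ ∈ Gamma0 P, f ∣[(2 : ℤ)] γ = f
  bdd : ∀ g : SL(2, ℤ), IsBoundedAtImInfty (f ∣[(2 : ℤ)] g)

theorem IsMF2.of_modularForm {P : ℕ} [NeZero P] (X : ModularForm (Gamma0 P) 2) : IsMF2 P X where
  holo := X.holo'
  inv := fun γ hγ ↦ by
    rw [ModularForm.SL_slash]
    exact X.slash_action_eq' _ ⟨γ, hγ, rfl⟩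
  bdd := fun g ↦ ModularFormClass.bdd_at_infty_slash X g

/-- the modular form attached to an `IsMF2` function -/
def IsMF2.toModularForm {P : ℕ} [NeZero P] {f : ℍ → ℂ} (hf : IsMF2 P f) :
    ModularForm (Gamma0 P) 2 where
  toFun := f
  slash_action_eq' := by
    rintro A ⟨g, hg, rfl⟩
    exact hf.inv g hg
  holo' := hf.holo
  bdd_at_cusps' := by
    intro c hc
    rw [Subgroup.IsArithmetic.isCusp_iff_isCusp_SL2Z] at hc
    rw [OnePoint.isBoundedAt_iff_forall_SL2Z hc]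
    intro γ _
    exact hf.bdd γ

@[simp] theorem IsMF2.coe_toModularForm {P : ℕ} [NeZero P] {f : ℍ → ℂ} (hf : IsMF2 P f) :
    ⇑hf.toModularForm = f := rfl

/-- the translate `f ∣ S T^j` -/
def stSlash (f : ℍ → ℂ) (j : ℤ) : ℍ → ℂ := f ∣[(2 : ℤ)] (S * T ^ j)

variable {P : ℕ} {f : ℍ → ℂ}

theorem slash_eq_stSlash (hf : ∀ γ ∈ Gamma0 P, f ∣[(2 : ℤ)] γ = f) (g : SL(2, ℤ)) (j : ℤ)
    (h : (P : ℤ) ∣ g 1 1 - g 1 0 * j) : f ∣[(2 : ℤ)] g = stSlash f j := by
  obtain ⟨γ₀, hγ₀, rfl⟩ := exists_mem_Gamma0_mul_S_T P g j h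
  rw [SlashAction.slash_mul, hf γ₀ hγ₀, stSlash]

theorem stSlash_congr (hf : ∀ γ ∈ Gamma0 P, f ∣[(2 : ℤ)] γ = f) (i j : ℤ)
    (h : (P : ℤ) ∣ i - j) : stSlash f i = stSlash f j := by
  rw [stSlash, slash_eq_stSlash hf (S * T ^ i) j]
  rw [coe_S_mul_T_zpow]
  simpa using h

theorem stSlash_slash_T (f : ℍ → ℂ) (j : ℤ) :
    stSlash f j ∣[(2 : ℤ)] T = stSlash f (j + 1) := by
  rw [stSlash, stSlash, ← SlashAction.slash_mul, mul_assoc, zpow_add_one]

theorem T_mem_Gamma0 (P : ℕ) : T ∈ Gamma0 P := by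
  rw [Gamma0_mem, coe_T]
  simp

theorem S_mul_S_mem_Gamma0 (P : ℕ) : S * S ∈ Gamma0 P := by
  rw [Gamma0_mem, Matrix.SpecialLinearGroup.coe_mul, coe_S]
  simp [Matrix.mul_apply, Fin.sum_univ_two]

/-- the trace function `f + ∑_{j mod P} f ∣ S T^j` -/
def trFun (P : ℕ) [NeZero P] (f : ℍ → ℂ) : ℍ → ℂ := f + ∑ j : ZMod P, stSlash f (j.val : ℤ)

theorem sum_slash' {ι : Type*} (s : Finset ι) (F : ι → ℍ → ℂ) (g : SL(2, ℤ)) :
    (∑ i ∈ s, F i) ∣[(2 : ℤ)] g = ∑ i ∈ s, (F i) ∣[(2 : ℤ)] g := by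
  classical
  induction s using Finset.induction_on with
  | empty => simp
  | insert a s ha ih => rw [Finset.sum_insert ha, Finset.sum_insert ha, SlashAction.add_slash, ih]

theorem trFun_slash_T [NeZero P] (hf : ∀ γ ∈ Gamma0 P, f ∣[(2 : ℤ)] γ = f) :
    trFun P f ∣[(2 : ℤ)] T = trFun P f := by
  rw [trFun, SlashAction.add_slash, hf T (T_mem_Gamma0 P), sum_slash']
  congr 1
  have h1 : ∀ j : ZMod P, stSlash f (j.val : ℤ) ∣[(2 : ℤ)] T = stSlash f (((j + 1).val : ℕ) : ℤ) := by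
    intro j
    rw [stSlash_slash_T]
    apply stSlash_congr hf
    rw [← ZMod.intCast_zmod_eq_zero_iff_dvd]
    push_cast
    simp
  rw [Finset.sum_congr rfl (fun j _ ↦ h1 j)]
  exact Equiv.sum_comp (Equiv.addRight (1 : ZMod P)) (fun j ↦ stSlash f ((j.val : ℕ) : ℤ))

theorem stSlash_zero (f : ℍ → ℂ) : stSlash f 0 = f ∣[(2 : ℤ)] S := by
  rw [stSlash, zpow_zero, mul_one]

theorem stSlash_zero_slash_S (hf : ∀ γ ∈ Gamma0 P, f ∣[(2 : ℤ)] γ = f) :
    stSlash f 0 ∣[(2 : ℤ)] S = f := by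
  rw [stSlash_zero, ← SlashAction.slash_mul, hf _ (S_mul_S_mem_Gamma0 P)]

theorem stSlash_slash_S [hP : Fact P.Prime] (hf : ∀ γ ∈ Gamma0 P, f ∣[(2 : ℤ)] γ = f)
    (j : ZMod P) (hj : j ≠ 0) :
    stSlash f (j.val : ℤ) ∣[(2 : ℤ)] S = stSlash f (((-j⁻¹ : ZMod P).val : ℕ) : ℤ) := by
  rw [stSlash, ← SlashAction.slash_mul]
  apply slash_eq_stSlash hf
  have hmat : ((S * T ^ ((j.val : ℕ) : ℤ) * S : SL(2, ℤ)) : Matrix (Fin 2) (Fin 2) ℤ) =
      !![-1, 0; (j.val : ℤ), -1] := by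
    rw [Matrix.SpecialLinearGroup.coe_mul, coe_S_mul_T_zpow, coe_S]
    ext i k
    fin_cases i <;> fin_cases k <;> simp [Matrix.mul_apply, Fin.sum_univ_two]
  rw [hmat, ← ZMod.intCast_zmod_eq_zero_iff_dvd]
  push_cast
  simp only [Matrix.of_apply, Matrix.cons_val_one, Matrix.cons_val_zero, ZMod.natCast_zmod_val]
  simp only [Int.cast_neg, Int.cast_one, Int.cast_natCast, ZMod.natCast_zmod_val]
  field_simp
  ring

theorem trFun_slash_S [hP : Fact P.Prime] (hf : ∀ γ ∈ Gamma0 P, f ∣[(2 : ℤ)] γ = f) :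
    haveI : NeZero P := ⟨hP.out.ne_zero⟩
    trFun P f ∣[(2 : ℤ)] S = trFun P f := by
  have : NeZero P := ⟨hP.out.ne_zero⟩
  classical
  rw [trFun, SlashAction.add_slash, sum_slash']
  set a : ZMod P → (ℍ → ℂ) := fun j ↦ stSlash f ((j.val : ℕ) : ℤ) with ha
  have hinv : Function.Involutive (fun j : ZMod P ↦ -j⁻¹) := by
    intro j
    simp
  have h1 : ∀ j : ZMod P, a j ∣[(2 : ℤ)] S =
      a (Function.Involutive.toPerm _ hinv j) + (if j = 0 then f - a 0 else 0) := by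
    intro j
    by_cases hj : j = 0
    · subst hj
      simp only [ha, if_true, Function.Involutive.coe_toPerm, inv_zero, neg_zero, ZMod.val_zero,
        Nat.cast_zero]
      rw [stSlash_zero_slash_S hf]
      abel
    · simp only [if_neg hj, add_zero, ha, Function.Involutive.coe_toPerm]
      exact stSlash_slash_S hf j hj
  have h2 : ∑ j : ZMod P, a j ∣[(2 : ℤ)] S = ∑ j : ZMod P, a j + (f - a 0) := by
    rw [Finset.sum_congr rfl (fun j _ ↦ h1 j), Finset.sum_add_distrib,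
      Equiv.sum_comp (Function.Involutive.toPerm _ hinv) a, Finset.sum_ite_eq']
    simp
  have h3 : f ∣[(2 : ℤ)] S = a 0 := by
    simp only [ha, ZMod.val_zero, Nat.cast_zero]
    exact (stSlash_zero f).symm
  rw [h2, h3]
  abel

theorem mdiff_SL_slash (hf : MDiff f) (g : SL(2, ℤ)) : MDiff (f ∣[(2 : ℤ)] g) := by
  rw [ModularForm.SL_slash]
  exact hf.slash 2 _

theorem mdiff_trFun [NeZero P] (hf : MDiff f) : MDiff (trFun P f) := by
  refine hf.add ?_
  exact MDifferentiable.sum (fun j _ ↦ mdiff_SL_slash hf _)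

theorem isBoundedAtImInfty_trFun [NeZero P] (hf : IsMF2 P f) :
    IsBoundedAtImInfty (trFun P f) := by
  have h0 : IsBoundedAtImInfty f := by
    have := hf.bdd 1
    rwa [SlashAction.slash_one] at this
  have h1 : ∀ s : Finset (ZMod P),
      IsBoundedAtImInfty (∑ j ∈ s, stSlash f ((j.val : ℕ) : ℤ)) := by
    classical
    intro s
    induction s using Finset.induction_on with
    | empty => simpa using zero_form_isBoundedAtImInfty
    | insert a s ha ih =>
      rw [Finset.sum_insert ha]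
      exact (hf.bdd _).add ih
  exact h0.add (h1 _)

/-- the trace to level one, as a modular form -/
def trMF [hP : Fact P.Prime] (hf : IsMF2 P f) : ModularForm 𝒮ℒ 2 where
  toFun := haveI : NeZero P := ⟨hP.out.ne_zero⟩; trFun P f
  slash_action_eq' := by
    haveI : NeZero P := ⟨hP.out.ne_zero⟩
    rintro A ⟨g, rfl⟩
    exact SlashInvariantForm.slash_action_generators_SL2Z (trFun_slash_S hf.inv)
      (trFun_slash_T hf.inv) g
  holo' := by
    haveI : NeZero P := ⟨hP.out.ne_zero⟩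
    exact mdiff_trFun hf.holo
  bdd_at_cusps' := by
    haveI : NeZero P := ⟨hP.out.ne_zero⟩
    intro c hc
    rw [OnePoint.isBoundedAt_iff_forall_SL2Z hc]
    intro γ _
    rw [SlashInvariantForm.slash_action_generators_SL2Z (trFun_slash_S hf.inv)
      (trFun_slash_T hf.inv) γ]
    exact isBoundedAtImInfty_trFun hf

theorem trFun_eq_zero [hP : Fact P.Prime] (hf : IsMF2 P f) :
    haveI : NeZero P := ⟨hP.out.ne_zero⟩
    trFun P f = 0 := by
  have h := ModularForm.levelOne_weight_two_rank_zero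
  rw [rank_zero_iff] at h
  have h2 : trMF hf = 0 := Subsingleton.elim _ _
  have h3 := congrArg (fun F : ModularForm 𝒮ℒ 2 ↦ (F : ℍ → ℂ)) h2
  exact h3

end Fermat.Agent.S16
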