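import Mathlib
import Fermat.Prelude.Def_ModularForm_HeckeOperator
import Fermat.Agent.S16.Trace
import Fermat.Agent.S16.EisMF

/-!
# S16, tool T1 (part 2): the Fricke involution and `U_P` in weight 2, prime level `P`

For `f` a weight-2 modular form (function) on `Γ₀(P)`:
* `fricke P f = (f ∣ S) ∣ diag(P,1)` is again one, and `fricke P (fricke P f) = f`;
* **T1**: `fricke P f = − U_P f`, `f ∣ S = − (U_P f) ∣ [[1,0],[0,P]]`,
  `f ∣ S T^j = − (U_P f) ∣ [[1,j],[0,P]]`.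
-/

open UpperHalfPlane ModularForm CongruenceSubgroup Matrix.SpecialLinearGroup ModularGroup
open scoped MatrixGroups ModularForm Manifold

noncomputable section

namespace Fermat.Agent.S16

/-- the Fricke involution in weight 2 -/
def fricke (P : ℕ) (f : ℍ → ℂ) : ℍ → ℂ := (f ∣[(2 : ℤ)] S) ∣[(2 : ℤ)] heckeDiagMatrix P

variable {P : ℕ} {f : ℍ → ℂ}

theorem denom_T_zpow (j : ℤ) (z : ℍ) : denom ((T ^ j : SL(2, ℤ)) : GL (Fin 2) ℝ) z = 1 := by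
  rw [ModularGroup.denom_apply, coe_T_zpow]
  simp

theorem SL_slash_T_zpow_apply (g : ℍ → ℂ) (j : ℤ) (z : ℍ) :
    (g ∣[(2 : ℤ)] (T ^ j : SL(2, ℤ))) z = g (T ^ j • z) := by
  rw [ModularForm.SL_slash_apply, denom_T_zpow]
  simp

theorem stSlash_apply (f : ℍ → ℂ) (j : ℤ) (z : ℍ) :
    stSlash f j z = (f ∣[(2 : ℤ)] S) (T ^ j • z) := by
  rw [stSlash, SlashAction.slash_mul, SL_slash_T_zpow_apply]

theorem heckeDiag_smul_heckeMatrix_smul (hP : P ≠ 0) (j : ℕ) (z : ℍ) :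
    heckeDiagMatrix P • (heckeMatrix P j • z) = T ^ (j : ℤ) • z := by
  apply UpperHalfPlane.ext
  have hP' : (P : ℂ) ≠ 0 := by exact_mod_cast hP
  rw [coe_heckeDiagMatrix_smul hP, coe_heckeMatrix_smul hP, coe_T_zpow_smul_eq]
  push_cast
  field_simp

theorem heckeMatrix_smul_heckeDiag_smul (hP : P ≠ 0) (z : ℍ) :
    heckeMatrix P 0 • (heckeDiagMatrix P • z) = z := by
  apply UpperHalfPlane.ext
  have hP' : (P : ℂ) ≠ 0 := by exact_mod_cast hP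
  rw [coe_heckeMatrix_smul hP, coe_heckeDiagMatrix_smul hP]
  push_cast
  field_simp
  simp

theorem fricke_slash_heckeMatrix (hP : P ≠ 0) (f : ℍ → ℂ) (j : ℕ) :
    (fricke P f) ∣[(2 : ℤ)] heckeMatrix P j = stSlash f j := by
  ext z
  have hP' : (P : ℂ) ≠ 0 := by exact_mod_cast hP
  rw [slash_heckeMatrix_apply 2 hP, fricke, slash_heckeDiagMatrix_apply 2 hP,
    heckeDiag_smul_heckeMatrix_smul hP, stSlash_apply]
  norm_num
  field_simp

theorem heckeU_fricke (hP : P ≠ 0) (f : ℍ → ℂ) :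
    heckeU 2 P (fricke P f) = ∑ j ∈ Finset.range P, stSlash f (j : ℤ) := by
  rw [heckeU]
  exact Finset.sum_congr rfl (fun j _ ↦ fricke_slash_heckeMatrix hP f j)

theorem sum_zmod_val_eq_sum_range [NeZero P] {M : Type*} [AddCommMonoid M] (g : ℕ → M) :
    ∑ j : ZMod P, g j.val = ∑ i ∈ Finset.range P, g i := by
  symm
  refine Finset.sum_bij (fun i _ ↦ ((i : ℕ) : ZMod P)) (fun _ _ ↦ Finset.mem_univ _) ?_ ?_ ?_
  · intro a ha b hb hab
    have ha' := Finset.mem_range.mp ha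
    have hb' := Finset.mem_range.mp hb
    have := congrArg ZMod.val hab
    rwa [ZMod.val_natCast_of_lt ha', ZMod.val_natCast_of_lt hb'] at this
  · intro b _
    exact ⟨b.val, Finset.mem_range.mpr (ZMod.val_lt b), ZMod.natCast_zmod_val b⟩
  · intro a ha
    rw [ZMod.val_natCast_of_lt (Finset.mem_range.mp ha)]

/-- **T1a**: `f + U_P (f ∣ W) = 0`. -/
theorem add_heckeU_fricke [hP : Fact P.Prime] (hf : IsMF2 P f) :
    f + heckeU 2 P (fricke P f) = 0 := by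
  haveI : NeZero P := ⟨hP.out.ne_zero⟩
  have h := trFun_eq_zero hf
  rw [trFun] at h
  rw [heckeU_fricke hP.out.ne_zero, ← sum_zmod_val_eq_sum_range (fun i ↦ stSlash f (i : ℤ))]
  exact h

/-- conjugate of `γ ∈ Γ₀(P)` by the Fricke matrix: `[[d, −c/P],[−P b, a]]`. -/
def frickeConj (P : ℕ) (γ : SL(2, ℤ)) (h : γ ∈ Gamma0 P) : SL(2, ℤ) :=
  ⟨!![γ 1 1, -(γ 1 0 / P); -(P * γ 0 1), γ 0 0], by
    have key := conjDiag_mul_div γ h
    have hdet := γ.det_coe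
    rw [Matrix.det_fin_two] at hdet
    rw [Matrix.det_fin_two_of]
    have : -(γ 1 0 / (P : ℤ)) * -((P : ℤ) * γ 0 1) = γ 0 1 * ((P : ℤ) * (γ 1 0 / P)) := by ring
    rw [this, key]
    linarith⟩

theorem frickeConj_mem (γ : SL(2, ℤ)) (h : γ ∈ Gamma0 P) : frickeConj P γ h ∈ Gamma0 P := by
  rw [Gamma0_mem]
  simp [frickeConj]

theorem coe_GL_apply (g : SL(2, ℤ)) (a b : Fin 2) :
    ((g : GL (Fin 2) ℝ) : Matrix (Fin 2) (Fin 2) ℝ) a b = ((g a b : ℤ) : ℝ) := rfl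

theorem S_heckeDiag_mul_eq (hP : P ≠ 0) (γ : SL(2, ℤ)) (h : γ ∈ Gamma0 P) :
    ((S : SL(2, ℤ)) : GL (Fin 2) ℝ) * (heckeDiagMatrix P * (γ : GL (Fin 2) ℝ)) =
      ((frickeConj P γ h : SL(2, ℤ)) : GL (Fin 2) ℝ) * (((S : SL(2, ℤ)) : GL (Fin 2) ℝ) *
        heckeDiagMatrix P) := by
  apply Matrix.GeneralLinearGroup.ext
  intro i j
  have key := conjDiag_mul_div γ h
  have key' : (P : ℝ) * ((γ 1 0 / P : ℤ) : ℝ) = ((γ 1 0 : ℤ) : ℝ) := by exact_mod_cast key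
  have hS : (((S : SL(2, ℤ)) : GL (Fin 2) ℝ) : Matrix (Fin 2) (Fin 2) ℝ) = !![0, -1; 1, 0] := by
    ext a b
    fin_cases a <;> fin_cases b <;> simp [coe_S]
  have hγ : ((γ : GL (Fin 2) ℝ) : Matrix (Fin 2) (Fin 2) ℝ) =
      !![((γ 0 0 : ℤ) : ℝ), ((γ 0 1 : ℤ) : ℝ); ((γ 1 0 : ℤ) : ℝ), ((γ 1 1 : ℤ) : ℝ)] := by
    ext a b
    fin_cases a <;> fin_cases b <;> rfl
  have hγ' : (((frickeConj P γ h : SL(2, ℤ)) : GL (Fin 2) ℝ) : Matrix (Fin 2) (Fin 2) ℝ) =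
      !![((γ 1 1 : ℤ) : ℝ), -((γ 1 0 / P : ℤ) : ℝ); -((P : ℝ) * ((γ 0 1 : ℤ) : ℝ)),
        ((γ 0 0 : ℤ) : ℝ)] := by
    ext a b
    rw [coe_GL_apply]
    fin_cases a <;> fin_cases b <;> simp [frickeConj]
  simp only [Matrix.GeneralLinearGroup.coe_mul, val_heckeDiagMatrix hP, hS, hγ, hγ']
  fin_cases i <;> fin_cases j <;>
    simp [Matrix.mul_apply, Fin.sum_univ_two] <;> linarith

theorem fricke_slash (hP : P ≠ 0) (hf : ∀ γ ∈ Gamma0 P, f ∣[(2 : ℤ)] γ = f)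
    (γ : SL(2, ℤ)) (h : γ ∈ Gamma0 P) : fricke P f ∣[(2 : ℤ)] γ = fricke P f := by
  have e1 : f ∣[(2 : ℤ)] ((frickeConj P γ h : SL(2, ℤ)) : GL (Fin 2) ℝ) = f := by
    rw [← ModularForm.SL_slash]
    exact hf _ (frickeConj_mem γ h)
  have e0 : fricke P f = (f ∣[(2 : ℤ)] ((S : SL(2, ℤ)) : GL (Fin 2) ℝ)) ∣[(2 : ℤ)]
      heckeDiagMatrix P := by
    rw [fricke, ModularForm.SL_slash]
  rw [ModularForm.SL_slash, e0, ← SlashAction.slash_mul, ← SlashAction.slash_mul,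
    S_heckeDiag_mul_eq hP γ h, SlashAction.slash_mul, SlashAction.slash_mul, e1]

theorem fricke_slash_S (hP : P ≠ 0) (hf : ∀ γ ∈ Gamma0 P, f ∣[(2 : ℤ)] γ = f) :
    fricke P f ∣[(2 : ℤ)] S = f ∣[(2 : ℤ)] heckeMatrix P 0 := by
  rw [fricke, ModularForm.SL_slash (f := (f ∣[(2 : ℤ)] S) ∣[(2 : ℤ)] heckeDiagMatrix P),
    ← SlashAction.slash_mul, heckeDiag_mul_S hP, SlashAction.slash_mul, ← ModularForm.SL_slash,
    ← SlashAction.slash_mul, hf _ (S_mul_S_mem_Gamma0 P)]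

theorem isBoundedAtImInfty_of_isMF2 (hf : IsMF2 P f) : IsBoundedAtImInfty f := by
  have := hf.bdd 1
  rwa [SlashAction.slash_one] at this

theorem IsMF2.fricke (hP : P.Prime) (hf : IsMF2 P f) : IsMF2 P (fricke P f) where
  holo := (mdiff_SL_slash hf.holo S).slash 2 _
  inv := fricke_slash hP.ne_zero hf.inv
  bdd := by
    intro g
    rcases mem_Gamma0_or_exists P hP g with h | ⟨j, -, γ₀, hγ₀, rfl⟩
    · rw [fricke_slash hP.ne_zero hf.inv g h, Fermat.Agent.S16.fricke]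
      refine IsBoundedAtImInfty.slash 2 ?_ (hf.bdd S)
      simp [val_heckeDiagMatrix hP.ne_zero]
    · rw [SlashAction.slash_mul, fricke_slash hP.ne_zero hf.inv γ₀ hγ₀, SlashAction.slash_mul,
        fricke_slash_S hP.ne_zero hf.inv]
      refine isBoundedAtImInfty_slash_T_zpow ?_ 2 j
      refine IsBoundedAtImInfty.slash 2 ?_ (isBoundedAtImInfty_of_isMF2 hf)
      simp [val_heckeMatrix hP.ne_zero]

theorem fricke_fricke (hP : P ≠ 0) (hf : ∀ γ ∈ Gamma0 P, f ∣[(2 : ℤ)] γ = f) :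
    fricke P (fricke P f) = f := by
  have hP' : (P : ℂ) ≠ 0 := by exact_mod_cast hP
  rw [fricke, fricke_slash_S hP hf]
  ext z
  rw [slash_heckeDiagMatrix_apply 2 hP, slash_heckeMatrix_apply 2 hP,
    heckeMatrix_smul_heckeDiag_smul hP]
  norm_num
  field_simp

/-- **T1b**: `f ∣ W = − U_P f`. -/
theorem fricke_eq_neg_heckeU [hP : Fact P.Prime] (hf : IsMF2 P f) :
    fricke P f = -heckeU 2 P f := by
  have h := add_heckeU_fricke (hf.fricke hP.out)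
  rw [fricke_fricke hP.out.ne_zero hf.inv] at h
  exact eq_neg_of_add_eq_zero_left h

/-- **T1c**: `f ∣ S T^j = − (U_P f) ∣ [[1,j],[0,P]]`. -/
theorem stSlash_eq_neg [hP : Fact P.Prime] (hf : IsMF2 P f) (j : ℕ) :
    stSlash f (j : ℤ) = -((heckeU 2 P f) ∣[(2 : ℤ)] heckeMatrix P j) := by
  rw [← fricke_slash_heckeMatrix hP.out.ne_zero, fricke_eq_neg_heckeU hf, SlashAction.neg_slash]

/-- **T1c**, pointwise: `(f ∣ S T^j)(z) = − P⁻¹ (U_P f)((z + j)/P)`. -/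
theorem stSlash_apply_eq [hP : Fact P.Prime] (hf : IsMF2 P f) (j : ℕ) (z : ℍ) :
    stSlash f (j : ℤ) z = -((P : ℂ)⁻¹ * heckeU 2 P f (heckeMatrix P j • z)) := by
  rw [stSlash_eq_neg hf, Pi.neg_apply, slash_heckeMatrix_apply 2 hP.out.ne_zero]

/-- **T1c** for `S`: `f ∣ S = − (U_P f) ∣ [[1,0],[0,P]]`. -/
theorem slash_S_eq_neg [hP : Fact P.Prime] (hf : IsMF2 P f) :
    f ∣[(2 : ℤ)] S = -((heckeU 2 P f) ∣[(2 : ℤ)] heckeMatrix P 0) := by
  rw [← stSlash_zero]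
  exact_mod_cast stSlash_eq_neg hf 0

end Fermat.Agent.S16
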