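import Mathlib
import Fermat.Agent.S16.Trace

/-!
# S16, Lemma O (part 4): norm forms

* an abstract "norm form": a finite family of functions permuted by `S` and `T` under the weight-`k`
  slash action has a product which is a level-one modular form of weight `k · card`;
* the family of translates `tw P f : ℙ¹(𝔽_P) → (ℍ → ℂ)` of a `Γ₀(P)`-invariant function.
-/

open UpperHalfPlane ModularForm CongruenceSubgroup Matrix.SpecialLinearGroup ModularGroup
open scoped MatrixGroups ModularForm Manifold

noncomputable section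

namespace Fermat.Agent.S16

section abstract

variable {ι : Type} [Fintype ι] {k : ℤ} (F : ι → ℍ → ℂ)

theorem prod_SL_slash (F : ι → ℍ → ℂ) (k : ℤ) (γ : SL(2, ℤ)) :
    (∏ i, F i) ∣[k * (Fintype.card ι : ℤ)] γ = ∏ i, (F i) ∣[k] γ := by
  rw [ModularForm.SL_slash, ← Finset.card_univ, ModularForm.prod_slash]
  have hdet : |((γ : GL (Fin 2) ℝ).det : ℝˣ).val| = 1 := by
    simp
  rw [hdet, one_zpow, one_smul]
  simp only [ModularForm.SL_slash]

theorem prod_slash_of_perm (π : Equiv.Perm ι) (γ : SL(2, ℤ))
    (h : ∀ i, (F i) ∣[k] γ = F (π i)) :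
    (∏ i, F i) ∣[k * (Fintype.card ι : ℤ)] γ = ∏ i, F i := by
  rw [prod_SL_slash, Finset.prod_congr rfl (fun i _ ↦ h i)]
  exact Equiv.prod_comp π F

/-- the product of a family permuted by `S` and `T` is a modular form of level one -/
def normMF (πS πT : Equiv.Perm ι) (hS : ∀ i, (F i) ∣[k] S = F (πS i))
    (hT : ∀ i, (F i) ∣[k] T = F (πT i)) (hol : ∀ i, MDiff (F i))
    (hbdd : ∀ i, IsBoundedAtImInfty (F i)) :
    ModularForm 𝒮ℒ (k * (Fintype.card ι : ℤ)) where
  toFun := ∏ i, F i
  slash_action_eq' := by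
    rintro A ⟨g, rfl⟩
    exact SlashInvariantForm.slash_action_generators_SL2Z (prod_slash_of_perm F πS S hS)
      (prod_slash_of_perm F πT T hT) g
  holo' := by
    show MDiff (∏ i, F i)
    exact MDifferentiable.prod (fun i _ ↦ hol i)
  bdd_at_cusps' := by
    intro c hc
    rw [OnePoint.isBoundedAt_iff_forall_SL2Z hc]
    intro γ _
    rw [SlashInvariantForm.slash_action_generators_SL2Z (prod_slash_of_perm F πS S hS)
      (prod_slash_of_perm F πT T hT) γ]
    have : ∀ s : Finset ι, IsBoundedAtImInfty (∏ i ∈ s, F i) := by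
      classical
      intro s
      induction s using Finset.induction_on with
      | empty =>
        simp only [Finset.prod_empty]
        exact Filter.const_boundedAtFilter _ (1 : ℂ)
      | insert a s ha ih =>
        rw [Finset.prod_insert ha]
        exact (hbdd a).mul ih
    exact this _

theorem coe_normMF (πS πT : Equiv.Perm ι) (hS : ∀ i, (F i) ∣[k] S = F (πS i))
    (hT : ∀ i, (F i) ∣[k] T = F (πT i)) (hol : ∀ i, MDiff (F i))
    (hbdd : ∀ i, IsBoundedAtImInfty (F i)) :
    (normMF F πS πT hS hT hol hbdd : ℍ → ℂ) = ∏ i, F i := by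
  rfl

end abstract

section tw

variable {P : ℕ} {f : ℍ → ℂ}

/-- the translates of `f` indexed by `ℙ¹(𝔽_P)`: `∞ ↦ f`, `j ↦ f ∣ S T^j`. -/
def tw (P : ℕ) (f : ℍ → ℂ) : Option (ZMod P) → (ℍ → ℂ)
  | none => f
  | some j => stSlash f (j.val : ℤ)

@[simp] theorem tw_none (P : ℕ) (f : ℍ → ℂ) : tw P f none = f := rfl

@[simp] theorem tw_some (P : ℕ) (f : ℍ → ℂ) (j : ZMod P) :
    tw P f (some j) = stSlash f (j.val : ℤ) := rfl

/-- the permutation of `ℙ¹(𝔽_P)` induced by `T` -/
def permT (P : ℕ) : Equiv.Perm (Option (ZMod P)) := Equiv.optionCongr (Equiv.addRight (1 : ZMod P))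

/-- the involution of `ℙ¹(𝔽_P)` induced by `S`: `∞ ↔ 0`, `j ↦ −1/j`. -/
def funS (P : ℕ) : Option (ZMod P) → Option (ZMod P)
  | none => some 0
  | some j => if j = 0 then none else some (-j⁻¹)

theorem funS_involutive [hP : Fact P.Prime] : Function.Involutive (funS P) := by
  intro t
  cases t with
  | none => simp [funS]
  | some j =>
    by_cases hj : j = 0
    · simp [funS, hj]
    · have : -j⁻¹ ≠ 0 := neg_ne_zero.mpr (inv_ne_zero hj)
      simp [funS, hj]

/-- the permutation of `ℙ¹(𝔽_P)` induced by `S` -/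
def permS (P : ℕ) [Fact P.Prime] : Equiv.Perm (Option (ZMod P)) :=
  Function.Involutive.toPerm _ (funS_involutive (P := P))

theorem tw_slash_T [NeZero P] (hf : ∀ γ ∈ Gamma0 P, f ∣[(2 : ℤ)] γ = f) (t : Option (ZMod P)) :
    tw P f t ∣[(2 : ℤ)] T = tw P f (permT P t) := by
  cases t with
  | none => simpa [permT] using hf T (T_mem_Gamma0 P)
  | some j =>
    simp only [tw_some, permT, Equiv.optionCongr_apply, Option.map_some, Equiv.coe_addRight]
    rw [stSlash_slash_T]
    apply stSlash_congr hf
    rw [← ZMod.intCast_zmod_eq_zero_iff_dvd]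
    push_cast
    simp

theorem tw_slash_S [hP : Fact P.Prime] (hf : ∀ γ ∈ Gamma0 P, f ∣[(2 : ℤ)] γ = f)
    (t : Option (ZMod P)) : tw P f t ∣[(2 : ℤ)] S = tw P f (permS P t) := by
  haveI : NeZero P := ⟨hP.out.ne_zero⟩
  cases t with
  | none =>
    simp only [tw_none, permS, Function.Involutive.coe_toPerm, funS, tw_some, ZMod.val_zero,
      Nat.cast_zero]
    exact (stSlash_zero f).symm
  | some j =>
    by_cases hj : j = 0
    · subst hj
      simp only [tw_some, permS, Function.Involutive.coe_toPerm, funS, if_true, tw_none,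
        ZMod.val_zero, Nat.cast_zero]
      exact stSlash_zero_slash_S hf
    · simp only [tw_some, permS, Function.Involutive.coe_toPerm, funS, if_neg hj]
      exact stSlash_slash_S hf j hj

theorem mdiff_tw (hf : MDiff f) (t : Option (ZMod P)) : MDiff (tw P f t) := by
  cases t with
  | none => exact hf
  | some j => exact mdiff_SL_slash hf _

theorem bdd_tw (hf : IsMF2 P f) (t : Option (ZMod P)) : IsBoundedAtImInfty (tw P f t) := by
  cases t with
  | none =>
    have := hf.bdd 1
    rwa [SlashAction.slash_one] at this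
  | some j => exact hf.bdd _

end tw

end Fermat.Agent.S16
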