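import Mathlib

/-!
# S16, Lemma O (part 3): `q_h`-expansions of functions given by convergent series

`HasExp h f c` : `f(z) = ∑ c_n exp(2π i n z / h)` for all `z ∈ ℍ`.
For holomorphic `f` this determines `qExpansion h f`, and `qExpansion h` is multiplicative.
-/

open UpperHalfPlane Function Complex
open scoped Manifold

noncomputable section

namespace Fermat.Agent.S16

/-- `f(z) = ∑ c_n q_h(z)^n` on the upper half plane. -/
def HasExp (h : ℝ) (f : ℍ → ℂ) (c : ℕ → ℂ) : Prop :=
  ∀ z : ℍ, HasSum (fun n : ℕ ↦ c n • Periodic.qParam h z ^ n) (f z)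

/-- holomorphic, `h`-periodic, bounded at `i∞` -/
structure GoodH (h : ℝ) (f : ℍ → ℂ) : Prop where
  per : Periodic (f ∘ ofComplex) (h : ℂ)
  holo : MDiff f
  bdd : IsBoundedAtImInfty f

variable {h : ℝ} {f g : ℍ → ℂ} {c d : ℕ → ℂ}

theorem qParam_add_period (h : ℝ) (w : ℂ) :
    Periodic.qParam h (w + h) = Periodic.qParam h w := by
  rcases eq_or_ne h 0 with rfl | hh
  · simp
  · have hh' : (h : ℂ) ≠ 0 := by exact_mod_cast hh
    simp only [Periodic.qParam]
    have : 2 * ↑Real.pi * Complex.I * (w + ↑h) / ↑h =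
        2 * ↑Real.pi * Complex.I * w / ↑h + 2 * ↑Real.pi * Complex.I := by
      field_simp
    rw [this, Complex.exp_add, Complex.exp_two_pi_mul_I, mul_one]

theorem HasExp.periodic (hf : HasExp h f c) : Periodic (f ∘ ofComplex) (h : ℂ) := by
  intro w
  by_cases hw : 0 < im w
  · have hw' : 0 < im (w + h) := by simp [hw]
    simp only [comp_apply, ofComplex_apply_of_im_pos hw', ofComplex_apply_of_im_pos hw]
    have h1 := hf ⟨w + h, hw'⟩
    have h2 := hf ⟨w, hw⟩
    rw [qParam_add_period] at h1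
    exact h1.unique h2
  · have hw0 : im w ≤ 0 := not_lt.mp hw
    have : im (w + h) ≤ 0 := by simpa using hw0
    simp [ofComplex_apply_of_im_nonpos this, ofComplex_apply_of_im_nonpos hw0]

theorem HasExp.goodH (hh : 0 < h) (hf : HasExp h f c) (hol : MDiff f) : GoodH h f where
  per := hf.periodic
  holo := hol
  bdd := isBoundedAtImInfty_of_hasSum_qExpansion hh hf

theorem GoodH.analyticAt (hh : 0 < h) (hf : GoodH h f) : AnalyticAt ℂ (cuspFunction h f) 0 :=
  analyticAt_cuspFunction_zero hh hf.per hf.holo hf.bdd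

theorem HasExp.qExpansion_coeff (hh : 0 < h) (hf : HasExp h f c) (hol : MDiff f) (n : ℕ) :
    (qExpansion h f).coeff n = c n := by
  have hfanalytic := (hf.goodH hh hol).analyticAt hh
  have h1 := (hasFPowerSeriesOnBall_cuspFunction hh hfanalytic hf).hasFPowerSeriesAt
  have h2 := hfanalytic.hasFPowerSeriesAt
  have := congr_arg (FormalMultilinearSeries.coeff · n) (h1.eq_formalMultilinearSeries h2)
  simp only [FormalMultilinearSeries.coeff_ofScalars] at this
  rw [UpperHalfPlane.qExpansion_coeff, this, div_eq_inv_mul]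

theorem GoodH.hasExp (hh : 0 < h) (hf : GoodH h f) :
    HasExp h f (fun n ↦ (qExpansion h f).coeff n) :=
  fun z ↦ hasSum_qExpansion hh hf.per hf.holo hf.bdd z

theorem GoodH.mul (hf : GoodH h f) (hg : GoodH h g) : GoodH h (f * g) where
  per := fun w ↦ by
    have h1 := hf.per w
    have h2 := hg.per w
    simp only [comp_apply, Pi.mul_apply] at h1 h2 ⊢
    rw [h1, h2]
  holo := hf.holo.mul hg.holo
  bdd := hf.bdd.mul hg.bdd

theorem goodH_one (h : ℝ) : GoodH h (1 : ℍ → ℂ) where
  per := fun w ↦ by simp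
  holo := mdifferentiable_const
  bdd := by
    have : (1 : ℍ → ℂ) = fun _ ↦ (1 : ℂ) := rfl
    rw [this]
    exact Filter.const_boundedAtFilter _ _

theorem GoodH.prod {ι : Type*} (s : Finset ι) (F : ι → ℍ → ℂ) (hF : ∀ i ∈ s, GoodH h (F i)) :
    GoodH h (∏ i ∈ s, F i) := by
  classical
  induction s using Finset.induction_on with
  | empty => simpa using goodH_one h
  | insert a s ha ih =>
    rw [Finset.prod_insert ha]
    exact (hF a (Finset.mem_insert_self a s)).mul
      (ih fun i hi ↦ hF i (Finset.mem_insert_of_mem hi))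

theorem GoodH.qExpansion_mul (hh : 0 < h) (hf : GoodH h f) (hg : GoodH h g) :
    qExpansion h (f * g) = qExpansion h f * qExpansion h g :=
  UpperHalfPlane.qExpansion_mul (hf.analyticAt hh) (hg.analyticAt hh)

theorem GoodH.qExpansion_prod (hh : 0 < h) {ι : Type*} (s : Finset ι) (F : ι → ℍ → ℂ)
    (hF : ∀ i ∈ s, GoodH h (F i)) :
    qExpansion h (∏ i ∈ s, F i) = ∏ i ∈ s, qExpansion h (F i) := by
  classical
  induction s using Finset.induction_on with
  | empty => simpa using qExpansion_one h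
  | insert a s ha ih =>
    rw [Finset.prod_insert ha, Finset.prod_insert ha,
      (hF a (Finset.mem_insert_self a s)).qExpansion_mul hh
        (GoodH.prod s F fun i hi ↦ hF i (Finset.mem_insert_of_mem hi)),
      ih fun i hi ↦ hF i (Finset.mem_insert_of_mem hi)]

/-- reindexing: a series in `Q = ω X^m` as a series in `X`. -/
theorem hasSum_reindex {a : ℕ → ℂ} {Q X ω s : ℂ} {m : ℕ} (hm : m ≠ 0) (hQ : Q = ω * X ^ m)
    (hs : HasSum (fun n : ℕ ↦ a n • Q ^ n) s) :
    HasSum (fun N : ℕ ↦ (if m ∣ N then a (N / m) * ω ^ (N / m) else 0) • X ^ N) s := by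
  have hinj : Function.Injective (fun n : ℕ ↦ m * n) :=
    fun a b hab ↦ Nat.eq_of_mul_eq_mul_left (Nat.pos_of_ne_zero hm) hab
  rw [← hinj.hasSum_iff]
  · convert hs using 2 with n
    simp only [Function.comp_apply, dvd_mul_right, if_true,
      Nat.mul_div_cancel_left _ (Nat.pos_of_ne_zero hm), smul_eq_mul, hQ, mul_pow, pow_mul]
    ring
  · intro N hN
    have : ¬ m ∣ N := by
      rintro ⟨n, rfl⟩
      exact hN ⟨n, rfl⟩
    simp [this]

end Fermat.Agent.S16
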