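import Mathlib
import Fermat.Prelude.Def_ModularForm_HeckeOperatorForms
import Fermat.Prelude.Def_FLTPrelim_Modularity
import Fermat.Prelude.Thm_ModularFormClass_qCoeff_heckeU
import Fermat.Agent.S16.Fricke
import Fermat.Agent.S16.NormForm
import Fermat.Agent.S16.QExpH

/-!
# S16, Lemma O (part 5): `q_H`-expansions of the translates `tw P f t`, `H = P · m`
-/

open UpperHalfPlane ModularForm CongruenceSubgroup Matrix.SpecialLinearGroup ModularGroup Function
open scoped MatrixGroups ModularForm Manifold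

noncomputable section

namespace Fermat.Agent.S16

variable {P : ℕ} {f : ℍ → ℂ}

/-- the `q`-coefficients of `f` -/
abbrev qc (f : ℍ → ℂ) (n : ℕ) : ℂ := (qExpansion 1 f).coeff n

theorem IsMF2.goodH_one [NeZero P] (hf : IsMF2 P f) : GoodH 1 f where
  per := by
    have := SlashInvariantFormClass.periodic_comp_ofComplex hf.toModularForm
      (one_mem_strictPeriods_Gamma0' P)
    simpa using this
  holo := hf.holo
  bdd := isBoundedAtImInfty_of_isMF2 hf

theorem IsMF2.hasExp_one [NeZero P] (hf : IsMF2 P f) : HasExp 1 f (qc f) :=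
  hf.goodH_one.hasExp one_pos

theorem IsMF2.heckeU [NeZero P] (hf : IsMF2 P f) : IsMF2 P (heckeU 2 P f) := by
  have := IsMF2.of_modularForm (heckeULin (N := P) (p := P) 2 (dvd_refl P) hf.toModularForm)
  simpa using this

theorem IsMF2.qc_heckeU [NeZero P] (hf : IsMF2 P f) (n : ℕ) :
    qc (ModularForm.heckeU 2 P f) n = qc f (n * P) := by
  have := ModularFormClass.qCoeff_heckeU hf.toModularForm (one_mem_strictPeriods_Gamma0' P)
    (NeZero.ne P) n
  simpa [ModularFormClass.qCoeff, coeffHeckeU] using this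

/-- the primitive `P`-th root of unity `exp(2π i / P)` -/
def zeta (P : ℕ) : ℂ := Complex.exp (2 * Real.pi * Complex.I / P)

theorem qParam_one_heckeMatrix_smul (hP : P ≠ 0) {m : ℕ} (hm : m ≠ 0) (j : ℕ) (z : ℍ) :
    Periodic.qParam 1 ((heckeMatrix P j • z : ℍ) : ℂ) =
      zeta P ^ j * Periodic.qParam ((P * m : ℕ) : ℝ) z ^ m := by
  have hP' : (P : ℂ) ≠ 0 := by exact_mod_cast hP
  have hm' : (m : ℂ) ≠ 0 := by exact_mod_cast hm
  rw [coe_heckeMatrix_smul hP, zeta, Periodic.qParam, Periodic.qParam, ← Complex.exp_nat_mul,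
    ← Complex.exp_nat_mul, ← Complex.exp_add]
  congr 1
  push_cast
  field_simp
  ring

theorem qParam_one_eq_pow {H : ℕ} (hH : H ≠ 0) (z : ℂ) :
    Periodic.qParam 1 z = 1 * Periodic.qParam (H : ℝ) z ^ H := by
  have hH' : (H : ℂ) ≠ 0 := by exact_mod_cast hH
  rw [Periodic.qParam, Periodic.qParam, ← Complex.exp_nat_mul, one_mul]
  congr 1
  push_cast
  field_simp

/-- the `q_H`-coefficients of the translates, `H = P · m` -/
def twCoeff (P m : ℕ) (a : ℕ → ℂ) : Option (ZMod P) → ℕ → ℂ
  | none, N => if P * m ∣ N then a (N / (P * m)) else 0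
  | some j, N => if m ∣ N then -((P : ℂ)⁻¹ * (a (N / m * P) * zeta P ^ (j.val * (N / m)))) else 0

theorem hasExp_tw [hP : Fact P.Prime] (hf : IsMF2 P f) {m : ℕ} (hm : m ≠ 0)
    (t : Option (ZMod P)) :
    HasExp ((P * m : ℕ) : ℝ) (tw P f t) (twCoeff P m (qc f) t) := by
  haveI : NeZero P := ⟨hP.out.ne_zero⟩
  have hPm : P * m ≠ 0 := Nat.mul_ne_zero hP.out.ne_zero hm
  intro z
  cases t with
  | none =>
    have h1 := hf.hasExp_one z
    have h2 := hasSum_reindex hPm (qParam_one_eq_pow hPm (z : ℂ)) h1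
    simpa [twCoeff] using h2
  | some j =>
    have h1 := hf.heckeU.hasExp_one (heckeMatrix P j.val • z)
    have h2 := hasSum_reindex hm (qParam_one_heckeMatrix_smul hP.out.ne_zero hm j.val z) h1
    rw [tw_some, stSlash_apply_eq hf]
    have h3 := (h2.mul_left ((P : ℂ)⁻¹)).neg
    have hfun : (fun N : ℕ ↦ twCoeff P m (qc f) (some j) N •
        Periodic.qParam ((P * m : ℕ) : ℝ) z ^ N) =
        fun N : ℕ ↦ -((P : ℂ)⁻¹ * ((if m ∣ N then qc (ModularForm.heckeU 2 P f) (N / m) *
          (zeta P ^ j.val) ^ (N / m) else 0) • Periodic.qParam ((P * m : ℕ) : ℝ) z ^ N)) := by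
      funext N
      simp only [twCoeff, hf.qc_heckeU, smul_eq_mul]
      split_ifs
      · rw [← pow_mul]
        ring
      · ring
    rw [hfun]
    exact h3

end Fermat.Agent.S16
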