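import Mathlib
import Fermat.Agent.S16.TwExp
import Fermat.Agent.S16.LeadsAt

/-!
# S16, Lemma O (part 6): the coefficients of the factors and their leading terms mod 2
-/

open UpperHalfPlane ModularForm CongruenceSubgroup Matrix.SpecialLinearGroup ModularGroup Function
open scoped MatrixGroups ModularForm Manifold

noncomputable section

namespace Fermat.Agent.S16

theorem HasExp.sub {h : ℝ} {f g : ℍ → ℂ} {c d : ℕ → ℂ} (hf : HasExp h f c) (hg : HasExp h g d) :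
    HasExp h (f - g) (fun n ↦ c n - d n) := by
  intro z
  have := (hf z).sub (hg z)
  simpa [sub_smul, sub_mul] using this

theorem HasExp.const_smul {h : ℝ} {f : ℍ → ℂ} {c : ℕ → ℂ} (hf : HasExp h f c) (a : ℂ) :
    HasExp h (a • f) (fun n ↦ a * c n) := by
  intro z
  have := (hf z).mul_left a
  simpa [mul_assoc] using this

/-! ### units and roots of unity in `O2` -/

theorem Unit2.neg {x : ℂ} (hx : Unit2 x) : Unit2 (-x) := by
  obtain ⟨hx0, v, hv, hvx⟩ := hx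
  refine ⟨O2.neg_mem hx0, -v, O2.neg_mem hv, ?_⟩
  have : -v * -x - 1 = v * x - 1 := by ring
  rw [this]
  exact hvx

theorem unit2_natCast {n : ℕ} (hn : Odd n) : Unit2 (n : ℂ) := by
  have hn0 : (n : ℂ) ≠ 0 := by
    have : n ≠ 0 := by rintro rfl; simp at hn
    exact_mod_cast this
  exact unit2_of_mul_eq_one (natCast_mem_O2 n) (inv_natCast_mem_O2 hn) (inv_mul_cancel₀ hn0)

theorem unit2_inv_natCast {n : ℕ} (hn : Odd n) : Unit2 ((n : ℂ)⁻¹) := by
  have hn0 : (n : ℂ) ≠ 0 := by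
    have : n ≠ 0 := by rintro rfl; simp at hn
    exact_mod_cast this
  exact unit2_of_mul_eq_one (inv_natCast_mem_O2 hn) (natCast_mem_O2 n) (mul_inv_cancel₀ hn0)

theorem zeta_pow_self {P : ℕ} (hP : P ≠ 0) : zeta P ^ P = 1 := by
  have hP' : (P : ℂ) ≠ 0 := by exact_mod_cast hP
  rw [zeta, ← Complex.exp_nat_mul]
  have : (P : ℂ) * (2 * Real.pi * Complex.I / P) = 2 * Real.pi * Complex.I := by
    field_simp
  rw [this, Complex.exp_two_pi_mul_I]

theorem zeta_pow_mem_O2 {P : ℕ} (hP : P ≠ 0) (k : ℕ) : zeta P ^ k ∈ O2 := by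
  apply mem_O2_of_isIntegral
  refine IsIntegral.of_pow (Nat.pos_of_ne_zero hP) ?_
  rw [← pow_mul, mul_comm, pow_mul, zeta_pow_self hP, one_pow]
  exact isIntegral_one

theorem unit2_zeta_pow {P : ℕ} (hP : P ≠ 0) (k : ℕ) : Unit2 (zeta P ^ k) := by
  refine unit2_of_mul_eq_one (zeta_pow_mem_O2 hP k) (zeta_pow_mem_O2 hP (k * (P - 1))) ?_
  rw [← pow_add]
  have : k * (P - 1) + k = P * k := by
    have : 1 ≤ P := Nat.pos_of_ne_zero hP
    zify [this]
    ring
  rw [this, pow_mul, zeta_pow_self hP, one_pow]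

/-! ### leading terms from two parts -/

theorem leadsAt_zero_of_parts (c α β : ℕ → ℂ) (hc : ∀ N, c N = α N - β N)
    (hα : ∀ N, 1 ≤ N → α N ∈ O2) (hβ : ∀ N, 1 ≤ N → Even2 (β N)) (h0 : Unit2 (c 0)) :
    LeadsAt (PowerSeries.mk c) 0 := by
  refine ⟨fun n ↦ ?_, fun n hn ↦ absurd hn (Nat.not_lt_zero n), by simpa using h0⟩
  rw [PowerSeries.coeff_mk]
  rcases Nat.eq_zero_or_pos n with rfl | hn
  · exact h0.1
  · rw [hc]
    exact O2.sub_mem (hα n hn) (hβ n hn).mem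

theorem leadsAt_pos_of_parts (c α β : ℕ → ℂ) (hc : ∀ N, c N = α N - β N)
    (hα : ∀ N, 1 ≤ N → α N ∈ O2) (hβ : ∀ N, 1 ≤ N → Even2 (β N)) (h0 : Even2 (c 0))
    (m : ℕ) (hm : 1 ≤ m) (hlow : ∀ N, 1 ≤ N → N < m → α N = 0) (hu : Unit2 (α m)) :
    LeadsAt (PowerSeries.mk c) m := by
  refine ⟨fun n ↦ ?_, fun n hn ↦ ?_, ?_⟩
  · rw [PowerSeries.coeff_mk]
    rcases Nat.eq_zero_or_pos n with rfl | hn
    · exact h0.mem
    · rw [hc]
      exact O2.sub_mem (hα n hn) (hβ n hn).mem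
  · rw [PowerSeries.coeff_mk]
    rcases Nat.eq_zero_or_pos n with rfl | hn'
    · exact h0
    · rw [hc, hlow n hn' hn, zero_sub]
      exact (hβ n hn').neg
  · rw [PowerSeries.coeff_mk, hc, sub_eq_add_neg]
    exact hu.add_even2 (hβ m hm).neg

/-! ### the two parts of the coefficients -/

/-- `α`-part: `(1/4) ·` coefficients of the translates of `A` (level `3`), in `q^{1/(3p)}` -/
def alphaC (p : ℕ) (a : ℕ → ℂ) (s : Option (ZMod 3)) (N : ℕ) : ℂ := 1 / 4 * twCoeff 3 p a s N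

/-- `β`-part: `(1/4) ·` coefficients of the translates of `G` (level `p`), in `q^{1/(3p)}` -/
def betaC (p : ℕ) (g : ℕ → ℂ) (t : Option (ZMod p)) (N : ℕ) : ℂ := 1 / 4 * twCoeff p 3 g t N

section parts

variable {p : ℕ} {a g : ℕ → ℂ}

theorem sigmaStar_three_one : sigmaStar 3 1 = 1 := by decide

theorem sigmaStar_three_three : sigmaStar 3 3 = 1 := by decide

theorem alphaC_none_zero (ha0 : a 0 = 1) : alphaC p a none 0 = 1 / 4 := by
  simp [alphaC, twCoeff, ha0]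

theorem alphaC_some_zero (ha0 : a 0 = 1) (j : ZMod 3) : alphaC p a (some j) 0 = -(1 / 12) := by
  simp [alphaC, twCoeff, ha0]
  norm_num

theorem betaC_none_zero (hg0 : g 0 = 1) : betaC p g none 0 = 1 / 4 := by
  simp [betaC, twCoeff, hg0]

theorem betaC_some_zero (hg0 : g 0 = 1) (j : ZMod p) :
    betaC p g (some j) 0 = -(1 / (4 * (p : ℂ))) := by
  simp [betaC, twCoeff, hg0]
  ring

theorem div_pos_of_dvd {m N : ℕ} (hN : 1 ≤ N) (h : m ∣ N) : N / m ≠ 0 := by
  obtain ⟨k, rfl⟩ := h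
  rcases Nat.eq_zero_or_pos m with rfl | hm
  · simp at hN
  · rw [Nat.mul_div_cancel_left _ hm]
    rintro rfl
    simp at hN

theorem alphaC_mem (hp : p ≠ 0) (ha : ∀ n, n ≠ 0 → a n = 12 * (sigmaStar 3 n : ℂ))
    (s : Option (ZMod 3)) (N : ℕ) (hN : 1 ≤ N) : alphaC p a s N ∈ O2 := by
  cases s with
  | none =>
    simp only [alphaC, twCoeff]
    split_ifs with h
    · rw [ha _ (div_pos_of_dvd hN h)]
      have : (1 : ℂ) / 4 * (12 * (sigmaStar 3 (N / (3 * p)) : ℂ)) =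
          ((3 * sigmaStar 3 (N / (3 * p)) : ℕ) : ℂ) := by push_cast; ring
      rw [this]
      exact natCast_mem_O2 _
    · simp [O2.zero_mem]
  | some j =>
    simp only [alphaC, twCoeff]
    split_ifs with h
    · have hn := div_pos_of_dvd hN h
      rw [ha _ (Nat.mul_ne_zero hn (by norm_num))]
      have : (1 : ℂ) / 4 * -(((3 : ℕ) : ℂ)⁻¹ * (12 * (sigmaStar 3 (N / p * 3) : ℂ) *
          zeta 3 ^ (j.val * (N / p)))) =
          -((sigmaStar 3 (N / p * 3) : ℂ) * zeta 3 ^ (j.val * (N / p))) := by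
        push_cast; ring
      rw [this]
      exact O2.neg_mem (O2.mul_mem (natCast_mem_O2 _) (zeta_pow_mem_O2 (by norm_num) _))
    · simp [O2.zero_mem]

theorem alphaC_none_low (hp : p ≠ 0) (N : ℕ) (hN : 1 ≤ N) (hN' : N < 3 * p) :
    alphaC p a none N = 0 := by
  simp only [alphaC, twCoeff]
  rw [if_neg, mul_zero]
  intro h
  exact absurd (Nat.le_of_dvd hN h) (not_le.mpr hN')

theorem alphaC_none_lead (hp : p ≠ 0) (ha : ∀ n, n ≠ 0 → a n = 12 * (sigmaStar 3 n : ℂ)) :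
    Unit2 (alphaC p a none (3 * p)) := by
  have h3p : 0 < 3 * p := by omega
  simp only [alphaC, twCoeff, dvd_refl, if_true, Nat.div_self h3p]
  rw [ha 1 one_ne_zero, sigmaStar_three_one]
  have : (1 : ℂ) / 4 * (12 * ((1 : ℕ) : ℂ)) = ((3 : ℕ) : ℂ) := by push_cast; norm_num
  rw [this]
  exact unit2_natCast (by decide)

theorem alphaC_some_low (hp : p ≠ 0) (j : ZMod 3) (N : ℕ) (hN : 1 ≤ N) (hN' : N < p) :
    alphaC p a (some j) N = 0 := by
  simp only [alphaC, twCoeff]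
  rw [if_neg, mul_zero]
  intro h
  exact absurd (Nat.le_of_dvd hN h) (not_le.mpr hN')

theorem alphaC_some_lead (hp : p ≠ 0) (ha : ∀ n, n ≠ 0 → a n = 12 * (sigmaStar 3 n : ℂ))
    (j : ZMod 3) : Unit2 (alphaC p a (some j) p) := by
  have hp' : 0 < p := Nat.pos_of_ne_zero hp
  simp only [alphaC, twCoeff, dvd_refl, if_true, Nat.div_self hp', one_mul, mul_one]
  rw [ha 3 (by norm_num), sigmaStar_three_three]
  have : (1 : ℂ) / 4 * -(((3 : ℕ) : ℂ)⁻¹ * (12 * ((1 : ℕ) : ℂ) * zeta 3 ^ j.val)) =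
      -(zeta 3 ^ j.val) := by push_cast; ring
  rw [this]
  exact (unit2_zeta_pow (by norm_num) _).neg

theorem betaC_even (hp : Odd p) (hg : ∀ n, n ≠ 0 → ∃ h ∈ O2, g n = 8 * h)
    (t : Option (ZMod p)) (N : ℕ) (hN : 1 ≤ N) : Even2 (betaC p g t N) := by
  have hp0 : p ≠ 0 := by rintro rfl; simp at hp
  cases t with
  | none =>
    simp only [betaC, twCoeff]
    split_ifs with h
    · obtain ⟨x, hx, hgx⟩ := hg _ (div_pos_of_dvd hN h)
      rw [hgx]
      exact ⟨x, hx, by ring⟩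
    · rw [mul_zero]; exact even2_zero
  | some j =>
    simp only [betaC, twCoeff]
    split_ifs with h
    · have hn := div_pos_of_dvd hN h
      obtain ⟨x, hx, hgx⟩ := hg _ (Nat.mul_ne_zero hn hp0)
      rw [hgx]
      refine ⟨-((p : ℂ)⁻¹ * (x * zeta p ^ (j.val * (N / 3)))), ?_, by ring⟩
      exact O2.neg_mem (O2.mul_mem (inv_natCast_mem_O2 hp)
        (O2.mul_mem hx (zeta_pow_mem_O2 hp0 _)))
    · rw [mul_zero]; exact even2_zero

end parts

end Fermat.Agent.S16
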