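import Mathlib
import Fermat.Agent.S16.LemmaOCoeff

/-!
# S16, Lemma O (part 7): the family `Y_{s,t} = (A_s − G_t)/4` and its norm form
-/

open UpperHalfPlane ModularForm CongruenceSubgroup Matrix.SpecialLinearGroup ModularGroup Function
open scoped MatrixGroups ModularForm Manifold

noncomputable section

namespace Fermat.Agent.S16

/-- `A = (3 E₂(3z) − E₂(z))/2 = 1 + 12 ∑ σ*₃(n) qⁿ`, a modular form of weight 2 on `Γ₀(3)` -/
def formA : ℍ → ℂ := (1 / 2 : ℂ) • eisFun 3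

theorem isMF2_formA : IsMF2 3 formA := by
  have := IsMF2.of_modularForm ((1 / 2 : ℂ) • eisMF 3)
  simpa [formA] using this

theorem hasExp_formA : HasExp 1 formA (fun n ↦ 1 / 2 * eisCoeff 3 n) := by
  intro z
  have := (hasSum_eisFun (P := 3) (by norm_num) z).mul_left (1 / 2 : ℂ)
  simpa [formA, Periodic.qParam, mul_assoc] using this

theorem qc_formA (n : ℕ) : qc formA n = 1 / 2 * eisCoeff 3 n :=
  hasExp_formA.qExpansion_coeff one_pos isMF2_formA.holo n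

theorem qc_formA_zero : qc formA 0 = 1 := by
  rw [qc_formA, eisCoeff_zero]
  norm_num

theorem qc_formA_of_ne_zero (n : ℕ) (hn : n ≠ 0) : qc formA n = 12 * (sigmaStar 3 n : ℂ) := by
  rw [qc_formA, eisCoeff_of_ne_zero 3 hn]
  ring

section family

variable {p : ℕ} [hp : Fact p.Prime] {G : ℍ → ℂ}

/-- the index set `ℙ¹(𝔽₃) × ℙ¹(𝔽_p)` of the cosets of `Γ₀(3p)` -/
abbrev Idx (p : ℕ) : Type := Option (ZMod 3) × Option (ZMod p)

instance neZero_of_fact_prime_O : NeZero p := ⟨hp.out.ne_zero⟩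

/-- the factor `Y_{s,t} = (A_s − G_t)/4` -/
def Yfam (p : ℕ) (G : ℍ → ℂ) (x : Idx p) : ℍ → ℂ := (1 / 4 : ℂ) • (tw 3 formA x.1 - tw p G x.2)

theorem smul_sub_slash (c : ℂ) (u v : ℍ → ℂ) (γ : SL(2, ℤ)) :
    (c • (u - v)) ∣[(2 : ℤ)] γ = c • (u ∣[(2 : ℤ)] γ - v ∣[(2 : ℤ)] γ) := by
  rw [ModularForm.SL_smul_slash, sub_eq_add_neg, SlashAction.add_slash, SlashAction.neg_slash,
    ← sub_eq_add_neg]

theorem Yfam_slash_S (hG : IsMF2 p G) (x : Idx p) :
    Yfam p G x ∣[(2 : ℤ)] S = Yfam p G ((Equiv.prodCongr (permS 3) (permS p)) x) := by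
  rw [Yfam, smul_sub_slash, tw_slash_S isMF2_formA.inv, tw_slash_S hG.inv]
  rfl

theorem Yfam_slash_T (hG : IsMF2 p G) (x : Idx p) :
    Yfam p G x ∣[(2 : ℤ)] T = Yfam p G ((Equiv.prodCongr (permT 3) (permT p)) x) := by
  rw [Yfam, smul_sub_slash, tw_slash_T isMF2_formA.inv, tw_slash_T hG.inv]
  rfl

omit hp in
theorem mdiff_Yfam (hG : IsMF2 p G) (x : Idx p) : MDiff (Yfam p G x) :=
  ((mdiff_tw isMF2_formA.holo x.1).sub (mdiff_tw hG.holo x.2)).const_smul (1 / 4 : ℂ)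

omit hp in
theorem bdd_Yfam (hG : IsMF2 p G) (x : Idx p) : IsBoundedAtImInfty (Yfam p G x) :=
  ((bdd_tw isMF2_formA x.1).sub (bdd_tw hG x.2)).const_smul_left (1 / 4 : ℂ)

/-- the norm form `∏_{s,t} Y_{s,t}`, a modular form of level one and weight `2 · 4(p+1)` -/
def normO (hG : IsMF2 p G) : ModularForm 𝒮ℒ (2 * (Fintype.card (Idx p) : ℤ)) :=
  normMF (Yfam p G) _ _ (Yfam_slash_S hG) (Yfam_slash_T hG) (mdiff_Yfam hG) (bdd_Yfam hG)

theorem coe_normO (hG : IsMF2 p G) : (normO hG : ℍ → ℂ) = ∏ x, Yfam p G x := rfl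

theorem card_Idx : Fintype.card (Idx p) = 4 * (p + 1) := by
  simp [Idx, Fintype.card_prod, Fintype.card_option, ZMod.card]

/-- the `q^{1/(3p)}`-coefficients of `Y_{s,t}` -/
def Ycoeff (p : ℕ) (G : ℍ → ℂ) (x : Idx p) (N : ℕ) : ℂ :=
  alphaC p (qc formA) x.1 N - betaC p (qc G) x.2 N

theorem hasExp_Yfam (hG : IsMF2 p G) (x : Idx p) :
    HasExp ((3 * p : ℕ) : ℝ) (Yfam p G x) (Ycoeff p G x) := by
  have h1 := hasExp_tw isMF2_formA hp.out.ne_zero x.1
  have h2 := hasExp_tw hG (m := 3) (by norm_num) x.2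
  rw [mul_comm p 3] at h2
  have := (h1.sub h2).const_smul (1 / 4 : ℂ)
  intro z
  have hz := this z
  simpa [Yfam, Ycoeff, alphaC, betaC, mul_sub] using hz

end family

end Fermat.Agent.S16
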