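import Mathlib
import Fermat.Agent.S16.LemmaOFam

/-!
# S16, Lemma O (part 8): leading positions of the factors and their sum
-/

open UpperHalfPlane ModularForm CongruenceSubgroup Matrix.SpecialLinearGroup ModularGroup Function
open scoped MatrixGroups ModularForm Manifold

noncomputable section

namespace Fermat.Agent.S16

/-- leading position of the factor `Y_{s,t}` mod 2, in the variable `q^{1/(3p)}` -/
def leadPos (p : ℕ) : Idx p → ℕ
  | (none, none) => 3 * p
  | (some _, none) => 0
  | (none, some _) => if p % 8 = 7 then 3 * p else 0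
  | (some _, some _) => if p % 8 = 7 then 0 else p

variable {p : ℕ} [hp : Fact p.Prime] {G : ℍ → ℂ}

theorem sum_leadPos : ∑ x : Idx p, leadPos p x = 3 * p * (p + 1) := by
  rw [Fintype.sum_prod_type, Fintype.sum_option]
  simp only [Fintype.sum_option, leadPos]
  by_cases h : p % 8 = 7
  · simp [h, ZMod.card]
    ring
  · simp [h, ZMod.card]
    ring

omit hp in
theorem odd_of_mod_eight (h8 : p % 8 = 7 ∨ p % 8 = 3) : Odd p := by
  rw [Nat.odd_iff]
  omega

theorem leadsAt_Ycoeff (h8 : p % 8 = 7 ∨ p % 8 = 3) (hG0 : qc G 0 = 1)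
    (hGn : ∀ n, n ≠ 0 → ∃ h ∈ O2, qc G n = 8 * h) (x : Idx p) :
    LeadsAt (PowerSeries.mk (Ycoeff p G x)) (leadPos p x) := by
  have hodd : Odd p := odd_of_mod_eight h8
  have hp0 : p ≠ 0 := hp.out.ne_zero
  have hpC : (p : ℂ) ≠ 0 := by exact_mod_cast hp0
  have hα := alphaC_mem (p := p) hp0 qc_formA_of_ne_zero
  have hβ := betaC_even (p := p) hodd hGn
  obtain ⟨s, t⟩ := x
  cases s with
  | none =>
    cases t with
    | none =>
      refine leadsAt_pos_of_parts _ _ _ (fun N ↦ rfl) (hα none) (hβ none) ?_ (3 * p) (by omega)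
        (alphaC_none_low hp0) (alphaC_none_lead hp0 qc_formA_of_ne_zero)
      simp only [alphaC_none_zero qc_formA_zero, betaC_none_zero hG0, sub_self]
      exact even2_zero
    | some j =>
      have hc0 : Ycoeff p G (none, some j) 0 = ((p : ℂ) + 1) / (4 * p) := by
        simp only [Ycoeff, alphaC_none_zero qc_formA_zero, betaC_some_zero hG0]
        field_simp
        ring
      by_cases h7 : p % 8 = 7
      · simp only [leadPos, if_pos h7]
        refine leadsAt_pos_of_parts _ _ _ (fun N ↦ rfl) (hα none) (hβ (some j)) ?_ (3 * p)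
          (by omega) (alphaC_none_low hp0) (alphaC_none_lead hp0 qc_formA_of_ne_zero)
        change Even2 (Ycoeff p G (none, some j) 0)
        rw [hc0]
        obtain ⟨k, hk⟩ : ∃ k : ℕ, p + 1 = 8 * k := ⟨(p + 1) / 8, by omega⟩
        have hk' : (p : ℂ) + 1 = 8 * k := by exact_mod_cast hk
        refine ⟨(k : ℂ) * (p : ℂ)⁻¹, O2.mul_mem (natCast_mem_O2 k) (inv_natCast_mem_O2 hodd), ?_⟩
        rw [hk']
        field_simp
        ring
      · simp only [leadPos, if_neg h7]
        have h3 : p % 8 = 3 := by omega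
        refine leadsAt_zero_of_parts _ _ _ (fun N ↦ rfl) (hα none) (hβ (some j)) ?_
        rw [hc0]
        obtain ⟨k, hk, hkodd⟩ : ∃ k : ℕ, p + 1 = 4 * k ∧ Odd k :=
          ⟨(p + 1) / 4, by omega, by rw [Nat.odd_iff]; omega⟩
        have hk' : (p : ℂ) + 1 = 4 * k := by exact_mod_cast hk
        have : ((p : ℂ) + 1) / (4 * p) = (k : ℂ) * (p : ℂ)⁻¹ := by
          rw [hk']
          field_simp
        rw [this]
        exact (unit2_natCast hkodd).mul (unit2_inv_natCast hodd)
  | some i =>
    cases t with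
    | none =>
      refine leadsAt_zero_of_parts _ _ _ (fun N ↦ rfl) (hα (some i)) (hβ none) ?_
      have : Ycoeff p G (some i, none) 0 = -(((3 : ℕ) : ℂ)⁻¹) := by
        simp only [Ycoeff, alphaC_some_zero qc_formA_zero, betaC_none_zero hG0]
        push_cast
        norm_num
      rw [this]
      exact (unit2_inv_natCast (by decide)).neg
    | some j =>
      have hc0 : Ycoeff p G (some i, some j) 0 = (3 - (p : ℂ)) / (12 * p) := by
        simp only [Ycoeff, alphaC_some_zero qc_formA_zero, betaC_some_zero hG0]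
        field_simp
        ring
      have hodd3 : Odd (3 * p) := by
        rw [Nat.odd_mul]
        exact ⟨by decide, hodd⟩
      by_cases h7 : p % 8 = 7
      · simp only [leadPos, if_pos h7]
        refine leadsAt_zero_of_parts _ _ _ (fun N ↦ rfl) (hα (some i)) (hβ (some j)) ?_
        rw [hc0]
        obtain ⟨k, hk, hkodd⟩ : ∃ k : ℕ, p = 4 * k + 3 ∧ Odd k :=
          ⟨(p - 3) / 4, by omega, by rw [Nat.odd_iff]; omega⟩
        have hk' : (p : ℂ) = 4 * k + 3 := by exact_mod_cast hk
        have : (3 - (p : ℂ)) / (12 * p) = -((k : ℂ) * (((3 * p : ℕ) : ℂ))⁻¹) := by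
          push_cast
          rw [hk']
          have h1 : (4 * (k : ℂ) + 3) ≠ 0 := by rw [← hk']; exact hpC
          field_simp
          ring
        rw [this]
        exact ((unit2_natCast hkodd).mul (unit2_inv_natCast hodd3)).neg
      · simp only [leadPos, if_neg h7]
        have h3 : p % 8 = 3 := by omega
        refine leadsAt_pos_of_parts _ _ _ (fun N ↦ rfl) (hα (some i)) (hβ (some j)) ?_ p
          (Nat.pos_of_ne_zero hp0) (alphaC_some_low hp0 i)
          (alphaC_some_lead hp0 qc_formA_of_ne_zero i)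
        change Even2 (Ycoeff p G (some i, some j) 0)
        rw [hc0]
        obtain ⟨k, hk⟩ : ∃ k : ℕ, p = 8 * k + 3 := ⟨(p - 3) / 8, by omega⟩
        have hk' : (p : ℂ) = 8 * k + 3 := by exact_mod_cast hk
        refine ⟨-((k : ℂ) * (((3 * p : ℕ) : ℂ))⁻¹),
          O2.neg_mem (O2.mul_mem (natCast_mem_O2 k) (inv_natCast_mem_O2 hodd3)), ?_⟩
        push_cast
        rw [hk']
        have h1 : (8 * (k : ℂ) + 3) ≠ 0 := by rw [← hk']; exact hpC
        field_simp
        ring

end Fermat.Agent.S16
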