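import Mathlib

/-!
# Victor Miller's basis / integral Sturm bound at level one

For a modular form `F` of weight `w` and level one, every `q`-coefficient of `F` lies in the
`ℤ`-span of the coefficients `a_i(F)` with `i ≤ w / 12`.
-/

set_option autoImplicit false

namespace Fermat.Agent.S16.Miller

open UpperHalfPlane ModularForm ModularFormClass MatrixGroups EisensteinSeries PowerSeries

/-! ### Part A: integrality of `E₄`, `E₆`, `Δ` -/

lemma bern4 : bernoulli 4 = -1 / 30 := by decide +kernel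
lemma bern6 : bernoulli 6 = 1 / 42 := by decide +kernel

lemma E4_coeff (n : ℕ) : (qExpansion 1 E₄).coeff n =
    if n = 0 then 1 else 240 * (ArithmeticFunction.sigma 3 n : ℂ) := by
  rw [E_qExpansion_coeff _ ⟨2, rfl⟩]
  split_ifs with h
  · rfl
  · rw [bern4]; norm_num

lemma E6_coeff (n : ℕ) : (qExpansion 1 E₆).coeff n =
    if n = 0 then 1 else -504 * (ArithmeticFunction.sigma 5 n : ℂ) := by
  rw [E_qExpansion_coeff _ ⟨3, rfl⟩]
  split_ifs with h
  · rfl
  · rw [bern6]; norm_num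

/-- `Σ σ₃(n) qⁿ` over `ℤ`. -/
noncomputable def A3 : PowerSeries ℤ := PowerSeries.mk fun n => (ArithmeticFunction.sigma 3 n : ℤ)

/-- `Σ σ₅(n) qⁿ` over `ℤ`. -/
noncomputable def B5 : PowerSeries ℤ := PowerSeries.mk fun n => (ArithmeticFunction.sigma 5 n : ℤ)

/-- `E₄` over `ℤ`. -/
noncomputable def E4Z : PowerSeries ℤ := 1 + PowerSeries.C (240 : ℤ) * A3

/-- `E₆` over `ℤ`. -/
noncomputable def E6Z : PowerSeries ℤ := 1 - PowerSeries.C (504 : ℤ) * B5

lemma map_E4Z : PowerSeries.map (Int.castRingHom ℂ) E4Z = qExpansion 1 E₄ := by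
  ext n
  rw [E4_coeff, PowerSeries.coeff_map, E4Z, map_add, PowerSeries.coeff_one, PowerSeries.coeff_C_mul,
    A3, PowerSeries.coeff_mk]
  split_ifs with h
  · subst h; simp
  · simp

lemma map_E6Z : PowerSeries.map (Int.castRingHom ℂ) E6Z = qExpansion 1 E₆ := by
  ext n
  rw [E6_coeff, PowerSeries.coeff_map, E6Z, map_sub, PowerSeries.coeff_one, PowerSeries.coeff_C_mul,
    B5, PowerSeries.coeff_mk]
  split_ifs with h
  · subst h; simp
  · simp

lemma E4Z_coeff_zero : PowerSeries.coeff 0 E4Z = 1 := by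
  simp [E4Z, A3]

lemma E6Z_coeff_zero : PowerSeries.coeff 0 E6Z = 1 := by
  simp [E6Z, B5]

lemma twelve_dvd_aux (d : ℤ) : (12 : ℤ) ∣ 5 * d ^ 3 + 7 * d ^ 5 := by
  have h : ∀ x : ZMod 12, 5 * x ^ 3 + 7 * x ^ 5 = 0 := by decide
  have := h (d : ZMod 12)
  have h2 : ((5 * d ^ 3 + 7 * d ^ 5 : ℤ) : ZMod 12) = 0 := by
    push_cast
    exact this
  exact (ZMod.intCast_zmod_eq_zero_iff_dvd _ 12).1 h2

lemma twelve_dvd_sigma (n : ℕ) :
    (12 : ℤ) ∣ 5 * (ArithmeticFunction.sigma 3 n : ℤ) + 7 * (ArithmeticFunction.sigma 5 n : ℤ) := by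
  rw [ArithmeticFunction.sigma_apply, ArithmeticFunction.sigma_apply]
  push_cast
  rw [Finset.mul_sum, Finset.mul_sum, ← Finset.sum_add_distrib]
  exact Finset.dvd_sum fun d _ => twelve_dvd_aux d

/-- `(5 σ₃ + 7 σ₅)/12`. -/
noncomputable def C12 : PowerSeries ℤ := PowerSeries.mk fun n =>
  (5 * (ArithmeticFunction.sigma 3 n : ℤ) + 7 * (ArithmeticFunction.sigma 5 n : ℤ)) / 12

lemma twelve_C12 :
    PowerSeries.C (12 : ℤ) * C12 = PowerSeries.C (5 : ℤ) * A3 + PowerSeries.C (7 : ℤ) * B5 := by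
  ext n
  rw [PowerSeries.coeff_C_mul, map_add, PowerSeries.coeff_C_mul, PowerSeries.coeff_C_mul, C12, A3,
    B5, PowerSeries.coeff_mk, PowerSeries.coeff_mk, PowerSeries.coeff_mk]
  exact Int.mul_ediv_cancel' (twelve_dvd_sigma n)

/-- The discriminant over `ℤ`. -/
noncomputable def DZ : PowerSeries ℤ :=
  C12 + PowerSeries.C (100 : ℤ) * A3 ^ 2 + PowerSeries.C (8000 : ℤ) * A3 ^ 3
    - PowerSeries.C (147 : ℤ) * B5 ^ 2

lemma DZ_identity : E4Z ^ 3 - E6Z ^ 2 = PowerSeries.C (1728 : ℤ) * DZ := by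
  have h := twelve_C12
  simp only [E4Z, E6Z, DZ, map_ofNat] at h ⊢
  linear_combination (-144 : PowerSeries ℤ) * h

lemma qExp_discriminant : qExpansion 1 ModularForm.discriminant =
    PowerSeries.map (Int.castRingHom ℂ) DZ := by
  let G : ModularForm 𝒮ℒ 12 :=
    ModularForm.mcast (by decide) (E₄.pow 3) - ModularForm.mcast (by decide) (E₆.pow 2)
  have hG : qExpansion 1 G = qExpansion 1 E₄ ^ 3 - qExpansion 1 E₆ ^ 2 := by
    simp only [G, FunLike.coe_sub, coe_mcast,
      ModularForm.qExpansion_sub one_pos one_mem_strictPeriods_SL,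
      ModularForm.qExpansion_pow one_pos one_mem_strictPeriods_SL]
  have hΔ : (ModularForm.discriminant : ℍ → ℂ) = (((1 / 1728 : ℂ)) • G : ModularForm 𝒮ℒ 12) := by
    ext z
    rw [discriminant_eq_E₄_cube_sub_E₆_sq z]
    simp only [G, smul_apply, sub_apply, mcast_apply, ModularForm.coe_pow,
      Pi.pow_apply, smul_eq_mul]
    ring
  rw [hΔ, FunLike.coe_smul, ModularForm.qExpansion_smul one_pos one_mem_strictPeriods_SL, hG,
    ← map_E4Z, ← map_E6Z, ← map_pow, ← map_pow, ← map_sub, DZ_identity, map_mul]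
  ext n
  simp only [PowerSeries.coeff_smul, PowerSeries.map_C, PowerSeries.coeff_C_mul, smul_eq_mul]
  simp only [eq_intCast, Int.cast_ofNat]
  ring

lemma DZ_coeff_zero : PowerSeries.coeff 0 DZ = 0 := by
  simp [DZ, C12, A3, B5, pow_succ]

lemma DZ_coeff_one : PowerSeries.coeff 1 DZ = 1 := by
  have h : (qExpansion 1 ModularForm.discriminant).coeff 1 = 1 := discriminant_qExpansion_coeff_one
  rw [qExp_discriminant, PowerSeries.coeff_map, eq_intCast] at h
  exact_mod_cast h

/-! ### Part A′: an integral form of constant term `1` in each admissible weight -/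

/-- There is a weight `w` level one form with integral `q`-expansion and constant term `1`. -/
def HasIntForm (w : ℤ) : Prop :=
  ∃ (E : ModularForm 𝒮ℒ w) (Q : PowerSeries ℤ),
    qExpansion 1 E = PowerSeries.map (Int.castRingHom ℂ) Q ∧ PowerSeries.coeff 0 Q = 1

lemma hasIntForm_zero : HasIntForm 0 :=
  ⟨1, 1, by rw [ModularForm.qExpansion_one, map_one], by simp⟩

lemma hasIntForm_four : HasIntForm 4 := ⟨E₄, E4Z, map_E4Z.symm, E4Z_coeff_zero⟩

lemma hasIntForm_six : HasIntForm 6 := ⟨E₆, E6Z, map_E6Z.symm, E6Z_coeff_zero⟩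

lemma hasIntForm_add_four {w : ℤ} (h : HasIntForm w) : HasIntForm (w + 4) := by
  obtain ⟨E, Q, hE, hQ⟩ := h
  refine ⟨ModularForm.mcast (by ring) (E₄.mul E), E4Z * Q, ?_, ?_⟩
  · rw [ModularForm.qExpansion_mcast]
    have : ((E₄.mul E : ModularForm 𝒮ℒ (4 + w)) : ℍ → ℂ) = (E₄ : ℍ → ℂ) * (E : ℍ → ℂ) := rfl
    rw [this, ModularForm.qExpansion_mul_coe one_pos one_mem_strictPeriods_SL, hE, ← map_E4Z,
      map_mul]
  · rw [PowerSeries.coeff_zero_eq_constantCoeff_apply, map_mul,
      ← PowerSeries.coeff_zero_eq_constantCoeff_apply, ← PowerSeries.coeff_zero_eq_constantCoeff_apply,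
      E4Z_coeff_zero, hQ, mul_one]

lemma hasIntForm_even (n : ℕ) : ∀ k : ℕ, k ≤ n → Even k → k ≠ 2 → HasIntForm (k : ℤ) := by
  induction n with
  | zero =>
    intro k hk _ _
    obtain rfl : k = 0 := by omega
    exact hasIntForm_zero
  | succ n ih =>
    intro k hk hev h2
    rcases Nat.lt_or_ge k (n + 1) with h | h
    · exact ih k (by omega) hev h2
    obtain rfl : k = n + 1 := by omega
    by_cases h4 : n + 1 = 4
    · rw [h4]; exact hasIntForm_four
    by_cases h6 : n + 1 = 6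
    · rw [h6]; exact hasIntForm_six
    obtain ⟨m, hm⟩ := hev
    have hk8 : 8 ≤ n + 1 := by omega
    have h' := ih (n + 1 - 4) (by omega) ⟨m - 2, by omega⟩ (by omega)
    have := hasIntForm_add_four h'
    have e : (((n + 1 - 4 : ℕ) : ℤ) + 4) = ((n + 1 : ℕ) : ℤ) := by
      rw [Nat.cast_sub (by omega)]; push_cast; ring
    rw [e] at this
    exact this

/-! ### Part B: abstract extraction -/

section Abstract

variable {f g : PowerSeries ℂ} {e d : PowerSeries ℤ}

/-- If `f = a₀ e + d g` with `e, d` integral, `d = q + O(q²)`, then `g_n` is an integral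
combination of `a₀, f_0, …, f_{n+1}`. -/
lemma coeff_mem_of_eq (a₀ : ℂ)
    (hf : f = PowerSeries.C a₀ * PowerSeries.map (Int.castRingHom ℂ) e
      + PowerSeries.map (Int.castRingHom ℂ) d * g)
    (hd0 : PowerSeries.coeff 0 d = 0) (hd1 : PowerSeries.coeff 1 d = 1)
    (M : Submodule ℤ ℂ) (ha : a₀ ∈ M) (N : ℕ) (hM : ∀ i ≤ N + 1, PowerSeries.coeff i f ∈ M) :
    ∀ n ≤ N, PowerSeries.coeff n g ∈ M := by
  -- write `d = X * u` with `u` a unit
  obtain ⟨u, hu⟩ : PowerSeries.X ∣ d := by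
    rw [PowerSeries.X_dvd_iff, ← PowerSeries.coeff_zero_eq_constantCoeff_apply]
    exact hd0
  have hu1 : PowerSeries.constantCoeff u = 1 := by
    have := hd1
    rw [hu, show (1 : ℕ) = 0 + 1 from rfl, PowerSeries.coeff_succ_X_mul,
      PowerSeries.coeff_zero_eq_constantCoeff_apply] at this
    exact this
  have huu : IsUnit u := by
    rw [PowerSeries.isUnit_iff_constantCoeff, hu1]
    exact isUnit_one
  obtain ⟨v, hv⟩ := huu.exists_right_inv
  set ι := PowerSeries.map (Int.castRingHom ℂ) with hι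
  have key : PowerSeries.X * g = ι v * (f - PowerSeries.C a₀ * ι e) := by
    have h1 : f - PowerSeries.C a₀ * ι e = ι d * g := by rw [hf]; ring
    rw [h1, hu, map_mul, PowerSeries.map_X]
    have h2 : ι v * ι u = 1 := by rw [← map_mul, mul_comm, hv, map_one]
    calc PowerSeries.X * g = (ι v * ι u) * (PowerSeries.X * g) := by rw [h2, one_mul]
      _ = ι v * (PowerSeries.X * ι u * g) := by ring
  intro n hn
  have h3 : PowerSeries.coeff n g = PowerSeries.coeff (n + 1) (PowerSeries.X * g) := by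
    rw [PowerSeries.coeff_succ_X_mul]
  rw [h3, key, PowerSeries.coeff_mul]
  refine Submodule.sum_mem _ fun p hp => ?_
  have hp' : p.1 + p.2 = n + 1 := by simpa using hp
  rw [hι, PowerSeries.coeff_map, map_sub, PowerSeries.coeff_C_mul, PowerSeries.coeff_map]
  simp only [eq_intCast]
  have h4 : ((PowerSeries.coeff p.1 v : ℤ) : ℂ)
      * (PowerSeries.coeff p.2 f - a₀ * ((PowerSeries.coeff p.2 e : ℤ) : ℂ))
      = (PowerSeries.coeff p.1 v) • PowerSeries.coeff p.2 f
        - (PowerSeries.coeff p.1 v * PowerSeries.coeff p.2 e) • a₀ := by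
    simp only [zsmul_eq_mul, Int.cast_mul]
    ring
  rw [h4]
  exact Submodule.sub_mem _ (Submodule.smul_mem _ _ (hM _ (by omega)))
    (Submodule.smul_mem _ _ ha)

/-- If `f = a₀ e + d g` with `e, d` integral and `a₀` and all `g_n` lie in `M`, then all `f_n`
lie in `M`. -/
lemma coeff_mem_of_eq' (a₀ : ℂ)
    (hf : f = PowerSeries.C a₀ * PowerSeries.map (Int.castRingHom ℂ) e
      + PowerSeries.map (Int.castRingHom ℂ) d * g)
    (M : Submodule ℤ ℂ) (ha : a₀ ∈ M) (hg : ∀ n, PowerSeries.coeff n g ∈ M) :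
    ∀ n, PowerSeries.coeff n f ∈ M := by
  intro n
  rw [hf, map_add, PowerSeries.coeff_C_mul, PowerSeries.coeff_map, PowerSeries.coeff_mul]
  refine Submodule.add_mem _ ?_ (Submodule.sum_mem _ fun p _ => ?_)
  · simp only [eq_intCast]
    have : a₀ * ((PowerSeries.coeff n e : ℤ) : ℂ) = (PowerSeries.coeff n e) • a₀ := by
      simp only [zsmul_eq_mul]; ring
    rw [this]
    exact Submodule.smul_mem _ _ ha
  · rw [PowerSeries.coeff_map]
    simp only [eq_intCast]
    have : ((PowerSeries.coeff p.1 d : ℤ) : ℂ) * PowerSeries.coeff p.2 g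
        = (PowerSeries.coeff p.1 d) • PowerSeries.coeff p.2 g := by
      simp only [zsmul_eq_mul]
    rw [this]
    exact Submodule.smul_mem _ _ (hg _)

end Abstract

/-! ### Part C: the main theorem -/

/-- The `ℤ`-span of the first `⌊w/12⌋ + 1` coefficients. -/
noncomputable def lowSpan (w : ℤ) (P : PowerSeries ℂ) : Submodule ℤ ℂ :=
  Submodule.span ℤ {x | ∃ i : ℕ, (i : ℤ) ≤ w / 12 ∧ PowerSeries.coeff i P = x}

theorem miller_aux (n : ℕ) :
    ∀ w : ℤ, w < n → ∀ F : ModularForm 𝒮ℒ w, ∀ m : ℕ,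
      PowerSeries.coeff m (qExpansion 1 F) ∈ lowSpan w (qExpansion 1 F) := by
  induction n with
  | zero =>
    intro w hw F m
    have hF : (F : ℍ → ℂ) = 0 := levelOne_neg_weight_eq_zero (by simpa using hw) F
    rw [hF, UpperHalfPlane.qExpansion_zero]
    simp
  | succ n ih =>
    intro w hw F m
    have hw' : w < (n : ℤ) + 1 := by push_cast at hw; exact hw
    rcases lt_or_eq_of_le (Int.lt_add_one_iff.mp hw') with h | h
    · exact ih w h F m
    subst h
    rcases Nat.even_or_odd n with hev | hodd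
    swap
    · rw [ModularForm.levelOne_odd_weight_eq_zero (by exact_mod_cast hodd) F]
      rw [FunLike.coe_zero, UpperHalfPlane.qExpansion_zero]
      simp
    by_cases hn2 : n = 2
    · subst hn2
      have h0 := levelOne_weight_two_rank_zero
      rw [rank_zero_iff_forall_zero] at h0
      rw [show F = 0 from h0 F]
      rw [FunLike.coe_zero, UpperHalfPlane.qExpansion_zero]
      simp
    obtain ⟨E, Q, hE, hQ⟩ := hasIntForm_even n n le_rfl hev hn2
    have hE0 : (qExpansion 1 E).coeff 0 = 1 := by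
      rw [hE, PowerSeries.coeff_map, hQ]; simp
    have hcusp0 := sub_smul_isCuspForm F E hE0
    have hcusp := (isCuspForm_iff_coeffZero_eq_zero _).mp hcusp0
    set a₀ := (qExpansion 1 F).coeff 0 with ha₀
    set F' := CuspForm.discriminantEquiv (toCuspForm (F - a₀ • E) hcusp) with hF'
    have hq := qExpansion_eq_qExpansion_discriminant_mul (F - a₀ • E) hcusp
    rw [← hF', FunLike.coe_sub, ModularForm.qExpansion_sub one_pos one_mem_strictPeriods_SL,
      FunLike.coe_smul, ModularForm.qExpansion_smul one_pos one_mem_strictPeriods_SL,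
      qExp_discriminant, hE] at hq
    have hf : qExpansion 1 F = PowerSeries.C a₀ * PowerSeries.map (Int.castRingHom ℂ) Q
        + PowerSeries.map (Int.castRingHom ℂ) DZ * qExpansion 1 F' := by
      rw [← hq]
      ext i
      simp only [map_add, map_sub, PowerSeries.coeff_C_mul, PowerSeries.coeff_smul, smul_eq_mul]
      ring
    set T := lowSpan (n : ℤ) (qExpansion 1 F) with hT
    have hn0 : (0 : ℤ) ≤ (n : ℤ) / 12 := Int.ediv_nonneg (by positivity) (by norm_num)
    have ha : a₀ ∈ T := Submodule.subset_span ⟨0, by simpa using hn0, rfl⟩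
    -- the low coefficients of `F'` lie in `T`
    have hlow : lowSpan ((n : ℤ) - 12) (qExpansion 1 F') ≤ T := by
      refine Submodule.span_le.2 ?_
      rintro x ⟨i, hi, rfl⟩
      have hi' : ((i + 1 : ℕ) : ℤ) ≤ (n : ℤ) / 12 := by
        have : ((n : ℤ) - 12) / 12 = (n : ℤ) / 12 - 1 := by omega
        rw [this] at hi
        push_cast
        omega
      refine coeff_mem_of_eq a₀ hf DZ_coeff_zero DZ_coeff_one T ha i ?_ i le_rfl
      intro j hj
      exact Submodule.subset_span ⟨j, by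
        have : (j : ℤ) ≤ ((i + 1 : ℕ) : ℤ) := by exact_mod_cast hj
        omega, rfl⟩
    have hall : ∀ k, PowerSeries.coeff k (qExpansion 1 F') ∈ T := fun k =>
      hlow (ih _ (by omega) F' k)
    exact coeff_mem_of_eq' a₀ hf T ha hall m

/-- **Victor Miller / integral Sturm bound at level one.** Every `q`-coefficient of a level one
modular form of weight `w` lies in the `ℤ`-span of the coefficients `a_i` with `i ≤ w / 12`. -/
theorem miller (w : ℤ) (F : ModularForm 𝒮ℒ w) (n : ℕ) :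
    (qExpansion 1 F).coeff n ∈
      Submodule.span ℤ {x : ℂ | ∃ i : ℕ, (i : ℤ) ≤ w / 12 ∧ (qExpansion 1 F).coeff i = x} :=
  miller_aux (w.toNat + 1) w (by omega) F n

/-- Submodule form: if the coefficients `a_i`, `i ≤ w / 12`, lie in a `ℤ`-submodule `M` of `ℂ`,
then so do all coefficients. -/
theorem miller_mem (w : ℤ) (F : ModularForm 𝒮ℒ w) (M : Submodule ℤ ℂ)
    (h : ∀ i : ℕ, (i : ℤ) ≤ w / 12 → (qExpansion 1 F).coeff i ∈ M) (n : ℕ) :
    (qExpansion 1 F).coeff n ∈ M := by
  have hle : Submodule.span ℤ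
      {x : ℂ | ∃ i : ℕ, (i : ℤ) ≤ w / 12 ∧ (qExpansion 1 F).coeff i = x} ≤ M := by
    refine Submodule.span_le.2 ?_
    rintro x ⟨i, hi, rfl⟩
    exact h i hi
  exact hle (miller w F n)

/-- Integrality form: if the coefficients `a_i`, `i ≤ w / 12`, are integers, so are all. -/
theorem miller_int (w : ℤ) (F : ModularForm 𝒮ℒ w)
    (h : ∀ i : ℕ, (i : ℤ) ≤ w / 12 → ∃ m : ℤ, (qExpansion 1 F).coeff i = m) (n : ℕ) :
    ∃ m : ℤ, (qExpansion 1 F).coeff n = m := by
  have := miller_mem w F (Int.castRingHom ℂ).range.toAddSubgroup.toIntSubmodule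
    (fun i hi => by
      obtain ⟨m, hm⟩ := h i hi
      exact ⟨m, by rw [hm]; rfl⟩) n
  obtain ⟨m, hm⟩ := this
  exact ⟨m, by rw [← hm]; rfl⟩

/-- Divisibility form: if the coefficients `a_i`, `i ≤ w / 12`, are integers divisible by `D`,
so are all. -/
theorem miller_dvd (w : ℤ) (F : ModularForm 𝒮ℒ w) (D : ℤ)
    (h : ∀ i : ℕ, (i : ℤ) ≤ w / 12 → ∃ m : ℤ, (qExpansion 1 F).coeff i = (D * m : ℤ)) (n : ℕ) :
    ∃ m : ℤ, (qExpansion 1 F).coeff n = (D * m : ℤ) := by
  have hmem := miller w F n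
  generalize (qExpansion 1 F).coeff n = y at hmem
  induction hmem using Submodule.span_induction with
  | mem x hx =>
    obtain ⟨i, hi, rfl⟩ := hx
    exact h i hi
  | zero => exact ⟨0, by simp⟩
  | add x y _ _ hx hy =>
    obtain ⟨a, rfl⟩ := hx
    obtain ⟨b, rfl⟩ := hy
    exact ⟨a + b, by push_cast; ring⟩
  | smul c x _ hx =>
    obtain ⟨a, rfl⟩ := hx
    exact ⟨c * a, by simp only [zsmul_eq_mul]; push_cast; ring⟩

/-- Sturm form: if the coefficients `a_i`, `i ≤ w / 12`, vanish, then all coefficients vanish. -/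
theorem miller_zero (w : ℤ) (F : ModularForm 𝒮ℒ w)
    (h : ∀ i : ℕ, (i : ℤ) ≤ w / 12 → (qExpansion 1 F).coeff i = 0) (n : ℕ) :
    (qExpansion 1 F).coeff n = 0 := by
  have := miller_mem w F ⊥ (fun i hi => by rw [h i hi]; exact Submodule.zero_mem _) n
  simpa using this

end Fermat.Agent.S16.Miller
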