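import Mathlib
import Fermat.Agent.S16.LemmaOLead
import Fermat.Agent.S16.Miller

/-!
# S16, Lemma O

For a prime `p ≡ 3 mod 4`, `p ≠ 3`, there is no modular form `G` of weight 2 on `Γ₀(p)` whose
`q`-expansion is `≡ 1 mod 8` (constant term `1`, higher coefficients in `8 · O2`, `O2` the ring
of 2-integral algebraic numbers).

Proof: `Y = (A − G)/4` with `A = (3E₂(3z) − E₂(z))/2 ∈ M₂(Γ₀(3))`; the norm form
`N = ∏_{s,t} Y_{s,t}` (over `ℙ¹(𝔽₃) × ℙ¹(𝔽_p)`) has level one, weight `8(p+1)`, 2-integral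
coefficients, and its reduction mod 2 has exact order `p + 1 > 8(p+1)/12` at `∞`: this
contradicts the integral Sturm bound (`Miller.miller_mem`).
-/

open UpperHalfPlane ModularForm CongruenceSubgroup Matrix.SpecialLinearGroup ModularGroup Function
open scoped MatrixGroups ModularForm Manifold

noncomputable section

namespace Fermat.Agent.S16

/-- `2 · O2` as a `ℤ`-submodule of `ℂ` -/
def even2Submodule : Submodule ℤ ℂ where
  carrier := {x | Even2 x}
  add_mem' := fun ha hb ↦ Even2.add ha hb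
  zero_mem' := even2_zero
  smul_mem' := fun c x hx ↦ by
    have : c • x = (c : ℂ) * x := by simp
    change Even2 (c • x)
    rw [this]
    exact Even2.mul_left hx (intCast_mem_O2 c)

variable {p : ℕ} [hp : Fact p.Prime] {G : ℍ → ℂ}

theorem goodH_Yfam (hG : IsMF2 p G) (x : Idx p) : GoodH ((3 * p : ℕ) : ℝ) (Yfam p G x) :=
  (hasExp_Yfam hG x).goodH (by exact_mod_cast Nat.mul_pos (by norm_num) hp.out.pos)
    (mdiff_Yfam hG x)

theorem qExpansion_Yfam (hG : IsMF2 p G) (x : Idx p) :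
    qExpansion ((3 * p : ℕ) : ℝ) (Yfam p G x) = PowerSeries.mk (Ycoeff p G x) := by
  ext n
  rw [PowerSeries.coeff_mk]
  exact (hasExp_Yfam hG x).qExpansion_coeff
    (by exact_mod_cast Nat.mul_pos (by norm_num) hp.out.pos) (mdiff_Yfam hG x) n

theorem leadsAt_normO (h8 : p % 8 = 7 ∨ p % 8 = 3) (hG : IsMF2 p G) (hG0 : qc G 0 = 1)
    (hGn : ∀ n, n ≠ 0 → ∃ h ∈ O2, qc G n = 8 * h) :
    LeadsAt (qExpansion ((3 * p : ℕ) : ℝ) (normO hG)) (3 * p * (p + 1)) := by
  have hH : (0 : ℝ) < ((3 * p : ℕ) : ℝ) := by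
    exact_mod_cast Nat.mul_pos (by norm_num) hp.out.pos
  rw [coe_normO, GoodH.qExpansion_prod hH _ _ (fun x _ ↦ goodH_Yfam hG x), ← sum_leadPos]
  refine LeadsAt.prod _ _ _ (fun x _ ↦ ?_)
  rw [qExpansion_Yfam hG x]
  exact leadsAt_Ycoeff h8 hG0 hGn x

theorem qExpansion_normO_coeff (hG : IsMF2 p G) (M : ℕ) :
    (qExpansion ((3 * p : ℕ) : ℝ) (normO hG)).coeff M =
      if 3 * p ∣ M then (qExpansion 1 (normO hG)).coeff (M / (3 * p)) else 0 := by
  have hH0 : 3 * p ≠ 0 := Nat.mul_ne_zero (by norm_num) hp.out.ne_zero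
  have hH : (0 : ℝ) < ((3 * p : ℕ) : ℝ) := by exact_mod_cast Nat.pos_of_ne_zero hH0
  have h1 : HasExp 1 (normO hG) (fun n ↦ (qExpansion 1 (normO hG)).coeff n) := by
    intro z
    have := ModularForm.hasSum_qExpansion (normO hG) one_pos one_mem_strictPeriods_SL z
    simpa using this
  have h2 : HasExp ((3 * p : ℕ) : ℝ) (normO hG)
      (fun N ↦ if 3 * p ∣ N then (qExpansion 1 (normO hG)).coeff (N / (3 * p)) else 0) := by
    intro z
    have := hasSum_reindex hH0 (qParam_one_eq_pow hH0 (z : ℂ)) (h1 z)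
    simpa using this
  exact h2.qExpansion_coeff hH (normO hG).holo' M

/-- **Lemma O.** -/
theorem lemmaO (h4 : p % 4 = 3) (hG : IsMF2 p G) (hG0 : qc G 0 = 1)
    (hGn : ∀ n, n ≠ 0 → ∃ h ∈ O2, qc G n = 8 * h) : False := by
  have h8 : p % 8 = 7 ∨ p % 8 = 3 := by omega
  have hH0 : 3 * p ≠ 0 := Nat.mul_ne_zero (by norm_num) hp.out.ne_zero
  have hlead := leadsAt_normO h8 hG hG0 hGn
  -- the coefficients of the `q`-expansion of the norm form
  have hcoeff : ∀ k : ℕ, (qExpansion 1 (normO hG)).coeff k =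
      (qExpansion ((3 * p : ℕ) : ℝ) (normO hG)).coeff (3 * p * k) := by
    intro k
    rw [qExpansion_normO_coeff, if_pos (dvd_mul_right _ _),
      Nat.mul_div_cancel_left _ (Nat.pos_of_ne_zero hH0)]
  have hlow : ∀ i : ℕ, (i : ℤ) ≤ (2 * (Fintype.card (Idx p) : ℤ)) / 12 →
      (qExpansion 1 (normO hG)).coeff i ∈ even2Submodule := by
    intro i hi
    rw [card_Idx] at hi
    have hi' : (i : ℤ) * 12 ≤ 2 * ((4 * (p + 1) : ℕ) : ℤ) :=
      (Int.le_ediv_iff_mul_le (by norm_num)).mp hi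
    have hi'' : i < p + 1 := by
      have : (i : ℤ) * 12 ≤ 8 * ((p : ℤ) + 1) := by push_cast at hi'; linarith
      omega
    rw [hcoeff]
    exact hlead.2.1 _ (Nat.mul_lt_mul_of_pos_left hi'' (Nat.pos_of_ne_zero hH0))
  have hall := Miller.miller_mem _ (normO hG) even2Submodule hlow (p + 1)
  rw [hcoeff] at hall
  exact hlead.not_even2 hall

end Fermat.Agent.S16
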