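import Mathlib
import Fermat.Agent.S16.LemmaO
import Fermat.Agent.S16.DualityMain

/-!
# S16, Lemma O, corollary in the shape used by (B)

For a prime `p ≡ 3 mod 4`: if a cusp form `f ∈ S₂(Γ₀(p))` satisfies `f ≡ E mod M`
(`D.CongE p M f`), then `M` is odd.
-/

open UpperHalfPlane ModularForm CongruenceSubgroup Matrix.SpecialLinearGroup ModularGroup Function
open scoped MatrixGroups ModularForm Manifold

noncomputable section

namespace Fermat.Agent.S16

theorem D_sigmaStar_eq (p k : ℕ) : D.sigmaStar p k = sigmaStar p k := rfl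

theorem IsMF2.of_cuspForm {P : ℕ} [NeZero P] (f : CuspForm (Gamma0 P) 2) : IsMF2 P f where
  holo := f.holo'
  inv := fun γ hγ ↦ by
    rw [ModularForm.SL_slash]
    exact f.slash_action_eq' _ ⟨γ, hγ, rfl⟩
  bdd := fun g ↦ (CuspFormClass.zero_at_infty_slash f g).boundedAtFilter

theorem qc_cuspForm_zero {P : ℕ} [NeZero P] (f : CuspForm (Gamma0 P) 2) : qc f 0 = 0 := by
  haveI : Fact (IsCusp OnePoint.infty (Subgroup.map (mapGL ℝ) (Gamma0 P))) :=
    ⟨Subgroup.isCusp_of_mem_strictPeriods one_pos (one_mem_strictPeriods_Gamma0' P)⟩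
  exact CuspFormClass.qExpansion_coeff_zero f one_pos (one_mem_strictPeriods_Gamma0' P)

variable {p : ℕ} [hp : Fact p.Prime]

/-- the form `G = (eis − 24 f)/(p − 1)` -/
def formG (p : ℕ) (f : ℍ → ℂ) : ℍ → ℂ := ((p : ℂ) - 1)⁻¹ • (eisFun p - (24 : ℂ) • f)

theorem isMF2_formG {f : ℍ → ℂ} (hf : IsMF2 p f) : IsMF2 p (formG p f) := by
  have h := IsMF2.of_modularForm (((p : ℂ) - 1)⁻¹ • (eisMF p - (24 : ℂ) • hf.toModularForm))
  simpa [formG] using h

theorem hasExp_formG {f : ℍ → ℂ} (hf : IsMF2 p f) :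
    HasExp 1 (formG p f) (fun n ↦ ((p : ℂ) - 1)⁻¹ * (eisCoeff p n - 24 * qc f n)) := by
  have h1 : HasExp 1 (eisFun p) (eisCoeff p) := by
    intro z
    have := hasSum_eisFun hp.out.ne_zero z
    simpa [Periodic.qParam] using this
  have h2 := (hf.hasExp_one).const_smul (24 : ℂ)
  exact (h1.sub h2).const_smul _

theorem qc_formG {f : ℍ → ℂ} (hf : IsMF2 p f) (n : ℕ) :
    qc (formG p f) n = ((p : ℂ) - 1)⁻¹ * (eisCoeff p n - 24 * qc f n) :=
  (hasExp_formG hf).qExpansion_coeff one_pos (isMF2_formG hf).holo n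

/-- **Lemma O, (B)-shape**: for `p ≡ 3 mod 4`, `f ≡ E mod M` forces `M` odd. -/
theorem not_two_dvd_of_congE (h4 : p % 4 = 3) (M : ℕ) (f : CuspForm (Gamma0 p) 2)
    (h : D.CongE p M f) : ¬ 2 ∣ M := by
  rintro ⟨M', rfl⟩
  have hf := IsMF2.of_cuspForm f
  have hp1 : (p : ℂ) - 1 ≠ 0 := by
    have : (p : ℂ) ≠ 1 := by exact_mod_cast hp.out.one_lt.ne'
    exact sub_ne_zero.mpr this
  obtain ⟨k, hk, hkodd⟩ : ∃ k : ℕ, p - 1 = 2 * k ∧ Odd k :=
    ⟨(p - 1) / 2, by omega, by rw [Nat.odd_iff]; omega⟩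
  have hk' : (p : ℂ) - 1 = 2 * k := by
    have : 1 ≤ p := hp.out.one_lt.le
    have h2 : ((p - 1 : ℕ) : ℂ) = 2 * k := by exact_mod_cast hk
    rw [← h2]
    push_cast [this]
    ring
  have hk0 : (k : ℂ) ≠ 0 := by
    have : k ≠ 0 := by rintro rfl; simp at hkodd
    exact_mod_cast this
  refine lemmaO h4 (isMF2_formG hf) ?_ ?_
  · rw [qc_formG hf, eisCoeff_zero, qc_cuspForm_zero f]
    field_simp
    ring
  · intro n hn
    obtain ⟨c, hc⟩ := h n (Nat.pos_of_ne_zero hn)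
    have hc' : qc f n = (sigmaStar p n : ℂ) + ((2 * M' : ℕ) : ℂ) * (c : ℂ) := hc
    refine ⟨-(3 * (M' : ℂ) * (c : ℂ) * (k : ℂ)⁻¹), ?_, ?_⟩
    · refine O2.neg_mem (O2.mul_mem (O2.mul_mem (O2.mul_mem ?_ (natCast_mem_O2 M'))
        (intCast_mem_O2 c)) (inv_natCast_mem_O2 hkodd))
      exact_mod_cast natCast_mem_O2 3
    · rw [qc_formG hf, eisCoeff_of_ne_zero p hn, hc', hk']
      push_cast
      field_simp
      ring

end Fermat.Agent.S16
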