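import Fermat.Agent.S16.HeckeTrick
import Fermat.Agent.S16.FSq
import Fermat.Agent.S16.LemmaOCor

/-!
# S16, statement (B): every congruence modulus divides the Eisenstein numerator

If a weight-2 cusp form `f` on `Γ₀(p)` satisfies `f ≡ E mod M` (`D.CongE p M f`), then
`M ∣ (p − 1) / gcd(p − 1, 12)`.

Inputs:
* T3 (`hecke_trick`): `M ∣ p − 1`;
* F2 (`f2_dvd`, `twelve_convS`): `M' ∣ C` with `12 C = (p² − 1)(5p − 6)`, `M' = 2M` for even `M`;
* Lemma O (`not_two_dvd_of_congE`): `M` is odd if `p ≡ 3 mod 4`.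
-/

set_option autoImplicit false
set_option linter.unusedSectionVars false

open UpperHalfPlane ModularForm CongruenceSubgroup ModularFormClass ModularCurve
open scoped MatrixGroups ModularForm Manifold

noncomputable section

namespace Fermat.Agent.S16.B

/-! ### Arithmetic -/

/-- the doubled modulus -/
def dbl (M : ℕ) : ℕ := if 2 ∣ M then 2 * M else M

theorem isCoprime_two_of_not_dvd {M : ℕ} (h : ¬ 2 ∣ M) : IsCoprime (M : ℤ) 2 := by
  obtain ⟨k, hk⟩ : ∃ k : ℕ, M = 2 * k + 1 := ⟨M / 2, by omega⟩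
  refine ⟨1, -(k : ℤ), ?_⟩
  rw [hk]
  push_cast
  ring

theorem dbl_dvd_two_mul (M : ℕ) : (dbl M : ℤ) ∣ 2 * (M : ℤ) := by
  unfold dbl
  split_ifs with h
  · push_cast
    exact dvd_rfl
  · exact Dvd.intro_left _ rfl

theorem dvd_of_dbl_dvd {M : ℕ} {N : ℤ} (h : (dbl M : ℤ) ∣ 2 * N) : (M : ℤ) ∣ N := by
  unfold dbl at h
  split_ifs at h with h2
  · push_cast at h
    exact (mul_dvd_mul_iff_left (by norm_num : (2 : ℤ) ≠ 0)).mp h
  · exact (isCoprime_two_of_not_dvd h2).dvd_of_dvd_mul_left h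

theorem isCoprime_dbl {M : ℕ} {X : ℤ} (h2 : IsCoprime (2 : ℤ) X) (hM : IsCoprime (M : ℤ) X) :
    IsCoprime (dbl M : ℤ) X :=
  (h2.mul_left hM).of_isCoprime_of_dvd_left (dbl_dvd_two_mul M)

theorem prime_mod_twelve {p : ℕ} (hp : p.Prime) :
    p = 2 ∨ p = 3 ∨ p % 12 = 1 ∨ p % 12 = 5 ∨ p % 12 = 7 ∨ p % 12 = 11 := by
  by_cases h2 : p = 2
  · exact Or.inl h2
  by_cases h3 : p = 3
  · exact Or.inr (Or.inl h3)
  have e2 : ¬ 2 ∣ p := fun h => h2 ((Nat.prime_dvd_prime_iff_eq Nat.prime_two hp).mp h).symm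
  have e3 : ¬ 3 ∣ p := fun h => h3 ((Nat.prime_dvd_prime_iff_eq Nat.prime_three hp).mp h).symm
  omega

/-- The arithmetic core of (B). -/
theorem arith_B (p M : ℕ) (hp : p.Prime) (C : ℤ)
    (h1 : (M : ℤ) ∣ (p : ℤ) - 1)
    (h12 : 12 * C = ((p : ℤ) ^ 2 - 1) * (5 * p - 6))
    (h2 : (dbl M : ℤ) ∣ C)
    (hO : p % 4 = 3 → ¬ 2 ∣ M) :
    M ∣ eisensteinNumerator p := by
  rcases prime_mod_twelve hp with rfl | rfl | h | h | h | h
  · -- p = 2
    have : (M : ℤ) ∣ 1 := by simpa using h1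
    have hM : M ∣ 1 := by exact_mod_cast this
    have e : eisensteinNumerator 2 = 1 := by decide
    rw [e]; exact hM
  · -- p = 3
    have hodd := hO (by norm_num)
    have : (M : ℤ) ∣ 2 := by
      have e : ((3 : ℕ) : ℤ) - 1 = 2 := by norm_num
      rwa [e] at h1
    have hM : M ∣ 2 := by exact_mod_cast this
    have e : eisensteinNumerator 3 = 1 := by decide
    rw [e]
    have hle : M ≤ 2 := Nat.le_of_dvd (by norm_num) hM
    interval_cases M
    · simp at hM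
    · exact dvd_rfl
    · exact absurd dvd_rfl hodd
  · -- p = 12 t + 1
    obtain ⟨t, ht⟩ : ∃ t : ℕ, p = 12 * t + 1 := ⟨p / 12, by omega⟩
    subst ht
    have hE : eisensteinNumerator (12 * t + 1) = t := by
      unfold eisensteinNumerator
      simp
    rw [hE]
    obtain ⟨T, hT⟩ : ∃ T : ℤ, T = (t : ℤ) := ⟨_, rfl⟩
    have hp' : ((12 * t + 1 : ℕ) : ℤ) = 12 * T + 1 := by rw [hT]; push_cast; ring
    rw [hp'] at h1 h12
    have hM12 : (M : ℤ) ∣ 12 * T := by
      have e : 12 * T + 1 - 1 = 12 * T := by ring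
      rwa [e] at h1
    have hC : C = 2 * T * ((6 * T + 1) * (60 * T - 1)) := by
      have : 12 * C = 12 * (2 * T * ((6 * T + 1) * (60 * T - 1))) := by rw [h12]; ring
      exact mul_left_cancel₀ (by norm_num) this
    have c1 : IsCoprime (12 * T) ((6 * T + 1) * (60 * T - 1)) :=
      IsCoprime.mul_right ⟨3 * T, 1 - 6 * T, by ring⟩ ⟨5, -1, by ring⟩
    have c2 : IsCoprime (2 : ℤ) ((6 * T + 1) * (60 * T - 1)) :=
      IsCoprime.mul_right ⟨-(3 * T), 1, by ring⟩ ⟨30 * T, -1, by ring⟩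
    have c3 := isCoprime_dbl c2 (c1.of_isCoprime_of_dvd_left hM12)
    rw [hC] at h2
    have := dvd_of_dbl_dvd (c3.dvd_of_dvd_mul_right h2)
    rw [hT] at this
    exact_mod_cast this
  · -- p = 12 t + 5
    obtain ⟨t, ht⟩ : ∃ t : ℕ, p = 12 * t + 5 := ⟨p / 12, by omega⟩
    subst ht
    have hE : eisensteinNumerator (12 * t + 5) = 3 * t + 1 := by
      unfold eisensteinNumerator
      have e : 12 * t + 5 - 1 = 12 * t + 4 := by omega
      rw [e]
      have g : Nat.gcd (12 * t + 4) 12 = 4 := by simp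
      rw [g]
      omega
    rw [hE]
    obtain ⟨T, hT⟩ : ∃ T : ℤ, T = (t : ℤ) := ⟨_, rfl⟩
    have hp' : ((12 * t + 5 : ℕ) : ℤ) = 12 * T + 5 := by rw [hT]; push_cast; ring
    rw [hp'] at h1 h12
    have hM12 : (M : ℤ) ∣ 4 * (3 * T + 1) := by
      have e : 12 * T + 5 - 1 = 4 * (3 * T + 1) := by ring
      rwa [e] at h1
    have hC : C = 2 * (3 * T + 1) * ((2 * T + 1) * (60 * T + 19)) := by
      have : 12 * C = 12 * (2 * (3 * T + 1) * ((2 * T + 1) * (60 * T + 19))) := by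
        rw [h12]; ring
      exact mul_left_cancel₀ (by norm_num) this
    have c1 : IsCoprime (4 * (3 * T + 1)) ((2 * T + 1) * (60 * T + 19)) :=
      IsCoprime.mul_right
        (IsCoprime.mul_left ⟨-(T ^ 2 + T), 2 * T + 1, by ring⟩ ⟨-2, 3, by ring⟩)
        (IsCoprime.mul_left ⟨15 * T + 5, -1, by ring⟩ ⟨20, -1, by ring⟩)
    have c2 : IsCoprime (2 : ℤ) ((2 * T + 1) * (60 * T + 19)) :=
      IsCoprime.mul_right ⟨-T, 1, by ring⟩ ⟨-(30 * T + 9), 1, by ring⟩
    have c3 := isCoprime_dbl c2 (c1.of_isCoprime_of_dvd_left hM12)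
    rw [hC] at h2
    have := dvd_of_dbl_dvd (c3.dvd_of_dvd_mul_right h2)
    rw [hT] at this
    exact_mod_cast this
  · -- p = 12 t + 7
    obtain ⟨t, ht⟩ : ∃ t : ℕ, p = 12 * t + 7 := ⟨p / 12, by omega⟩
    subst ht
    have hodd := hO (by omega)
    have hE : eisensteinNumerator (12 * t + 7) = 2 * t + 1 := by
      unfold eisensteinNumerator
      have e : 12 * t + 7 - 1 = 12 * t + 6 := by omega
      rw [e]
      have g : Nat.gcd (12 * t + 6) 12 = 6 := by simp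
      rw [g]
      omega
    rw [hE]
    obtain ⟨T, hT⟩ : ∃ T : ℤ, T = (t : ℤ) := ⟨_, rfl⟩
    have hp' : ((12 * t + 7 : ℕ) : ℤ) = 12 * T + 7 := by rw [hT]; push_cast; ring
    rw [hp'] at h1 h12
    have hcop2 := isCoprime_two_of_not_dvd hodd
    have hM12 : (M : ℤ) ∣ 3 * (2 * T + 1) := by
      have e : 12 * T + 7 - 1 = 2 * (3 * (2 * T + 1)) := by ring
      rw [e] at h1
      exact hcop2.dvd_of_dvd_mul_left h1
    have hC : C = 2 * ((2 * T + 1) * ((3 * T + 2) * (60 * T + 29))) := by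
      have : 12 * C = 12 * (2 * ((2 * T + 1) * ((3 * T + 2) * (60 * T + 29)))) := by
        rw [h12]; ring
      exact mul_left_cancel₀ (by norm_num) this
    have c1 : IsCoprime (3 * (2 * T + 1)) ((3 * T + 2) * (60 * T + 29)) :=
      IsCoprime.mul_right
        (IsCoprime.mul_left ⟨T + 1, -1, by ring⟩ ⟨-3, 2, by ring⟩)
        (IsCoprime.mul_left ⟨20 * T + 10, -1, by ring⟩ ⟨30, -1, by ring⟩)
    have c3 := c1.of_isCoprime_of_dvd_left hM12
    have hd : dbl M = M := by unfold dbl; rw [if_neg hodd]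
    rw [hd, hC] at h2
    have h3 := hcop2.dvd_of_dvd_mul_left h2
    have := c3.dvd_of_dvd_mul_right h3
    rw [hT] at this
    exact_mod_cast this
  · -- p = 12 t + 11
    obtain ⟨t, ht⟩ : ∃ t : ℕ, p = 12 * t + 11 := ⟨p / 12, by omega⟩
    subst ht
    have hodd := hO (by omega)
    have hE : eisensteinNumerator (12 * t + 11) = 6 * t + 5 := by
      unfold eisensteinNumerator
      have e : 12 * t + 11 - 1 = 12 * t + 10 := by omega
      rw [e]
      have g : Nat.gcd (12 * t + 10) 12 = 2 := by simp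
      rw [g]
      omega
    rw [hE]
    obtain ⟨T, hT⟩ : ∃ T : ℤ, T = (t : ℤ) := ⟨_, rfl⟩
    have hp' : ((12 * t + 11 : ℕ) : ℤ) = 12 * T + 11 := by rw [hT]; push_cast; ring
    rw [hp'] at h1
    have hcop2 := isCoprime_two_of_not_dvd hodd
    have hM12 : (M : ℤ) ∣ 6 * T + 5 := by
      have e : 12 * T + 11 - 1 = 2 * (6 * T + 5) := by ring
      rw [e] at h1
      exact hcop2.dvd_of_dvd_mul_left h1
    rw [hT] at hM12
    exact_mod_cast hM12

/-! ### The modular-form inputs -/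

variable {p : ℕ} [hp : Fact p.Prime]

/-- the modular form `E − 24 f` -/
def eisSub (f : CuspForm (Gamma0 p) 2) : ModularForm (Gamma0 p) 2 :=
  eisMF p - (24 : ℂ) • CuspForm.toModularFormₗ f

theorem qCoeff_eisSub (f : CuspForm (Gamma0 p) 2) (n : ℕ) :
    qCoeff (⇑(eisSub f)) n = eisCoeff p n - 24 * qCoeff (⇑f) n := by
  have h1 : (⇑(eisSub f) : ℍ → ℂ) = ⇑(eisMF p) - ⇑((24 : ℂ) • CuspForm.toModularFormₗ f) := rfl
  have h2 : (⇑((24 : ℂ) • CuspForm.toModularFormₗ f) : ℍ → ℂ) =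
      (24 : ℂ) • ⇑(CuspForm.toModularFormₗ f) := rfl
  have h3 : (⇑(CuspForm.toModularFormₗ f) : ℍ → ℂ) = ⇑f := rfl
  unfold qCoeff
  rw [h1, ModularForm.qExpansion_sub one_pos one_mem_sp, h2,
    ModularForm.qExpansion_smul one_pos one_mem_sp, h3]
  simp only [map_sub, PowerSeries.coeff_smul, smul_eq_mul]
  rw [qExpansion_eisMF_coeff]

/-- T3 applied to `E − 24 f`: the modulus divides `p − 1`. -/
theorem dvd_pred_of_congE {M : ℕ} {f : CuspForm (Gamma0 p) 2} (h : D.CongE p M f) :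
    (M : ℤ) ∣ (p : ℤ) - 1 := by
  have hint : IntCoeff f := (mem_intLattice_iff f).mp h.intCoeff
  obtain ⟨c1, hc1⟩ := h 1 le_rfl
  have hs1 : D.sigmaStar p 1 = 1 := D.sigmaStar_one hp.out
  refine hecke_trick f hint (eisSub f) M ((p : ℤ) - 1) (1 + M * c1) ?_ ⟨1, -c1, by ring⟩ ?_ ?_
  · rw [hc1, hs1]; push_cast; ring
  · rw [qCoeff_eisSub, eisCoeff_zero, qCoeff_zero_eq]; push_cast; ring
  · intro n hn
    obtain ⟨c, hc⟩ := h n hn
    refine ⟨-c, ?_⟩
    rw [qCoeff_eisSub, eisCoeff_of_ne_zero p (by omega : n ≠ 0), hc]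
    have : (D.sigmaStar p n : ℂ) = (sigmaStar p n : ℂ) := rfl
    rw [this]
    push_cast
    ring

/-- **Statement (B)**: every congruence modulus divides the Eisenstein numerator. -/
theorem statement_B (p : ℕ) [hp : Fact p.Prime] :
    ∀ M : ℕ, 1 ≤ M → ∀ f : CuspForm (Gamma0 p) 2, D.CongE p M f → M ∣ eisensteinNumerator p := by
  intro M _ f h
  refine arith_B p M hp.out (convS p) (dvd_pred_of_congE h) twelve_convS ?_
    (fun h4 => not_two_dvd_of_congE h4 M f h)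
  exact f2_dvd f M h

end Fermat.Agent.S16.B
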