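import Fermat.Agent.S16.Fricke
import Fermat.Agent.S23.QExp
import Fermat.Prelude.Def_FLTPrelim_Modularity
import Fermat.Prelude.Thm_ModularFormClass_qCoeff_heckeU
import Fermat.Prelude.Thm_ModularForm_periodic_heckeU_comp_ofComplex
import Fermat.Prelude.Thm_ModularForm_isBoundedAtImInfty_heckeU
import Fermat.Prelude.Thm_ModularForm_mdifferentiable_heckeU

/-!
# S16 (A): a weight-2 modular form on `Γ₀(p)` with vanishing constant term is a cusp form

The constant term at the cusp `0` is `-p⁻¹` times the constant term at `∞` (tool T1: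
`f ∣ S T^j = -(U_p f) ∣ [[1, j], [0, p]]`).
-/

set_option autoImplicit false

open UpperHalfPlane ModularForm CongruenceSubgroup Matrix.SpecialLinearGroup ModularGroup
open scoped MatrixGroups ModularForm Manifold

namespace Fermat.Agent.S16.A

open Fermat.Agent.S16 Fermat.Agent.S23

theorem one_mem_strictPeriods_Gamma0_A (N : ℕ) :
    (1 : ℝ) ∈ (Subgroup.map (mapGL ℝ) (Gamma0 N)).strictPeriods := by
  rw [strictPeriods_Gamma0]
  exact AddSubgroup.mem_zmultiples 1

/-- `U_p f` vanishes at `i∞` when the constant term of `f` vanishes -/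
theorem isZeroAtImInfty_heckeU_of_coeff_zero {p : ℕ} (hp : p ≠ 0)
    (f : ModularForm (Gamma0 p) 2) (h0 : (qExpansion 1 f).coeff 0 = 0) :
    IsZeroAtImInfty (heckeU 2 p ⇑f) := by
  have hΓ := one_mem_strictPeriods_Gamma0_A p
  have hN : Nice (⇑f) := Nice.of_modularForm hΓ f
  have hU : Nice (heckeU 2 p ⇑f) := by
    refine ⟨?_, mdifferentiable_heckeU hN.2.1 2 p, isBoundedAtImInfty_heckeU hN.2.2 2 p⟩
    have := periodic_heckeU_comp_ofComplex (f := ⇑f) (by simpa using hN.1) 2 p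
    simpa using this
  rw [hU.isZeroAtImInfty_iff]
  have := ModularFormClass.qCoeff_heckeU f hΓ hp 0
  rw [ModularFormClass.qCoeff, coeffHeckeU_apply, zero_mul, ModularFormClass.qCoeff] at this
  rw [this, h0]

theorem isZeroAtImInfty_slash_T_zpow {f : ℍ → ℂ} (hf : IsZeroAtImInfty f) (k : ℤ) (j : ℤ) :
    IsZeroAtImInfty (f ∣[k] (ModularGroup.T ^ j : SL(2, ℤ))) := by
  rw [ModularForm.SL_slash]
  refine IsZeroAtImInfty.slash k ?_ hf
  have h1 : (((ModularGroup.T ^ j : SL(2, ℤ)) : GL (Fin 2) ℝ) :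
      Matrix (Fin 2) (Fin 2) ℝ) 1 0 = (((ModularGroup.T ^ j : SL(2, ℤ)) 1 0 : ℤ) : ℝ) := rfl
  rw [h1, ModularGroup.coe_T_zpow]
  simp

/-- **cuspidality from the constant term at `∞`** -/
theorem exists_cuspForm_of_coeff_zero {p : ℕ} [hp : Fact p.Prime]
    (f : ModularForm (Gamma0 p) 2) (h0 : (qExpansion 1 f).coeff 0 = 0) :
    ∃ g : CuspForm (Gamma0 p) 2, ⇑g = ⇑f := by
  have : NeZero p := ⟨hp.out.ne_zero⟩
  have hΓ := one_mem_strictPeriods_Gamma0_A p
  have hN : Nice (⇑f) := Nice.of_modularForm hΓ f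
  have hz : IsZeroAtImInfty (⇑f) := hN.isZeroAtImInfty_iff.2 h0
  have hzU := isZeroAtImInfty_heckeU_of_coeff_zero hp.out.ne_zero f h0
  have hMF : IsMF2 p ⇑f := IsMF2.of_modularForm f
  refine ⟨{ toFun := ⇑f
            slash_action_eq' := f.slash_action_eq'
            holo' := f.holo'
            zero_at_cusps' := ?_ }, rfl⟩
  intro c hc
  rw [Subgroup.IsArithmetic.isCusp_iff_isCusp_SL2Z] at hc
  rw [OnePoint.isZeroAt_iff_forall_SL2Z hc]
  intro γ _
  rcases mem_Gamma0_or_exists p hp.out γ with h | ⟨j, -, γ₀, hγ₀, rfl⟩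
  · rw [hMF.inv γ h]
    exact hz
  · rw [SlashAction.slash_mul, hMF.inv γ₀ hγ₀]
    have e : (⇑f) ∣[(2 : ℤ)] (S * T ^ (j : ℤ)) = stSlash (⇑f) (j : ℤ) := rfl
    rw [e, stSlash_eq_neg hMF j]
    have h1 : IsZeroAtImInfty ((heckeU 2 p ⇑f) ∣[(2 : ℤ)] heckeMatrix p j) := by
      refine IsZeroAtImInfty.slash 2 ?_ hzU
      simp [val_heckeMatrix hp.out.ne_zero]
    exact h1.neg

end Fermat.Agent.S16.A
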