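import Fermat.Agent.S16.ACusp
import Fermat.Agent.S16.DualityMain

/-!
# S16 (A): a cusp form congruent to the Eisenstein series modulo `eisensteinNumerator p`

Given `Θ ∈ M₂(Γ₀(p))` with `q`-expansion in `1 + 2 q ℤ[[q]]` (piece Θ2), the form
`f = m' (m E - (n/2) Θ)` with `E = eisMF p / 24`, `n = (p-1)/gcd(p-1,12)`, `m = 12/gcd(p-1,12)`,
`m m' ≡ 1 mod n` is a cusp form with `a_k(f) ≡ σ*(k) mod n`.
-/

set_option autoImplicit false

open UpperHalfPlane ModularForm CongruenceSubgroup ModularCurve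
open scoped MatrixGroups ModularForm Manifold

namespace Fermat.Agent.S16.A

open Fermat.Agent.S16 Fermat.Agent.S23

lemma numer_mul (p : ℕ) :
    (12 / Nat.gcd (p - 1) 12) * (p - 1) = 12 * eisensteinNumerator p := by
  rw [eisensteinNumerator]
  have key : ∀ g u v : ℕ, 0 < g → p - 1 = g * u → 12 = g * v →
      (12 / g) * (p - 1) = 12 * ((p - 1) / g) := by
    intro g u v hg hu hv
    rw [Nat.div_eq_of_eq_mul_right hg hu, Nat.div_eq_of_eq_mul_right hg hv, hu]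
    calc v * (g * u) = (g * v) * u := by ring
      _ = 12 * u := by rw [← hv]
  obtain ⟨u, hu⟩ := Nat.gcd_dvd_left (p - 1) 12
  obtain ⟨v, hv⟩ := Nat.gcd_dvd_right (p - 1) 12
  have hg : 0 < Nat.gcd (p - 1) 12 := Nat.gcd_pos_of_pos_right _ (by norm_num)
  exact key _ u v hg hu hv

lemma numer_coprime (p : ℕ) :
    Nat.Coprime (12 / Nat.gcd (p - 1) 12) (eisensteinNumerator p) := by
  rw [eisensteinNumerator]
  have hg : 0 < Nat.gcd (p - 1) 12 := Nat.gcd_pos_of_pos_right _ (by norm_num)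
  exact (Nat.coprime_div_gcd_div_gcd hg).symm

/-- **(A) from Θ** -/
theorem congE_of_theta (p : ℕ) [hp : Fact p.Prime] (Θ : ModularForm (Gamma0 p) 2)
    (h0 : (qExpansion 1 Θ).coeff 0 = 1)
    (h1 : ∀ n, 1 ≤ n → ∃ b : ℤ, (qExpansion 1 Θ).coeff n = 2 * (b : ℂ)) :
    ∃ f : CuspForm (Gamma0 p) 2, D.CongE p (eisensteinNumerator p) f := by
  have hΓ := one_mem_strictPeriods_Gamma0_A p
  set n := eisensteinNumerator p with hn
  set m := 12 / Nat.gcd (p - 1) 12 with hm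
  have hmul : m * (p - 1) = 12 * n := numer_mul p
  have hcop : IsCoprime (m : ℤ) (n : ℤ) := Nat.isCoprime_iff_coprime.2 (numer_coprime p)
  obtain ⟨a, b, hab⟩ := hcop
  have hmulC : (m : ℂ) * ((p : ℂ) - 1) = 12 * (n : ℂ) := by
    have h1p : 1 ≤ p := hp.out.pos
    have := congrArg (fun x : ℕ => (x : ℂ)) hmul
    simp only [Nat.cast_mul, Nat.cast_sub h1p, Nat.cast_one, Nat.cast_ofNat] at this
    exact this
  have habC : (a : ℂ) * (m : ℂ) + (b : ℂ) * (n : ℂ) = 1 := by exact_mod_cast hab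
  set α : ℂ := (a : ℂ) * (m : ℂ) / 24 with hα
  set β : ℂ := (a : ℂ) * (n : ℂ) / 2 with hβ
  set f₀ : ModularForm (Gamma0 p) 2 := α • eisMF p - β • Θ with hf₀
  have hcoe : ⇑f₀ = α • ⇑(eisMF p) - β • ⇑Θ := rfl
  have aE : AnalyticAt ℂ (cuspFunction 1 ⇑(eisMF p)) 0 :=
    ModularFormClass.analyticAt_cuspFunction_zero (eisMF p) one_pos hΓ
  have aΘ : AnalyticAt ℂ (cuspFunction 1 ⇑Θ) 0 :=
    ModularFormClass.analyticAt_cuspFunction_zero Θ one_pos hΓ
  have aE' : AnalyticAt ℂ (cuspFunction 1 (α • ⇑(eisMF p))) 0 :=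
    ((Nice.of_modularForm hΓ (eisMF p)).smul α).analyticAt
  have aΘ' : AnalyticAt ℂ (cuspFunction 1 (β • ⇑Θ)) 0 :=
    ((Nice.of_modularForm hΓ Θ).smul β).analyticAt
  have hco : ∀ k, (qExpansion 1 f₀).coeff k =
      α * eisCoeff p k - β * (qExpansion 1 Θ).coeff k := by
    intro k
    rw [hcoe, qExpansion_sub aE' aΘ', qExpansion_smul aE, qExpansion_smul aΘ, map_sub,
      PowerSeries.coeff_smul, PowerSeries.coeff_smul, qExpansion_eisMF_coeff, smul_eq_mul,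
      smul_eq_mul]
  have h00 : (qExpansion 1 f₀).coeff 0 = 0 := by
    rw [hco 0, h0, eisCoeff_zero, hα, hβ]
    linear_combination ((a : ℂ) / 24) * hmulC
  obtain ⟨f, hf⟩ := exists_cuspForm_of_coeff_zero f₀ h00
  refine ⟨f, fun k hk => ?_⟩
  obtain ⟨c, hc⟩ := h1 k hk
  refine ⟨-b * (D.sigmaStar p k : ℤ) - a * c, ?_⟩
  have hk0 : k ≠ 0 := Nat.one_le_iff_ne_zero.1 hk
  rw [ModularFormClass.qCoeff, hf, hco k, hc, eisCoeff_of_ne_zero p hk0, hα, hβ]
  have e : (Fermat.Agent.S16.sigmaStar p k : ℂ) = (D.sigmaStar p k : ℂ) := rfl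
  rw [e]
  push_cast
  linear_combination ((D.sigmaStar p k : ℂ)) * habC

/-- the case `eisensteinNumerator p = 1` -/
theorem congE_one_zero (p : ℕ) : D.CongE p 1 (0 : CuspForm (Gamma0 p) 2) := by
  intro k _
  refine ⟨-(D.sigmaStar p k : ℤ), ?_⟩
  have : ModularFormClass.qCoeff (⇑(0 : CuspForm (Gamma0 p) 2)) k = 0 := by
    rw [ModularFormClass.qCoeff]
    have e : ⇑(0 : CuspForm (Gamma0 p) 2) = (0 : ℍ → ℂ) := rfl
    rw [e, qExpansion_zero]
    simp
  rw [this]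
  push_cast
  ring

theorem congE_two : ∃ f : CuspForm (Gamma0 2) 2, D.CongE 2 (eisensteinNumerator 2) f := by
  have : eisensteinNumerator 2 = 1 := by decide
  rw [this]
  exact ⟨0, congE_one_zero 2⟩

/-- **(A)**, from Θ2 -/
theorem A_of_exists_theta
    (hΘ : ∀ p : ℕ, p.Prime → p ≠ 2 → ∃ Θ : ModularForm (Gamma0 p) 2,
      (qExpansion 1 Θ).coeff 0 = 1 ∧
      ∀ n, 1 ≤ n → ∃ b : ℤ, (qExpansion 1 Θ).coeff n = 2 * (b : ℂ))
    (p : ℕ) [hp : Fact p.Prime] :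
    ∃ f : CuspForm (Gamma0 p) 2, D.CongE p (eisensteinNumerator p) f := by
  by_cases h2 : p = 2
  · subst h2
    exact congE_two
  · obtain ⟨Θ, h0, h1⟩ := hΘ p hp.out h2
    exact congE_of_theta p Θ h0 h1

end Fermat.Agent.S16.A
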