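import Mathlib

/-!
# S16, piece D: abstract duality between a Hecke algebra and a lattice of `q`-expansions

Abstract setting: a lattice `L` (free of finite rank over `ℤ`) with coefficient functionals
`c k : L → ℤ`, a commutative ring `T` acting faithfully on `L`, generated by "Hecke operators"
`π (X ℓ)` acting on coefficients by the usual formulas.  For an eigen-sequence `e` with eigenvalues
`a`, we show that `T ⧸ π(ker (aeval a))` has exactly `n` elements as soon as
* (A) some `f ∈ L` is congruent to `e` modulo `n`, and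
* (B) every modulus `M` for which some `f ∈ L` is congruent to `e` divides `n`.
-/

set_option autoImplicit false
set_option linter.unusedSectionVars false

namespace Fermat.Agent.S16.D

open MvPolynomial

section abstract

variable {L T : Type*} [AddCommGroup L] [CommRing T]

/-- The hypotheses of the abstract duality theorem. -/
structure Hyp (act : T →+* Module.End ℤ L) (c : ℕ → L →ₗ[ℤ] ℤ)
    (π : MvPolynomial Nat.Primes ℤ →+* T) (ε a : Nat.Primes → ℤ) (e : ℕ → ℤ) : Prop where
  act_inj : Function.Injective act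
  c_inj : ∀ f : L, (∀ k, 1 ≤ k → c k f = 0) → f = 0
  c_sat : ∀ (f : L) (M : ℕ), 1 ≤ M → (∀ k, 1 ≤ k → (M : ℤ) ∣ c k f) → ∃ g : L, f = (M : ℤ) • g
  π_surj : Function.Surjective π
  hecke : ∀ (ℓ : Nat.Primes) (k : ℕ) (f : L), 1 ≤ k →
    c k (act (π (X ℓ)) f) = c (k * ℓ) f + (if (ℓ : ℕ) ∣ k then ε ℓ * c (k / ℓ) f else 0)
  e_one : e 1 = 1
  e_hecke : ∀ (ℓ : Nat.Primes) (k : ℕ), 1 ≤ k →
    e (k * ℓ) + (if (ℓ : ℕ) ∣ k then ε ℓ * e (k / ℓ) else 0) = a ℓ * e k

variable {act : T →+* Module.End ℤ L} {c : ℕ → L →ₗ[ℤ] ℤ}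
  {π : MvPolynomial Nat.Primes ℤ →+* T} {ε a : Nat.Primes → ℤ} {e : ℕ → ℤ}

/-- The pairing `B(t, f) = a₁(t f)`. -/
def pair (act : T →+* Module.End ℤ L) (c : ℕ → L →ₗ[ℤ] ℤ) (t : T) (f : L) : ℤ := c 1 (act t f)

theorem pair_add_left (s t : T) (f : L) : pair act c (s + t) f = pair act c s f + pair act c t f := by
  simp [pair]

theorem pair_add_right (t : T) (f g : L) :
    pair act c t (f + g) = pair act c t f + pair act c t g := by
  simp [pair]

theorem pair_smul_right (t : T) (z : ℤ) (f : L) : pair act c t (z • f) = z * pair act c t f := by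
  simp [pair]

theorem pair_mul (s t : T) (f : L) : pair act c (s * t) f = pair act c s (act t f) := by
  simp [pair]

theorem pair_intCast_mul (z : ℤ) (t : T) (f : L) :
    pair act c ((z : T) * t) f = z * pair act c t f := by
  rw [pair, map_mul, map_intCast]
  simp [pair]

/-- Hecke polynomials: `a₁(T_k f) = a_k(f)`, and their values on the eigen-system. -/
theorem exists_heckePoly (h : Hyp act c π ε a e) :
    ∀ k : ℕ, 1 ≤ k → ∃ P : MvPolynomial Nat.Primes ℤ,
      (∀ f : L, c 1 (act (π P) f) = c k f) ∧ aeval a P = e k := by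
  intro k
  induction k using Nat.strong_induction_on with
  | _ k ih =>
    intro hk
    by_cases hk1 : k = 1
    · subst hk1
      refine ⟨1, fun f => ?_, ?_⟩
      · simp
      · rw [map_one, h.e_one]
    have hℓ : (Nat.minFac k).Prime := Nat.minFac_prime hk1
    set ℓ : Nat.Primes := ⟨Nat.minFac k, hℓ⟩ with hℓdef
    have hdvd : (ℓ : ℕ) ∣ k := Nat.minFac_dvd k
    have hm : k / ℓ * ℓ = k := Nat.div_mul_cancel hdvd
    have hmpos : 1 ≤ k / ℓ := Nat.div_pos (Nat.le_of_dvd hk hdvd) hℓ.pos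
    have hmlt : k / ℓ < k := Nat.div_lt_self hk hℓ.one_lt
    obtain ⟨P', hP', hP'a⟩ := ih _ hmlt hmpos
    have hact : ∀ (Q : MvPolynomial Nat.Primes ℤ) (f : L),
        act (π (X ℓ * Q)) f = act (π Q) (act (π (X ℓ)) f) := fun Q f => by
      rw [mul_comm, map_mul, map_mul]
      rfl
    by_cases hd : (ℓ : ℕ) ∣ k / ℓ
    · have hpos2 : 1 ≤ k / ℓ / ℓ := Nat.div_pos (Nat.le_of_dvd hmpos hd) hℓ.pos
      have hlt2 : k / ℓ / ℓ < k := lt_of_le_of_lt (Nat.div_le_self _ _) hmlt
      obtain ⟨P'', hP'', hP''a⟩ := ih _ hlt2 hpos2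
      refine ⟨X ℓ * P' - C (ε ℓ) * P'', fun f => ?_, ?_⟩
      · have h1 := h.hecke ℓ (k / ℓ) f hmpos
        rw [if_pos hd, hm] at h1
        rw [map_sub, map_sub, LinearMap.sub_apply, map_sub, hact, hP', h1, map_mul, map_mul]
        have h2 : act (π (C (ε ℓ))) = (ε ℓ : Module.End ℤ L) := by
          have : (C (ε ℓ) : MvPolynomial Nat.Primes ℤ) = ((ε ℓ : ℤ) : MvPolynomial Nat.Primes ℤ) := by
            simp
          rw [this, map_intCast, map_intCast]
        rw [h2]
        have h3 : c 1 (((ε ℓ : Module.End ℤ L) * act (π P'')) f) = ε ℓ * c 1 (act (π P'') f) := by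
          have : ((ε ℓ : Module.End ℤ L) * act (π P'')) f = (ε ℓ) • (act (π P'') f) := by
            rw [Module.End.mul_apply]
            simp
          rw [this, map_smul, smul_eq_mul]
        rw [h3, hP'']
        ring
      · have h1 := h.e_hecke ℓ (k / ℓ) hmpos
        rw [if_pos hd, hm] at h1
        rw [map_sub, map_mul, map_mul, aeval_X, aeval_C, hP'a, hP''a]
        simp only [algebraMap_int_eq, eq_intCast, Int.cast_id]
        linarith
    · refine ⟨X ℓ * P', fun f => ?_, ?_⟩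
      · have h1 := h.hecke ℓ (k / ℓ) f hmpos
        rw [if_neg hd, hm, add_zero] at h1
        rw [hact, hP', h1]
      · have h1 := h.e_hecke ℓ (k / ℓ) hmpos
        rw [if_neg hd, hm, add_zero] at h1
        rw [map_mul, aeval_X, hP'a]
        linarith

/-- All coefficients are values of the pairing. -/
theorem exists_pair_eq (h : Hyp act c π ε a e) (k : ℕ) (hk : 1 ≤ k) :
    ∃ t : T, ∀ f : L, pair act c t f = c k f := by
  obtain ⟨P, hP, -⟩ := exists_heckePoly h k hk
  exact ⟨π P, hP⟩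

theorem pair_right_inj (h : Hyp act c π ε a e) (f : L) (hf : ∀ t : T, pair act c t f = 0) :
    f = 0 := by
  refine h.c_inj f fun k hk => ?_
  obtain ⟨t, ht⟩ := exists_pair_eq h k hk
  rw [← ht, hf]

theorem pair_left_inj (h : Hyp act c π ε a e) (t : T) (ht : ∀ f : L, pair act c t f = 0) :
    t = 0 := by
  apply h.act_inj
  rw [map_zero]
  ext f
  rw [LinearMap.zero_apply]
  refine h.c_inj _ fun k hk => ?_
  obtain ⟨s, hs⟩ := exists_pair_eq h k hk
  rw [← hs, ← pair_mul, mul_comm, pair_mul]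
  exact ht _

theorem pair_sat (h : Hyp act c π ε a e) (f : L) (M : ℕ) (hM : 1 ≤ M)
    (hf : ∀ t : T, (M : ℤ) ∣ pair act c t f) : ∃ g : L, f = (M : ℤ) • g := by
  refine h.c_sat f M hM fun k hk => ?_
  obtain ⟨t, ht⟩ := exists_pair_eq h k hk
  rw [← ht]
  exact hf t

section duality

variable [Module.Free ℤ L] [Module.Finite ℤ L] [Module.Free ℤ T] [Module.Finite ℤ T]

/-- `t ↦ B(t, ·)` as a linear map. -/
noncomputable def pairLeft (act : T →+* Module.End ℤ L) (c : ℕ → L →ₗ[ℤ] ℤ) :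
    T →ₗ[ℤ] (L →ₗ[ℤ] ℤ) :=
  (AddMonoidHom.mk' (fun t : T => (c 1).comp (act t)) (fun s t => by
    ext f
    simp)).toIntLinearMap

/-- `f ↦ B(·, f)` as a linear map. -/
noncomputable def pairRight (act : T →+* Module.End ℤ L) (c : ℕ → L →ₗ[ℤ] ℤ) :
    L →ₗ[ℤ] (T →ₗ[ℤ] ℤ) :=
  (AddMonoidHom.mk' (fun f : L => (AddMonoidHom.mk' (fun t : T => c 1 (act t f)) (fun s t => by
    simp)).toIntLinearMap) (fun f g => by
    ext t
    simp)).toIntLinearMap

theorem pairLeft_apply (t : T) (f : L) : pairLeft act c t f = pair act c t f := rfl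

theorem pairRight_apply (t : T) (f : L) : pairRight act c f t = pair act c t f := rfl

theorem finrank_eq (h : Hyp act c π ε a e) : Module.finrank ℤ T = Module.finrank ℤ L := by
  apply le_antisymm
  · have h1 : Function.Injective (pairLeft act c) := by
      rw [injective_iff_map_eq_zero]
      intro t ht
      exact pair_left_inj h t fun f => by rw [← pairLeft_apply, ht]; rfl
    have h2 := LinearMap.finrank_le_finrank_of_injective h1
    rwa [Module.finrank_linearMap_self] at h2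
  · have h1 : Function.Injective (pairRight act c) := by
      rw [injective_iff_map_eq_zero]
      intro f hf
      exact pair_right_inj h f fun t => by rw [← pairRight_apply, hf]; rfl
    have h2 := LinearMap.finrank_le_finrank_of_injective h1
    rwa [Module.finrank_linearMap_self] at h2

/-- **Duality**: every linear form on `T` is `t ↦ a₁(t f)` for some `f ∈ L`. -/
theorem exists_pair_eq_linear (h : Hyp act c π ε a e) (ψ : T →ₗ[ℤ] ℤ) :
    ∃ f : L, ∀ t : T, pair act c t f = ψ t := by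
  classical
  let bT := Module.Free.chooseBasis ℤ T
  let bL₀ := Module.Free.chooseBasis ℤ L
  have hcard : Fintype.card (Module.Free.ChooseBasisIndex ℤ L) =
      Fintype.card (Module.Free.ChooseBasisIndex ℤ T) := by
    rw [← Module.finrank_eq_card_chooseBasisIndex, ← Module.finrank_eq_card_chooseBasisIndex,
      finrank_eq h]
  let bL := bL₀.reindex (Fintype.equivOfCardEq hcard)
  let G : Matrix (Module.Free.ChooseBasisIndex ℤ T) (Module.Free.ChooseBasisIndex ℤ T) ℤ :=
    fun i j => pair act c (bT i) (bL j)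
  have hpairsum : ∀ (v : Module.Free.ChooseBasisIndex ℤ T → ℤ) (i : Module.Free.ChooseBasisIndex ℤ T),
      pair act c (bT i) (∑ j, v j • bL j) = (G.mulVec v) i := by
    intro v i
    rw [← pairLeft_apply, map_sum, Matrix.mulVec, dotProduct]
    refine Finset.sum_congr rfl fun j _ => ?_
    rw [map_smul, pairLeft_apply, smul_eq_mul, mul_comm]
  have hext : ∀ (f : L) (χ : T →ₗ[ℤ] ℤ), (∀ i, pair act c (bT i) f = χ (bT i)) →
      ∀ t, pair act c t f = χ t := by
    intro f χ hi t
    have : pairRight act c f = χ := bT.ext fun i => hi i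
    rw [← pairRight_apply, this]
  have hdet : G.det ≠ 0 := by
    intro hdet
    obtain ⟨v, hv0, hv⟩ := Matrix.exists_mulVec_eq_zero_iff.2 hdet
    have hf : ∑ j, v j • bL j = 0 := by
      refine pair_right_inj h _ fun t => ?_
      have := hext (∑ j, v j • bL j) 0 (fun i => by rw [hpairsum, hv]; rfl) t
      simpa using this
    apply hv0
    have h2 := Fintype.linearIndependent_iff.1 bL.linearIndependent v hf
    exact funext h2
  -- Cramer
  let w : Module.Free.ChooseBasisIndex ℤ T → ℤ := fun i => ψ (bT i)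
  let v := G.adjugate.mulVec w
  have hGv : G.mulVec v = G.det • w := by
    show G.mulVec (G.adjugate.mulVec w) = G.det • w
    rw [Matrix.mulVec_mulVec, Matrix.mul_adjugate, Matrix.smul_mulVec, Matrix.one_mulVec]
  set f' : L := ∑ j, v j • bL j with hf'
  have hf'pair : ∀ t, pair act c t f' = (G.det • ψ) t := by
    refine hext f' (G.det • ψ) fun i => ?_
    rw [hf', hpairsum, hGv]
    rfl
  have hM : 1 ≤ G.det.natAbs := Int.natAbs_pos.2 hdet
  obtain ⟨g, hg⟩ := pair_sat h f' G.det.natAbs hM (fun t => by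
    rw [hf'pair, Int.natAbs_dvd]
    exact ⟨ψ t, rfl⟩)
  rcases Int.natAbs_eq G.det with hs | hs
  · refine ⟨g, fun t => ?_⟩
    have h1 := hf'pair t
    rw [hg, pair_smul_right, ← hs] at h1
    exact mul_left_cancel₀ hdet (by simpa using h1)
  · refine ⟨-g, fun t => ?_⟩
    have h1 := hf'pair t
    rw [hg, pair_smul_right] at h1
    have h2 : pair act c t (-g) = - pair act c t g := by
      rw [← pairRight_apply, map_neg]
      rfl
    rw [h2]
    have h3 : (G.det.natAbs : ℤ) = - G.det := by rw [hs]; simp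
    rw [h3] at h1
    have h4 : G.det * (- pair act c t g) = G.det * ψ t := by
      have : (G.det • ψ) t = G.det * ψ t := rfl
      rw [this] at h1
      linarith
    exact mul_left_cancel₀ hdet h4

/-- `t ≡ aeval a P` modulo the Eisenstein ideal for `t = π P`. -/
theorem sub_mem_map (P : MvPolynomial Nat.Primes ℤ) :
    π P - ((aeval a P : ℤ) : T) ∈
      Ideal.map π (RingHom.ker (aeval a : MvPolynomial Nat.Primes ℤ →ₐ[ℤ] ℤ)) := by
  have h1 : π P - ((aeval a P : ℤ) : T) = π (P - C (aeval a P)) := by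
    rw [map_sub]
    congr 1
    have : (C (aeval a P) : MvPolynomial Nat.Primes ℤ) =
        (((aeval a P : ℤ)) : MvPolynomial Nat.Primes ℤ) := by simp
    rw [this, map_intCast]
  rw [h1]
  apply Ideal.mem_map_of_mem
  rw [RingHom.mem_ker, map_sub, aeval_C]
  simp

theorem intCast_mem_map_iff (h : Hyp act c π ε a e) (z : ℤ) :
    (z : T) ∈ Ideal.map π (RingHom.ker (aeval a : MvPolynomial Nat.Primes ℤ →ₐ[ℤ] ℤ)) ↔
      ∃ Q : MvPolynomial Nat.Primes ℤ, π Q = 0 ∧ aeval a Q = z := by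
  rw [Ideal.mem_map_iff_of_surjective π h.π_surj]
  constructor
  · rintro ⟨P, hP, hPz⟩
    rw [RingHom.mem_ker] at hP
    refine ⟨C z - P, ?_, ?_⟩
    · rw [map_sub, hPz]
      have : (C z : MvPolynomial Nat.Primes ℤ) = ((z : ℤ) : MvPolynomial Nat.Primes ℤ) := by simp
      rw [this, map_intCast, sub_self]
    · rw [map_sub, aeval_C]
      have : (aeval a : MvPolynomial Nat.Primes ℤ →ₐ[ℤ] ℤ) P = 0 := hP
      rw [this]
      simp
  · rintro ⟨Q, hQ, hQz⟩
    refine ⟨C z - Q, ?_, ?_⟩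
    · rw [RingHom.mem_ker, map_sub, aeval_C]
      have : (aeval a : MvPolynomial Nat.Primes ℤ →ₐ[ℤ] ℤ) Q = z := hQz
      rw [this]
      simp
    · rw [map_sub, hQ, sub_zero]
      have : (C z : MvPolynomial Nat.Primes ℤ) = ((z : ℤ) : MvPolynomial Nat.Primes ℤ) := by simp
      rw [this, map_intCast]

/-- Eigenvector modulo `n`: if `f ≡ e mod n` then `P(T) f ≡ P(a) f mod n L`. -/
theorem exists_act_sub_eq (h : Hyp act c π ε a e) (n : ℕ) (hn : 1 ≤ n) (f : L)
    (hf : ∀ k, 1 ≤ k → (n : ℤ) ∣ c k f - e k) (P : MvPolynomial Nat.Primes ℤ) :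
    ∃ g : L, act (π P) f - (aeval a P : ℤ) • f = (n : ℤ) • g := by
  have hgen : ∀ ℓ : Nat.Primes, ∃ g : L, act (π (X ℓ)) f - (a ℓ) • f = (n : ℤ) • g := by
    intro ℓ
    refine h.c_sat _ n hn fun k hk => ?_
    rw [map_sub, map_smul, h.hecke ℓ k f hk, smul_eq_mul]
    have hkℓ : 1 ≤ k * ℓ := Nat.mul_pos hk ℓ.2.pos
    have h1 := hf (k * ℓ) hkℓ
    have h2 := hf k hk
    have h3 := h.e_hecke ℓ k hk
    by_cases hd : (ℓ : ℕ) ∣ k
    · have hk2 : 1 ≤ k / ℓ := Nat.div_pos (Nat.le_of_dvd hk hd) ℓ.2.pos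
      have h4 := hf (k / ℓ) hk2
      rw [if_pos hd] at h3 ⊢
      have : c (k * ℓ) f + ε ℓ * c (k / ℓ) f - a ℓ * c k f =
          (c (k * ℓ) f - e (k * ℓ)) + ε ℓ * (c (k / ℓ) f - e (k / ℓ)) - a ℓ * (c k f - e k) := by
        linear_combination h3
      rw [this]
      exact dvd_sub (dvd_add h1 (Dvd.dvd.mul_left h4 _)) (Dvd.dvd.mul_left h2 _)
    · rw [if_neg hd] at h3 ⊢
      have : c (k * ℓ) f + 0 - a ℓ * c k f =
          (c (k * ℓ) f - e (k * ℓ)) - a ℓ * (c k f - e k) := by
        linear_combination h3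
      rw [this]
      exact dvd_sub h1 (Dvd.dvd.mul_left h2 _)
  induction P using MvPolynomial.induction_on with
  | C z =>
    refine ⟨0, ?_⟩
    have : (C z : MvPolynomial Nat.Primes ℤ) = ((z : ℤ) : MvPolynomial Nat.Primes ℤ) := by simp
    rw [aeval_C, this, map_intCast, map_intCast]
    simp
  | add P Q hP hQ =>
    obtain ⟨g₁, hg₁⟩ := hP
    obtain ⟨g₂, hg₂⟩ := hQ
    refine ⟨g₁ + g₂, ?_⟩
    rw [map_add, map_add, map_add, LinearMap.add_apply, add_smul, smul_add, ← hg₁, ← hg₂]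
    abel
  | mul_X P ℓ hP =>
    obtain ⟨g₂, hg₂⟩ := hP
    obtain ⟨g₁, hg₁⟩ := hgen ℓ
    refine ⟨a ℓ • g₂ + act (π P) g₁, ?_⟩
    have e1 : act (π (P * X ℓ)) f = act (π P) (act (π (X ℓ)) f) := by
      rw [map_mul, map_mul]
      rfl
    have e2 : act (π (X ℓ)) f = a ℓ • f + (n : ℤ) • g₁ := by
      rw [← hg₁]
      abel
    have e3 : act (π P) f = (aeval a P : ℤ) • f + (n : ℤ) • g₂ := by
      rw [← hg₂]
      abel
    rw [e1, e2, map_add, map_smul, map_smul, e3, map_mul, aeval_X]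
    simp only [smul_add, smul_smul, mul_comm]
    abel

/-- Upper bound from (A): if `f ≡ e mod n` and `z` lies in the Eisenstein ideal then `n ∣ z`. -/
theorem dvd_of_intCast_mem (h : Hyp act c π ε a e) (n : ℕ) (hn : 1 ≤ n)
    (hA : ∃ f : L, ∀ k, 1 ≤ k → (n : ℤ) ∣ c k f - e k) (z : ℤ)
    (hz : (z : T) ∈ Ideal.map π (RingHom.ker (aeval a : MvPolynomial Nat.Primes ℤ →ₐ[ℤ] ℤ))) :
    (n : ℤ) ∣ z := by
  obtain ⟨f, hf⟩ := hA
  obtain ⟨Q, hQ, hQz⟩ := (intCast_mem_map_iff h z).1 hz
  obtain ⟨g, hg⟩ := exists_act_sub_eq h n hn f hf Q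
  rw [hQ, map_zero, LinearMap.zero_apply, zero_sub, hQz] at hg
  have h1 := congrArg (c 1) hg
  rw [map_neg, map_smul, map_smul, smul_eq_mul, smul_eq_mul] at h1
  have h2 := hf 1 le_rfl
  rw [h.e_one] at h2
  have h3 : z = - (z * (c 1 f - 1)) - (n : ℤ) * c 1 g := by linear_combination -h1
  rw [h3]
  exact dvd_sub (Dvd.dvd.neg_right (Dvd.dvd.mul_left h2 _)) (dvd_mul_right _ _)

/-- From duality: if every integer of the Eisenstein ideal is divisible by `M`, then some
`f ∈ L` is congruent to `e` modulo `M`. -/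
theorem exists_cong_of_forall_dvd (h : Hyp act c π ε a e) (M : ℤ)
    (hM : ∀ z : ℤ, (z : T) ∈ Ideal.map π
      (RingHom.ker (aeval a : MvPolynomial Nat.Primes ℤ →ₐ[ℤ] ℤ)) → M ∣ z) :
    ∃ f : L, ∀ k, 1 ≤ k → M ∣ c k f - e k := by
  classical
  let bT := Module.Free.chooseBasis ℤ T
  choose Pi hPi using fun i => h.π_surj (bT i)
  let ψ : T →ₗ[ℤ] ℤ := bT.constr ℤ (fun i => aeval a (Pi i))
  have hψ : ∀ P : MvPolynomial Nat.Primes ℤ, M ∣ aeval a P - ψ (π P) := by
    intro P
    set P₀ : MvPolynomial Nat.Primes ℤ := ∑ i, C (bT.repr (π P) i) * Pi i with hP₀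
    have h1 : π P₀ = π P := by
      rw [hP₀, map_sum]
      conv_rhs => rw [← bT.sum_repr (π P)]
      refine Finset.sum_congr rfl fun i _ => ?_
      rw [map_mul, hPi]
      have : (C (bT.repr (π P) i) : MvPolynomial Nat.Primes ℤ) =
          ((bT.repr (π P) i : ℤ) : MvPolynomial Nat.Primes ℤ) := by simp
      rw [this, map_intCast, zsmul_eq_mul]
    have h2 : aeval a P₀ = ψ (π P) := by
      rw [hP₀, map_sum]
      conv_rhs => rw [← bT.sum_repr (π P), map_sum]
      refine Finset.sum_congr rfl fun i _ => ?_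
      rw [map_mul, aeval_C, map_smul, Module.Basis.constr_basis]
      simp
    have h3 : ((aeval a (P - P₀) : ℤ) : T) ∈ Ideal.map π
        (RingHom.ker (aeval a : MvPolynomial Nat.Primes ℤ →ₐ[ℤ] ℤ)) := by
      rw [intCast_mem_map_iff h]
      exact ⟨P - P₀, by rw [map_sub, h1, sub_self], rfl⟩
    have h4 := hM _ h3
    rwa [map_sub, h2] at h4
  obtain ⟨f, hf⟩ := exists_pair_eq_linear h ψ
  refine ⟨f, fun k hk => ?_⟩
  obtain ⟨P, hP, hPa⟩ := exists_heckePoly h k hk
  have h1 : c k f = ψ (π P) := by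
    rw [← hP f]
    exact hf (π P)
  rw [h1, ← hPa]
  have := hψ P
  rw [← dvd_neg] at this
  simpa using this

/-- **Abstract form of S16**: under (A) and (B) the quotient of `T` by the Eisenstein ideal has
exactly `n` elements. -/
theorem card_quotient_eq (h : Hyp act c π ε a e) (n : ℕ) (hn : 1 ≤ n)
    (hA : ∃ f : L, ∀ k, 1 ≤ k → (n : ℤ) ∣ c k f - e k)
    (hB : ∀ M : ℕ, 1 ≤ M → ∀ f : L, (∀ k, 1 ≤ k → (M : ℤ) ∣ c k f - e k) → M ∣ n) :
    Nat.card (T ⧸ Ideal.map π (RingHom.ker (aeval a : MvPolynomial Nat.Primes ℤ →ₐ[ℤ] ℤ))) = n := by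
  set I : Ideal T := Ideal.map π (RingHom.ker (aeval a : MvPolynomial Nat.Primes ℤ →ₐ[ℤ] ℤ))
    with hI
  let φ : ℤ →+* T ⧸ I := (Ideal.Quotient.mk I).comp (Int.castRingHom T)
  have hφsurj : Function.Surjective φ := by
    intro x
    obtain ⟨t, rfl⟩ := Ideal.Quotient.mk_surjective x
    obtain ⟨P, rfl⟩ := h.π_surj t
    refine ⟨aeval a P, ?_⟩
    show Ideal.Quotient.mk I ((aeval a P : ℤ) : T) = Ideal.Quotient.mk I (π P)
    rw [eq_comm, Ideal.Quotient.eq]
    exact sub_mem_map P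
  have hmem : ∀ z : ℤ, z ∈ RingHom.ker φ ↔ (z : T) ∈ I := by
    intro z
    rw [RingHom.mem_ker]
    show Ideal.Quotient.mk I ((z : ℤ) : T) = 0 ↔ _
    rw [Ideal.Quotient.eq_zero_iff_mem]
  -- the kernel is `nℤ`
  have hker : RingHom.ker φ = Ideal.span {(n : ℤ)} := by
    apply le_antisymm
    · intro z hz
      rw [Ideal.mem_span_singleton]
      exact dvd_of_intCast_mem h n hn hA z ((hmem z).1 hz)
    · rw [Ideal.span_le, Set.singleton_subset_iff, SetLike.mem_coe]
      set m : ℤ := Submodule.IsPrincipal.generator (RingHom.ker φ) with hm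
      have hspan : Ideal.span {m} = RingHom.ker φ := Ideal.span_singleton_generator _
      have hmdvd : ∀ z : ℤ, (z : T) ∈ I → m ∣ z := fun z hz => by
        rw [← Ideal.mem_span_singleton, hspan]
        exact (hmem z).2 hz
      by_cases hm0 : m = 0
      · exfalso
        have hall : ∀ z : ℤ, (z : T) ∈ I → ((2 * n : ℕ) : ℤ) ∣ z := fun z hz => by
          have := hmdvd z hz
          rw [hm0, zero_dvd_iff] at this
          rw [this]
          exact dvd_zero _
        obtain ⟨f, hf⟩ := exists_cong_of_forall_dvd h _ hall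
        have := hB (2 * n) (by omega) f hf
        have := Nat.le_of_dvd (by omega) this
        omega
      · have hall : ∀ z : ℤ, (z : T) ∈ I → ((m.natAbs : ℕ) : ℤ) ∣ z := fun z hz => by
          rw [Int.natAbs_dvd]
          exact hmdvd z hz
        obtain ⟨f, hf⟩ := exists_cong_of_forall_dvd h _ hall
        have h1 := hB m.natAbs (Int.natAbs_pos.2 hm0) f hf
        rw [← hspan, Ideal.mem_span_singleton, ← Int.natAbs_dvd]
        exact_mod_cast h1
  have e1 : (ℤ ⧸ RingHom.ker φ) ≃+* (T ⧸ I) := RingHom.quotientKerEquivOfSurjective hφsurj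
  rw [← Nat.card_congr e1.toEquiv, hker, Nat.card_congr (Int.quotientSpanEquivZMod n).toEquiv,
    Nat.card_zmod]
  simp

end duality

end abstract

end Fermat.Agent.S16.D
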