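import Mathlib
import Fermat.Prelude.Def_CuspForm_IntegralStructure
import Fermat.Prelude.Def_ModularForm_HeckeOperatorForms
import Fermat.Prelude.Thm_CuspForm_intLattice_fg
import Fermat.Prelude.Thm_ModularFormClass_qCoeff_heckeT
import Fermat.Prelude.Thm_CongruenceSubgroup_one_mem_strictPeriods_Gamma0

/-!
# S16, piece T3 (part 1): `q`-coefficients of cusp forms of weight `k` on `Γ₀(N)`

Generic lemmas (any weight): additivity, products, Hecke operators; forms with integral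
coefficients and the finiteness lemma "congruence modulo `m` is detected by finitely many
coefficients".
-/

set_option autoImplicit false
set_option linter.unusedSectionVars false

open CuspForm CongruenceSubgroup ModularFormClass UpperHalfPlane

namespace Fermat.Agent.S16.B

variable {N : ℕ} {k : ℤ}

theorem one_mem_sp : (1 : ℝ) ∈ (Gamma0 N : Subgroup (GL (Fin 2) ℝ)).strictPeriods :=
  CongruenceSubgroup.one_mem_strictPeriods_Gamma0 N

theorem qCoeff_add (f g : CuspForm (Gamma0 N) k) (n : ℕ) :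
    qCoeff (⇑(f + g)) n = qCoeff (⇑f) n + qCoeff (⇑g) n := by
  unfold qCoeff
  rw [FunLike.coe_add, ModularForm.qExpansion_add one_pos one_mem_sp f g]
  simp

theorem qCoeff_neg (f : CuspForm (Gamma0 N) k) (n : ℕ) :
    qCoeff (⇑(-f)) n = -qCoeff (⇑f) n := by
  unfold qCoeff
  rw [FunLike.coe_neg, ModularForm.qExpansion_neg one_pos one_mem_sp f]
  simp

theorem qCoeff_sub (f g : CuspForm (Gamma0 N) k) (n : ℕ) :
    qCoeff (⇑(f - g)) n = qCoeff (⇑f) n - qCoeff (⇑g) n := by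
  unfold qCoeff
  rw [FunLike.coe_sub, ModularForm.qExpansion_sub one_pos one_mem_sp f g]
  simp

theorem qCoeff_smul (c : ℂ) (f : CuspForm (Gamma0 N) k) (n : ℕ) :
    qCoeff (⇑(c • f)) n = c * qCoeff (⇑f) n := by
  unfold qCoeff
  rw [FunLike.coe_smul, ModularForm.qExpansion_smul one_pos one_mem_sp c f]
  simp

theorem qCoeff_zero_eq (f : CuspForm (Gamma0 N) k) : qCoeff (⇑f) 0 = 0 :=
  CuspFormClass.qExpansion_coeff_zero f one_pos one_mem_sp

/-- The `n`-th `q`-coefficient as a linear form. -/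
noncomputable def qLin (N : ℕ) (k : ℤ) (n : ℕ) : CuspForm (Gamma0 N) k →ₗ[ℂ] ℂ where
  toFun f := qCoeff (⇑f) n
  map_add' f g := qCoeff_add f g n
  map_smul' c f := by simpa using qCoeff_smul c f n

theorem qLin_apply (n : ℕ) (f : CuspForm (Gamma0 N) k) : qLin N k n f = qCoeff (⇑f) n := rfl

theorem qCoeff_zsmul (c : ℤ) (f : CuspForm (Gamma0 N) k) (n : ℕ) :
    qCoeff (⇑(c • f)) n = c * qCoeff (⇑f) n := by
  rw [← qLin_apply, map_zsmul, qLin_apply]
  simp

theorem qCoeff_mulModularForm {k₁ k₂ : ℤ} (f : CuspForm (Gamma0 N) k₁)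
    (g : ModularForm (Gamma0 N) k₂) (n : ℕ) :
    qCoeff (⇑(f.mulModularForm g)) n =
      ∑ ij ∈ Finset.HasAntidiagonal.antidiagonal n, qCoeff (⇑f) ij.1 * qCoeff (⇑g) ij.2 := by
  unfold qCoeff
  rw [CuspForm.coe_mulModularForm, ModularForm.qExpansion_mul_coe one_pos one_mem_sp f g,
    PowerSeries.coeff_mul]

theorem qCoeff_heckeTLin {ℓ : ℕ} (hℓ : ℓ.Prime) (hℓN : ¬ ℓ ∣ N) (f : CuspForm (Gamma0 N) k)
    (n : ℕ) :
    qCoeff (⇑(CuspForm.heckeTLin k hℓ hℓN f)) n =
      qCoeff (⇑f) (n * ℓ) + if ℓ ∣ n then (ℓ : ℂ) ^ (k - 1) * qCoeff (⇑f) (n / ℓ) else 0 := by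
  rw [CuspForm.coe_heckeTLin_apply, ModularFormClass.qCoeff_heckeT f one_mem_sp hℓ.ne_zero n,
    ModularForm.coeffHeckeT_apply]

/-- Forms with integral `q`-expansion. -/
def IntCoeff (f : CuspForm (Gamma0 N) k) : Prop :=
  ∀ n : ℕ, ∃ m : ℤ, qCoeff (⇑f) n = (m : ℂ)

/-- Forms with integral `q`-coefficient divisible by `m` at the index `n`. -/
def DvdCoeff (m : ℕ) (f : CuspForm (Gamma0 N) k) (n : ℕ) : Prop :=
  ∃ z : ℤ, qCoeff (⇑f) n = (m : ℂ) * (z : ℂ)

theorem mem_intLattice_iff (f : CuspForm (Gamma0 N) k) :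
    f ∈ CuspForm.intLattice N k ↔ IntCoeff f := by
  constructor
  · intro hf
    unfold CuspForm.intLattice at hf
    induction hf using Submodule.span_induction with
    | mem x hx => exact hx
    | zero =>
      intro n
      exact ⟨0, by rw [← qLin_apply, map_zero]; simp⟩
    | add x y _ _ hx hy =>
      intro n
      obtain ⟨m₁, h₁⟩ := hx n
      obtain ⟨m₂, h₂⟩ := hy n
      exact ⟨m₁ + m₂, by rw [qCoeff_add, h₁, h₂]; push_cast; ring⟩
    | smul a x _ hx =>
      intro n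
      obtain ⟨m, hm⟩ := hx n
      refine ⟨a * m, ?_⟩
      rw [qCoeff_zsmul, hm]
      push_cast
      ring
  · intro hf
    exact Submodule.subset_span hf

theorem DvdCoeff.add {m : ℕ} {f g : CuspForm (Gamma0 N) k} {n : ℕ} (hf : DvdCoeff m f n)
    (hg : DvdCoeff m g n) : DvdCoeff m (f + g) n := by
  obtain ⟨z₁, h₁⟩ := hf
  obtain ⟨z₂, h₂⟩ := hg
  exact ⟨z₁ + z₂, by rw [qCoeff_add, h₁, h₂]; push_cast; ring⟩

theorem DvdCoeff.sub {m : ℕ} {f g : CuspForm (Gamma0 N) k} {n : ℕ} (hf : DvdCoeff m f n)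
    (hg : DvdCoeff m g n) : DvdCoeff m (f - g) n := by
  obtain ⟨z₁, h₁⟩ := hf
  obtain ⟨z₂, h₂⟩ := hg
  exact ⟨z₁ - z₂, by rw [qCoeff_sub, h₁, h₂]; push_cast; ring⟩

theorem DvdCoeff.smul_of_intCoeff (m : ℕ) {f : CuspForm (Gamma0 N) k} (hf : IntCoeff f) (n : ℕ) :
    DvdCoeff m ((m : ℤ) • f) n := by
  obtain ⟨z, hz⟩ := hf n
  exact ⟨z, by rw [qCoeff_zsmul, hz]; push_cast; ring⟩

/-- **Finiteness lemma.** For every modulus `m` there is a bound `B` such that an integral cusp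
form whose first `B` coefficients are divisible by `m` has all its coefficients divisible by
`m`. -/
theorem exists_bound_dvdCoeff (N : ℕ) [NeZero N] (k : ℤ) (m : ℕ) (hm : 1 ≤ m) :
    ∃ B : ℕ, ∀ h : CuspForm (Gamma0 N) k, IntCoeff h → (∀ n ≤ B, DvdCoeff m h n) →
      ∀ n, DvdCoeff m h n := by
  classical
  obtain ⟨S, hS⟩ := CuspForm.intLattice_fg N k
  have hSint : ∀ s ∈ S, IntCoeff s := fun s hs =>
    (mem_intLattice_iff s).1 (hS ▸ Submodule.subset_span hs)
  have : NeZero m := ⟨by omega⟩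
  -- reduced combinations
  let comb : (S → Fin m) → CuspForm (Gamma0 N) k := fun ρ => ∑ s : S, ((ρ s : ℕ) : ℤ) • (s : CuspForm (Gamma0 N) k)
  -- a bad index for each reduced combination
  have hbad : ∀ ρ : S → Fin m, ∃ b : ℕ, (∀ n ≤ b, DvdCoeff m (comb ρ) n) → ∀ n, DvdCoeff m (comb ρ) n := by
    intro ρ
    by_cases h : ∀ n, DvdCoeff m (comb ρ) n
    · exact ⟨0, fun _ => h⟩
    · rw [not_forall] at h
      obtain ⟨n, hn⟩ := h
      exact ⟨n, fun h' => absurd (h' n le_rfl) hn⟩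
  choose b hb using hbad
  refine ⟨Finset.univ.sup b, fun h hh hB => ?_⟩
  -- decompose `h`
  have hmem : h ∈ Submodule.span ℤ (S : Set (CuspForm (Gamma0 N) k)) := by
    rw [hS]; exact (mem_intLattice_iff h).2 hh
  obtain ⟨c, hc⟩ := (Submodule.mem_span_finset'.1 hmem)
  set ρ : S → Fin m := fun s => ⟨((c s) % (m : ℤ)).toNat, by
    have h1 : 0 ≤ (c s) % (m : ℤ) := Int.emod_nonneg _ (by exact_mod_cast (NeZero.ne m))
    have h2 : (c s) % (m : ℤ) < m := Int.emod_lt_of_pos _ (by exact_mod_cast hm)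
    omega⟩ with hρ
  set h' : CuspForm (Gamma0 N) k := ∑ s : S, ((c s) / (m : ℤ)) • (s : CuspForm (Gamma0 N) k) with hh'
  have hdecomp : h = comb ρ + (m : ℤ) • h' := by
    rw [← hc, hh', Finset.smul_sum, ← Finset.sum_add_distrib]
    refine Finset.sum_congr rfl fun s _ => ?_
    rw [smul_smul, ← add_smul]
    congr 1
    have h1 : 0 ≤ (c s) % (m : ℤ) := Int.emod_nonneg _ (by exact_mod_cast (NeZero.ne m))
    simp only [hρ]
    rw [Int.toNat_of_nonneg h1]
    exact (Int.emod_add_mul_ediv (c s) m).symm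
  have hh'int : IntCoeff h' := by
    rw [← mem_intLattice_iff, hh']
    refine Submodule.sum_mem _ fun s _ => Submodule.smul_mem _ _ ?_
    exact (mem_intLattice_iff _).2 (hSint s s.2)
  have hcomb : ∀ n, DvdCoeff m h n ↔ DvdCoeff m (comb ρ) n := by
    intro n
    have hs := DvdCoeff.smul_of_intCoeff m hh'int n
    constructor
    · intro hn
      have := hn.sub hs
      rwa [hdecomp, add_sub_cancel_right] at this
    · intro hn
      rw [hdecomp]
      exact hn.add hs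
  intro n
  rw [hcomb]
  refine hb ρ (fun n hn => ?_) n
  rw [← hcomb]
  exact hB n (hn.trans (Finset.le_sup (f := b) (Finset.mem_univ ρ)))

end Fermat.Agent.S16.B
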