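import Fermat.Agent.S16.FSqTrace
import Fermat.Agent.S16.HeckeTrickQ

/-!
# S16, tool T2 in terms of `q`-coefficients, and the `f²`-trick (F2)

* `T2_coeff`: for weight-2 modular forms `X`, `Y` on `Γ₀(P)`,
  `∑_{i+j=n} x_i y_j + P⁻¹ ∑_{i+j=nP} x_{iP} y_{jP} = (1 + P⁻¹) x₀ y₀ (E₄)_n`.
* `cusp_conv_eq_zero`: for a cusp form `f`, `∑_{i+j=P} a_{iP} a_{jP} = 0`.
-/

set_option autoImplicit false
set_option linter.unusedSectionVars false

open UpperHalfPlane ModularForm CongruenceSubgroup Matrix.SpecialLinearGroup ModularGroup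
  EisensteinSeries ModularFormClass
open scoped MatrixGroups ModularForm Manifold

noncomputable section

namespace Fermat.Agent.S16.B

variable {P : ℕ} [hP : Fact P.Prime]

/-- The level-`P` modular form `X Y + P⁻¹ U_P (U_P X · U_P Y)`. -/
def trForm (X Y : ModularForm (Gamma0 P) 2) : ModularForm (Gamma0 P) (2 + 2) :=
  X.mul Y + (P : ℂ)⁻¹ • ModularForm.heckeULin (2 + 2) (dvd_refl P)
    ((ModularForm.heckeULin 2 (dvd_refl P) X).mul (ModularForm.heckeULin 2 (dvd_refl P) Y))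

theorem coe_trForm (X Y : ModularForm (Gamma0 P) 2) :
    (⇑(trForm X Y) : ℍ → ℂ) =
      ⇑(trMF4 (IsMF2.of_modularForm X) (IsMF2.of_modularForm Y)) := by
  rw [coe_trMF4, trFunK_mul (IsMF2.of_modularForm X) (IsMF2.of_modularForm Y)]
  rfl

/-- the `q`-coefficients of `trForm` -/
theorem qCoeff_trForm (X Y : ModularForm (Gamma0 P) 2) (n : ℕ) :
    qCoeff (⇑(trForm X Y)) n =
      ∑ ij ∈ Finset.HasAntidiagonal.antidiagonal n, qCoeff (⇑X) ij.1 * qCoeff (⇑Y) ij.2 +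
        (P : ℂ)⁻¹ * ∑ ij ∈ Finset.HasAntidiagonal.antidiagonal (n * P),
          qCoeff (⇑X) (ij.1 * P) * qCoeff (⇑Y) (ij.2 * P) := by
  have hΓ := one_mem_sp (N := P)
  unfold trForm
  unfold qCoeff
  rw [FunLike.coe_add, ModularForm.qExpansion_add one_pos hΓ, FunLike.coe_smul,
    ModularForm.qExpansion_smul one_pos hΓ, map_add, ModularForm.qExpansion_mul one_pos hΓ,
    PowerSeries.coeff_mul, PowerSeries.coeff_smul, smul_eq_mul]
  congr 2
  have h1 := ModularFormClass.qCoeff_heckeU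
    ((ModularForm.heckeULin 2 (dvd_refl P) X).mul (ModularForm.heckeULin 2 (dvd_refl P) Y))
    hΓ hP.out.ne_zero n
  rw [ModularForm.coeffHeckeU_apply] at h1
  unfold qCoeff at h1
  rw [ModularForm.coe_heckeULin_apply, h1, ModularForm.qExpansion_mul one_pos hΓ,
    PowerSeries.coeff_mul]
  refine Finset.sum_congr rfl fun ij _ => ?_
  have h2 := ModularFormClass.qCoeff_heckeU X hΓ hP.out.ne_zero ij.1
  have h3 := ModularFormClass.qCoeff_heckeU Y hΓ hP.out.ne_zero ij.2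
  rw [ModularForm.coeffHeckeU_apply] at h2 h3
  unfold qCoeff at h2 h3
  rw [ModularForm.coe_heckeULin_apply, ModularForm.coe_heckeULin_apply, h2, h3]

/-- **T2.** -/
theorem T2_coeff (X Y : ModularForm (Gamma0 P) 2) (n : ℕ) :
    ∑ ij ∈ Finset.HasAntidiagonal.antidiagonal n, qCoeff (⇑X) ij.1 * qCoeff (⇑Y) ij.2 +
        (P : ℂ)⁻¹ * ∑ ij ∈ Finset.HasAntidiagonal.antidiagonal (n * P),
          qCoeff (⇑X) (ij.1 * P) * qCoeff (⇑Y) (ij.2 * P) =
      (1 + (P : ℂ)⁻¹) * (qCoeff (⇑X) 0 * qCoeff (⇑Y) 0) * (qExpansion 1 E₄).coeff n := by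
  obtain ⟨c, hc⟩ := exists_smul_E₄ (trMF4 (IsMF2.of_modularForm X) (IsMF2.of_modularForm Y))
  have hq : ∀ m, qCoeff (⇑(trForm X Y)) m = c * (qExpansion 1 E₄).coeff m := by
    intro m
    unfold qCoeff
    rw [coe_trForm, ← hc, FunLike.coe_smul,
      ModularForm.qExpansion_smul one_pos one_mem_strictPeriods_SL, PowerSeries.coeff_smul,
      smul_eq_mul]
  have h0 := hq 0
  rw [qCoeff_trForm, E_qExpansion_coeff_zero (by norm_num) ⟨2, rfl⟩, mul_one] at h0
  simp only [zero_mul, Finset.Nat.antidiagonal_zero, Finset.sum_singleton] at h0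
  rw [← qCoeff_trForm, hq n, ← h0]
  ring

end Fermat.Agent.S16.B
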