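import Fermat.Agent.S16.TraceK
import Fermat.Agent.S16.Fricke
import Fermat.Prelude.Def_ModularForm_HeckeOperatorForms
import Fermat.Prelude.Thm_ModularFormClass_qCoeff_heckeU

/-!
# S16, tool T2: the trace of a product of two weight-2 forms of prime level `P`

For weight-2 modular forms `X`, `Y` on `Γ₀(P)` the trace of `X Y` to level one is
`X Y + P⁻¹ U_P (U_P X · U_P Y)`, a modular form of weight 4 and level one, hence a multiple of
`E₄`.  In terms of `q`-coefficients:
`∑_{i+j=n} x_i y_j + P⁻¹ ∑_{i+j=nP} x_{iP} y_{jP} = (1 + P⁻¹) x₀ y₀ · (E₄)_n`.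
-/

set_option autoImplicit false
set_option linter.unusedSectionVars false

open UpperHalfPlane ModularForm CongruenceSubgroup Matrix.SpecialLinearGroup ModularGroup
  EisensteinSeries ModularFormClass
open scoped MatrixGroups ModularForm Manifold

noncomputable section

namespace Fermat.Agent.S16.B

variable {P : ℕ} {f g : ℍ → ℂ}

theorem mul_slash_inv (hf : IsMF2 P f) (hg : IsMF2 P g) :
    ∀ γ ∈ Gamma0 P, (f * g) ∣[(4 : ℤ)] γ = f * g := by
  intro γ hγ
  rw [show (4 : ℤ) = 2 + 2 from rfl, ModularForm.mul_slash_SL2, hf.inv γ hγ, hg.inv γ hγ]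

theorem stSlashK_mul (f g : ℍ → ℂ) (j : ℤ) :
    stSlashK 4 (f * g) j = stSlash f j * stSlash g j := by
  unfold stSlashK stSlash
  rw [show (4 : ℤ) = 2 + 2 from rfl, ModularForm.mul_slash_SL2]

/-- **T2, function form.** -/
theorem trFunK_mul [hP : Fact P.Prime] (hf : IsMF2 P f) (hg : IsMF2 P g) :
    haveI : NeZero P := ⟨hP.out.ne_zero⟩
    trFunK 4 P (f * g) = f * g + (P : ℂ)⁻¹ • heckeU 4 P (heckeU 2 P f * heckeU 2 P g) := by
  have : NeZero P := ⟨hP.out.ne_zero⟩
  have hP0 : (P : ℂ) ≠ 0 := by exact_mod_cast hP.out.ne_zero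
  rw [trFunK]
  congr 1
  rw [sum_zmod_val_eq_sum_range (fun i ↦ stSlashK 4 (f * g) (i : ℤ))]
  ext z
  rw [Finset.sum_apply, Pi.smul_apply, heckeU_apply 4 hP.out.ne_zero, smul_eq_mul, Finset.mul_sum,
    Finset.mul_sum]
  refine Finset.sum_congr rfl fun j _ => ?_
  rw [stSlashK_mul, Pi.mul_apply, stSlash_apply_eq hf, stSlash_apply_eq hg, Pi.mul_apply]
  ring

theorem mdiff_stSlashK {h : ℍ → ℂ} (hh : MDiff h) (k : ℤ) (j : ℤ) : MDiff (stSlashK k h j) := by
  rw [stSlashK, ModularForm.SL_slash]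
  exact hh.slash k _

theorem isBoundedAtImInfty_mul_of_isMF2 (hf : IsMF2 P f) (hg : IsMF2 P g) :
    IsBoundedAtImInfty (f * g) :=
  (isBoundedAtImInfty_of_isMF2 hf).mul (isBoundedAtImInfty_of_isMF2 hg)

theorem isBoundedAtImInfty_trFunK_mul [NeZero P] (hf : IsMF2 P f) (hg : IsMF2 P g) :
    IsBoundedAtImInfty (trFunK 4 P (f * g)) := by
  have h1 : ∀ s : Finset (ZMod P),
      IsBoundedAtImInfty (∑ j ∈ s, stSlashK 4 (f * g) ((j.val : ℕ) : ℤ)) := by
    classical
    intro s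
    induction s using Finset.induction_on with
    | empty => simpa using zero_form_isBoundedAtImInfty
    | insert a s ha ih =>
      rw [Finset.sum_insert ha]
      have h0 : IsBoundedAtImInfty (stSlashK 4 (f * g) ((a.val : ℕ) : ℤ)) := by
        rw [stSlashK_mul]
        exact (hf.bdd _).mul (hg.bdd _)
      exact h0.add ih
  exact (isBoundedAtImInfty_mul_of_isMF2 hf hg).add (h1 _)

/-- The trace of `f g` to level one, as a modular form of weight 4. -/
def trMF4 [hP : Fact P.Prime] (hf : IsMF2 P f) (hg : IsMF2 P g) : ModularForm 𝒮ℒ 4 where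
  toFun := haveI : NeZero P := ⟨hP.out.ne_zero⟩; trFunK 4 P (f * g)
  slash_action_eq' := by
    rintro A ⟨γ, rfl⟩
    exact trFunK_slash (mul_slash_inv hf hg) γ
  holo' := by
    haveI : NeZero P := ⟨hP.out.ne_zero⟩
    refine (hf.holo.mul hg.holo).add ?_
    exact MDifferentiable.sum (fun j _ ↦ mdiff_stSlashK (hf.holo.mul hg.holo) 4 _)
  bdd_at_cusps' := by
    haveI : NeZero P := ⟨hP.out.ne_zero⟩
    intro c hc
    rw [OnePoint.isBoundedAt_iff_forall_SL2Z hc]
    intro γ _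
    rw [trFunK_slash (mul_slash_inv hf hg) γ]
    exact isBoundedAtImInfty_trFunK_mul hf hg

theorem coe_trMF4 [hP : Fact P.Prime] (hf : IsMF2 P f) (hg : IsMF2 P g) :
    haveI : NeZero P := ⟨hP.out.ne_zero⟩
    (⇑(trMF4 hf hg) : ℍ → ℂ) = trFunK 4 P (f * g) := rfl

/-- Every weight-4 form of level one is a multiple of `E₄`. -/
theorem exists_smul_E₄ (F : ModularForm 𝒮ℒ 4) : ∃ c : ℂ, c • E₄ = F := by
  have hE : (E₄ : ModularForm 𝒮ℒ 4) ≠ 0 := E_ne_zero (by norm_num) ⟨2, rfl⟩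
  exact (finrank_eq_one_iff_of_nonzero' _ hE).mp
    (Module.rank_eq_one_iff_finrank_eq_one.mp levelOne_weight_four_rank_one) F

end Fermat.Agent.S16.B
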