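import Fermat.Agent.S16.HeckeTrickQ

/-!
# S16, piece T3: the Hecke trick

Let `f` be a weight-2 cusp form on `Γ₀(N)` with integral `q`-expansion whose first coefficient is
prime to `M`, and let `F` be a weight-2 modular form on `Γ₀(N)` with `q`-expansion
`c + 24 M (…)`, the dots being an integral power series.  Then `M ∣ c`.

Proof: for a prime `r ∤ N` the weight-4 cusp form `H_r = T_r⁽⁴⁾(f F) − (T_r⁽²⁾ f) F` is congruent
to `c (r³ − r) f(q^r)` modulo `24 M`.  By the finiteness lemma the congruence class of an integral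
form modulo `m` is detected by its first `B` coefficients; a prime `r > B` with
`v_ℓ(r³ − r) = v_ℓ(24)` (Dirichlet) gives `ℓ^j ∣ c` for every prime power `ℓ^j ∣ M`.
-/

set_option autoImplicit false
set_option linter.unusedSectionVars false

open CuspForm CongruenceSubgroup ModularFormClass UpperHalfPlane

namespace Fermat.Agent.S16.B

lemma exists_eq_mul_add {r q a : ℕ} (h : r ≡ a [MOD q]) (ha : a < q) :
    ∃ t : ℤ, (r : ℤ) = q * t + a := by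
  refine ⟨((r / q : ℕ) : ℤ), ?_⟩
  have h1 : r % q = a := by
    have := h
    unfold Nat.ModEq at this
    rw [this, Nat.mod_eq_of_lt ha]
  have h2 := Nat.div_add_mod r q
  rw [h1] at h2
  exact_mod_cast h2.symm

/-- Arithmetic input from Dirichlet's theorem: a large prime `r` with `v_ℓ(r³ − r) = v_ℓ(24)`. -/
theorem exists_prime_val (ℓ : ℕ) (hℓ : ℓ.Prime) (n : ℕ) :
    ∃ r : ℕ, n < r ∧ r.Prime ∧ ∃ (ν : ℕ) (u : ℤ), ℓ ^ ν ∣ 24 ∧
      (r : ℤ) ^ 3 - r = (ℓ : ℤ) ^ ν * u ∧ ¬ (ℓ : ℤ) ∣ u := by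
  by_cases h2 : ℓ = 2
  · subst h2
    obtain ⟨r, hr, hrp, hmod⟩ := Nat.forall_exists_prime_gt_and_modEq n (q := 16) (a := 3)
      (by norm_num) (by norm_num)
    obtain ⟨t, ht⟩ := exists_eq_mul_add hmod (by norm_num)
    refine ⟨r, hr, hrp, 3, 512 * t ^ 3 + 288 * t ^ 2 + 52 * t + 3, by norm_num, ?_, ?_⟩
    · rw [ht]; push_cast; ring
    · rintro ⟨w, hw⟩
      push_cast at hw
      omega
  by_cases h3 : ℓ = 3
  · subst h3
    obtain ⟨r, hr, hrp, hmod⟩ := Nat.forall_exists_prime_gt_and_modEq n (q := 9) (a := 2)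
      (by norm_num) (by norm_num)
    obtain ⟨t, ht⟩ := exists_eq_mul_add hmod (by norm_num)
    refine ⟨r, hr, hrp, 1, 243 * t ^ 3 + 162 * t ^ 2 + 33 * t + 2, by norm_num, ?_, ?_⟩
    · rw [ht]; push_cast; ring
    · rintro ⟨w, hw⟩
      push_cast at hw
      omega
  · have hℓ5 : 5 ≤ ℓ := by
      have h2' := hℓ.two_le
      by_contra hlt
      rw [not_le] at hlt
      have : ℓ = 4 := by omega
      subst this
      exact absurd hℓ (by norm_num)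
    obtain ⟨r, hr, hrp, hmod⟩ := Nat.forall_exists_prime_gt_and_modEq n (q := ℓ) (a := 2)
      hℓ.ne_zero ((Nat.coprime_primes Nat.prime_two hℓ).2 (Ne.symm h2))
    obtain ⟨t, ht⟩ := exists_eq_mul_add hmod (by omega)
    refine ⟨r, hr, hrp, 0, (r : ℤ) ^ 3 - r, by norm_num, by ring, ?_⟩
    intro hd
    have h6 : (ℓ : ℤ) ∣ 6 := by
      have e : (r : ℤ) ^ 3 - r =
          (ℓ : ℤ) * (ℓ ^ 2 * t ^ 3 + 6 * ℓ * t ^ 2 + 11 * t) + 6 := by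
        rw [ht]; push_cast; ring
      rw [e] at hd
      exact (dvd_add_right (dvd_mul_right _ _)).1 hd
    have h6' : ℓ ∣ 6 := by exact_mod_cast h6
    have hle := Nat.le_of_dvd (by norm_num) h6'
    interval_cases ℓ
    · exact absurd h6' (by norm_num)
    · exact absurd hℓ (by norm_num)

section Main

variable {N : ℕ} [NeZero N]

/-- Multiplication by `F = c + 24 M (…)` is multiplication by `c` modulo `24 M`. -/
theorem qCoeff_mul_cong {k : ℤ} (u : CuspForm (Gamma0 N) k) (hu : IntCoeff u)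
    (F : ModularForm (Gamma0 N) 2) (M : ℕ) (c : ℤ) (hF0 : qCoeff (⇑F) 0 = c)
    (hF : ∀ n, 1 ≤ n → ∃ z : ℤ, qCoeff (⇑F) n = ((24 * M : ℕ) : ℂ) * z) (n : ℕ) :
    ∃ z : ℤ, qCoeff (⇑(u.mulModularForm F)) n =
      (c : ℂ) * qCoeff (⇑u) n + ((24 * M : ℕ) : ℂ) * z := by
  classical
  rw [qCoeff_mulModularForm]
  have hmem : (n, 0) ∈ Finset.HasAntidiagonal.antidiagonal n := by
    rw [Finset.HasAntidiagonal.mem_antidiagonal]; simp
  rw [← Finset.add_sum_erase _ _ hmem]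
  have hrest : ∃ z : ℤ, ∑ ij ∈ (Finset.HasAntidiagonal.antidiagonal n).erase (n, 0),
      qCoeff (⇑u) ij.1 * qCoeff (⇑F) ij.2 = ((24 * M : ℕ) : ℂ) * z := by
    have : ∀ ij ∈ (Finset.HasAntidiagonal.antidiagonal n).erase (n, 0),
        ∃ z : ℤ, qCoeff (⇑u) ij.1 * qCoeff (⇑F) ij.2 = ((24 * M : ℕ) : ℂ) * z := by
      intro ij hij
      rw [Finset.mem_erase, Finset.HasAntidiagonal.mem_antidiagonal] at hij
      have h2 : 1 ≤ ij.2 := by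
        by_contra h
        apply hij.1
        have h0 : ij.2 = 0 := by omega
        have h1 : ij.1 = n := by omega
        exact Prod.ext h1 h0
      obtain ⟨a, ha⟩ := hu ij.1
      obtain ⟨b, hb⟩ := hF ij.2 h2
      exact ⟨a * b, by rw [ha, hb]; push_cast; ring⟩
    choose! z hz using this
    refine ⟨∑ ij ∈ (Finset.HasAntidiagonal.antidiagonal n).erase (n, 0), z ij, ?_⟩
    rw [Finset.sum_congr rfl hz]
    push_cast
    rw [Finset.mul_sum]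
  obtain ⟨z, hz⟩ := hrest
  refine ⟨z, ?_⟩
  rw [hz, hF0]
  ring

theorem IntCoeff.heckeTLin {k : ℤ} (hk : 1 ≤ k) {u : CuspForm (Gamma0 N) k} (hu : IntCoeff u)
    {r : ℕ} (hr : r.Prime) (hrN : ¬ r ∣ N) : IntCoeff (CuspForm.heckeTLin k hr hrN u) := by
  intro n
  rw [qCoeff_heckeTLin]
  obtain ⟨a, ha⟩ := hu (n * r)
  obtain ⟨b, hb⟩ := hu (n / r)
  obtain ⟨e, he⟩ : ∃ e : ℕ, k - 1 = e := ⟨(k - 1).toNat, by omega⟩
  rw [he, zpow_natCast]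
  split_ifs
  · exact ⟨a + r ^ e * b, by rw [ha, hb]; push_cast; ring⟩
  · exact ⟨a, by rw [ha, add_zero]⟩

/-- The form `H_r = T_r⁽⁴⁾(f F) − (T_r⁽²⁾ f) F`. -/
noncomputable def trickForm (f : CuspForm (Gamma0 N) 2) (F : ModularForm (Gamma0 N) 2) {r : ℕ}
    (hr : r.Prime) (hrN : ¬ r ∣ N) : CuspForm (Gamma0 N) (2 + 2) :=
  CuspForm.heckeTLin (2 + 2) hr hrN (f.mulModularForm F) -
    (CuspForm.heckeTLin 2 hr hrN f).mulModularForm F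

theorem qCoeff_trickForm (f : CuspForm (Gamma0 N) 2) (hf : IntCoeff f)
    (F : ModularForm (Gamma0 N) 2) (M : ℕ) (c : ℤ) (hF0 : qCoeff (⇑F) 0 = c)
    (hF : ∀ n, 1 ≤ n → ∃ z : ℤ, qCoeff (⇑F) n = ((24 * M : ℕ) : ℂ) * z)
    {r : ℕ} (hr : r.Prime) (hrN : ¬ r ∣ N) (n : ℕ) :
    ∃ z : ℤ, qCoeff (⇑(trickForm f F hr hrN)) n =
      (if r ∣ n then (c : ℂ) * ((r : ℂ) ^ 3 - r) * qCoeff (⇑f) (n / r) else 0) +
        ((24 * M : ℕ) : ℂ) * z := by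
  unfold trickForm
  rw [qCoeff_sub, qCoeff_heckeTLin]
  obtain ⟨z₁, h₁⟩ := qCoeff_mul_cong f hf F M c hF0 hF (n * r)
  obtain ⟨z₂, h₂⟩ := qCoeff_mul_cong f hf F M c hF0 hF (n / r)
  obtain ⟨z₃, h₃⟩ := qCoeff_mul_cong (CuspForm.heckeTLin 2 hr hrN f)
    (hf.heckeTLin (by norm_num) hr hrN) F M c hF0 hF n
  rw [h₁, h₂, h₃, qCoeff_heckeTLin]
  have e3 : ((r : ℂ) ^ ((2 + 2 : ℤ) - 1)) = (r : ℂ) ^ 3 := by
    rw [show ((2 + 2 : ℤ) - 1) = ((3 : ℕ) : ℤ) by norm_num, zpow_natCast]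
  have e1 : ((r : ℂ) ^ ((2 : ℤ) - 1)) = (r : ℂ) := by
    rw [show ((2 : ℤ) - 1) = ((1 : ℕ) : ℤ) by norm_num, zpow_natCast, pow_one]
  rw [e3, e1]
  split_ifs
  · exact ⟨z₁ + r ^ 3 * z₂ - z₃, by push_cast; ring⟩
  · exact ⟨z₁ - z₃, by push_cast; ring⟩

theorem intCoeff_trickForm (f : CuspForm (Gamma0 N) 2) (hf : IntCoeff f)
    (F : ModularForm (Gamma0 N) 2) (M : ℕ) (c : ℤ) (hF0 : qCoeff (⇑F) 0 = c)
    (hF : ∀ n, 1 ≤ n → ∃ z : ℤ, qCoeff (⇑F) n = ((24 * M : ℕ) : ℂ) * z)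
    {r : ℕ} (hr : r.Prime) (hrN : ¬ r ∣ N) : IntCoeff (trickForm f F hr hrN) := by
  intro n
  obtain ⟨z, hz⟩ := qCoeff_trickForm f hf F M c hF0 hF hr hrN n
  obtain ⟨a, ha⟩ := hf (n / r)
  rw [hz, ha]
  split_ifs
  · exact ⟨c * (r ^ 3 - r) * a + 24 * M * z, by push_cast; ring⟩
  · exact ⟨24 * M * z, by push_cast; ring⟩

/-- **T3, the Hecke trick.** -/
theorem hecke_trick (f : CuspForm (Gamma0 N) 2) (hf : IntCoeff f)
    (F : ModularForm (Gamma0 N) 2) (M : ℕ) (c f₁ : ℤ)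
    (hf1 : qCoeff (⇑f) 1 = f₁) (hcop : IsCoprime f₁ (M : ℤ))
    (hF0 : qCoeff (⇑F) 0 = c)
    (hF : ∀ n, 1 ≤ n → ∃ z : ℤ, qCoeff (⇑F) n = ((24 * M : ℕ) : ℂ) * z) :
    (M : ℤ) ∣ c := by
  rw [← Int.natAbs_dvd_natAbs, Int.natAbs_natCast, Nat.dvd_iff_prime_pow_dvd_dvd]
  intro ℓ j hℓ hj
  rcases Nat.eq_zero_or_pos j with rfl | hjpos
  · simp
  have hℓM : ℓ ∣ M := (dvd_pow_self ℓ hjpos.ne').trans hj
  -- the modulus
  obtain ⟨B, hB⟩ := exists_bound_dvdCoeff N (2 + 2) (ℓ ^ j * 24) (Nat.mul_pos (pow_pos hℓ.pos j)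
    (by norm_num))
  obtain ⟨r, hrgt, hr, ν, u, hν, hru, hu⟩ := exists_prime_val ℓ hℓ (max B N)
  have hrB : B < r := lt_of_le_of_lt (le_max_left _ _) hrgt
  have hrN' : N < r := lt_of_le_of_lt (le_max_right _ _) hrgt
  have hrN : ¬ r ∣ N := fun h =>
    absurd (Nat.le_of_dvd (Nat.pos_of_ne_zero (NeZero.ne N)) h) (not_le.2 hrN')
  have hdvd : ℓ ^ j * 24 ∣ 24 * M := by
    rw [mul_comm]
    exact Nat.mul_dvd_mul_left 24 hj
  obtain ⟨w, hw⟩ := hdvd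
  have hall := hB (trickForm f F hr hrN) (intCoeff_trickForm f hf F M c hF0 hF hr hrN)
    (fun n hn => by
      obtain ⟨z, hz⟩ := qCoeff_trickForm f hf F M c hF0 hF hr hrN n
      by_cases hrn : r ∣ n
      · have hn0 : n = 0 := by
          by_contra h0
          exact absurd (Nat.le_of_dvd (Nat.pos_of_ne_zero h0) hrn) (by omega)
        subst hn0
        exact ⟨0, by rw [qCoeff_zero_eq]; simp⟩
      · rw [if_neg hrn, zero_add] at hz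
        exact ⟨w * z, by rw [hz, hw]; push_cast; ring⟩) r
  obtain ⟨y, hy⟩ := hall
  obtain ⟨z, hz⟩ := qCoeff_trickForm f hf F M c hF0 hF hr hrN r
  rw [if_pos (dvd_refl r), Nat.div_self hr.pos, hf1, hy, hw] at hz
  have hz' : ((ℓ ^ j * 24 : ℕ) : ℤ) * y = c * ((r : ℤ) ^ 3 - r) * f₁ +
      ((ℓ ^ j * 24 * w : ℕ) : ℤ) * z := by exact_mod_cast hz
  -- `ℓ ^ j * 24 ∣ c (r³ − r) f₁`
  have h1 : ((ℓ ^ j * 24 : ℕ) : ℤ) ∣ c * ((r : ℤ) ^ 3 - r) * f₁ := by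
    refine ⟨y - w * z, ?_⟩
    push_cast at hz' ⊢
    linear_combination -hz'
  obtain ⟨t, ht⟩ := hν
  rw [hru] at h1
  have h2 : ((ℓ : ℤ) ^ j * (ℓ : ℤ) ^ ν) ∣ (ℓ : ℤ) ^ ν * (c * u * f₁) := by
    have : ((ℓ : ℤ) ^ j * (ℓ : ℤ) ^ ν) ∣ ((ℓ ^ j * 24 : ℕ) : ℤ) :=
      ⟨t, by push_cast; rw [show ((24 : ℤ)) = ((24 : ℕ) : ℤ) by norm_num, ht]; push_cast; ring⟩
    have e : c * ((ℓ : ℤ) ^ ν * u) * f₁ = (ℓ : ℤ) ^ ν * (c * u * f₁) := by ring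
    rw [← e]
    exact this.trans h1
  have hℓ0 : ((ℓ : ℤ) ^ ν) ≠ 0 := pow_ne_zero _ (by exact_mod_cast hℓ.ne_zero)
  have h3 : (ℓ : ℤ) ^ j ∣ c * u * f₁ := by
    rw [mul_comm ((ℓ : ℤ) ^ j)] at h2
    exact (mul_dvd_mul_iff_left hℓ0).1 h2
  have hℓZ : Prime (ℓ : ℤ) := Nat.prime_iff_prime_int.1 hℓ
  have hf₁ : ¬ (ℓ : ℤ) ∣ f₁ := by
    intro h
    have hM' : (ℓ : ℤ) ∣ (M : ℤ) := by exact_mod_cast hℓM
    have := hcop.isUnit_of_dvd' h hM'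
    exact hℓZ.not_isUnit this
  have h4 : (ℓ : ℤ) ^ j ∣ c * u :=
    (hℓZ.pow_dvd_of_dvd_mul_right j hf₁ h3)
  have h5 : (ℓ : ℤ) ^ j ∣ c := hℓZ.pow_dvd_of_dvd_mul_right j hu h4
  have h6 : ((ℓ ^ j : ℕ) : ℤ) ∣ c := by exact_mod_cast h5
  exact Int.natCast_dvd.1 h6

end Main

end Fermat.Agent.S16.B
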