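import Fermat.Agent.S16.ThetaInv

/-!
# S16 (Θ1): the binary theta series `θ_q`, periodicity and the Fricke involution
-/

set_option autoImplicit false
set_option linter.unusedSectionVars false
set_option linter.unusedVariables false

namespace Fermat.Agent.S16.Theta

open Complex Real

/-- the form `x² + xy + κ y²`, `κ = (q + 1) / 4` -/
def Qf (q : ℕ) (v : ℤ × ℤ) : ℤ := v.1 ^ 2 + v.1 * v.2 + ((q + 1) / 4 : ℕ) * v.2 ^ 2

/-- the binary theta series of discriminant `-q` -/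
noncomputable def thetaQ (q : ℕ) (z : ℂ) : ℂ := ∑' v : ℤ × ℤ, cexp (2 * π * I * z * (Qf q v : ℂ))

variable {q : ℕ}

lemma kappa_cast (hq : q % 4 = 3) : (((q + 1) / 4 : ℕ) : ℂ) = ((q : ℂ) + 1) / 4 := by
  have h : (q + 1) / 4 * 4 = q + 1 := Nat.div_mul_cancel (by omega)
  have h' : ((((q + 1) / 4 : ℕ) : ℂ)) * 4 = (q : ℂ) + 1 := by exact_mod_cast h
  rw [← h']
  ring

lemma Qf_cast (hq : q % 4 = 3) (v : ℤ × ℤ) : (Qf q v : ℂ) = QC q (v.1 : ℂ) (v.2 : ℂ) := by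
  unfold Qf QC
  simp only [Int.cast_add, Int.cast_mul, Int.cast_pow, Int.cast_natCast]
  rw [kappa_cast hq]

lemma thetaQ_term (hq : q % 4 = 3) (z : ℂ) (v : ℤ × ℤ) :
    cexp (2 * π * I * z * (Qf q v : ℂ)) = F2 q z 0 0 v := by
  unfold F2 ee
  rw [Qf_cast hq, add_zero, add_zero]
  congr 1
  ring

lemma thetaQ_eq (hq : q % 4 = 3) (z : ℂ) : thetaQ q z = ∑' v, F2 q z 0 0 v := by
  unfold thetaQ
  exact tsum_congr (thetaQ_term hq z)

lemma q_pos (hq : q % 4 = 3) : 0 < q := by omega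

lemma thetaQ_hasSum' (hq : q % 4 = 3) {z : ℂ} (hz : 0 < z.im) :
    HasSum (fun v : ℤ × ℤ => cexp (2 * π * I * z * (Qf q v : ℂ))) (thetaQ q z) := by
  have h := (F2_summable (q_pos hq) hz 0 0).hasSum
  rw [← thetaQ_eq hq] at h
  have e : (fun v : ℤ × ℤ => cexp (2 * π * I * z * (Qf q v : ℂ))) = F2 q z 0 0 :=
    funext (thetaQ_term hq z)
  rw [e]; exact h

theorem thetaQ_add_one (z : ℂ) : thetaQ q (z + 1) = thetaQ q z := by
  unfold thetaQ
  refine tsum_congr fun v => ?_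
  have : 2 * (π : ℂ) * I * (z + 1) * (Qf q v : ℂ) =
      2 * π * I * z * (Qf q v : ℂ) + (Qf q v : ℂ) * (2 * π * I) := by ring
  rw [this, Complex.exp_add, Complex.exp_int_mul_two_pi_mul_I, mul_one]

theorem thetaQ_add_int (z : ℂ) (n : ℤ) : thetaQ q (z + n) = thetaQ q z := by
  unfold thetaQ
  refine tsum_congr fun v => ?_
  have : 2 * (π : ℂ) * I * (z + n) * (Qf q v : ℂ) =
      2 * π * I * z * (Qf q v : ℂ) + ((n * Qf q v : ℤ) : ℂ) * (2 * π * I) := by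
    push_cast; ring
  rw [this, Complex.exp_add, Complex.exp_int_mul_two_pi_mul_I, mul_one]

/-- the dual sum is the theta series again -/
lemma tsum_D2_zero (hq : q % 4 = 3) (w : ℂ) : ∑' m, D2 q w 0 0 m = thetaQ q w := by
  rw [thetaQ_eq hq]
  let e : ℤ × ℤ ≃ ℤ × ℤ :=
    { toFun := fun m => (m.2, -m.1)
      invFun := fun m => (-m.2, m.1)
      left_inv := fun m => by simp
      right_inv := fun m => by simp }
  rw [← e.tsum_eq (F2 q w 0 0)]
  refine tsum_congr fun m => ?_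
  show D2 q w 0 0 m = F2 q w 0 0 (m.2, -m.1)
  unfold D2 F2 QD QC
  congr 1
  push_cast
  ring

/-- **(T1b)** the Fricke involution -/
theorem thetaQ_fricke (hq : q % 4 = 3) {z : ℂ} (hz : 0 < z.im) :
    thetaQ q (-1 / (q * z)) = -I * (√(q : ℝ) : ℂ) * z * thetaQ q z := by
  have hz0 : z ≠ 0 := fun h => by rw [h] at hz; simp at hz
  have hq0 : (0 : ℝ) < q := by exact_mod_cast q_pos hq
  have hsq0 : (√(q : ℝ) : ℂ) ≠ 0 := by
    have : √(q : ℝ) ≠ 0 := (Real.sqrt_pos.2 hq0).ne'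
    exact_mod_cast this
  have h := tsum_F2 (q_pos hq) hz 0 0
  rw [← thetaQ_eq hq, tsum_D2_zero hq] at h
  rw [h]
  set X := thetaQ q (-1 / (q * z))
  have hI : I * I = -1 := Complex.I_mul_I
  have hne : (√(q : ℝ) : ℂ) * z ≠ 0 := mul_ne_zero hsq0 hz0
  have : -I * (√(q : ℝ) : ℂ) * z * (I / ((√(q : ℝ) : ℂ) * z) * X) =
      -(I * I) * (((√(q : ℝ) : ℂ) * z) / ((√(q : ℝ) : ℂ) * z)) * X := by ring
  rw [this, hI, div_self hne]
  ring

end Fermat.Agent.S16.Theta
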