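import Mathlib

/-!
# S16 (Θ1): one-dimensional theta sums with shift and character

`t1 w s t = ∑ₙ e(w (n + s)² + n t)` and its inversion formula, from Mathlib's
`jacobiTheta₂_functional_equation`.
-/

set_option autoImplicit false
set_option linter.unusedSectionVars false
set_option linter.unusedVariables false

namespace Fermat.Agent.S16.Theta

open Complex Real

/-- the exponential `e(t) = exp(2πi t)` -/
noncomputable def ee (t : ℂ) : ℂ := cexp (2 * π * I * t)

lemma ee_add (a b : ℂ) : ee (a + b) = ee a * ee b := by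
  unfold ee; rw [mul_add, Complex.exp_add]

lemma ee_zero : ee 0 = 1 := by
  unfold ee; rw [mul_zero, Complex.exp_zero]

lemma ee_ne_zero (a : ℂ) : ee a ≠ 0 := Complex.exp_ne_zero _

lemma ee_neg (a : ℂ) : ee (-a) = (ee a)⁻¹ := by
  unfold ee; rw [mul_neg, Complex.exp_neg]

lemma ee_sub (a b : ℂ) : ee (a - b) = ee a / ee b := by
  rw [sub_eq_add_neg, ee_add, ee_neg, div_eq_mul_inv]

lemma ee_int (n : ℤ) : ee n = 1 := by
  unfold ee
  have : 2 * (π : ℂ) * I * n = n * (2 * π * I) := by ring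
  rw [this]
  exact Complex.exp_int_mul_two_pi_mul_I n

lemma ee_add_int (a : ℂ) (n : ℤ) : ee (a + n) = ee a := by
  rw [ee_add, ee_int, mul_one]

lemma ee_sum {ι : Type*} (s : Finset ι) (f : ι → ℂ) : ee (∑ i ∈ s, f i) = ∏ i ∈ s, ee (f i) := by
  unfold ee
  rw [Finset.mul_sum, Complex.exp_sum]

lemma norm_ee (a : ℂ) : ‖ee a‖ = Real.exp (-2 * π * a.im) := by
  unfold ee
  rw [Complex.norm_exp]
  congr 1
  simp [Complex.mul_re, Complex.mul_im]

lemma norm_ee_ofReal (a : ℝ) : ‖ee (a : ℂ)‖ = 1 := by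
  rw [norm_ee]; simp

/-- the terms of the one-dimensional theta sum with shift `s` and character `t` -/
noncomputable def t1term (w s t : ℂ) (n : ℤ) : ℂ := ee (w * ((n : ℂ) + s) ^ 2 + n * t)

/-- the one-dimensional theta sum with shift `s` and character `t` -/
noncomputable def t1 (w s t : ℂ) : ℂ := ∑' n : ℤ, t1term w s t n

lemma t1term_eq (w s t : ℂ) (n : ℤ) :
    t1term w s t n = ee (w * s ^ 2) * jacobiTheta₂_term n (2 * w * s + t) (2 * w) := by
  unfold t1term jacobiTheta₂_term ee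
  rw [← Complex.exp_add]
  congr 1
  ring

lemma t1_hasSum {w : ℂ} (hw : 0 < w.im) (s t : ℂ) : HasSum (t1term w s t) (t1 w s t) := by
  have h2 : 0 < (2 * w).im := by
    simp [Complex.mul_im]; exact hw
  have h := (hasSum_jacobiTheta₂_term (2 * w * s + t) h2).mul_left (ee (w * s ^ 2))
  have e : t1term w s t = fun n => ee (w * s ^ 2) * jacobiTheta₂_term n (2 * w * s + t) (2 * w) :=
    funext (t1term_eq w s t)
  rw [← e] at h
  exact h.summable.hasSum

lemma t1_eq {w : ℂ} (hw : 0 < w.im) (s t : ℂ) :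
    t1 w s t = ee (w * s ^ 2) * jacobiTheta₂ (2 * w * s + t) (2 * w) := by
  have h2 : 0 < (2 * w).im := by
    simp [Complex.mul_im]; exact hw
  have h := (hasSum_jacobiTheta₂_term (2 * w * s + t) h2).mul_left (ee (w * s ^ 2))
  have e : t1term w s t = fun n => ee (w * s ^ 2) * jacobiTheta₂_term n (2 * w * s + t) (2 * w) :=
    funext (t1term_eq w s t)
  rw [← e] at h
  exact h.tsum_eq

lemma t1_summable_norm {w : ℂ} (hw : 0 < w.im) (s t : ℂ) :
    Summable fun n => ‖t1term w s t n‖ :=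
  (t1_hasSum hw s t).summable.norm

lemma im_neg_inv {w : ℂ} (hw : 0 < w.im) (r : ℝ) (hr : 0 < r) : 0 < (-1 / (r * w)).im := by
  have hw0 : w ≠ 0 := fun h => by rw [h] at hw; simp at hw
  rw [neg_div, Complex.neg_im, one_div, Complex.inv_im]
  have hn : 0 < Complex.normSq ((r : ℂ) * w) := by
    apply Complex.normSq_pos.2
    exact mul_ne_zero (by exact_mod_cast hr.ne') hw0
  have him : ((r : ℂ) * w).im = r * w.im := by simp [Complex.mul_im]
  rw [him]
  have : 0 < r * w.im / Complex.normSq ((r : ℂ) * w) := div_pos (mul_pos hr hw) hn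
  linarith [this, neg_div (Complex.normSq ((r : ℂ) * w)) (r * w.im)]

/-- **one-dimensional inversion formula** -/
theorem t1_inversion {w : ℂ} (hw : 0 < w.im) (s t : ℂ) :
    t1 w s t = 1 / (-I * (2 * w)) ^ (1 / 2 : ℂ) * ee (-(s * t)) * t1 (-1 / (4 * w)) (-t) s := by
  have hw0 : w ≠ 0 := fun h => by rw [h] at hw; simp at hw
  have hw' : 0 < (-1 / (4 * w)).im := by
    have := im_neg_inv hw 4 (by norm_num)
    simpa using this
  rw [t1_eq hw, t1_eq hw', jacobiTheta₂_functional_equation]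
  have e1 : (2 * w * s + t) / (2 * w) = 2 * (-1 / (4 * w)) * -t + s := by
    field_simp
    ring
  have e2 : -1 / (2 * w) = 2 * (-1 / (4 * w)) := by
    field_simp
    ring
  rw [e1, e2]
  have e3 : ee (w * s ^ 2) * cexp (-π * I * (2 * w * s + t) ^ 2 / (2 * w)) =
      ee (-(s * t)) * ee (-1 / (4 * w) * (-t) ^ 2) := by
    unfold ee
    rw [← Complex.exp_add, ← Complex.exp_add]
    congr 1
    field_simp
    ring
  calc ee (w * s ^ 2) * (1 / (-I * (2 * w)) ^ (1 / 2 : ℂ) *
        cexp (-π * I * (2 * w * s + t) ^ 2 / (2 * w)) *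
        jacobiTheta₂ (2 * (-1 / (4 * w)) * -t + s) (2 * (-1 / (4 * w))))
      = 1 / (-I * (2 * w)) ^ (1 / 2 : ℂ) *
        (ee (w * s ^ 2) * cexp (-π * I * (2 * w * s + t) ^ 2 / (2 * w))) *
        jacobiTheta₂ (2 * (-1 / (4 * w)) * -t + s) (2 * (-1 / (4 * w))) := by ring
    _ = _ := by rw [e3]; ring

end Fermat.Agent.S16.Theta
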