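import Fermat.Agent.S16.ThetaSum
import Fermat.Agent.S16.ThetaOneDim

/-!
# S16 (Θ1): the two-dimensional inversion formula with shift

`Q(x, y) = x² + xy + κ y²`, `κ = (q + 1) / 4`; dual form `Q°(x, y) = κ x² - xy + y²`.
`∑ₕ e(w Q(h + u)) = (i / (√q w)) ∑ₘ e(-Q°(m) / (q w) + m·u)`.
-/

set_option autoImplicit false
set_option linter.unusedSectionVars false
set_option linter.unusedVariables false

namespace Fermat.Agent.S16.Theta

open Complex Real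

/-- the quadratic form `x² + xy + κ y²` on `ℂ²` -/
noncomputable def QC (q : ℕ) (x y : ℂ) : ℂ := x ^ 2 + x * y + ((q : ℂ) + 1) / 4 * y ^ 2

/-- the dual form `κ x² - xy + y²` on `ℂ²` -/
noncomputable def QD (q : ℕ) (x y : ℂ) : ℂ := ((q : ℂ) + 1) / 4 * x ^ 2 - x * y + y ^ 2

/-- the shifted two-dimensional family -/
noncomputable def F2 (q : ℕ) (w u₁ u₂ : ℂ) (h : ℤ × ℤ) : ℂ :=
  ee (w * QC q ((h.1 : ℂ) + u₁) ((h.2 : ℂ) + u₂))

/-- the dual two-dimensional family -/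
noncomputable def D2 (q : ℕ) (w u₁ u₂ : ℂ) (m : ℤ × ℤ) : ℂ :=
  ee (w * QD q (m.1 : ℂ) (m.2 : ℂ) + ((m.1 : ℂ) * u₁ + (m.2 : ℂ) * u₂))

variable {q : ℕ}

lemma cpow_half_real_mul {r : ℝ} (hr : 0 < r) {x : ℂ} (hx : x ≠ 0) :
    ((r : ℂ) * x) ^ (1 / 2 : ℂ) = (√r : ℂ) * x ^ (1 / 2 : ℂ) := by
  have hr0 : (r : ℂ) ≠ 0 := by exact_mod_cast hr.ne'
  rw [Complex.cpow_def_of_ne_zero (mul_ne_zero hr0 hx), Complex.cpow_def_of_ne_zero hx,
    Complex.log_ofReal_mul hr hx, add_mul, Complex.exp_add]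
  congr 1
  rw [Real.sqrt_eq_rpow, Complex.ofReal_cpow hr.le, Complex.cpow_def_of_ne_zero hr0,
    Complex.ofReal_log hr.le]
  push_cast
  ring_nf

/-- the constant of the two-dimensional inversion formula -/
lemma inv_const (hq : 0 < q) {w : ℂ} (hw : 0 < w.im) :
    2 * (1 / (-I * (2 * w)) ^ (1 / 2 : ℂ)) * (1 / (-I * (2 * ((q : ℂ) * w))) ^ (1 / 2 : ℂ)) =
      I / ((√(q : ℝ) : ℂ) * w) := by
  have hw0 : w ≠ 0 := fun h => by rw [h] at hw; simp at hw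
  have hx : -I * w ≠ 0 := mul_ne_zero (neg_ne_zero.2 I_ne_zero) hw0
  have hq' : (0 : ℝ) < q := by exact_mod_cast hq
  have e1 : -I * (2 * w) = ((2 : ℝ) : ℂ) * (-I * w) := by push_cast; ring
  have e2 : -I * (2 * ((q : ℂ) * w)) = ((2 * q : ℝ) : ℂ) * (-I * w) := by push_cast; ring
  rw [e1, e2, cpow_half_real_mul (by norm_num) hx, cpow_half_real_mul (by positivity) hx]
  have hsq : ((-I * w) ^ (1 / 2 : ℂ)) * ((-I * w) ^ (1 / 2 : ℂ)) = -I * w := by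
    have := Complex.cpow_nat_inv_pow (-I * w) (n := 2) (by norm_num)
    rw [sq] at this
    convert this using 2 <;> norm_num
  have hs : (√(2 : ℝ) : ℂ) * (√(2 * q : ℝ) : ℂ) = 2 * (√(q : ℝ) : ℂ) := by
    rw [← Complex.ofReal_mul, ← Real.sqrt_mul (by norm_num)]
    have : (2 : ℝ) * (2 * q) = 2 ^ 2 * q := by ring
    rw [this, Real.sqrt_mul (by positivity), Real.sqrt_sq (by norm_num)]
    push_cast; ring
  have hh : (-I * w) ^ (1 / 2 : ℂ) ≠ 0 := by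
    intro h0
    rw [h0, mul_zero] at hsq
    exact hx hsq.symm
  have hsq0 : (√(q : ℝ) : ℂ) ≠ 0 := by
    have : √(q : ℝ) ≠ 0 := (Real.sqrt_pos.2 hq').ne'
    exact_mod_cast this
  have h2 : (√(2 : ℝ) : ℂ) ≠ 0 := by
    have : √(2 : ℝ) ≠ 0 := (Real.sqrt_pos.2 (by norm_num)).ne'
    exact_mod_cast this
  have h2q : (√(2 * q : ℝ) : ℂ) ≠ 0 := by
    have : √(2 * q : ℝ) ≠ 0 := (Real.sqrt_pos.2 (by positivity)).ne'
    exact_mod_cast this
  have key : (√(2 : ℝ) : ℂ) * (-I * w) ^ (1 / 2 : ℂ) * ((√(2 * q : ℝ) : ℂ) * (-I * w) ^ (1 / 2 : ℂ)) =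
      2 * (√(q : ℝ) : ℂ) * (-I * w) := by
    calc _ = ((√(2 : ℝ) : ℂ) * (√(2 * q : ℝ) : ℂ)) *
          (((-I * w) ^ (1 / 2 : ℂ)) * ((-I * w) ^ (1 / 2 : ℂ))) := by ring
      _ = _ := by rw [hs, hsq]
  have e : 2 * (1 / ((√(2 : ℝ) : ℂ) * (-I * w) ^ (1 / 2 : ℂ))) *
      (1 / ((√(2 * q : ℝ) : ℂ) * (-I * w) ^ (1 / 2 : ℂ))) =
      2 / ((√(2 : ℝ) : ℂ) * (-I * w) ^ (1 / 2 : ℂ) * ((√(2 * q : ℝ) : ℂ) * (-I * w) ^ (1 / 2 : ℂ))) := by
    field_simp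
  rw [e, key, div_eq_div_iff (mul_ne_zero (mul_ne_zero two_ne_zero hsq0) hx)
    (mul_ne_zero hsq0 hw0)]
  have hI : I * I = -1 := Complex.I_mul_I
  linear_combination (2 * (√(q : ℝ) : ℂ) * w) * hI

lemma ee_half : ee (1 / 2) = -1 := by
  unfold ee
  have : 2 * (π : ℂ) * I * (1 / 2) = π * I := by ring
  rw [this, Complex.exp_pi_mul_I]

lemma ee_eq_neg_of {a b : ℂ} {j : ℤ} (h : a = b + 1 / 2 + (j : ℂ)) : ee a = -ee b := by
  rw [h, ee_add_int, ee_add, ee_half]; ring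

lemma im_nat_mul (hq : 0 < q) {w : ℂ} (hw : 0 < w.im) : 0 < ((q : ℂ) * w).im := by
  have : ((q : ℂ) * w).im = q * w.im := by simp [Complex.mul_im]
  rw [this]
  exact mul_pos (by exact_mod_cast hq) hw

lemma hasSum_t1_mul {w₁ w₂ : ℂ} (h₁ : 0 < w₁.im) (h₂ : 0 < w₂.im) (s₁ t₁ s₂ t₂ : ℂ) :
    HasSum (fun x : ℤ × ℤ => t1term w₁ s₁ t₁ x.1 * t1term w₂ s₂ t₂ x.2)
      (t1 w₁ s₁ t₁ * t1 w₂ s₂ t₂) :=
  (t1_hasSum h₁ s₁ t₁).mul (t1_hasSum h₂ s₂ t₂)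
    (summable_mul_of_summable_norm (t1_summable_norm h₁ s₁ t₁) (t1_summable_norm h₂ s₂ t₂))

/-- the shifted family in product form -/
theorem F2_hasSum (hq : 0 < q) {w : ℂ} (hw : 0 < w.im) (u₁ u₂ : ℂ) :
    HasSum (F2 q w u₁ u₂)
      (t1 w (u₁ + (0 + u₂) / 2) 0 * t1 (q * w) ((0 + u₂) / 2) 0 +
        t1 w (u₁ + (1 + u₂) / 2) 0 * t1 (q * w) ((1 + u₂) / 2) 0) := by
  have hqw := im_nat_mul hq hw
  have key : ∀ (ε : ℂ) (a b : ℤ),
      ee (w * QC q ((a : ℂ) - b + u₁) (2 * (b : ℂ) + ε + u₂)) =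
        t1term w (u₁ + (ε + u₂) / 2) 0 a * t1term (q * w) ((ε + u₂) / 2) 0 b := by
    intro ε a b
    unfold t1term QC
    rw [← ee_add]
    congr 1
    ring
  refine hasSum_int2_parity ?_ ?_
  · have h := hasSum_t1_mul hw hqw (u₁ + (0 + u₂) / 2) 0 ((0 + u₂) / 2) 0
    have e : (fun a : ℤ × ℤ => F2 q w u₁ u₂ (a.1 - a.2, 2 * a.2)) =
        fun x : ℤ × ℤ => t1term w (u₁ + (0 + u₂) / 2) 0 x.1 *
          t1term (q * w) ((0 + u₂) / 2) 0 x.2 := by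
      funext a
      unfold F2
      rw [← key 0 a.1 a.2]
      congr 2
      all_goals (push_cast; ring)
    rw [e]; exact h
  · have h := hasSum_t1_mul hw hqw (u₁ + (1 + u₂) / 2) 0 ((1 + u₂) / 2) 0
    have e : (fun a : ℤ × ℤ => F2 q w u₁ u₂ (a.1 - a.2, 2 * a.2 + 1)) =
        fun x : ℤ × ℤ => t1term w (u₁ + (1 + u₂) / 2) 0 x.1 *
          t1term (q * w) ((1 + u₂) / 2) 0 x.2 := by
      funext a
      unfold F2
      rw [← key 1 a.1 a.2]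
      congr 2
      all_goals (push_cast; ring)
    rw [e]; exact h

/-- the dual family in product form -/
theorem D2_hasSum (hq : 0 < q) {w : ℂ} (hw : 0 < w.im) (u₁ u₂ : ℂ) :
    HasSum (D2 q (-1 / (q * w)) u₁ u₂)
      ((t1 (-1 / (4 * w)) 0 (u₁ + (0 + u₂) / 2) * t1 (-1 / (4 * (q * w))) 0 ((0 + u₂) / 2) +
        t1 (-1 / (4 * w)) 0 (u₁ + (1 + u₂) / 2) * t1 (-1 / (4 * (q * w))) 0 ((1 + u₂) / 2)) / 2) := by
  have hw0 : w ≠ 0 := fun h => by rw [h] at hw; simp at hw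
  have hq0 : (q : ℂ) ≠ 0 := by exact_mod_cast hq.ne'
  have hqw := im_nat_mul hq hw
  have h1 : 0 < (-1 / (4 * w)).im := by
    have := im_neg_inv hw 4 (by norm_num)
    simpa using this
  have h2 : 0 < (-1 / (4 * (q * w))).im := by
    have := im_neg_inv hqw 4 (by norm_num)
    simpa using this
  have P0 := hasSum_t1_mul h1 h2 0 (u₁ + (0 + u₂) / 2) 0 ((0 + u₂) / 2)
  have P1 := hasSum_t1_mul h1 h2 0 (u₁ + (1 + u₂) / 2) 0 ((1 + u₂) / 2)
  have P := P0.add P1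
  -- the injection `(m, M) ↦ (m, 2 M - m)`
  have hinj : Function.Injective (fun a : ℤ × ℤ => (a.1, 2 * a.2 - a.1)) := by
    intro a a' h
    simp only [Prod.mk.injEq] at h
    obtain ⟨h1, h2⟩ := h
    refine Prod.ext h1 ?_
    rw [h1] at h2
    linarith
  have hhalf : ee (1 / 2) = -1 := by
    unfold ee
    have : 2 * (π : ℂ) * I * (1 / 2) = π * I := by ring
    rw [this, Complex.exp_pi_mul_I]
  -- value on the image
  have hval : ∀ (ε : ℤ) (m M : ℤ),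
      t1term (-1 / (4 * w)) 0 (u₁ + ((ε : ℂ) + u₂) / 2) m *
        t1term (-1 / (4 * (q * w))) 0 (((ε : ℂ) + u₂) / 2) (2 * M - m) =
      D2 q (-1 / (q * w)) u₁ u₂ (m, M) := by
    intro ε m M
    unfold t1term D2 QD
    rw [← ee_add]
    conv_rhs => rw [← ee_add_int _ (M * ε)]
    congr 1
    push_cast
    field_simp
    ring
  -- vanishing off the image
  have hoff : ∀ x : ℤ × ℤ, x ∉ Set.range (fun a : ℤ × ℤ => (a.1, 2 * a.2 - a.1)) →
      t1term (-1 / (4 * w)) 0 (u₁ + (0 + u₂) / 2) x.1 *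
          t1term (-1 / (4 * (q * w))) 0 ((0 + u₂) / 2) x.2 +
        t1term (-1 / (4 * w)) 0 (u₁ + (1 + u₂) / 2) x.1 *
          t1term (-1 / (4 * (q * w))) 0 ((1 + u₂) / 2) x.2 = 0 := by
    intro x hx
    have hodd : ∃ j : ℤ, x.1 + x.2 = 2 * j + 1 := by
      rcases Int.even_or_odd' (x.1 + x.2) with ⟨j, hj | hj⟩
      · exfalso
        apply hx
        refine ⟨(x.1, j), ?_⟩
        ext
        · rfl
        · simp only; linarith
      · exact ⟨j, hj⟩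
    obtain ⟨j, hj⟩ := hodd
    have hj' : (x.2 : ℂ) = 2 * j + 1 - x.1 := by
      have : ((x.1 + x.2 : ℤ) : ℂ) = ((2 * j + 1 : ℤ) : ℂ) := by rw [hj]
      push_cast at this
      linear_combination this
    have e : t1term (-1 / (4 * w)) 0 (u₁ + (1 + u₂) / 2) x.1 *
          t1term (-1 / (4 * (q * w))) 0 ((1 + u₂) / 2) x.2 =
        -(t1term (-1 / (4 * w)) 0 (u₁ + (0 + u₂) / 2) x.1 *
          t1term (-1 / (4 * (q * w))) 0 ((0 + u₂) / 2) x.2) := by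
      unfold t1term
      rw [← ee_add, ← ee_add]
      apply ee_eq_neg_of (j := j)
      rw [hj']
      ring
    rw [e, add_neg_cancel]
  have Q := (hinj.hasSum_iff hoff).2 P
  have e : ((fun x : ℤ × ℤ => t1term (-1 / (4 * w)) 0 (u₁ + (0 + u₂) / 2) x.1 *
          t1term (-1 / (4 * (q * w))) 0 ((0 + u₂) / 2) x.2 +
        t1term (-1 / (4 * w)) 0 (u₁ + (1 + u₂) / 2) x.1 *
          t1term (-1 / (4 * (q * w))) 0 ((1 + u₂) / 2) x.2) ∘
        fun a : ℤ × ℤ => (a.1, 2 * a.2 - a.1)) = fun a => 2 * D2 q (-1 / (q * w)) u₁ u₂ a := by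
    funext a
    have v0 := hval 0 a.1 a.2
    have v1 := hval 1 a.1 a.2
    simp only [Int.cast_zero, Int.cast_one] at v0 v1
    simp only [Function.comp]
    rw [v0, v1]
    ring
  rw [e] at Q
  have := Q.div_const 2
  simpa using this

lemma t1_inversion_zero {w : ℂ} (hw : 0 < w.im) (s : ℂ) :
    t1 w s 0 = 1 / (-I * (2 * w)) ^ (1 / 2 : ℂ) * t1 (-1 / (4 * w)) 0 s := by
  have := t1_inversion hw s 0
  rw [mul_zero, neg_zero, ee_zero, mul_one] at this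
  exact this

/-- **two-dimensional inversion formula** -/
theorem tsum_F2 (hq : 0 < q) {w : ℂ} (hw : 0 < w.im) (u₁ u₂ : ℂ) :
    ∑' h, F2 q w u₁ u₂ h =
      I / ((√(q : ℝ) : ℂ) * w) * ∑' m, D2 q (-1 / (q * w)) u₁ u₂ m := by
  have hqw := im_nat_mul hq hw
  rw [(F2_hasSum hq hw u₁ u₂).tsum_eq, (D2_hasSum hq hw u₁ u₂).tsum_eq, ← inv_const hq hw,
    t1_inversion_zero hw, t1_inversion_zero hw, t1_inversion_zero hqw, t1_inversion_zero hqw]
  ring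

lemma F2_summable (hq : 0 < q) {w : ℂ} (hw : 0 < w.im) (u₁ u₂ : ℂ) :
    Summable (F2 q w u₁ u₂) := (F2_hasSum hq hw u₁ u₂).summable

lemma D2_summable (hq : 0 < q) {w : ℂ} (hw : 0 < w.im) (u₁ u₂ : ℂ) :
    Summable (D2 q (-1 / (q * w)) u₁ u₂) := (D2_hasSum hq hw u₁ u₂).summable

end Fermat.Agent.S16.Theta
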