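import Mathlib

/-!
# S16 (Θ1): splitting infinite sums along finitely many classes
-/

set_option autoImplicit false
set_option linter.unusedSectionVars false
set_option linter.unusedVariables false

namespace Fermat.Agent.S16.Theta

open Function

/-- If `β` is partitioned into finitely many classes `c x = g`, each parametrised injectively by
`ι g : α → β`, then a family on `β` can be summed class by class. -/
theorem hasSum_of_classes {α β G E : Type*} [Fintype G] [DecidableEq G] [AddCommMonoid E]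
    [TopologicalSpace E] [ContinuousAdd E] (c : β → G) (ι : G → α → β)
    (hinj : ∀ g, Injective (ι g)) (hc : ∀ g a, c (ι g a) = g)
    (hsurj : ∀ x, ∃ a, ι (c x) a = x) {F : β → E} {S : G → E}
    (h : ∀ g, HasSum (fun a => F (ι g a)) (S g)) : HasSum F (∑ g, S g) := by
  have h1 : ∀ g ∈ (Finset.univ : Finset G),
      HasSum (fun x => if c x = g then F x else 0) (S g) := by
    intro g _
    refine ((hinj g).hasSum_iff (f := fun x => if c x = g then F x else 0) ?_).1 ?_
    · intro x hx
      by_cases hxg : c x = g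
      · exfalso
        obtain ⟨a, ha⟩ := hsurj x
        exact hx ⟨a, by rw [← hxg]; exact ha⟩
      · simp [hxg]
    · have : (fun x => if c x = g then F x else 0) ∘ ι g = fun a => F (ι g a) := by
        funext a
        simp [hc g a]
      rw [this]
      exact h g
  have h2 := hasSum_sum h1
  have : (fun x => ∑ g : G, if c x = g then F x else 0) = F := by
    funext x
    simp
  rwa [this] at h2

/-- residue classes modulo `d` in `ℤ` -/
lemma int_residue_surj {d : ℕ} [NeZero d] (x : ℤ) :
    ∃ a : ℤ, (d : ℤ) * a + ((x : ZMod d).val : ℤ) = x := by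
  have h : ((x : ZMod d).val : ℤ) = x % d := by
    rw [ZMod.val_intCast]
  refine ⟨x / d, ?_⟩
  rw [h]
  exact Int.mul_ediv_add_emod x d

lemma int_residue_class {d : ℕ} [NeZero d] (g : ZMod d) (a : ℤ) :
    (((d : ℤ) * a + (g.val : ℤ) : ℤ) : ZMod d) = g := by
  push_cast
  simp

/-- splitting a sum over `ℤ` into residue classes modulo `d` -/
theorem hasSum_int_residue {E : Type*} [AddCommMonoid E] [TopologicalSpace E] [ContinuousAdd E]
    (d : ℕ) [NeZero d] {F : ℤ → E} {S : ZMod d → E}
    (h : ∀ g : ZMod d, HasSum (fun a : ℤ => F ((d : ℤ) * a + (g.val : ℤ))) (S g)) :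
    HasSum F (∑ g, S g) := by
  have hd : (d : ℤ) ≠ 0 := by exact_mod_cast NeZero.ne d
  refine hasSum_of_classes (fun x : ℤ => (x : ZMod d)) (fun g a => (d : ℤ) * a + (g.val : ℤ))
    ?_ ?_ ?_ h
  · intro g a a' haa
    simp only [add_left_inj] at haa
    exact mul_left_cancel₀ hd haa
  · intro g a
    exact int_residue_class g a
  · intro x
    exact int_residue_surj x

/-- splitting a sum over `ℤ × ℤ` into residue classes modulo `d` -/
theorem hasSum_int2_residue {E : Type*} [AddCommMonoid E] [TopologicalSpace E] [ContinuousAdd E]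
    (d : ℕ) [NeZero d] {F : ℤ × ℤ → E} {S : ZMod d × ZMod d → E}
    (h : ∀ g : ZMod d × ZMod d,
      HasSum (fun a : ℤ × ℤ => F ((d : ℤ) * a.1 + (g.1.val : ℤ), (d : ℤ) * a.2 + (g.2.val : ℤ)))
        (S g)) :
    HasSum F (∑ g, S g) := by
  have hd : (d : ℤ) ≠ 0 := by exact_mod_cast NeZero.ne d
  refine hasSum_of_classes (α := ℤ × ℤ) (β := ℤ × ℤ) (G := ZMod d × ZMod d)
    (fun x : ℤ × ℤ => ((x.1 : ZMod d), (x.2 : ZMod d)))
    (fun (g : ZMod d × ZMod d) (a : ℤ × ℤ) =>
      ((d : ℤ) * a.1 + (g.1.val : ℤ), (d : ℤ) * a.2 + (g.2.val : ℤ))) ?_ ?_ ?_ (F := F) (S := S) h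
  · intro g a a' haa
    simp only [Prod.mk.injEq, add_left_inj] at haa
    exact Prod.ext (mul_left_cancel₀ hd haa.1) (mul_left_cancel₀ hd haa.2)
  · intro g a
    exact Prod.ext (int_residue_class g.1 a.1) (int_residue_class g.2 a.2)
  · intro x
    obtain ⟨a₁, h₁⟩ := int_residue_surj (d := d) x.1
    obtain ⟨a₂, h₂⟩ := int_residue_surj (d := d) x.2
    exact ⟨(a₁, a₂), Prod.ext h₁ h₂⟩

/-- splitting a sum over `ℤ × ℤ` according to the parity of the second coordinate, with a
shear in the first coordinate -/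
theorem hasSum_int2_parity {E : Type*} [AddCommMonoid E] [TopologicalSpace E] [ContinuousAdd E]
    {F : ℤ × ℤ → E} {S₀ S₁ : E}
    (h₀ : HasSum (fun a : ℤ × ℤ => F (a.1 - a.2, 2 * a.2)) S₀)
    (h₁ : HasSum (fun a : ℤ × ℤ => F (a.1 - a.2, 2 * a.2 + 1)) S₁) :
    HasSum F (S₀ + S₁) := by
  have key := hasSum_of_classes (α := ℤ × ℤ) (β := ℤ × ℤ) (G := ZMod 2)
    (fun x : ℤ × ℤ => (x.2 : ZMod 2))
    (fun (g : ZMod 2) (a : ℤ × ℤ) => (a.1 - a.2, ((2 : ℕ) : ℤ) * a.2 + (g.val : ℤ))) ?_ ?_ ?_
    (F := F) (S := fun g => if g = 0 then S₀ else S₁) ?_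
  · have : (∑ g : ZMod 2, if g = 0 then S₀ else S₁) = S₀ + S₁ := by
      rw [show (Finset.univ : Finset (ZMod 2)) = {0, 1} from rfl]
      rw [Finset.sum_pair (by decide)]
      simp
    rwa [this] at key
  · intro g a a' haa
    simp only [Prod.mk.injEq, add_left_inj] at haa
    have h2 : a.2 = a'.2 := mul_left_cancel₀ (by norm_num) haa.2
    have h1 : a.1 = a'.1 := by
      have := haa.1
      rw [h2] at this
      linarith
    exact Prod.ext h1 h2
  · intro g a
    exact int_residue_class (d := 2) g a.2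
  · intro x
    obtain ⟨a₂, h₂⟩ := int_residue_surj (d := 2) x.2
    refine ⟨(x.1 + a₂, a₂), Prod.ext ?_ h₂⟩
    simp
  · intro g
    have hg : g = 0 ∨ g = 1 := by
      revert g; decide
    rcases hg with rfl | rfl
    · have e : ((ZMod.val (0 : ZMod 2) : ℕ) : ℤ) = 0 := by decide
      simp only [e, add_zero, if_true, Nat.cast_ofNat]
      exact h₀
    · have e : ((ZMod.val (1 : ZMod 2) : ℕ) : ℤ) = 1 := by decide
      have ne : ¬ ((1 : ZMod 2) = 0) := by decide
      simp only [e, ne, if_false, Nat.cast_ofNat]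
      exact h₁

end Fermat.Agent.S16.Theta
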