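import Mathlib

/-!
# S16 (Θ2): the auxiliary prime

For a prime `p ≡ 1 mod 4` there is a prime `q ≡ 3 mod 4`, `q ≠ p`, with `(p / q) = -1`
(Dirichlet's theorem and quadratic reciprocity).
-/

set_option autoImplicit false

namespace Fermat.Agent.S16.ThetaTr

theorem exists_aux_prime {p : ℕ} (hp : p.Prime) (hp4 : p % 4 = 1) :
    ∃ q : ℕ, q.Prime ∧ q % 4 = 3 ∧ q ≠ p ∧ jacobiSym p q = -1 := by
  have : Fact p.Prime := ⟨hp⟩
  have hp2 : p ≠ 2 := by
    rintro rfl
    simp at hp4
  obtain ⟨a, ha⟩ := FiniteField.exists_nonsquare (F := ZMod p) (by rwa [ZMod.ringChar_zmod_n])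
  have ha0 : a ≠ 0 := by
    rintro rfl
    exact ha (IsSquare.zero)
  have hco : Nat.Coprime 4 p := by
    have : Nat.Coprime 2 p := (Nat.coprime_primes Nat.prime_two hp).2 (Ne.symm hp2)
    exact Nat.Coprime.pow_left 2 this
  obtain ⟨x, hx4, hxp⟩ := Nat.chineseRemainder hco 3 a.val
  have hxa : (x : ZMod p) = a := by
    have := (ZMod.natCast_eq_natCast_iff x a.val p).2 hxp
    rw [this, ZMod.natCast_zmod_val]
  have hx_cop : Nat.Coprime x (4 * p) := by
    apply Nat.Coprime.mul_right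
    · have h2 : Nat.Coprime x 2 := by
        rw [Nat.coprime_comm, Nat.Prime.coprime_iff_not_dvd Nat.prime_two]
        intro h
        have h3 : x % 4 = 3 := hx4
        omega
      exact Nat.Coprime.pow_right 2 h2
    · rw [Nat.coprime_comm, Nat.Prime.coprime_iff_not_dvd hp]
      intro h
      apply ha0
      rw [← hxa]
      exact (ZMod.natCast_eq_zero_iff x p).2 h
  obtain ⟨q, -, hq, hqx⟩ := Nat.forall_exists_prime_gt_and_modEq 0
    (Nat.mul_ne_zero (by norm_num) hp.ne_zero) hx_cop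
  have hq4 : q % 4 = 3 := by
    have h1 : q ≡ x [MOD 4] := hqx.of_mul_right p
    have h2 : q ≡ 3 [MOD 4] := h1.trans hx4
    exact h2
  have hqa : (q : ZMod p) = a := by
    have h1 : q ≡ x [MOD p] := hqx.of_mul_left 4
    rw [(ZMod.natCast_eq_natCast_iff q x p).2 h1, hxa]
  have hqp : q ≠ p := by
    rintro rfl
    apply ha0
    rw [← hqa]
    simp
  refine ⟨q, hq, hq4, hqp, ?_⟩
  have hqodd : Odd q := by
    rw [Nat.odd_iff]
    omega
  rw [jacobiSym.quadratic_reciprocity_one_mod_four hp4 hqodd, ← jacobiSym.legendreSym.to_jacobiSym,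
    legendreSym.eq_neg_one_iff]
  push_cast
  rw [hqa]
  exact ha

end Fermat.Agent.S16.ThetaTr
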