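import Fermat.Agent.S16.ThetaTrQExp

/-!
# S16 (Θ2): the coefficients of `θ(z) θ(m z)` modulo 4
-/

set_option autoImplicit false

namespace Fermat.Agent.S16.ThetaTr

open Classical in
/-- the arithmetic hypotheses on the representation numbers -/
structure IsRepData (q : ℕ) (r : ℕ → ℕ) : Prop where
  r_zero : r 0 = 1
  r_mod_four : ∀ {n : ℕ}, 0 < n → (r n : ZMod 4) =
    2 * (if IsSquare n then 1 else 0) + 2 * (if ∃ m : ℕ, n = q * m ^ 2 then 1 else 0)

variable {q : ℕ} {θ : ℂ → ℂ} {r : ℕ → ℕ}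

lemma IsThetaData.isRepData (h : IsThetaData q θ r) : IsRepData q r :=
  ⟨h.r_zero, fun hn => h.r_mod_four hn⟩

lemma two_mul_two_mul (a b : ZMod 4) : (2 * a) * (2 * b) = 0 := by
  have h4 : (4 : ZMod 4) = 0 := by decide
  linear_combination (a * b) * h4

lemma r_even (h : IsRepData q r) {n : ℕ} (hn : 0 < n) : ∃ t : ZMod 4, (r n : ZMod 4) = 2 * t := by
  classical
  exact ⟨_, by rw [h.r_mod_four hn, ← mul_add]⟩

lemma rDil_zero (h : IsRepData q r) (m : ℕ) : rDil r m 0 = 1 := by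
  simp [rDil, h.r_zero]

lemma rDil_even (h : IsRepData q r) {m : ℕ} (hm : 0 < m) {k : ℕ} (hk : 0 < k) :
    ∃ t : ZMod 4, (rDil r m k : ZMod 4) = 2 * t := by
  rw [rDil]
  split_ifs with hd
  · exact r_even h (Nat.div_pos (Nat.le_of_dvd hk hd) hm)
  · exact ⟨0, by simp⟩

/-- `a_n(θ(z)θ(mz)) ≡ r(n) + r'(n) mod 4` for `n ≥ 1` -/
lemma prodCoeff_mod_four (h : IsRepData q r) {m : ℕ} (hm : 0 < m) {n : ℕ} (hn : 0 < n) :
    (prodCoeff r m n : ZMod 4) = (r n : ZMod 4) + (rDil r m n : ZMod 4) := by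
  rw [prodCoeff]
  push_cast
  have hne : ((n, 0) : ℕ × ℕ) ≠ (0, n) := by
    intro hh
    have := congrArg Prod.fst hh
    simp only at this
    omega
  rw [Finset.sum_eq_add (n, 0) (0, n) hne]
  · simp only [rDil_zero h, h.r_zero, Nat.cast_one, mul_one, one_mul]
  · rintro ⟨i, k⟩ hik ⟨h1, h2⟩
    rw [Finset.HasAntidiagonal.mem_antidiagonal] at hik
    simp only at hik
    have hi : 0 < i := by
      rcases Nat.eq_zero_or_pos i with hi | hi
      · exfalso
        apply h2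
        subst hi
        simp only [zero_add] at hik
        rw [hik]
      · exact hi
    have hk : 0 < k := by
      rcases Nat.eq_zero_or_pos k with hk | hk
      · exfalso
        apply h1
        subst hk
        simp only [add_zero] at hik
        rw [hik]
      · exact hk
    obtain ⟨t, ht⟩ := r_even h hi
    obtain ⟨t', ht'⟩ := rDil_even h hm hk
    simp only [ht, ht']
    exact two_mul_two_mul t t'
  · intro hh
    exact absurd (Finset.HasAntidiagonal.mem_antidiagonal.2 (by simp)) hh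
  · intro hh
    exact absurd (Finset.HasAntidiagonal.mem_antidiagonal.2 (by simp)) hh

lemma isSquare_mul_prime_iff (hq : q.Prime) (n : ℕ) :
    IsSquare (n * q) ↔ ∃ m : ℕ, n = q * m ^ 2 := by
  constructor
  · rintro ⟨t, ht⟩
    have h1 : q ∣ t * t := ⟨n, by rw [← ht]; ring⟩
    have h2 : q ∣ t := (hq.dvd_mul.1 h1).elim id id
    obtain ⟨s, rfl⟩ := h2
    refine ⟨s, ?_⟩
    have : n * q = (q * s ^ 2) * q := by rw [ht]; ring
    exact Nat.eq_of_mul_eq_mul_right hq.pos this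
  · rintro ⟨m, rfl⟩
    exact ⟨q * m, by ring⟩

lemma exists_mul_prime_eq_iff (hq : q.Prime) (n : ℕ) :
    (∃ m : ℕ, n * q = q * m ^ 2) ↔ IsSquare n := by
  constructor
  · rintro ⟨m, hm⟩
    refine ⟨m, ?_⟩
    have : n * q = (m * m) * q := by rw [hm]; ring
    exact Nat.eq_of_mul_eq_mul_right hq.pos this
  · rintro ⟨m, rfl⟩
    exact ⟨m, by ring⟩

/-- `r(n) + r(q n) ≡ 0 mod 4` -/
lemma r_add_r_mul (h : IsRepData q r) (hq : q.Prime) {n : ℕ} (hn : 0 < n) :
    (r n : ZMod 4) + (r (n * q) : ZMod 4) = 0 := by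
  classical
  rw [h.r_mod_four hn, h.r_mod_four (Nat.mul_pos hn hq.pos)]
  simp only [isSquare_mul_prime_iff hq, exists_mul_prime_eq_iff hq]
  by_cases hA : IsSquare n <;> by_cases hB : ∃ m : ℕ, n = q * m ^ 2 <;>
    simp only [hA, hB, if_true, if_false] <;> decide

/-- `r'(n) + r'(q n) ≡ 0 mod 4` -/
lemma rDil_add_rDil_mul (h : IsRepData q r) (hq : q.Prime) {p : ℕ} (hp : 0 < p)
    (hcop : Nat.Coprime p q) {n : ℕ} (hn : 0 < n) :
    (rDil r p n : ZMod 4) + (rDil r p (n * q) : ZMod 4) = 0 := by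
  have hiff : p ∣ n * q ↔ p ∣ n := hcop.dvd_mul_right
  by_cases hd : p ∣ n
  · have hd' : p ∣ n * q := hiff.2 hd
    simp only [rDil, hd, hd', if_true]
    have e : n * q / p = (n / p) * q := by
      obtain ⟨t, rfl⟩ := hd
      rw [Nat.mul_div_cancel_left _ hp, mul_assoc, Nat.mul_div_cancel_left _ hp]
    rw [e]
    exact r_add_r_mul h hq (Nat.div_pos (Nat.le_of_dvd hn hd) hp)
  · have hd' : ¬ p ∣ n * q := fun hh => hd (hiff.1 hh)
    simp [rDil, hd, hd']

/-- `a_n(F) + a_{nq}(F) ≡ 0 mod 4` -/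
theorem four_dvd_prodCoeff_add (h : IsRepData q r) (hq : q.Prime) {p : ℕ} (hp : 0 < p)
    (hcop : Nat.Coprime p q) {n : ℕ} (hn : 0 < n) :
    4 ∣ prodCoeff r p n + prodCoeff r p (n * q) := by
  rw [← ZMod.natCast_eq_zero_iff]
  push_cast
  rw [prodCoeff_mod_four h hp hn, prodCoeff_mod_four h hp (Nat.mul_pos hn hq.pos)]
  linear_combination r_add_r_mul h hq hn + rDil_add_rDil_mul h hq hp hcop hn

/-- `a_n(θ²) ≡ 0 mod 4` -/
theorem four_dvd_prodCoeff_one (h : IsRepData q r) {n : ℕ} (hn : 0 < n) :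
    4 ∣ prodCoeff r 1 n := by
  rw [← ZMod.natCast_eq_zero_iff]
  rw [prodCoeff_mod_four h one_pos hn]
  have e : rDil r 1 n = r n := by simp [rDil]
  rw [e]
  obtain ⟨t, ht⟩ := r_even h hn
  rw [ht]
  have h4 : (4 : ZMod 4) = 0 := by decide
  linear_combination t * h4

lemma prodCoeff_zero (h : IsRepData q r) (m : ℕ) : prodCoeff r m 0 = 1 := by
  simp [prodCoeff, rDil_zero h, h.r_zero]

end Fermat.Agent.S16.ThetaTr
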