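import Fermat.Agent.S16.ThetaTrMF
import Fermat.Agent.S16.ThetaTrPar
import Fermat.Agent.S16.ThetaTrDir
import Fermat.Prelude.Def_FLTPrelim_Modularity
import Fermat.Prelude.Thm_ModularFormClass_qCoeff_heckeU
import Fermat.Prelude.Thm_ModularForm_periodic_heckeU_comp_ofComplex
import Fermat.Prelude.Thm_ModularForm_isBoundedAtImInfty_heckeU

/-!
# S16 (Θ2): a form `Θ ∈ M₂(Γ₀(p))` with `q`-expansion in `1 + 2 q ℤ[[q]]`

Assembly from the interface `IsThetaData`.
-/

set_option autoImplicit false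

open UpperHalfPlane hiding I I_re I_im
open Complex ModularForm CongruenceSubgroup
open scoped MatrixGroups ModularForm Manifold Real

namespace Fermat.Agent.S16.ThetaTr

variable {q : ℕ} {θ : ℂ → ℂ} {r : ℕ → ℕ}

lemma one_mem_strictPeriods_Gamma0_aux (N : ℕ) :
    (1 : ℝ) ∈ (Subgroup.map (Matrix.SpecialLinearGroup.mapGL ℝ) (Gamma0 N)).strictPeriods := by
  rw [strictPeriods_Gamma0]
  exact AddSubgroup.mem_zmultiples 1

/-- the `q`-expansion of the product form -/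
theorem qExpansion_prodForm (h : IsThetaData q θ r) {m : ℕ} (hm : 0 < m) {N : ℕ}
    (F : ModularForm (Gamma0 N) 2) (hF : ⇑F = prodFun θ m) (n : ℕ) :
    (qExpansion 1 F).coeff n = (prodCoeff r m n : ℂ) := by
  symm
  refine ModularFormClass.qExpansion_coeff_unique (c := fun n => (prodCoeff r m n : ℂ))
    (f := F) one_pos (one_mem_strictPeriods_Gamma0_aux N) (fun τ ↦ ?_) n
  have := hasSum_prodFun h hm τ
  rw [hF]
  simpa [Function.Periodic.qParam] using this

/-- **case `p ≡ 3 mod 4`** -/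
theorem exists_theta_three (h : IsThetaData q θ r) (hq : 0 < q) [NeZero q] :
    ∃ Θ : ModularForm (Gamma0 q) 2,
      (qExpansion 1 Θ).coeff 0 = 1 ∧
      ∀ n, 1 ≤ n → ∃ b : ℤ, (qExpansion 1 Θ).coeff n = 2 * (b : ℂ) := by
  obtain ⟨F, hF⟩ := exists_prodForm h hq one_pos q (one_mul q).symm
  refine ⟨F, ?_, fun n hn => ?_⟩
  · rw [qExpansion_prodForm h one_pos F hF, prodCoeff_zero h.isRepData]
    simp
  · rw [qExpansion_prodForm h one_pos F hF]
    obtain ⟨t, ht⟩ := four_dvd_prodCoeff_one h.isRepData (Nat.lt_of_lt_of_le one_pos hn)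
    refine ⟨2 * t, ?_⟩
    rw [ht]
    push_cast
    ring

/-- **case `p ≡ 1 mod 4`**, given the auxiliary prime `q` -/
theorem exists_theta_one (h : IsThetaData q θ r) [hq : Fact q.Prime] (p : ℕ) [NeZero p]
    (hcop : Nat.Coprime p q) (hpq : jacobiSym p q = -1) :
    ∃ Θ : ModularForm (Gamma0 p) 2,
      (qExpansion 1 Θ).coeff 0 = 1 ∧
      ∀ n, 1 ≤ n → ∃ b : ℤ, (qExpansion 1 Θ).coeff n = 2 * (b : ℂ) := by
  have hp0 : 0 < p := Nat.pos_of_ne_zero (NeZero.ne p)
  have hq0 : q ≠ 0 := hq.out.ne_zero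
  have : NeZero (p * q) := ⟨Nat.mul_ne_zero hp0.ne' hq0⟩
  obtain ⟨F, G, hF, hG⟩ := exists_traceForm h p hcop hpq (p * q) rfl
  have hΓ := one_mem_strictPeriods_Gamma0_aux (p * q)
  have hΓp := one_mem_strictPeriods_Gamma0_aux p
  have aF : AnalyticAt ℂ (cuspFunction 1 ⇑F) 0 :=
    ModularFormClass.analyticAt_cuspFunction_zero F one_pos hΓ
  have hper : Function.Periodic (⇑F ∘ ofComplex) 1 := by
    have := SlashInvariantFormClass.periodic_comp_ofComplex F hΓ
    simpa using this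
  have hbdd : IsBoundedAtImInfty ⇑F := by
    have : Fact (IsCusp OnePoint.infty
        (Subgroup.map (Matrix.SpecialLinearGroup.mapGL ℝ) (Gamma0 (p * q)))) :=
      ⟨Subgroup.isCusp_of_mem_strictPeriods one_pos hΓ⟩
    exact ModularFormClass.bdd_at_infty F
  have aU : AnalyticAt ℂ (cuspFunction 1 (heckeU 2 q ⇑F)) 0 := by
    refine analyticAt_cuspFunction_zero one_pos ?_ (mdifferentiable_heckeU F.holo' 2 q)
      (isBoundedAtImInfty_heckeU hbdd 2 q)
    have := periodic_heckeU_comp_ofComplex hper 2 q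
    simpa using this
  have hGc : ∀ n, (qExpansion 1 G).coeff n =
      (prodCoeff r p n : ℂ) + (prodCoeff r p (n * q) : ℂ) := by
    intro n
    rw [hG, qExpansion_add aF aU, map_add, qExpansion_prodForm h hp0 F hF]
    congr 1
    have := ModularFormClass.qCoeff_heckeU F hΓ hq0 n
    rw [ModularFormClass.qCoeff, coeffHeckeU_apply, ModularFormClass.qCoeff,
      qExpansion_prodForm h hp0 F hF] at this
    exact this
  have hΘc : ∀ n, (qExpansion 1 ((1 / 2 : ℂ) • ⇑G)).coeff n =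
      (1 / 2 : ℂ) * ((prodCoeff r p n : ℂ) + (prodCoeff r p (n * q) : ℂ)) := by
    intro n
    rw [qExpansion_smul (ModularFormClass.analyticAt_cuspFunction_zero G one_pos hΓp),
      PowerSeries.coeff_smul, hGc n, smul_eq_mul]
  refine ⟨(1 / 2 : ℂ) • G, ?_, fun n hn => ?_⟩
  · change (qExpansion 1 ((1 / 2 : ℂ) • ⇑G)).coeff 0 = 1
    rw [hΘc 0, zero_mul, prodCoeff_zero h.isRepData]
    norm_num
  · change ∃ b : ℤ, (qExpansion 1 ((1 / 2 : ℂ) • ⇑G)).coeff n = 2 * (b : ℂ)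
    rw [hΘc n]
    obtain ⟨t, ht⟩ := four_dvd_prodCoeff_add h.isRepData hq.out hp0 hcop
      (Nat.lt_of_lt_of_le one_pos hn)
    refine ⟨t, ?_⟩
    have : ((prodCoeff r p n : ℂ) + (prodCoeff r p (n * q) : ℂ)) = ((4 * t : ℕ) : ℂ) := by
      rw [← ht]
      push_cast
      ring
    rw [this]
    push_cast
    ring

/-- **Θ2, from the interface.** -/
theorem exists_theta_of_data
    (hdata : ∀ q : ℕ, q.Prime → q % 4 = 3 → ∃ (θ : ℂ → ℂ) (r : ℕ → ℕ), IsThetaData q θ r)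
    (p : ℕ) (hp : p.Prime) (hp2 : p ≠ 2) :
    ∃ Θ : ModularForm (Gamma0 p) 2,
      (qExpansion 1 Θ).coeff 0 = 1 ∧
      ∀ n, 1 ≤ n → ∃ b : ℤ, (qExpansion 1 Θ).coeff n = 2 * (b : ℂ) := by
  have : NeZero p := ⟨hp.ne_zero⟩
  have hodd : p % 2 = 1 := (Nat.Prime.eq_two_or_odd hp).resolve_left hp2
  have h4 : p % 4 = 1 ∨ p % 4 = 3 := by omega
  rcases h4 with h4 | h4
  · obtain ⟨q, hq, hq4, hqp, hpq⟩ := exists_aux_prime hp h4
    obtain ⟨θ, r, h⟩ := hdata q hq hq4
    have : Fact q.Prime := ⟨hq⟩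
    have hcop : Nat.Coprime p q := (Nat.coprime_primes hp hq).2 (Ne.symm hqp)
    exact exists_theta_one h p hcop hpq
  · obtain ⟨θ, r, h⟩ := hdata p hp h4
    exact exists_theta_three h hp.pos

end Fermat.Agent.S16.ThetaTr
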