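import Fermat.Agent.S16.ThetaTrGrowth

/-!
# S16 (Θ2): the interface with the binary theta series, and the growth estimate

`IsThetaData q θ r` lists the properties of `θ = θ_q` (piece Θ1) that are used.  From the
`q`-expansion with non-negative coefficients and the Fricke inversion we get
`‖θ z‖ ≤ C (1 + (Im z)⁻¹)`.
-/

set_option autoImplicit false

open UpperHalfPlane hiding I I_re I_im
open Complex
open scoped MatrixGroups ModularForm Manifold Real

namespace Fermat.Agent.S16.ThetaTr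

open Classical in
/-- the properties of the binary theta series `θ_q` delivered by piece Θ1 -/
structure IsThetaData (q : ℕ) (θ : ℂ → ℂ) (r : ℕ → ℕ) : Prop where
  r_zero : r 0 = 1
  hasSum : ∀ {z : ℂ}, 0 < z.im →
    HasSum (fun n : ℕ => (r n : ℂ) * cexp (2 * π * I * z * n)) (θ z)
  diff : DifferentiableOn ℂ θ {z | 0 < z.im}
  fricke : ∀ {z : ℂ}, 0 < z.im → θ (-1 / (q * z)) = -I * (√(q : ℝ) : ℂ) * z * θ z
  modular : ∀ {a b c d : ℤ}, a * d - b * c = 1 → (q : ℤ) ∣ c → ∀ {z : ℂ}, 0 < z.im →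
    θ ((a * z + b) / (c * z + d)) = (jacobiSym d q : ℂ) * (c * z + d) * θ z
  r_mod_four : ∀ {n : ℕ}, 0 < n → (r n : ZMod 4) =
    2 * (if IsSquare n then 1 else 0) + 2 * (if ∃ m : ℕ, n = q * m ^ 2 then 1 else 0)

variable {q : ℕ} {θ : ℂ → ℂ} {r : ℕ → ℕ}

/-- the norm of the `n`-th term of the `q`-expansion -/
lemma norm_term (r : ℕ → ℕ) (z : ℂ) (n : ℕ) :
    ‖(r n : ℂ) * cexp (2 * π * I * z * n)‖ = (r n : ℝ) * Real.exp (-(2 * π * z.im * n)) := by
  rw [norm_mul, Complex.norm_natCast, Complex.norm_exp]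
  congr 2
  simp only [mul_re, mul_im, re_ofNat, im_ofNat, ofReal_re, ofReal_im, I_re, I_im, natCast_re,
    natCast_im]
  ring

/-- the real series `Σ r(n) exp(-2π y n)` -/
lemma hasSum_real (h : IsThetaData q θ r) {y : ℝ} (hy : 0 < y) :
    HasSum (fun n : ℕ => (r n : ℝ) * Real.exp (-(2 * π * y * n))) ‖θ (y * I)‖ ∧
      θ (y * I) = (‖θ (y * I)‖ : ℂ) := by
  have hz : 0 < (y * I : ℂ).im := by simpa using hy
  have h1 := h.hasSum hz
  have e : ∀ n : ℕ, (r n : ℂ) * cexp (2 * π * I * (y * I) * n) =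
      (((r n : ℝ) * Real.exp (-(2 * π * y * n)) : ℝ) : ℂ) := by
    intro n
    push_cast
    congr 2
    have : (I : ℂ) * I = -1 := I_mul_I
    linear_combination (2 * π * y * n : ℂ) * this
  simp only [e] at h1
  have h2 : HasSum (fun n : ℕ => (r n : ℝ) * Real.exp (-(2 * π * y * n))) (θ (y * I)).re := by
    have := Complex.hasSum_re h1
    simp only [ofReal_re] at this
    exact this
  have h3 : (θ (y * I)).im = 0 := by
    have := Complex.hasSum_im h1
    simp only [ofReal_im] at this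
    exact (this.unique hasSum_zero)
  have h4 : 0 ≤ (θ (y * I)).re := h2.nonneg fun n => by positivity
  have h5 : θ (y * I) = ((θ (y * I)).re : ℂ) := by
    apply Complex.ext <;> simp [h3]
  have h6 : ‖θ (y * I)‖ = (θ (y * I)).re := by
    rw [h5, Complex.norm_real, Real.norm_of_nonneg]
    · simp
    · simpa using h4
  rw [h6]
  exact ⟨h2, h5⟩

/-- `‖θ (x + i y)‖ ≤ ‖θ (i y)‖` -/
lemma norm_le_norm_im (h : IsThetaData q θ r) {z : ℂ} (hz : 0 < z.im) :
    ‖θ z‖ ≤ ‖θ (z.im * I)‖ := by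
  have h1 := h.hasSum hz
  have h2 := (hasSum_real h hz).1
  rw [← h1.tsum_eq]
  exact tsum_of_norm_bounded h2 (fun n => by rw [norm_term])

/-- `y ↦ ‖θ (i y)‖` is antitone -/
lemma norm_im_antitone (h : IsThetaData q θ r) {y y' : ℝ} (hy : 0 < y) (hyy : y ≤ y') :
    ‖θ (y' * I)‖ ≤ ‖θ (y * I)‖ := by
  have h1 := (hasSum_real h hy).1
  have h2 := (hasSum_real h (lt_of_lt_of_le hy hyy)).1
  refine hasSum_le (fun n => ?_) h2 h1
  apply mul_le_mul_of_nonneg_left _ (Nat.cast_nonneg _)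
  apply Real.exp_le_exp.2
  have : 0 ≤ 2 * π * (n : ℝ) := by positivity
  nlinarith

/-- Fricke on the imaginary axis -/
lemma norm_fricke (h : IsThetaData q θ r) (hq : 0 < q) {y : ℝ} (hy : 0 < y) :
    ‖θ ((1 / (q * y) : ℝ) * I)‖ = √(q : ℝ) * y * ‖θ (y * I)‖ := by
  have hz : 0 < (y * I : ℂ).im := by simpa using hy
  have h1 := h.fricke hz
  have hq' : (q : ℂ) ≠ 0 := by exact_mod_cast hq.ne'
  have hy' : (y : ℂ) ≠ 0 := by exact_mod_cast hy.ne'
  have e : (-1 / (q * (y * I)) : ℂ) = ((1 / (q * y) : ℝ) : ℂ) * I := by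
    push_cast
    field_simp
    rw [I_sq]
  rw [e] at h1
  rw [h1, norm_mul, norm_mul, norm_mul, norm_neg, norm_I, one_mul, Complex.norm_real, norm_mul,
    Complex.norm_real, norm_I, mul_one, Real.norm_of_nonneg (Real.sqrt_nonneg _),
    Real.norm_of_nonneg hy.le]

/-- **Growth of `θ`**: `‖θ z‖ ≤ C (1 + (Im z)⁻¹)`. -/
theorem exists_growth (h : IsThetaData q θ r) (hq : 0 < q) :
    ∃ C : ℝ, 0 ≤ C ∧ ∀ z : ℂ, 0 < z.im → ‖θ z‖ ≤ C * (1 + (z.im)⁻¹) := by
  have hq' : (0 : ℝ) < q := by exact_mod_cast hq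
  have hq1 : (1 : ℝ) ≤ q := by exact_mod_cast hq
  refine ⟨‖θ ((1 / q : ℝ) * I)‖ + ‖θ ((1 : ℝ) * I)‖, by positivity, fun z hz => ?_⟩
  refine (norm_le_norm_im h hz).trans ?_
  set y := z.im with hy
  have hy0 : 0 < y := hz
  have hinv : 0 < y⁻¹ := inv_pos.2 hy0
  rcases le_or_gt (1 / (q : ℝ)) y with hle | hlt
  · have h1 := norm_im_antitone h (by positivity) hle
    calc ‖θ (y * I)‖ ≤ ‖θ ((1 / q : ℝ) * I)‖ := h1
      _ ≤ (‖θ ((1 / q : ℝ) * I)‖ + ‖θ ((1 : ℝ) * I)‖) * 1 := by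
          rw [mul_one]
          linarith [norm_nonneg (θ ((1 : ℝ) * I))]
      _ ≤ _ := by
          apply mul_le_mul_of_nonneg_left _ (by positivity)
          linarith
  · have h1 := norm_fricke h hq hy0
    have h2 : (1 : ℝ) ≤ 1 / (q * y) := by
      rw [le_div_iff₀ (by positivity)]
      rw [lt_div_iff₀ hq'] at hlt
      linarith
    have h3 := norm_im_antitone h one_pos h2
    rw [h1] at h3
    have hs : (1 : ℝ) ≤ √(q : ℝ) := by
      rw [← Real.sqrt_one]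
      exact Real.sqrt_le_sqrt hq1
    have h4 : y * ‖θ (y * I)‖ ≤ ‖θ ((1 : ℝ) * I)‖ := by
      have : y * ‖θ (y * I)‖ ≤ √(q : ℝ) * y * ‖θ (y * I)‖ := by
        have : 0 ≤ y * ‖θ (y * I)‖ := by positivity
        nlinarith
      linarith
    have h5 : ‖θ (y * I)‖ ≤ ‖θ ((1 : ℝ) * I)‖ * y⁻¹ := by
      rw [← div_eq_mul_inv, le_div_iff₀ hy0]
      linarith
    calc ‖θ (y * I)‖ ≤ ‖θ ((1 : ℝ) * I)‖ * y⁻¹ := h5
      _ ≤ (‖θ ((1 / q : ℝ) * I)‖ + ‖θ ((1 : ℝ) * I)‖) * (1 + y⁻¹) := by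
          have := norm_nonneg (θ ((1 / q : ℝ) * I))
          have := norm_nonneg (θ ((1 : ℝ) * I))
          nlinarith

end Fermat.Agent.S16.ThetaTr
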