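import Fermat.Agent.S16.ThetaTrData

/-!
# S16 (Θ2): `θ(z) θ(m z)` is a modular form of weight `2` on `Γ₀(m q)`
-/

set_option autoImplicit false

open UpperHalfPlane hiding I I_re I_im
open Complex
open scoped MatrixGroups ModularForm Manifold Real

namespace Fermat.Agent.S16.ThetaTr

variable {q : ℕ} {θ : ℂ → ℂ} {r : ℕ → ℕ}

/-- the function `z ↦ θ(z) θ(m z)` on the upper half plane -/
noncomputable def prodFun (θ : ℂ → ℂ) (m : ℕ) : ℍ → ℂ := fun z => θ z * θ (m * z)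

lemma im_nat_mul_pos {m : ℕ} (hm : 0 < m) (z : ℍ) : 0 < ((m : ℂ) * (z : ℂ)).im := by
  have : ((m : ℂ) * (z : ℂ)).im = m * z.im := by simp
  rw [this]
  have := z.im_pos
  positivity

/-- holomorphy of `prodFun` -/
lemma mdiff_prodFun (h : IsThetaData q θ r) {m : ℕ} (hm : 0 < m) : MDiff (prodFun θ m) := by
  rw [UpperHalfPlane.mdifferentiable_iff]
  have h1 : DifferentiableOn ℂ (fun z : ℂ => θ z * θ (m * z)) {z | 0 < z.im} := by
    refine h.diff.mul ?_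
    have h2 : DifferentiableOn ℂ (fun z : ℂ => (m : ℂ) * z) {z | 0 < z.im} :=
      (differentiable_id.const_mul (m : ℂ)).differentiableOn
    refine h.diff.comp h2 ?_
    intro z hz
    have : ((m : ℂ) * z).im = m * z.im := by simp
    simp only [Set.mem_ofPred_eq] at hz ⊢
    rw [this]
    positivity
  refine h1.congr ?_
  intro z hz
  simp only [Function.comp_apply, prodFun]
  rw [ofComplex_apply_of_im_pos hz]

lemma coe_smul_eq (g : SL(2, ℤ)) (z : ℍ) :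
    ((g • z : ℍ) : ℂ) = (((g 0 0 : ℤ) : ℂ) * (z : ℂ) + ((g 0 1 : ℤ) : ℂ)) /
      (((g 1 0 : ℤ) : ℂ) * (z : ℂ) + ((g 1 1 : ℤ) : ℂ)) := by
  rw [coe_specialLinearGroup_apply]
  simp

lemma det_eq_one (g : SL(2, ℤ)) : g 0 0 * g 1 1 - g 0 1 * g 1 0 = 1 := by
  have := g.det_coe
  rw [Matrix.det_fin_two] at this
  exact this

/-- the transformation law of `θ` under `Γ₀(q)` on `ℍ` -/
lemma theta_smul (h : IsThetaData q θ r) (g : SL(2, ℤ)) (hg : (q : ℤ) ∣ g 1 0) (z : ℍ) :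
    θ ((g • z : ℍ) : ℂ) = (jacobiSym (g 1 1) q : ℂ) * denom g z * θ z := by
  rw [coe_smul_eq, denom_eq]
  exact h.modular (det_eq_one g) hg z.im_pos

/-- the transformation law of `θ(m ·)` under `Γ₀(m q)` on `ℍ` -/
lemma theta_mul_smul (h : IsThetaData q θ r) {m : ℕ} (hm : 0 < m) (g : SL(2, ℤ))
    (hg : ((m * q : ℕ) : ℤ) ∣ g 1 0) (z : ℍ) :
    θ ((m : ℂ) * ((g • z : ℍ) : ℂ)) =
      (jacobiSym (g 1 1) q : ℂ) * denom g z * θ ((m : ℂ) * z) := by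
  obtain ⟨c', hc'⟩ : (m : ℤ) ∣ g 1 0 := Dvd.dvd.trans ⟨(q : ℤ), by push_cast; ring⟩ hg
  have hq : (q : ℤ) ∣ c' := by
    obtain ⟨t, ht⟩ := hg
    have hm' : (m : ℤ) ≠ 0 := by exact_mod_cast hm.ne'
    refine ⟨t, ?_⟩
    apply mul_left_cancel₀ hm'
    rw [← hc', ht]
    push_cast
    ring
  have hdet : g 0 0 * g 1 1 - (m * g 0 1) * c' = 1 := by
    have := det_eq_one g
    rw [hc'] at this
    linear_combination this
  have key := h.modular hdet hq (im_nat_mul_pos hm z)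
  rw [coe_smul_eq, denom_eq]
  have hden : ((g 1 0 : ℤ) : ℂ) * (z : ℂ) + ((g 1 1 : ℤ) : ℂ) ≠ 0 := by
    rw [← denom_eq]
    exact denom_ne_zero _ z
  have e1 : (m : ℂ) * ((((g 0 0 : ℤ) : ℂ) * (z : ℂ) + ((g 0 1 : ℤ) : ℂ)) /
      (((g 1 0 : ℤ) : ℂ) * (z : ℂ) + ((g 1 1 : ℤ) : ℂ))) =
      (((g 0 0 : ℤ) : ℂ) * ((m : ℂ) * z) + ((m * g 0 1 : ℤ) : ℂ)) /
        ((c' : ℂ) * ((m : ℂ) * z) + ((g 1 1 : ℤ) : ℂ)) := by
    have e2 : (c' : ℂ) * ((m : ℂ) * z) + ((g 1 1 : ℤ) : ℂ) =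
        ((g 1 0 : ℤ) : ℂ) * (z : ℂ) + ((g 1 1 : ℤ) : ℂ) := by
      rw [hc']
      push_cast
      ring
    rw [e2]
    field_simp
    push_cast
    ring
  rw [e1, key]
  congr 2
  rw [hc']
  push_cast
  ring

/-- the character value is a sign -/
lemma jacobiSym_sq_eq_one (g : SL(2, ℤ)) (hg : (q : ℤ) ∣ g 1 0) :
    (jacobiSym (g 1 1) q : ℂ) ^ 2 = 1 := by
  have hgcd : (g 1 1).gcd q = 1 := by
    obtain ⟨t, ht⟩ := hg
    have hdet := det_eq_one g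
    rw [ht] at hdet
    rw [← Int.isCoprime_iff_gcd_eq_one]
    exact ⟨g 0 0, -(g 0 1 * t), by linear_combination hdet⟩
  have := jacobiSym.sq_one hgcd
  exact_mod_cast this

/-- the weight-2 transformation law of `prodFun` under `Γ₀(m q)` -/
lemma prodFun_smul (h : IsThetaData q θ r) {m : ℕ} (hm : 0 < m) (g : SL(2, ℤ))
    (hg : g ∈ CongruenceSubgroup.Gamma0 (m * q)) (z : ℍ) :
    prodFun θ m (g • z) = (denom g z) ^ 2 * prodFun θ m z := by
  rw [CongruenceSubgroup.Gamma0_mem, ZMod.intCast_zmod_eq_zero_iff_dvd] at hg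
  have hq : (q : ℤ) ∣ g 1 0 := Dvd.dvd.trans ⟨(m : ℤ), by push_cast; ring⟩ hg
  simp only [prodFun]
  rw [theta_smul h g hq z, theta_mul_smul h hm g hg z]
  have := jacobiSym_sq_eq_one (q := q) g hq
  linear_combination (denom g z) ^ 2 * θ z * θ (m * z) * this

/-- growth of `prodFun` -/
lemma prodFun_growth (h : IsThetaData q θ r) (hq : 0 < q) {m : ℕ} (hm : 0 < m) :
    ∃ C : ℝ, ∀ z : ℍ, ‖prodFun θ m z‖ ≤ C * (1 + (z.im⁻¹) ^ 2) := by
  obtain ⟨C, hC0, hC⟩ := exists_growth h hq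
  refine ⟨2 * C ^ 2, fun z => ?_⟩
  have h1 := hC z z.im_pos
  have h2 := hC (m * z) (im_nat_mul_pos hm z)
  have him : ((m : ℂ) * (z : ℂ)).im = m * z.im := by simp
  rw [him] at h2
  have hy : 0 < z.im := z.im_pos
  have hm1 : (1 : ℝ) ≤ m := by exact_mod_cast hm
  have h3 : ((m : ℝ) * z.im)⁻¹ ≤ z.im⁻¹ := by
    apply inv_anti₀ hy
    nlinarith
  have h4 : ‖θ ((m : ℂ) * z)‖ ≤ C * (1 + z.im⁻¹) :=
    h2.trans (mul_le_mul_of_nonneg_left (by linarith) hC0)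
  simp only [prodFun, norm_mul]
  have hi : 0 < z.im⁻¹ := inv_pos.2 hy
  have coe : ((z : ℂ)).im = z.im := rfl
  rw [coe] at h1
  calc ‖θ z‖ * ‖θ ((m : ℂ) * z)‖ ≤ (C * (1 + z.im⁻¹)) * (C * (1 + z.im⁻¹)) :=
        mul_le_mul h1 h4 (norm_nonneg _) (by positivity)
    _ ≤ 2 * C ^ 2 * (1 + (z.im⁻¹) ^ 2) := by
        have : 0 ≤ C ^ 2 * (1 - z.im⁻¹) ^ 2 := by positivity
        nlinarith

/-- **`θ(z) θ(m z)` as a modular form.** -/
theorem exists_prodForm (h : IsThetaData q θ r) (hq : 0 < q) {m : ℕ} (hm : 0 < m) (N : ℕ)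
    [NeZero N] (hN : N = m * q) :
    ∃ F : ModularForm (CongruenceSubgroup.Gamma0 N) 2, ⇑F = prodFun θ m := by
  subst hN
  obtain ⟨C, hC⟩ := prodFun_growth h hq hm
  exact exists_modularForm_of_growth (k := 2) (prodFun θ m) (mdiff_prodFun h hm)
    (fun g hg z => prodFun_smul h hm g hg z) hC

end Fermat.Agent.S16.ThetaTr
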