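import Mathlib

/-!
# S16 (Θ2), generic: moderate growth implies boundedness at the cusps

If `f : ℍ → ℂ` satisfies `‖f z‖ ≤ C (1 + (Im z)⁻ᵏ)` and every translate `f ∣[k] A`,
`A ∈ SL(2, ℤ)`, is `N`-periodic, then every `f ∣[k] A` is bounded at `i∞`.
-/

set_option autoImplicit false

open UpperHalfPlane Complex
open scoped MatrixGroups ModularForm Manifold

namespace Fermat.Agent.S16.ThetaTr

/-- periodicity under integer multiples of the period -/
lemma periodic_int_mul {g : ℍ → ℂ} {N : ℕ}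
    (hper : ∀ z : ℍ, g ((N : ℝ) +ᵥ z) = g z) (n : ℤ) (z : ℍ) :
    g (((n * N : ℤ) : ℝ) +ᵥ z) = g z := by
  induction n using Int.induction_on generalizing z with
  | zero => simp
  | succ n ih =>
    have e : (((n + 1) * N : ℤ) : ℝ) +ᵥ z = (N : ℝ) +ᵥ ((((n * N : ℤ)) : ℝ) +ᵥ z) := by
      rw [vadd_vadd]
      congr 1
      push_cast
      ring
    rw [e, hper, ih]
  | pred n ih =>
    have e : (((-(n : ℤ)) * N : ℤ) : ℝ) +ᵥ z =
        (N : ℝ) +ᵥ ((((-(n : ℤ) - 1) * N : ℤ) : ℝ) +ᵥ z) := by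
      rw [vadd_vadd]
      congr 1
      push_cast
      ring
    rw [← ih z, e, hper]

/-- a periodic function bounded on a half strip is bounded at `i∞` -/
lemma isBoundedAtImInfty_of_strip {g : ℍ → ℂ} {N : ℕ} (hN : 0 < N)
    (hper : ∀ z : ℍ, g ((N : ℝ) +ᵥ z) = g z) {M : ℝ}
    (hM : ∀ z : ℍ, 1 ≤ z.im → 0 ≤ z.re → z.re ≤ N → ‖g z‖ ≤ M) :
    IsBoundedAtImInfty g := by
  rw [isBoundedAtImInfty_iff]
  refine ⟨M, 1, fun z hz => ?_⟩
  have hN' : (0 : ℝ) < N := by exact_mod_cast hN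
  set n : ℤ := -⌊z.re / N⌋ with hn
  have e := periodic_int_mul hper n z
  rw [← e]
  apply hM
  · rw [UpperHalfPlane.vadd_im]
    exact hz
  · rw [UpperHalfPlane.vadd_re]
    have h1 := Int.floor_le (z.re / N)
    rw [le_div_iff₀ hN'] at h1
    push_cast [hn]
    linarith
  · rw [UpperHalfPlane.vadd_re]
    have h1 := Int.lt_floor_add_one (z.re / N)
    rw [div_lt_iff₀ hN'] at h1
    push_cast [hn]
    linarith

lemma denom_eq (A : SL(2, ℤ)) (z : ℍ) :
    denom A z = ((A 1 0 : ℤ) : ℂ) * z + ((A 1 1 : ℤ) : ℂ) := by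
  simp [denom]

/-- translates of a `Γ₀(N)`-invariant function are `N`-periodic -/
lemma slash_vadd_periodic {f : ℍ → ℂ} {k : ℤ} {N : ℕ}
    (hinv : ∀ γ ∈ CongruenceSubgroup.Gamma0 N, f ∣[k] γ = f) (A : SL(2, ℤ)) (z : ℍ) :
    (f ∣[k] A) ((N : ℝ) +ᵥ z) = (f ∣[k] A) z := by
  have hT : A * ModularGroup.T ^ (N : ℤ) * A⁻¹ ∈ CongruenceSubgroup.Gamma0 N := by
    have hn : (CongruenceSubgroup.Gamma N).Normal := CongruenceSubgroup.Gamma_normal N
    have h1 : ModularGroup.T ^ (N : ℤ) ∈ CongruenceSubgroup.Gamma N := by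
      have := CongruenceSubgroup.ModularGroup_T_pow_mem_Gamma N N dvd_rfl
      simpa using this
    have h2 := hn.conj_mem _ h1 A
    rw [CongruenceSubgroup.Gamma_mem] at h2
    rw [CongruenceSubgroup.Gamma0_mem]
    exact h2.2.2.1
  have h1 : (f ∣[k] A) ∣[k] (ModularGroup.T ^ (N : ℤ)) = f ∣[k] A := by
    rw [← SlashAction.slash_mul]
    have : A * ModularGroup.T ^ (N : ℤ) = (A * ModularGroup.T ^ (N : ℤ) * A⁻¹) * A := by group
    rw [this, SlashAction.slash_mul, hinv _ hT]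
  have h2 := congrFun h1 z
  rw [ModularForm.SL_slash_apply, UpperHalfPlane.modular_T_zpow_smul] at h2
  have h3 := denom_eq (ModularGroup.T ^ (N : ℤ)) z
  rw [ModularGroup.coe_T_zpow] at h3
  simp only [Matrix.of_apply, Matrix.cons_val', Matrix.cons_val_zero, Matrix.cons_val_one,
    Int.cast_zero, zero_mul, Int.cast_one, zero_add] at h3
  rw [h3, one_zpow, mul_one] at h2
  simpa using h2

/-- on the region `Im z ≥ 1` the denominator has norm at least `1` -/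
lemma one_le_norm_denom (A : SL(2, ℤ)) (z : ℍ) (hz : 1 ≤ z.im) : 1 ≤ ‖denom A z‖ := by
  rw [denom_eq]
  by_cases hc : A 1 0 = 0
  · have hdet := A.det_coe
    rw [Matrix.det_fin_two, hc, mul_zero, sub_zero] at hdet
    have hd : |A 1 1| = 1 := by
      have := Int.isUnit_iff.1 (IsUnit.of_mul_eq_one _ (by rw [mul_comm]; exact hdet))
      rcases this with h | h <;> simp [h]
    rw [hc]
    simp only [Int.cast_zero, zero_mul, zero_add]
    rw [Complex.norm_intCast]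
    have : ((|A 1 1| : ℤ) : ℝ) = 1 := by exact_mod_cast hd
    rw [← Int.cast_abs, this]
  · have h1 : (1 : ℝ) ≤ |((A 1 0 : ℤ) : ℝ)| := by
      have : (1 : ℤ) ≤ |A 1 0| := Int.one_le_abs hc
      exact_mod_cast this
    have h2 : |((A 1 0 : ℤ) : ℝ)| * z.im ≤ ‖((A 1 0 : ℤ) : ℂ) * z + ((A 1 1 : ℤ) : ℂ)‖ := by
      have := Complex.abs_im_le_norm (((A 1 0 : ℤ) : ℂ) * z + ((A 1 1 : ℤ) : ℂ))
      simp only [add_im, mul_im, intCast_re, intCast_im, zero_mul, add_zero, coe_im] at this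
      rw [abs_mul, abs_of_pos z.im_pos] at this
      exact this
    calc (1 : ℝ) = 1 * 1 := by ring
      _ ≤ |((A 1 0 : ℤ) : ℝ)| * z.im := mul_le_mul h1 hz zero_le_one (abs_nonneg _)
      _ ≤ _ := h2

/-- on the half strip the denominator is at most linear in `Im z` -/
lemma norm_denom_le (A : SL(2, ℤ)) (z : ℍ) (hz : 1 ≤ z.im) {N : ℝ} (h0 : 0 ≤ z.re)
    (hN : z.re ≤ N) :
    ‖denom A z‖ ≤ (|((A 1 0 : ℤ) : ℝ)| * (N + 1) + |((A 1 1 : ℤ) : ℝ)|) * z.im := by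
  rw [denom_eq]
  have hzn : ‖(z : ℂ)‖ ≤ (N + 1) * z.im := by
    have h1 := Complex.norm_le_abs_re_add_abs_im (z : ℂ)
    simp only [coe_re, coe_im] at h1
    rw [abs_of_nonneg h0, abs_of_pos z.im_pos] at h1
    nlinarith
  calc ‖((A 1 0 : ℤ) : ℂ) * z + ((A 1 1 : ℤ) : ℂ)‖
      ≤ ‖((A 1 0 : ℤ) : ℂ) * z‖ + ‖((A 1 1 : ℤ) : ℂ)‖ := norm_add_le _ _
    _ = |((A 1 0 : ℤ) : ℝ)| * ‖(z : ℂ)‖ + |((A 1 1 : ℤ) : ℝ)| := by
        rw [norm_mul, Complex.norm_intCast, Complex.norm_intCast]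
    _ ≤ |((A 1 0 : ℤ) : ℝ)| * ((N + 1) * z.im) + |((A 1 1 : ℤ) : ℝ)| * z.im := by
        have := abs_nonneg ((A 1 1 : ℤ) : ℝ)
        have := mul_le_mul_of_nonneg_left hzn (abs_nonneg ((A 1 0 : ℤ) : ℝ))
        nlinarith
    _ = _ := by ring

/-- **Moderate growth implies boundedness at the cusps.** -/
theorem isBoundedAtImInfty_slash_of_growth {f : ℍ → ℂ} {k N : ℕ} (hN : 0 < N)
    (hper : ∀ (A : SL(2, ℤ)) (z : ℍ), (f ∣[(k : ℤ)] A) ((N : ℝ) +ᵥ z) = (f ∣[(k : ℤ)] A) z)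
    {C : ℝ} (hC : ∀ z : ℍ, ‖f z‖ ≤ C * (1 + (z.im⁻¹) ^ k)) (A : SL(2, ℤ)) :
    IsBoundedAtImInfty (f ∣[(k : ℤ)] A) := by
  set B : ℝ := |((A 1 0 : ℤ) : ℝ)| * (N + 1) + |((A 1 1 : ℤ) : ℝ)| with hB
  have hB0 : 0 ≤ B := by positivity
  have hC0 : 0 ≤ C := by
    have h := (norm_nonneg _).trans (hC UpperHalfPlane.I)
    have : 0 < 1 + ((UpperHalfPlane.I).im⁻¹) ^ k := by positivity
    exact nonneg_of_mul_nonneg_left h this
  refine isBoundedAtImInfty_of_strip hN (hper A) (M := C * (1 + B ^ k)) fun z hz h0 hzN => ?_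
  rw [ModularForm.SL_slash_apply]
  have hD1 := one_le_norm_denom A z hz
  have hD2 := norm_denom_le A z hz h0 hzN
  set D := ‖denom A z‖ with hD
  have hD0 : 0 < D := lt_of_lt_of_le zero_lt_one hD1
  have him : (A • z).im⁻¹ = D ^ 2 / z.im := by
    rw [ModularGroup.im_smul_eq_div_normSq, Complex.normSq_eq_norm_sq, inv_div]
  have h1 := hC (A • z)
  rw [him] at h1
  rw [norm_mul, norm_zpow, zpow_neg, zpow_natCast]
  have hy0 : 0 < z.im := z.im_pos
  calc ‖f (A • z)‖ * (D ^ k)⁻¹ ≤ C * (1 + (D ^ 2 / z.im) ^ k) * (D ^ k)⁻¹ :=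
        mul_le_mul_of_nonneg_right h1 (by positivity)
    _ = C * ((D ^ k)⁻¹ + (D / z.im) ^ k) := by
        field_simp
        ring
    _ ≤ C * (1 + B ^ k) := by
        apply mul_le_mul_of_nonneg_left _ hC0
        apply add_le_add
        · exact inv_le_one_of_one_le₀ (one_le_pow₀ hD1)
        · apply pow_le_pow_left₀ (by positivity)
          rw [div_le_iff₀ hy0]
          exact hD2

/-- the transformation law as a slash invariance -/
lemma slash_eq_of_law {k : ℕ} {h : ℍ → ℂ} {g : SL(2, ℤ)}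
    (hg : ∀ z : ℍ, h (g • z) = (denom g z) ^ k * h z) : h ∣[(k : ℤ)] g = h := by
  ext z
  rw [ModularForm.SL_slash_apply, hg z]
  have hd : denom (g : GL (Fin 2) ℝ) z ≠ 0 := denom_ne_zero _ z
  rw [zpow_neg, zpow_natCast, mul_comm, ← mul_assoc, inv_mul_cancel₀ (pow_ne_zero k hd), one_mul]

/-- **Constructor**: a holomorphic function with the weight-`k` transformation law for `Γ₀(N)`
and moderate growth is a modular form. -/
theorem exists_modularForm_of_growth {N : ℕ} [NeZero N] {k : ℕ} (h : ℍ → ℂ) (hh : MDiff h)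
    (hinv : ∀ g : SL(2, ℤ), g ∈ CongruenceSubgroup.Gamma0 N → ∀ z : ℍ,
      h (g • z) = (denom g z) ^ k * h z)
    {C : ℝ} (hC : ∀ z : ℍ, ‖h z‖ ≤ C * (1 + (z.im⁻¹) ^ k)) :
    ∃ f : ModularForm (CongruenceSubgroup.Gamma0 N) k, ⇑f = h := by
  have hinv' : ∀ γ ∈ CongruenceSubgroup.Gamma0 N, h ∣[(k : ℤ)] γ = h :=
    fun γ hγ => slash_eq_of_law (hinv γ hγ)
  refine ⟨{ toFun := h
            slash_action_eq' := ?_
            holo' := hh
            bdd_at_cusps' := ?_ }, rfl⟩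
  · rintro A ⟨g, hg, rfl⟩
    exact hinv' g hg
  · intro c hc
    rw [Subgroup.IsArithmetic.isCusp_iff_isCusp_SL2Z] at hc
    rw [OnePoint.isBoundedAt_iff_forall_SL2Z hc]
    intro γ _
    exact isBoundedAtImInfty_slash_of_growth (NeZero.pos N)
      (fun A z => slash_vadd_periodic hinv' A z) hC γ

end Fermat.Agent.S16.ThetaTr
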