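import Mathlib

/-!
# S16 (Θ2): the bottom row of an element of `SL(2, ℤ)` as a point of `P¹(𝔽_q)`

`idx q δ : Option (ZMod q)` is the class of the bottom row `(c : d)` of `δ`: `none` if `q ∣ c`
and `some (d / c)` otherwise.  Two elements have the same index iff `δ' δ⁻¹ ∈ Γ₀(q)`.
We use it to show that a sum over coset representatives is invariant.
-/

set_option autoImplicit false

open CongruenceSubgroup Matrix.SpecialLinearGroup
open scoped MatrixGroups

namespace Fermat.Agent.S16.ThetaTr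

/-- the class of the bottom row of `δ` in `P¹(𝔽_q)` -/
noncomputable def idx (q : ℕ) (δ : SL(2, ℤ)) : Option (ZMod q) :=
  if ((δ 1 0 : ℤ) : ZMod q) = 0 then none
  else some (((δ 1 1 : ℤ) : ZMod q) * ((δ 1 0 : ℤ) : ZMod q)⁻¹)

lemma sl_det_eq (δ : SL(2, ℤ)) : δ 0 0 * δ 1 1 - δ 0 1 * δ 1 0 = 1 := by
  have := δ.det_coe
  rw [Matrix.det_fin_two] at this
  exact this

lemma lowerLeft_mul_inv (δ δ' : SL(2, ℤ)) :
    (δ' * δ⁻¹) 1 0 = δ' 1 0 * δ 1 1 - δ' 1 1 * δ 1 0 := by
  rw [Matrix.SpecialLinearGroup.coe_mul, Matrix.SpecialLinearGroup.coe_inv,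
    Matrix.adjugate_fin_two]
  simp [Matrix.mul_apply, Fin.sum_univ_two]
  ring

variable {q : ℕ}

lemma idx_eq_none_iff (δ : SL(2, ℤ)) : idx q δ = none ↔ (q : ℤ) ∣ δ 1 0 := by
  rw [idx, ← ZMod.intCast_zmod_eq_zero_iff_dvd]
  split_ifs with h <;> simp [h]

lemma idx_eq_some_iff [Fact q.Prime] (δ : SL(2, ℤ)) (j : ZMod q) :
    idx q δ = some j ↔ ¬ (q : ℤ) ∣ δ 1 0 ∧ (q : ℤ) ∣ δ 1 1 - δ 1 0 * (j.val : ℤ) := by
  rw [idx, ← ZMod.intCast_zmod_eq_zero_iff_dvd, ← ZMod.intCast_zmod_eq_zero_iff_dvd]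
  push_cast
  rw [ZMod.natCast_zmod_val]
  split_ifs with h
  · simp [h]
  · simp only [Option.some.injEq, h, not_false_eq_true, true_and]
    constructor
    · rintro rfl
      field_simp
      ring
    · intro h1
      field_simp
      linear_combination h1

lemma unit_of_dvd_lowerLeft [Fact q.Prime] (δ : SL(2, ℤ)) (h : ((δ 1 0 : ℤ) : ZMod q) = 0) :
    ((δ 1 1 : ℤ) : ZMod q) ≠ 0 := by
  intro h1
  have := congrArg (fun x : ℤ => (x : ZMod q)) (sl_det_eq δ)
  simp only [Int.cast_sub, Int.cast_mul, h, h1, mul_zero, sub_zero, Int.cast_one] at this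
  exact zero_ne_one this

/-- same index iff `δ' δ⁻¹` has lower-left entry divisible by `q` -/
lemma idx_eq_iff [Fact q.Prime] (δ δ' : SL(2, ℤ)) :
    idx q δ = idx q δ' ↔ (q : ℤ) ∣ (δ' * δ⁻¹) 1 0 := by
  rw [lowerLeft_mul_inv, ← ZMod.intCast_zmod_eq_zero_iff_dvd]
  push_cast
  by_cases h : ((δ 1 0 : ℤ) : ZMod q) = 0
  · by_cases h' : ((δ' 1 0 : ℤ) : ZMod q) = 0
    · simp [idx, h, h']
    · have hu := unit_of_dvd_lowerLeft δ h
      simp only [idx, h, h', if_true, if_false, mul_zero, sub_zero, mul_eq_zero, hu, or_self,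
        iff_false]
      exact fun hh => by cases hh
  · by_cases h' : ((δ' 1 0 : ℤ) : ZMod q) = 0
    · have hu := unit_of_dvd_lowerLeft δ' h'
      simp only [idx, h, h', if_true, if_false, zero_mul, zero_sub, neg_eq_zero, mul_eq_zero, hu,
        or_self, iff_false]
      exact fun hh => by cases hh
    · simp only [idx, h, h', if_false, Option.some.injEq]
      constructor
      · intro h1
        field_simp at h1
        linear_combination h1
      · intro h1
        field_simp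
        linear_combination h1

/-- representatives in `Γ₀(p)` of all the indices -/
lemma exists_rep {p : ℕ} [Fact q.Prime] (hpq : Nat.Coprime p q) (x : Option (ZMod q)) :
    ∃ ρ ∈ Gamma0 p, idx q ρ = x := by
  rcases x with _ | j
  · refine ⟨1, Subgroup.one_mem _, ?_⟩
    rw [idx_eq_none_iff]
    simp
  · have hcop : IsCoprime ((p : ℤ)) ((p : ℤ) * (j.val : ℤ) + q) := by
      have h1 : IsCoprime (p : ℤ) (q : ℤ) := Nat.isCoprime_iff_coprime.2 hpq
      have := h1.add_mul_left_right (j.val : ℤ)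
      rwa [add_comm] at this
    obtain ⟨u, v, huv⟩ := hcop
    have hdet : (!![v, -u; (p : ℤ), (p : ℤ) * (j.val : ℤ) + q]).det = 1 := by
      rw [Matrix.det_fin_two_of]
      linear_combination huv
    set ρ : SL(2, ℤ) := ⟨!![v, -u; (p : ℤ), (p : ℤ) * (j.val : ℤ) + q], hdet⟩ with hρ
    have h10 : ρ 1 0 = (p : ℤ) := rfl
    have h11 : ρ 1 1 = (p : ℤ) * (j.val : ℤ) + q := rfl
    refine ⟨ρ, ?_, ?_⟩
    · rw [Gamma0_mem, h10]
      simp
    · rw [idx_eq_some_iff, h10, h11]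
      refine ⟨?_, ?_⟩
      · intro h
        have h2 : (q : ℕ) ∣ p := by exact_mod_cast h
        have h3 : q ∣ Nat.gcd p q := Nat.dvd_gcd h2 dvd_rfl
        rw [hpq.gcd_eq_one] at h3
        exact (Fact.out : q.Prime).one_lt.ne' (Nat.dvd_one.1 h3)
      · exact ⟨1, by ring⟩

end Fermat.Agent.S16.ThetaTr
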