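import Fermat.Agent.S16.ThetaTrTrace
import Fermat.Prelude.Thm_ModularFormClass_isBoundedAt_heckeU
import Fermat.Prelude.Thm_ModularForm_mdifferentiable_heckeU

/-!
# S16 (Θ2): `F + U_q F` is a modular form of weight 2 on `Γ₀(p)`
-/

set_option autoImplicit false

open UpperHalfPlane hiding I I_re I_im
open Complex ModularForm CongruenceSubgroup
open scoped MatrixGroups ModularForm Manifold Real

namespace Fermat.Agent.S16.ThetaTr

variable {q : ℕ} {θ : ℂ → ℂ} {r : ℕ → ℕ}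

lemma sum_zmod_val_range {P : ℕ} [NeZero P] {M : Type*} [AddCommMonoid M] (g : ℕ → M) :
    ∑ j : ZMod P, g j.val = ∑ i ∈ Finset.range P, g i := by
  refine Finset.sum_bij (fun j _ => j.val) (fun j _ => Finset.mem_range.2 (ZMod.val_lt j))
    (fun a _ b _ hab => ZMod.val_injective P hab) (fun b hb => ?_) (fun _ _ => rfl)
  exact ⟨(b : ZMod P), Finset.mem_univ _, ZMod.val_natCast_of_lt (Finset.mem_range.1 hb)⟩

/-- the translates of `F` indexed by `P¹(𝔽_q)` -/
noncomputable def trT (q : ℕ) (F : ℍ → ℂ) : Option (ZMod q) → ℍ → ℂ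
  | none => F
  | some j => F ∣[(2 : ℤ)] heckeMatrix q j.val

lemma sum_trT (q : ℕ) [NeZero q] (F : ℍ → ℂ) : ∑ x, trT q F x = F + heckeU 2 q F := by
  rw [Fintype.sum_option]
  simp only [trT]
  rw [heckeU_def, sum_zmod_val_range (fun j => F ∣[(2 : ℤ)] heckeMatrix q j)]

/-- `F ∣ δ` for `δ ∈ Γ₀(p)` only depends on the index of `δ`. -/
lemma slash_eq_trT (h : IsThetaData q θ r) [hq : Fact q.Prime] {p : ℕ} (hp0 : 0 < p)
    (hcop : Nat.Coprime p q) (hpq : jacobiSym p q = -1) (δ : SL(2, ℤ)) (hδ : δ ∈ Gamma0 p) :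
    prodFun θ p ∣[(2 : ℤ)] δ = trT q (prodFun θ p) (idx q δ) := by
  rw [Gamma0_mem, ZMod.intCast_zmod_eq_zero_iff_dvd] at hδ
  rcases hx : idx q δ with _ | j
  · rw [idx_eq_none_iff] at hx
    simp only [trT]
    have h1 : IsCoprime (p : ℤ) (q : ℤ) := Nat.isCoprime_iff_coprime.2 hcop
    have h2 : ((p * q : ℕ) : ℤ) ∣ δ 1 0 := by
      push_cast
      exact h1.mul_dvd hδ hx
    have h3 : δ ∈ Gamma0 (p * q) := by
      rw [Gamma0_mem, ZMod.intCast_zmod_eq_zero_iff_dvd]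
      exact h2
    ext z
    rw [ModularForm.SL_slash_apply, prodFun_smul h hp0 δ h3 z]
    have hden : denom δ z ≠ 0 := denom_ne_zero _ z
    rw [zpow_neg]
    field_simp
  · rw [idx_eq_some_iff] at hx
    simp only [trT]
    exact prodFun_slash_eq h hq.out hp0 hpq δ hδ hx.1 j.val hx.2

/-- invariance of `F + U_q F` under `Γ₀(p)` -/
theorem trace_slash (h : IsThetaData q θ r) [hq : Fact q.Prime] {p : ℕ} (hp0 : 0 < p)
    (hcop : Nat.Coprime p q) (hpq : jacobiSym p q = -1) (γ : SL(2, ℤ)) (hγ : γ ∈ Gamma0 p) :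
    (prodFun θ p + heckeU 2 q (prodFun θ p)) ∣[(2 : ℤ)] γ =
      prodFun θ p + heckeU 2 q (prodFun θ p) := by
  have : NeZero q := ⟨hq.out.ne_zero⟩
  rw [← sum_trT]
  exact sum_slash_invariant hcop 2 (prodFun θ p) (trT q (prodFun θ p))
    (fun δ hδ => slash_eq_trT h hp0 hcop hpq δ hδ) γ hγ

/-- **the trace form** `F + U_q F ∈ M₂(Γ₀(p))`, with `F = θ_q(z) θ_q(p z) ∈ M₂(Γ₀(p q))` -/
theorem exists_traceForm (h : IsThetaData q θ r) [hq : Fact q.Prime] (p : ℕ) [NeZero p]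
    (hcop : Nat.Coprime p q) (hpq : jacobiSym p q = -1) (N : ℕ) [NeZero N] (hN : N = p * q) :
    ∃ (F : ModularForm (Gamma0 N) 2) (G : ModularForm (Gamma0 p) 2),
      ⇑F = prodFun θ p ∧ ⇑G = ⇑F + heckeU 2 q ⇑F := by
  have hp0 : 0 < p := Nat.pos_of_ne_zero (NeZero.ne p)
  obtain ⟨F, hF⟩ := exists_prodForm h hq.out.pos hp0 N hN
  refine ⟨F, ?_, hF, ?_⟩
  · exact
    { toFun := ⇑F + heckeU 2 q ⇑F
      slash_action_eq' := by
        rintro A ⟨g, hg, rfl⟩
        rw [hF]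
        exact trace_slash h hp0 hcop hpq g hg
      holo' := F.holo'.add (mdifferentiable_heckeU F.holo' 2 q)
      bdd_at_cusps' := by
        intro c hc
        have hc' : IsCusp c (Subgroup.map (Matrix.SpecialLinearGroup.mapGL ℝ) (Gamma0 N)) := by
          rw [Subgroup.IsArithmetic.isCusp_iff_isCusp_SL2Z] at hc ⊢
          exact hc
        exact (F.bdd_at_cusps' hc').add (ModularFormClass.isBoundedAt_heckeU F q hc') }
  · rfl

end Fermat.Agent.S16.ThetaTr
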