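import Fermat.Agent.S16.ThetaTrIdx

/-!
# S16 (Θ2): invariance of a sum over coset representatives

If `F ∣ δ` depends only on the index of `δ ∈ Γ₀(p)` (the class of its bottom row in `P¹(𝔽_q)`),
through `T`, then `∑ x, T x` is invariant under `Γ₀(p)`.
-/

set_option autoImplicit false

open UpperHalfPlane CongruenceSubgroup Matrix.SpecialLinearGroup
open scoped MatrixGroups ModularForm

namespace Fermat.Agent.S16.ThetaTr

lemma sum_slash_SL {ι : Type*} (s : Finset ι) (k : ℤ) (F : ι → ℍ → ℂ) (g : SL(2, ℤ)) :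
    (∑ i ∈ s, F i) ∣[k] g = ∑ i ∈ s, (F i) ∣[k] g := by
  classical
  induction s using Finset.induction_on with
  | empty => simp
  | insert a s ha ih => rw [Finset.sum_insert ha, Finset.sum_insert ha, SlashAction.add_slash, ih]

theorem sum_slash_invariant {p q : ℕ} [hq : Fact q.Prime] (hpq : Nat.Coprime p q) (k : ℤ)
    (F : ℍ → ℂ) (T : Option (ZMod q) → ℍ → ℂ)
    (hT : ∀ δ ∈ Gamma0 p, F ∣[k] δ = T (idx q δ)) (γ : SL(2, ℤ)) (hγ : γ ∈ Gamma0 p) :
    haveI : NeZero q := ⟨hq.out.ne_zero⟩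
    (∑ x, T x) ∣[k] γ = ∑ x, T x := by
  haveI : NeZero q := ⟨hq.out.ne_zero⟩
  choose ρ hρ hρx using fun x : Option (ZMod q) => exists_rep (p := p) hpq x
  have hTx : ∀ x, T x = F ∣[k] ρ x := fun x => by rw [hT _ (hρ x), hρx]
  set σ : Option (ZMod q) → Option (ZMod q) := fun x => idx q (ρ x * γ) with hσ
  have h1 : ∀ x, (T x) ∣[k] γ = T (σ x) := by
    intro x
    rw [hTx x, ← SlashAction.slash_mul, hT _ (Subgroup.mul_mem _ (hρ x) hγ)]
  have hinj : Function.Injective σ := by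
    intro x y hxy
    simp only [hσ] at hxy
    rw [idx_eq_iff] at hxy
    have e : ρ y * γ * (ρ x * γ)⁻¹ = ρ y * (ρ x)⁻¹ := by group
    rw [e, ← idx_eq_iff, hρx, hρx] at hxy
    exact hxy
  have hbij : Function.Bijective σ := Finite.injective_iff_bijective.1 hinj
  rw [sum_slash_SL]
  rw [Finset.sum_congr rfl (fun x _ => h1 x)]
  exact Equiv.sum_comp (Equiv.ofBijective σ hbij) T

end Fermat.Agent.S16.ThetaTr
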