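import Fermat.Agent.S16.ThetaTrForm

/-!
# S16 (Θ2): the `q`-expansion of `θ(z) θ(m z)`
-/

set_option autoImplicit false

open UpperHalfPlane hiding I I_re I_im
open Complex
open scoped MatrixGroups ModularForm Manifold Real

namespace Fermat.Agent.S16.ThetaTr

variable {q : ℕ} {θ : ℂ → ℂ} {r : ℕ → ℕ}

/-- the coefficients of `θ(m z)` -/
def rDil (r : ℕ → ℕ) (m : ℕ) (k : ℕ) : ℕ := if m ∣ k then r (k / m) else 0

/-- the coefficients of `θ(z) θ(m z)` -/
def prodCoeff (r : ℕ → ℕ) (m : ℕ) (n : ℕ) : ℕ :=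
  ∑ ik ∈ Finset.HasAntidiagonal.antidiagonal n, r ik.1 * rDil r m ik.2

lemma hasSum_theta_pow (h : IsThetaData q θ r) {z : ℂ} (hz : 0 < z.im) :
    HasSum (fun n : ℕ => (r n : ℂ) * cexp (2 * π * I * z) ^ n) (θ z) := by
  have := h.hasSum hz
  refine this.congr_fun ?_ |> fun h' => h'
  intro n
  rw [← Complex.exp_nat_mul]
  congr 2
  ring

lemma hasSum_theta_dil (h : IsThetaData q θ r) {m : ℕ} (hm : 0 < m) {z : ℂ} (hz : 0 < z.im) :
    HasSum (fun k : ℕ => (rDil r m k : ℂ) * cexp (2 * π * I * z) ^ k) (θ (m * z)) := by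
  have hmz : 0 < ((m : ℂ) * z).im := by
    have : ((m : ℂ) * z).im = m * z.im := by simp
    rw [this]
    positivity
  have h1 := hasSum_theta_pow h hmz
  have hinj : Function.Injective (fun n : ℕ => m * n) := fun a b hab =>
    Nat.eq_of_mul_eq_mul_left hm hab
  rw [← hinj.hasSum_iff]
  · refine h1.congr_fun ?_ |> fun h' => h'
    intro n
    simp only [Function.comp_apply, rDil, dvd_mul_right, if_true, Nat.mul_div_cancel_left _ hm]
    congr 1
    rw [← Complex.exp_nat_mul, ← Complex.exp_nat_mul]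
    congr 1
    push_cast
    ring
  · intro k hk
    have : ¬ m ∣ k := fun ⟨t, ht⟩ => hk ⟨t, ht.symm⟩
    simp [rDil, this]

/-- **`q`-expansion of the product** -/
theorem hasSum_prodFun (h : IsThetaData q θ r) {m : ℕ} (hm : 0 < m) (z : ℍ) :
    HasSum (fun n : ℕ => (prodCoeff r m n : ℂ) * cexp (2 * π * I * z) ^ n) (prodFun θ m z) := by
  have h1 := hasSum_theta_pow h z.im_pos
  have h2 := hasSum_theta_dil h hm z.im_pos
  have s1 := h1.summable.norm
  have s2 := h2.summable.norm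
  have key := tsum_mul_tsum_eq_tsum_sum_antidiagonal_of_summable_norm s1 s2
  have ssum := (summable_norm_sum_mul_antidiagonal_of_summable_norm s1 s2).of_norm
  rw [h1.tsum_eq, h2.tsum_eq] at key
  have e : ∀ n : ℕ, ∑ kl ∈ Finset.HasAntidiagonal.antidiagonal n,
      ((r kl.1 : ℂ) * cexp (2 * π * I * z) ^ kl.1) *
        ((rDil r m kl.2 : ℂ) * cexp (2 * π * I * z) ^ kl.2) =
      (prodCoeff r m n : ℂ) * cexp (2 * π * I * z) ^ n := by
    intro n
    rw [prodCoeff]
    push_cast
    rw [Finset.sum_mul]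
    refine Finset.sum_congr rfl fun kl hkl => ?_
    rw [Finset.HasAntidiagonal.mem_antidiagonal] at hkl
    rw [← hkl, pow_add]
    ring
  simp only [e] at key ssum
  rw [prodFun, key]
  exact ssum.hasSum

end Fermat.Agent.S16.ThetaTr
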