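import Fermat.Agent.S16.ThetaTrForm

/-!
# S16 (Θ2): `θ` under elements of `SL(2, ℤ)` outside `Γ₀(q)`

For `ad - bc = 1` and `q ∣ d - c j`:
`θ((az+b)/(cz+d)) = χ(c) (-i/√q) (cz+d) θ((z+j)/q)`.
-/

set_option autoImplicit false

open Complex
open scoped Real

namespace Fermat.Agent.S16.ThetaTr

variable {q : ℕ} {θ : ℂ → ℂ} {r : ℕ → ℕ}

lemma im_add_int_div_pos {z : ℂ} (hz : 0 < z.im) (j : ℤ) (hq : 0 < q) :
    0 < ((z + j) / (q : ℂ)).im := by
  have hq' : (0 : ℝ) < q := by exact_mod_cast hq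
  have e : ((z + j) / (q : ℂ)).im = z.im / q := by
    rw [Complex.div_natCast_im]
    simp
  rw [e]
  positivity

lemma im_neg_inv_pos {z : ℂ} (hz : 0 < z.im) : 0 < (-1 / z).im := by
  have hz0 : z ≠ 0 := fun h => by rw [h] at hz; simp at hz
  have e : (-1 / z).im = z.im / Complex.normSq z := by
    rw [neg_div, one_div, Complex.neg_im, Complex.inv_im]
    ring
  rw [e]
  exact div_pos hz (Complex.normSq_pos.2 hz0)

/-- **`θ` under `δ ∉ Γ₀(q)`.** -/
theorem theta_ST (h : IsThetaData q θ r) (hq : 0 < q) {a b c d j : ℤ} (hdet : a * d - b * c = 1)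
    (hj : (q : ℤ) ∣ d - c * j) {z : ℂ} (hz : 0 < z.im) :
    θ ((a * z + b) / (c * z + d)) =
      (jacobiSym c q : ℂ) * (-I / (√(q : ℝ) : ℂ)) * (c * z + d) * θ ((z + j) / q) := by
  have hq' : (q : ℂ) ≠ 0 := by exact_mod_cast hq.ne'
  have hqr : (0 : ℝ) < q := by exact_mod_cast hq
  have hsq : (√(q : ℝ) : ℂ) ≠ 0 := by
    have : √(q : ℝ) ≠ 0 := (Real.sqrt_pos.2 hqr).ne'
    exact_mod_cast this
  have hsq2 : (√(q : ℝ) : ℂ) * (√(q : ℝ) : ℂ) = q := by
    have := Real.mul_self_sqrt hqr.le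
    exact_mod_cast this
  have hzj : 0 < (z + j).im := by simpa using hz
  have hzj0 : z + j ≠ 0 := fun h => by rw [h] at hzj; simp at hzj
  set w : ℂ := -1 / (z + j) with hw
  have hwim : 0 < w.im := im_neg_inv_pos hzj
  set u : ℂ := (z + j) / q with hu
  have huim : 0 < u.im := im_add_int_div_pos hz j hq
  -- modular at `w`
  have hdet' : (a * j - b) * c - a * (c * j - d) = 1 := by linear_combination hdet
  have hdvd : (q : ℤ) ∣ c * j - d := by
    have e : c * j - d = -(d - c * j) := by ring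
    rw [e]
    exact (dvd_neg).2 hj
  have h1 := h.modular hdet' hdvd hwim
  -- Fricke at `u`
  have h2 := h.fricke huim
  have e2 : (-1 / ((q : ℂ) * u) : ℂ) = w := by
    rw [hu, hw]
    field_simp
  rw [e2] at h2
  have e1 : (((a * j - b : ℤ) : ℂ) * w + (a : ℂ)) / (((c * j - d : ℤ) : ℂ) * w + (c : ℂ)) =
      (a * z + b) / (c * z + d) := by
    have hden : ((c * j - d : ℤ) : ℂ) * w + (c : ℂ) = (c * z + d) / (z + j) := by
      rw [hw]
      push_cast
      field_simp
      ring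
    have hnum : ((a * j - b : ℤ) : ℂ) * w + (a : ℂ) = (a * z + b) / (z + j) := by
      rw [hw]
      push_cast
      field_simp
      ring
    rw [hden, hnum]
    by_cases hcd : (c : ℂ) * z + d = 0
    · simp [hcd]
    · field_simp
  rw [e1] at h1
  rw [h1, h2]
  have hden : ((c * j - d : ℤ) : ℂ) * w + (c : ℂ) = (c * z + d) / (z + j) := by
    rw [hw]
    push_cast
    field_simp
    ring
  rw [hden, hu]
  field_simp
  rw [← hsq2]
  ring

end Fermat.Agent.S16.ThetaTr
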