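import Fermat.Agent.S16.ThetaTrST
import Fermat.Agent.S16.ThetaTrPerm
import Fermat.Prelude.Def_ModularForm_HeckeOperator

/-!
# S16 (Θ2): the trace of `θ_q(z) θ_q(p z)` from `Γ₀(p q)` to `Γ₀(p)` is `F + U_q F`
-/

set_option autoImplicit false

open UpperHalfPlane hiding I I_re I_im
open Complex ModularForm
open scoped MatrixGroups ModularForm Manifold Real

namespace Fermat.Agent.S16.ThetaTr

variable {q : ℕ} {θ : ℂ → ℂ} {r : ℕ → ℕ}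

lemma jacobiSym_mul_self_of_not_dvd (hq : q.Prime) {c : ℤ} (hc : ¬ (q : ℤ) ∣ c) :
    (jacobiSym c q : ℂ) * (jacobiSym c q : ℂ) = 1 := by
  have hgcd : c.gcd q = 1 := by
    rw [← Int.isCoprime_iff_gcd_eq_one]
    have hqp : Prime (q : ℤ) := Nat.prime_iff_prime_int.1 hq
    exact (IsCoprime.symm ((Prime.coprime_iff_not_dvd hqp).2 hc))
  have := jacobiSym.sq_one hgcd
  rw [sq] at this
  exact_mod_cast this

/-- **G3'.** For `δ ∈ Γ₀(p)` with `q ∤ c` and `q ∣ d - c j`: `F ∣ δ = F ∣ [1, j; 0, q]`. -/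
theorem prodFun_slash_eq (h : IsThetaData q θ r) (hq : q.Prime) {p : ℕ} (hp0 : 0 < p)
    (hpq : jacobiSym p q = -1) (δ : SL(2, ℤ)) (hδ : (p : ℤ) ∣ δ 1 0) (hδq : ¬ (q : ℤ) ∣ δ 1 0)
    (j : ℕ) (hj : (q : ℤ) ∣ δ 1 1 - δ 1 0 * j) :
    prodFun θ p ∣[(2 : ℤ)] δ = prodFun θ p ∣[(2 : ℤ)] heckeMatrix q j := by
  ext z
  have hq0 : q ≠ 0 := hq.ne_zero
  have hq' : (q : ℂ) ≠ 0 := by exact_mod_cast hq0
  have hp' : (p : ℂ) ≠ 0 := by exact_mod_cast hp0.ne'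
  have hqr : (0 : ℝ) < q := by exact_mod_cast hq.pos
  have hsq : (√(q : ℝ) : ℂ) ≠ 0 := by
    have : √(q : ℝ) ≠ 0 := (Real.sqrt_pos.2 hqr).ne'
    exact_mod_cast this
  have hsq2 : (√(q : ℝ) : ℂ) * (√(q : ℝ) : ℂ) = q := by
    have := Real.mul_self_sqrt hqr.le
    exact_mod_cast this
  rw [ModularForm.SL_slash_apply, slash_heckeMatrix_apply 2 hq0]
  simp only [prodFun]
  rw [coe_heckeMatrix_smul hq0, coe_smul_eq, denom_eq]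
  obtain ⟨c', hc'⟩ := hδ
  have hc'q : ¬ (q : ℤ) ∣ c' := fun hh => hδq (hc' ▸ Dvd.dvd.mul_left hh _)
  have hden : ((δ 1 0 : ℤ) : ℂ) * (z : ℂ) + ((δ 1 1 : ℤ) : ℂ) ≠ 0 := by
    rw [← denom_eq]
    exact denom_ne_zero _ z
  -- first factor
  have hdet := det_eq_one δ
  have hj1 : (q : ℤ) ∣ δ 1 1 - δ 1 0 * (j : ℤ) := hj
  have t1 := theta_ST h hq.pos hdet hj1 z.im_pos
  -- second factor
  have hdet2 : δ 0 0 * δ 1 1 - (p * δ 0 1) * c' = 1 := by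
    rw [hc'] at hdet
    linear_combination hdet
  have hj2 : (q : ℤ) ∣ δ 1 1 - c' * ((p : ℤ) * j) := by
    rw [hc'] at hj1
    convert hj1 using 1
    ring
  have t2 := theta_ST h hq.pos hdet2 hj2 (im_nat_mul_pos hp0 z)
  have e2 : (p : ℂ) * ((((δ 0 0 : ℤ) : ℂ) * (z : ℂ) + ((δ 0 1 : ℤ) : ℂ)) /
      (((δ 1 0 : ℤ) : ℂ) * (z : ℂ) + ((δ 1 1 : ℤ) : ℂ))) =
      (((δ 0 0 : ℤ) : ℂ) * ((p : ℂ) * z) + ((p * δ 0 1 : ℤ) : ℂ)) /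
        (((δ 1 0 : ℤ) : ℂ) * (z : ℂ) + ((δ 1 1 : ℤ) : ℂ)) := by
    field_simp
    push_cast
    ring
  have e4 : ((p : ℂ) * (z : ℂ) + (((p : ℤ) * j : ℤ) : ℂ)) / (q : ℂ) =
      (p : ℂ) * (((z : ℂ) + (j : ℂ)) / (q : ℂ)) := by
    push_cast
    field_simp
  have e5 : (c' : ℂ) * ((p : ℂ) * z) + ((δ 1 1 : ℤ) : ℂ) =
      ((δ 1 0 : ℤ) : ℂ) * (z : ℂ) + ((δ 1 1 : ℤ) : ℂ) := by
    rw [hc']
    push_cast
    ring
  rw [e4, e5] at t2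
  have t1' : θ ((((δ 0 0 : ℤ) : ℂ) * (z : ℂ) + ((δ 0 1 : ℤ) : ℂ)) /
      (((δ 1 0 : ℤ) : ℂ) * (z : ℂ) + ((δ 1 1 : ℤ) : ℂ))) =
      (jacobiSym (δ 1 0) q : ℂ) * (-I / (√(q : ℝ) : ℂ)) *
        (((δ 1 0 : ℤ) : ℂ) * (z : ℂ) + ((δ 1 1 : ℤ) : ℂ)) * θ (((z : ℂ) + (j : ℂ)) / q) := by
    have := t1
    push_cast at this
    exact this
  rw [e2, t2, t1']
  -- characters
  have hχ : (jacobiSym (δ 1 0) q : ℂ) * (jacobiSym c' q : ℂ) = -1 := by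
    have e : jacobiSym (δ 1 0) q = jacobiSym p q * jacobiSym c' q := by
      rw [hc', jacobiSym.mul_left]
    rw [e, hpq]
    have := jacobiSym_mul_self_of_not_dvd hq hc'q
    push_cast
    linear_combination -this
  have hI : (-I / (√(q : ℝ) : ℂ)) * (-I / (√(q : ℝ) : ℂ)) = -1 / q := by
    rw [← hsq2]
    field_simp
    simp
  set D : ℂ := ((δ 1 0 : ℤ) : ℂ) * (z : ℂ) + ((δ 1 1 : ℤ) : ℂ) with hD
  set A : ℂ := θ (((z : ℂ) + (j : ℂ)) / q) with hA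
  set B : ℂ := θ ((p : ℂ) * (((z : ℂ) + (j : ℂ)) / (q : ℂ))) with hB
  have hzpow : D ^ (-(2 : ℤ)) = (D ^ 2)⁻¹ := by
    rw [zpow_neg]
    norm_cast
  rw [hzpow]
  have key : (jacobiSym (δ 1 0) q : ℂ) * (-I / (√(q : ℝ) : ℂ)) * D * A *
      ((jacobiSym c' q : ℂ) * (-I / (√(q : ℝ) : ℂ)) * D * B) =
      ((jacobiSym (δ 1 0) q : ℂ) * (jacobiSym c' q : ℂ)) *
        ((-I / (√(q : ℝ) : ℂ)) * (-I / (√(q : ℝ) : ℂ))) * D ^ 2 * (A * B) := by ring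
  rw [key, hχ, hI]
  field_simp

end Fermat.Agent.S16.ThetaTr
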