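import Mathlib
import Fermat.Prelude.Def_ModularForm_HeckeOperator
import Fermat.Agent.S16.Trace

/-!
# S16: the trace from `Γ₀(P)` to level one in arbitrary weight `k` (functions)

`trFunK k P f = f + ∑_{j mod P} f ∣[k] S T^j` is invariant under `S` and `T` (hence `SL₂(ℤ)`)
as soon as `f` is `Γ₀(P)`-invariant of weight `k`.  (Weight-2 version: `Trace.lean`.)
-/

open UpperHalfPlane ModularForm CongruenceSubgroup Matrix.SpecialLinearGroup ModularGroup
open scoped MatrixGroups ModularForm Manifold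

noncomputable section

namespace Fermat.Agent.S16

/-- the translate `f ∣ S T^j` -/
def stSlashK (k : ℤ) (f : ℍ → ℂ) (j : ℤ) : ℍ → ℂ := f ∣[k] (S * T ^ j)

variable {P : ℕ} {f : ℍ → ℂ} {k : ℤ}

theorem slash_eq_stSlashK (hf : ∀ γ ∈ Gamma0 P, f ∣[k] γ = f) (g : SL(2, ℤ)) (j : ℤ)
    (h : (P : ℤ) ∣ g 1 1 - g 1 0 * j) : f ∣[k] g = stSlashK k f j := by
  obtain ⟨γ₀, hγ₀, rfl⟩ := exists_mem_Gamma0_mul_S_T P g j h
  rw [SlashAction.slash_mul, hf γ₀ hγ₀, stSlashK]

theorem stSlashK_congr (hf : ∀ γ ∈ Gamma0 P, f ∣[k] γ = f) (i j : ℤ)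
    (h : (P : ℤ) ∣ i - j) : stSlashK k f i = stSlashK k f j := by
  rw [stSlashK, slash_eq_stSlashK hf (S * T ^ i) j]
  rw [coe_S_mul_T_zpow]
  simpa using h

theorem stSlashK_slash_T (k : ℤ) (f : ℍ → ℂ) (j : ℤ) :
    stSlashK k f j ∣[k] T = stSlashK k f (j + 1) := by
  rw [stSlashK, stSlashK, ← SlashAction.slash_mul, mul_assoc, zpow_add_one]

/-- the trace function `f + ∑_{j mod P} f ∣ S T^j` -/
def trFunK (k : ℤ) (P : ℕ) [NeZero P] (f : ℍ → ℂ) : ℍ → ℂ :=
  f + ∑ j : ZMod P, stSlashK k f (j.val : ℤ)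

theorem sum_slashK (k : ℤ) {ι : Type*} (s : Finset ι) (F : ι → ℍ → ℂ) (g : SL(2, ℤ)) :
    (∑ i ∈ s, F i) ∣[k] g = ∑ i ∈ s, (F i) ∣[k] g := by
  classical
  induction s using Finset.induction_on with
  | empty => simp
  | insert a s ha ih => rw [Finset.sum_insert ha, Finset.sum_insert ha, SlashAction.add_slash, ih]

theorem trFunK_slash_T [NeZero P] (hf : ∀ γ ∈ Gamma0 P, f ∣[k] γ = f) :
    trFunK k P f ∣[k] T = trFunK k P f := by
  rw [trFunK, SlashAction.add_slash, hf T (T_mem_Gamma0 P), sum_slashK]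
  congr 1
  have h1 : ∀ j : ZMod P, stSlashK k f (j.val : ℤ) ∣[k] T = stSlashK k f (((j + 1).val : ℕ) : ℤ) := by
    intro j
    rw [stSlashK_slash_T]
    apply stSlashK_congr hf
    rw [← ZMod.intCast_zmod_eq_zero_iff_dvd]
    push_cast
    simp
  rw [Finset.sum_congr rfl (fun j _ ↦ h1 j)]
  exact Equiv.sum_comp (Equiv.addRight (1 : ZMod P)) (fun j ↦ stSlashK k f ((j.val : ℕ) : ℤ))

theorem stSlashK_zero (k : ℤ) (f : ℍ → ℂ) : stSlashK k f 0 = f ∣[k] S := by
  rw [stSlashK, zpow_zero, mul_one]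

theorem stSlashK_zero_slash_S (hf : ∀ γ ∈ Gamma0 P, f ∣[k] γ = f) :
    stSlashK k f 0 ∣[k] S = f := by
  rw [stSlashK_zero, ← SlashAction.slash_mul, hf _ (S_mul_S_mem_Gamma0 P)]

theorem stSlashK_slash_S [hP : Fact P.Prime] (hf : ∀ γ ∈ Gamma0 P, f ∣[k] γ = f)
    (j : ZMod P) (hj : j ≠ 0) :
    stSlashK k f (j.val : ℤ) ∣[k] S = stSlashK k f (((-j⁻¹ : ZMod P).val : ℕ) : ℤ) := by
  rw [stSlashK, ← SlashAction.slash_mul]
  apply slash_eq_stSlashK hf
  have hmat : ((S * T ^ ((j.val : ℕ) : ℤ) * S : SL(2, ℤ)) : Matrix (Fin 2) (Fin 2) ℤ) =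
      !![-1, 0; (j.val : ℤ), -1] := by
    rw [Matrix.SpecialLinearGroup.coe_mul, coe_S_mul_T_zpow, coe_S]
    ext i k
    fin_cases i <;> fin_cases k <;> simp [Matrix.mul_apply, Fin.sum_univ_two]
  rw [hmat, ← ZMod.intCast_zmod_eq_zero_iff_dvd]
  push_cast
  simp only [Matrix.of_apply, Matrix.cons_val_one, Matrix.cons_val_zero, ZMod.natCast_zmod_val]
  simp only [Int.cast_neg, Int.cast_one, Int.cast_natCast, ZMod.natCast_zmod_val]
  field_simp
  ring

theorem trFunK_slash_S [hP : Fact P.Prime] (hf : ∀ γ ∈ Gamma0 P, f ∣[k] γ = f) :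
    haveI : NeZero P := ⟨hP.out.ne_zero⟩
    trFunK k P f ∣[k] S = trFunK k P f := by
  have : NeZero P := ⟨hP.out.ne_zero⟩
  classical
  rw [trFunK, SlashAction.add_slash, sum_slashK]
  set a : ZMod P → (ℍ → ℂ) := fun j ↦ stSlashK k f ((j.val : ℕ) : ℤ) with ha
  have hinv : Function.Involutive (fun j : ZMod P ↦ -j⁻¹) := by
    intro j
    simp
  have h1 : ∀ j : ZMod P, a j ∣[k] S =
      a (Function.Involutive.toPerm _ hinv j) + (if j = 0 then f - a 0 else 0) := by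
    intro j
    by_cases hj : j = 0
    · subst hj
      simp only [ha, if_true, Function.Involutive.coe_toPerm, inv_zero, neg_zero, ZMod.val_zero,
        Nat.cast_zero]
      rw [stSlashK_zero_slash_S hf]
      abel
    · simp only [if_neg hj, add_zero, ha, Function.Involutive.coe_toPerm]
      exact stSlashK_slash_S hf j hj
  have h2 : ∑ j : ZMod P, a j ∣[k] S = ∑ j : ZMod P, a j + (f - a 0) := by
    rw [Finset.sum_congr rfl (fun j _ ↦ h1 j), Finset.sum_add_distrib,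
      Equiv.sum_comp (Function.Involutive.toPerm _ hinv) a, Finset.sum_ite_eq']
    simp
  have h3 : f ∣[k] S = a 0 := by
    simp only [ha, ZMod.val_zero, Nat.cast_zero]
    exact (stSlashK_zero k f).symm
  rw [h2, h3]
  abel

theorem trFunK_slash [hP : Fact P.Prime] (hf : ∀ γ ∈ Gamma0 P, f ∣[k] γ = f) (g : SL(2, ℤ)) :
    haveI : NeZero P := ⟨hP.out.ne_zero⟩
    trFunK k P f ∣[k] g = trFunK k P f := by
  haveI : NeZero P := ⟨hP.out.ne_zero⟩
  exact SlashInvariantForm.slash_action_generators_SL2Z (trFunK_slash_S hf) (trFunK_slash_T hf) g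

theorem stSlashK_apply (k : ℤ) (f : ℍ → ℂ) (j : ℤ) (z : ℍ) :
    stSlashK k f j z = (f ∣[k] S) (T ^ j • z) := by
  rw [stSlashK, SlashAction.slash_mul, ModularForm.SL_slash_apply, ModularGroup.denom_apply,
    coe_T_zpow]
  simp

end Fermat.Agent.S16
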